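import Fermat.Prelude.Def_GaloisRep_LocalConditions
import Fermat.Prelude.Def_CuspForm_HeckeGaloisRepDatum
import Mathlib.FieldTheory.KummerExtension
import Fermat.Agent.Pack.S33.E0L0
import Fermat.Agent.Pack.S33.E20L3
import Fermat.Agent.Pack.S33.E9L3
import Fermat.Agent.Pack.S33.E11L3
import Fermat.Agent.Pack.S33.E0L3
import Fermat.Agent.Pack.S33.E4L3
import Fermat.Agent.Pack.S33.E14L0
import Fermat.Agent.Pack.S33.E14L3
import Fermat.Agent.Pack.S33.E12L2
import Fermat.Agent.Pack.S33.E17L2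
import Fermat.Agent.Pack.S33.E20L0
import Fermat.Agent.Pack.S33.E7L0
import Fermat.Agent.Pack.S33.E9L2
import Fermat.Agent.Pack.S33.E13L3
import Fermat.Agent.Pack.S33.E20L2
import Fermat.Agent.Pack.S33.E18L2
import Fermat.Agent.Pack.S33.E20L1
import Fermat.Agent.Pack.S33.E2L3
import Fermat.Agent.Pack.S33.E15L3
import Fermat.Agent.Pack.S33.E5L2
import Fermat.Agent.Pack.S33.E19L3
import Fermat.Agent.Pack.S33.E15L2
import Fermat.Agent.Pack.S33.E17L1
import Fermat.Agent.Pack.S33.E0L1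
import Fermat.Agent.Pack.S33.E11L1
import Fermat.Agent.Pack.S33.E16L2
import Fermat.Agent.Pack.S33.E14L2
import Fermat.Agent.Pack.S33.E9L1
import Fermat.Agent.Pack.S33.E16L1
import Fermat.Agent.Pack.S33.E16L0

-- ===== PACK-BEGIN S59/H540/DetCyc.lean
section






/-!
# S59 / G-DET (helper540): the determinant is cyclotomic

Every deformation condition of the Prelude (`flatCondition`, `strictOrdinaryCondition`, ...)
contains `GaloisRepAdic.DetIsCyclotomic p`.  No frozen statement provides it; it follows from the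
Frobenius determinants by Chebotarev.

* `detIsCyclotomic_of_frob` : `A` noetherian local, `p ∈ 𝔪_A`, `ρ : GaloisRepAdic A` with
  `det ρ(Frob_ℓ) = ℓ` for all primes `ℓ` outside a finite set `S`  ⟹  `ρ.DetIsCyclotomic p`.
* `detIsCyclotomic_of_charpoly_frob` : same from `charpoly ρ(Frob_ℓ) = X² - a_ℓ X + ℓ`.
* `heckeGaloisRepDatum_detIsCyclotomic` : `H.ρ.DetIsCyclotomic p` for every
  `CuspForm.HeckeGaloisRepDatum N ↑S 𝒪 θ T` (`S` a finite set of primes, `p ∈ 𝔪_T`).

Inputs: `Fermat.Agent.Lib.Cheb.chebotarev` (landed), the roots-of-unity lemmas of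
`Fermat.Agent.S55.H414` (landed), adic continuity and Krull's intersection theorem.
-/

set_option autoImplicit false

namespace Fermat.Agent.S59.H540

open IsLocalRing Fermat.Agent.S55.H414 Fermat.Agent.S55.Bridge

/-- `ℓ ≡ a mod p ^ n` gives `ℓ - a ∈ (p ^ n)` in any commutative ring. -/
theorem natCast_sub_natCast_mem_span {A : Type*} [CommRing A] {N ℓ a : ℕ}
    (h : (ℓ : ZMod N) = (a : ZMod N)) : (ℓ : A) - (a : A) ∈ Ideal.span {((N : ℕ) : A)} := by
  have h1 : ℓ ≡ a [MOD N] := (ZMod.natCast_eq_natCast_iff ℓ a N).mp h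
  have h2 : (N : ℤ) ∣ (a : ℤ) - (ℓ : ℤ) := (Nat.modEq_iff_dvd).mp h1
  obtain ⟨c, hc⟩ := h2
  rw [Ideal.mem_span_singleton]
  refine ⟨-(c : A), ?_⟩
  have h3 : ((a : ℤ) : A) - ((ℓ : ℤ) : A) = ((N : ℤ) : A) * (c : A) := by
    rw [← Int.cast_sub, hc, Int.cast_mul]
  simp only [Int.cast_natCast] at h3
  linear_combination -h3

/-- **The determinant is cyclotomic** as soon as it is so on Frobenius elements outside a finite
set of primes. -/
theorem detIsCyclotomic_of_frob {A : Type} [CommRing A] [IsLocalRing A] [IsNoetherianRing A]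
    (ρ : GaloisRepAdic A) (p : ℕ) [Fact p.Prime] (hpA : (p : A) ∈ maximalIdeal A) (S : Finset ℕ)
    (hdet : ∀ ℓ : ℕ, ℓ.Prime → ℓ ∉ S →
      ∀ P : ValuationSubring (AlgebraicClosure ℚ), P.LiesOverPrime ℓ →
        ∀ σ : AlgebraicClosure ℚ ≃ₐ[ℚ] AlgebraicClosure ℚ, P.IsFrobeniusAt σ ℓ →
          LinearMap.det (ρ.ρ σ) = (ℓ : A)) :
    ρ.DetIsCyclotomic p := by
  have hp : p.Prime := Fact.out
  refine ⟨hpA, fun n σ a hσ => ?_⟩
  have : NeZero (p ^ n) := ⟨pow_ne_zero _ hp.ne_zero⟩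
  apply mem_of_forall_mem_sup_pow
  intro k
  obtain ⟨L, hLfin, hL⟩ := ρ.isAdicContinuous k
  have : FiniteDimensional ℚ L := hLfin
  have hE : FiniteDimensional ℚ ↥(L ⊔ cycloLevel (p ^ n)) :=
    IntermediateField.finiteDimensional_sup L (cycloLevel (p ^ n))
  obtain ⟨ℓ, P, τ, hℓ, hℓS, hP, hτ, -, hτσ⟩ :=
    Fermat.Agent.Lib.Cheb.chebotarev (L ⊔ cycloLevel (p ^ n)) hE σ (insert p S)
  have hℓp : ℓ ≠ p := fun h => hℓS (by rw [h]; exact Finset.mem_insert_self _ _)
  have hℓS' : ℓ ∉ S := fun h => hℓS (Finset.mem_insert_of_mem h)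
  -- the determinant of the Frobenius
  have h1 : LinearMap.det (ρ.ρ τ) = (ℓ : A) := hdet ℓ hℓ hℓS' P hP τ hτ
  -- `τ⁻¹ σ` is trivial on `L`
  have h2 : ∀ x ∈ L, (τ⁻¹ * σ) x = x := by
    intro x hx
    have hx' : x ∈ L ⊔ cycloLevel (p ^ n) := (le_sup_left : L ≤ _) hx
    have e := hτσ x hx'
    rw [AlgEquiv.mul_apply, ← e]
    exact τ.symm_apply_apply x
  have h4 : LinearMap.det (ρ.ρ (τ⁻¹ * σ)) - 1 ∈ maximalIdeal A ^ k :=
    det_sub_one_mem _ _ (hL (τ⁻¹ * σ) h2)
  have h5 : LinearMap.det (ρ.ρ σ) = (ℓ : A) * LinearMap.det (ρ.ρ (τ⁻¹ * σ)) := by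
    rw [← h1, ← map_mul, ← map_mul, mul_inv_cancel_left]
  -- `ℓ ≡ a mod p ^ n`
  have hNv : P.valuation (((p ^ n : ℕ) : ℕ) : AlgebraicClosure ℚ) = 1 := by
    rw [Nat.cast_pow, map_pow, val_prime_eq_one (A := P) hP hℓ hp hℓp, one_pow]
  have h6 : τ (zetaBar (p ^ n)) = zetaBar (p ^ n) ^ ℓ :=
    IsFrobeniusAt_apply_root hτ (NeZero.ne _) hNv (zetaBar_spec (p ^ n)).pow_eq_one
  have h7 : σ (zetaBar (p ^ n)) = zetaBar (p ^ n) ^ a :=
    hσ _ (zetaBar_spec (p ^ n)).pow_eq_one
  have h8 : τ (zetaBar (p ^ n)) = σ (zetaBar (p ^ n)) :=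
    hτσ _ ((le_sup_right : cycloLevel (p ^ n) ≤ _) (zetaBar_mem_cycloLevel (p ^ n)))
  have h9 : (ℓ : ZMod (p ^ n)) = (a : ZMod (p ^ n)) := by
    rw [← pow_eq_pow_iff_natCast_eq (zetaBar_spec (p ^ n)), ← h6, ← h7, h8]
  have h10 : (ℓ : A) - (a : A) ∈ Ideal.span {((p ^ n : ℕ) : A)} :=
    natCast_sub_natCast_mem_span h9
  -- conclusion
  have e : LinearMap.det (ρ.ρ σ) - (a : A) =
      ((ℓ : A) - (a : A)) + (ℓ : A) * (LinearMap.det (ρ.ρ (τ⁻¹ * σ)) - 1) := by
    rw [h5]; ring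
  rw [e]
  exact Submodule.add_mem_sup h10 (Ideal.mul_mem_left _ _ h4)

/-- Version with Frobenius characteristic polynomials `X² - a_ℓ X + ℓ`. -/
theorem detIsCyclotomic_of_charpoly_frob {A : Type} [CommRing A] [IsLocalRing A]
    [IsNoetherianRing A] (ρ : GaloisRepAdic A) (p : ℕ) [Fact p.Prime]
    (hpA : (p : A) ∈ maximalIdeal A) (S : Finset ℕ) (t : ℕ → A)
    (hchar : ∀ ℓ : ℕ, ℓ.Prime → ℓ ∉ S →
      ∀ P : ValuationSubring (AlgebraicClosure ℚ), P.LiesOverPrime ℓ →
        ∀ σ : AlgebraicClosure ℚ ≃ₐ[ℚ] AlgebraicClosure ℚ, P.IsFrobeniusAt σ ℓ →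
          LinearMap.charpoly (ρ.ρ σ) =
            Polynomial.X ^ 2 - Polynomial.C (t ℓ) * Polynomial.X + Polynomial.C (ℓ : A)) :
    ρ.DetIsCyclotomic p :=
  detIsCyclotomic_of_frob ρ p hpA S fun ℓ hℓ hℓS P hP σ hσ =>
    det_eq_of_charpoly ρ.finrank_eq _ (t ℓ) _ (hchar ℓ hℓ hℓS P hP σ hσ)

/-- **The representation of a Hecke–Galois datum has cyclotomic determinant.** -/
theorem heckeGaloisRepDatum_detIsCyclotomic {N : ℕ} [NeZero N] (S : Finset ℕ)
    {𝒪 : Type} [CommRing 𝒪] [IsDomain 𝒪] [IsDiscreteValuationRing 𝒪]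
    [IsAdicComplete (IsLocalRing.maximalIdeal 𝒪) 𝒪]
    {θ : CuspForm.heckeAlgebra N 2 (↑S : Set ℕ) →+* IsLocalRing.ResidueField 𝒪}
    {T : Type} [CommRing T] [IsLocalRing T] [IsNoetherianRing T]
    [IsAdicComplete (IsLocalRing.maximalIdeal T) T] [Algebra 𝒪 T] [IsLocalHom (algebraMap 𝒪 T)]
    [Module.Finite 𝒪 T] [Module.Free 𝒪 T]
    (H : CuspForm.HeckeGaloisRepDatum N (↑S : Set ℕ) 𝒪 θ T)
    (p : ℕ) [Fact p.Prime] (hpT : (p : T) ∈ maximalIdeal T) :
    H.ρ.DetIsCyclotomic p := by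
  classical
  refine detIsCyclotomic_of_frob H.ρ p hpT (S ∪ N.primeFactors) ?_
  intro ℓ hℓ hℓS P hP σ hσ
  have hℓS' : ℓ ∉ (↑S : Set ℕ) := fun h => hℓS (Finset.mem_union_left _ (Finset.mem_coe.mp h))
  have hℓN : ¬ ℓ ∣ N := fun h =>
    hℓS (Finset.mem_union_right _ (Nat.mem_primeFactors.mpr ⟨hℓ, h, NeZero.ne N⟩))
  exact det_eq_of_charpoly H.ρ.finrank_eq _ _ _ (H.charpoly_frob ℓ hℓ hℓN hℓS' P hP σ hσ)

end Fermat.Agent.S59.H540

end
-- ===== PACK-END S59/H540/DetCyc.lean

-- ===== PACK-BEGIN S33/Top.lean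
section
/-
Row S33 (ordinary at `p`, `p ‖ N`), TOP GLUE — assembly (helper409).

`s33_of_pieces` : the frozen statement S33 from ORD-EIG (`Spec.lean`) and the pieces REL, EMB, RED
of row S32 and `S59.G4.PointsStatement` (all four proved on main).

Proof.  `T` is reduced (RED), so it has a strict finite family of local `p`-adic points `P_i`
(POINTS).  At each point: an eigenmodule `E_i` with the ordinary identities (ORD-EIG) on which
every `g` satisfies the characteristic polynomial of `H.ρ g` (REL), hence a strict semilinear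
equivariant map `φ_i : V → E_i.M` (EMB; `T[G] → End V` is onto, `S31.H202`).  Strictness of the
points and of the `φ_i` and Krull's intersection theorem give: `φ_i v = 0` for all `i` implies
`v = 0`.  So the ordinary identities hold on `V`, with `c = det ρ(σ₀)` (the determinant is
cyclotomic, `S59.H540`).  Choose `σ₀` in inertia acting non-trivially on `μ_p` (`S56.H656`):
`c₀ - 1` is a unit and `L := range (ρ σ₀ - 1) = ker (ρ σ₀ - c₀)` is the line (`Alg.lean`).
-/






set_option autoImplicit false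
set_option linter.style.haveILetI false

noncomputable section

namespace Fermat.Agent.S33

open IsLocalRing Fermat.Agent.S31 Fermat.Agent.S59

section Aux

variable {T : Type} [CommRing T]

/-- Coordinates of an element of `J V`. -/
theorem repr_mem_of_mem_smul_top_s33 {V : Type} [AddCommGroup V] [Module T V] {ι : Type}
    (b : Module.Basis ι T V) (J : Ideal T) (v : V) (h : v ∈ J • (⊤ : Submodule T V)) (i : ι) :
    b.repr v i ∈ J := by
  refine Submodule.smul_induction_on h ?_ ?_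
  · intro r hr w _
    rw [map_smul, Finsupp.smul_apply, smul_eq_mul]
    exact Ideal.mul_mem_right _ _ hr
  · intro x y hx hy
    rw [map_add, Finsupp.add_apply]
    exact Ideal.add_mem _ hx hy

/-- The image of a cyclotomic value under a ring homomorphism is a cyclotomic value. -/
theorem IsCycVal.map {p : ℕ} {A : Type} [CommRing A] {σ : GQ} {c : T} (h : IsCycVal p σ c)
    (ψ : T →+* A) : IsCycVal p σ (ψ c) := by
  intro n a ha
  have h1 := h n a ha
  rw [Ideal.mem_span_singleton] at h1 ⊢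
  obtain ⟨d, hd⟩ := h1
  refine ⟨ψ d, ?_⟩
  rw [← map_natCast ψ a, ← map_sub, hd, map_mul, map_natCast]

end Aux

section Asm

open Fermat.Agent.S30.H990 (AdicEigenModule)

set_option maxHeartbeats 1600000 in
/-- **S33 from the pieces.** -/
theorem s33_of_pieces (hEig : OrdEigenStatement) (hRel : Fermat.Agent.S32.RelStatement)
    (hEmb : Fermat.Agent.S32.EmbedStatement) (hRed : Fermat.Agent.S32.RedStatement)
    (hPts : G4.PointsStatement) : S33Statement := by
  intro p N _ S 𝒪 _ _ _ _ θ T _ _ _ _ _ _ _ _ _ _ hp hp2 hp𝒪 hN hNS H hres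
  have : Fact p.Prime := ⟨hp⟩
  have hpS : p ∈ S := hNS p hp hN.1
  have : IsReduced T := hRed N S hNS 𝒪 θ T H
  obtain ⟨F, hstrict, hloc⟩ := hPts p 𝒪 hp𝒪 T
  have hspan := H202.span_range_rho_eq_top H.ρ H.residual_absIrr
  -- `p` lies in the maximal ideal of `T`
  have hpT : (p : T) ∈ maximalIdeal T := by
    rw [mem_maximalIdeal, mem_nonunits_iff]
    intro hu
    have h1 : (p : T) = algebraMap 𝒪 T (p : 𝒪) := by rw [map_natCast]
    rw [h1] at hu
    have h2 : IsUnit (p : 𝒪) := isUnit_of_map_unit (algebraMap 𝒪 T) _ hu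
    exact (mem_nonunits_iff.mp ((mem_maximalIdeal _).mp hp𝒪)) h2
  have hdetc : H.ρ.DetIsCyclotomic p :=
    Fermat.Agent.S59.H540.heckeGaloisRepDatum_detIsCyclotomic S H p hpT
  have hcyc : ∀ σ : _root_.Fermat.Agent.S31.GQ, IsCycVal p σ (LinearMap.det (H.ρ.ρ σ)) :=
    fun σ n a ha => hdetc.2 n σ a ha
  -- the data at the points
  have hpt : ∀ i : Fin F.length, ∃ (E : AdicEigenModule p N S (F.get i).O
      ((F.get i).χ.comp H.π)) (φ : H.ρ.V →+ E.M) (k : ℕ), IsOrdMod p E.ρ ∧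
      (∀ (t : T) (v : H.ρ.V), φ (t • v) = (F.get i).χ t • φ v) ∧
      (∀ (g : _root_.Fermat.Agent.S31.GQ) (v : H.ρ.V), φ (H.ρ.ρ g v) = E.ρ g (φ v)) ∧
      ∀ (m : ℕ) (v : H.ρ.V),
        φ v ∈ (maximalIdeal (F.get i).O ^ (m + k)) • (⊤ : Submodule (F.get i).O E.M) →
          v ∈ (Ideal.comap (F.get i).χ (maximalIdeal (F.get i).O ^ m)) •
            (⊤ : Submodule T H.ρ.V) := by
    intro i
    have hmem : F.get i ∈ F := List.get_mem F i
    obtain ⟨E, hE⟩ := hEig p hp2 N S hN hNS 𝒪 hp𝒪 θ T H hres (F.get i) (hloc _ hmem)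
    have hrel := hRel p N S hpS hNS 𝒪 θ T H (F.get i) (hloc _ hmem) E
    have h2 : (2 : (F.get i).O) ≠ 0 := two_ne_zero
    obtain ⟨φ, hsemi, heq, k, hk⟩ := hEmb T H.ρ hspan (F.get i).O h2 (F.get i).χ E.M E.ρ hrel
    exact ⟨E, φ, k, hE, hsemi, heq, hk⟩
  choose E φ k hord hsemi heq hstr using hpt
  -- joint injectivity of the `φ i`
  have hinj : ∀ v : H.ρ.V, (∀ i, φ i v = 0) → v = 0 := by
    intro v hv
    let b := Module.Free.chooseBasis T H.ρ.V
    have hzero : ∀ c, b.repr v c = 0 := by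
      intro c
      have hmem : ∀ n, b.repr v c ∈ maximalIdeal T ^ n := by
        intro n
        obtain ⟨n', hn'⟩ := hstrict n
        refine hn' _ fun P hP => ?_
        obtain ⟨i, rfl⟩ := List.mem_iff_get.mp hP
        have h1 : φ i v ∈ (maximalIdeal (F.get i).O ^ (n' + k i)) •
            (⊤ : Submodule (F.get i).O (E i).M) := by
          rw [hv i]; exact zero_mem _
        exact repr_mem_of_mem_smul_top_s33 b _ v (hstr i n' v h1) c
      have hbot : (⨅ n, maximalIdeal T ^ n) = ⊥ :=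
        Ideal.iInf_pow_eq_bot_of_isLocalRing (maximalIdeal T) Ideal.IsPrime.ne_top'
      have : b.repr v c ∈ (⨅ n, maximalIdeal T ^ n) := by
        rw [Ideal.mem_iInf]; exact hmem
      rw [hbot] at this
      exact this
    have : b.repr v = 0 := Finsupp.ext hzero
    exact b.repr.map_eq_zero_iff.mp this
  -- transfer of the action of `ρ σ - c`
  have htr : ∀ (i : Fin F.length) (g : _root_.Fermat.Agent.S31.GQ) (c : T) (v : H.ρ.V),
      φ i ((H.ρ.ρ g - c • 1) v) = (E i).ρ g (φ i v) - (F.get i).χ c • φ i v := by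
    intro i g c v
    calc φ i ((H.ρ.ρ g - c • 1) v) = φ i (H.ρ.ρ g v - c • v) := rfl
      _ = φ i (H.ρ.ρ g v) - φ i (c • v) := map_sub (φ i) _ _
      _ = (E i).ρ g (φ i v) - (F.get i).χ c • φ i v :=
          congrArg₂ (· - ·) (heq i g v) (hsemi i c v)
  have htr1 : ∀ (i : Fin F.length) (g : _root_.Fermat.Agent.S31.GQ) (v : H.ρ.V),
      φ i ((H.ρ.ρ g - 1) v) = (E i).ρ g (φ i v) - φ i v := by
    intro i g v
    calc φ i ((H.ρ.ρ g - 1) v) = φ i (H.ρ.ρ g v - v) := rfl
      _ = φ i (H.ρ.ρ g v) - φ i v := map_sub (φ i) _ _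
      _ = (E i).ρ g (φ i v) - φ i v := congrArg (· - φ i v) (heq i g v)
  -- the ordinary identities on `V`
  have hO2 : ∀ P : ValuationSubring Qb, P.LiesOverPrime p →
      ∀ σ₀ ∈ P.inertiaSubgroupIn ℚ, ∀ σ ∈ P.inertiaSubgroupIn ℚ,
        (H.ρ.ρ σ₀ - LinearMap.det (H.ρ.ρ σ₀) • 1) * (H.ρ.ρ σ - 1) = 0 := by
    intro P hP σ₀ hσ₀ σ hσ
    refine LinearMap.ext fun v => ?_
    rw [LinearMap.zero_apply]
    apply hinj
    intro i
    have key := congrArg (fun f : Module.End (F.get i).O (E i).M => f (φ i v))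
      ((hord i P hP σ₀ hσ₀ _ ((hcyc σ₀).map (F.get i).χ)).1 σ hσ)
    have e1 : ((H.ρ.ρ σ₀ - LinearMap.det (H.ρ.ρ σ₀) • 1) * (H.ρ.ρ σ - 1)) v
        = (H.ρ.ρ σ₀ - LinearMap.det (H.ρ.ρ σ₀) • 1) ((H.ρ.ρ σ - 1) v) := rfl
    rw [e1, htr i σ₀ _ _, htr1 i σ v]
    exact key
  have hO3 : ∀ P : ValuationSubring Qb, P.LiesOverPrime p →
      ∀ σ₀ ∈ P.inertiaSubgroupIn ℚ, ∀ τ ∈ P.decompositionSubgroup ℚ,
        (H.ρ.ρ σ₀ - LinearMap.det (H.ρ.ρ σ₀) • 1) * H.ρ.ρ τ * (H.ρ.ρ σ₀ - 1) = 0 := by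
    intro P hP σ₀ hσ₀ τ hτ
    refine LinearMap.ext fun v => ?_
    rw [LinearMap.zero_apply]
    apply hinj
    intro i
    have key := congrArg (fun f : Module.End (F.get i).O (E i).M => f (φ i v))
      ((hord i P hP σ₀ hσ₀ _ ((hcyc σ₀).map (F.get i).χ)).2 τ hτ)
    have e1 : ((H.ρ.ρ σ₀ - LinearMap.det (H.ρ.ρ σ₀) • 1) * H.ρ.ρ τ * (H.ρ.ρ σ₀ - 1)) v
        = (H.ρ.ρ σ₀ - LinearMap.det (H.ρ.ρ σ₀) • 1) (H.ρ.ρ τ ((H.ρ.ρ σ₀ - 1) v)) := rfl
    rw [e1, htr i σ₀ _ _, heq i τ _, htr1 i σ₀ v]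
    exact key
  -- the line
  intro P hP
  obtain ⟨σ₀, hσ₀, a, ha, ha1⟩ :=
    Fermat.Agent.S56.H656.exists_inertia_isCycExp_ne_one hp hp2 (ZMod p) P hP
  set f₀ : Module.End T H.ρ.V := H.ρ.ρ σ₀ with hf₀
  set c₀ : T := LinearMap.det f₀ with hc₀
  -- `c₀` is a unit
  have hc₀u : IsUnit c₀ := by
    refine IsUnit.of_mul_eq_one (LinearMap.det (H.ρ.ρ σ₀⁻¹)) ?_
    rw [hc₀, hf₀, ← map_mul, ← map_mul, mul_inv_cancel, map_one, map_one]
  -- `c₀ - 1` is a unit
  have hu : IsUnit (c₀ - 1) := by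
    have h1 : c₀ - (a : T) ∈ maximalIdeal T := by
      have h2 := hcyc σ₀ 1 a (fun μ hμ => ha μ (by rwa [pow_one] at hμ))
      rw [pow_one] at h2
      exact (Ideal.span_le.mpr (Set.singleton_subset_iff.mpr hpT)) h2
    have h3 : IsUnit ((a : T) - 1) := by
      -- `a - 1` is prime to `p`
      have hcop : IsCoprime ((a : ℤ) - 1) (p : ℤ) := by
        rw [isCoprime_comm]
        refine (Prime.coprime_iff_not_dvd (Nat.prime_iff_prime_int.mp hp)).mpr ?_
        intro hdvd
        apply ha1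
        have h4 : (((a : ℤ) - 1 : ℤ) : ZMod p) = 0 :=
          (ZMod.intCast_zmod_eq_zero_iff_dvd _ p).mpr hdvd
        push_cast at h4
        exact sub_eq_zero.mp h4
      obtain ⟨x, y, hxy⟩ := hcop
      have h5 : (x : T) * ((a : T) - 1) + (y : T) * (p : T) = 1 := by
        have := congrArg (Int.cast : ℤ → T) hxy
        push_cast at this
        exact this
      by_contra hnu
      have h6 : (a : T) - 1 ∈ maximalIdeal T := (mem_maximalIdeal _).mpr hnu
      have h7 : (1 : T) ∈ maximalIdeal T := by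
        rw [← h5]
        exact Ideal.add_mem _ (Ideal.mul_mem_left _ _ h6) (Ideal.mul_mem_left _ _ hpT)
      exact (Ideal.ne_top_iff_one _).mp (maximalIdeal.isMaximal T).ne_top h7
    by_contra hnu
    have h6 : c₀ - 1 ∈ maximalIdeal T := (mem_maximalIdeal _).mpr hnu
    have h7 : (a : T) - 1 ∈ maximalIdeal T := by
      have : (a : T) - 1 = (c₀ - 1) - (c₀ - (a : T)) := by ring
      rw [this]
      exact Ideal.sub_mem _ h6 h1
    exact ((mem_maximalIdeal _).mp h7) h3
  obtain ⟨b, hb1, hb2⟩ := exists_ordinary_line H.ρ.finrank_eq f₀ c₀ rfl hc₀u hu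
    (hO2 P hP σ₀ hσ₀ σ₀ hσ₀)
  refine ⟨T ∙ b 0, ⟨b, rfl⟩, ?_, ?_⟩
  · intro τ hτ v hv
    rw [hb1] at hv
    obtain ⟨w, rfl⟩ := hv
    rw [hb2, LinearMap.mem_ker]
    have := congrArg (fun f : Module.End T H.ρ.V => f w) (hO3 P hP σ₀ hσ₀ τ hτ)
    simpa [Module.End.mul_apply] using this
  · intro σ hσ v
    rw [hb2, LinearMap.mem_ker]
    have := congrArg (fun f : Module.End T H.ρ.V => f v) (hO2 P hP σ₀ hσ₀ σ hσ)
    simpa [Module.End.mul_apply] using this

end Asm

end Fermat.Agent.S33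

end
end
-- ===== PACK-END S33/Top.lean

-- ===== PACK-BEGIN S33/Chain.lean
section
/-
Row S33 (ordinary at `p`, `p ‖ N`) — conditional chain (helper409).

`result_of_ordEigen` : the frozen statement S33 (exact binders of `Fermat/Templates/S33.lean.txt`)
from the single open input `OrdEigenStatement` (`Spec.lean`); REL, EMB, RED, POINTS are the
theorems on main.  `Fermat/Agent/S33.lean` is then
`theorem result ... := Fermat.Agent.S33.result_of_ordEigen <proof of OrdEigenStatement> hp ...`.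
-/






set_option autoImplicit false

namespace Fermat.Agent.S33

variable {p : ℕ} {N : ℕ} [NeZero N] {S : Finset ℕ}
  {𝒪 : Type} [CommRing 𝒪] [IsDomain 𝒪] [IsDiscreteValuationRing 𝒪]
  [IsAdicComplete (IsLocalRing.maximalIdeal 𝒪) 𝒪]
  {θ : CuspForm.heckeAlgebra N 2 (↑S : Set ℕ) →+* IsLocalRing.ResidueField 𝒪}
  {T : Type} [CommRing T] [IsLocalRing T] [IsNoetherianRing T]
  [IsAdicComplete (IsLocalRing.maximalIdeal T) T] [Algebra 𝒪 T] [IsLocalHom (algebraMap 𝒪 T)]
  [Module.Finite 𝒪 T] [Module.Free 𝒪 T]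

/-- S33 from ORD-EIG alone. -/
theorem s33_of_ordEigen (hEig : OrdEigenStatement) : S33Statement :=
  s33_of_pieces hEig Fermat.Agent.S32.H692.rel Fermat.Agent.S32.H152.embedStatement
    Fermat.Agent.S32.H185.red Fermat.Agent.S59.G4.H109.points

/-- The frozen statement S33 (binders of the template) from ORD-EIG. -/
theorem result_of_ordEigen (hEig : OrdEigenStatement)
    [Finite (IsLocalRing.ResidueField 𝒪)] [CharZero 𝒪]
    (hp : p.Prime) (hp2 : p ≠ 2) (hp𝒪 : (p : 𝒪) ∈ IsLocalRing.maximalIdeal 𝒪)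
    (hN : p ∣ N ∧ ¬ p ^ 2 ∣ N)
    (hNS : ∀ q : ℕ, q.Prime → q ∣ N → q ∈ S)
    (H : CuspForm.HeckeGaloisRepDatum N (↑S : Set ℕ) 𝒪 θ T)
    (hres : (GaloisRepAdic.ofResidualGaloisRep H.ρ.residual).IsOrdinaryAt p) :
    H.ρ.IsOrdinaryAt p :=
  s33_of_ordEigen hEig hp hp2 hp𝒪 hN hNS H hres

end Fermat.Agent.S33

end
-- ===== PACK-END S33/Chain.lean

-- ===== PACK-BEGIN S30/H810/RevDict.lean
section
/-
S30 / piece FIN-ONTO (helper810), part 2: the REVERSE DICTIONARY.

If `u ∈ FF N` is realised by the good function `G` and `p ∣ ord_v u` at every place `v` of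
`FF N / ℚ̄`, then `p ∣ ord_τ G` at EVERY point `τ ∈ ℍ`.

Proof: the Taylor embedding `σ_τ : FF N → ℂ((z))` either is trivial (all orders `0`; this is the
case of transcendental `j(τ)`) or defines a place `v_τ` with `ord ∘ σ_τ = k * ord_{v_τ}`
(`S24.H117.exists_mult`).
-/


set_option autoImplicit false
set_option linter.unusedSectionVars false

noncomputable section

open ModularCurve AlgebraicCurve CongruenceSubgroup UpperHalfPlane HahnSeries
open scoped MatrixGroups Manifold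

namespace Fermat.Agent.S30.H810

open Fermat.Agent.S24 Fermat.Agent.S24.H648 Fermat.Agent.S24.H708 Fermat.Agent.S24.Deg457
open Fermat.Agent.S24.H624 Fermat.Agent.S24.H997 Fermat.Agent.S29 Fermat.Agent.S29.M4b
open Fermat.Agent.S29.H882

variable {N : ℕ} [NeZero N]

theorem eord_sigmaTau_algebraMap (τ : ℍ) (c : Kbar) :
    H117.eord (sigmaTau N τ) (algebraMap Kbar (FF N) c) = 0 := by
  rw [H117.eord, sigmaTau_algebraMap, HahnSeries.order_C]

/-- the order of the Taylor embedding of a realised element is the analytic order -/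
theorem eord_sigmaTau_of_realises {u : FF N} {G : ℍ → ℂ} (hG : Realises N u G)
    (τ : ℍ) {n : ℕ} (hn : ordAt τ G = (n : ℕ∞)) :
    H117.eord (sigmaTau N τ) u = (n : ℤ) := by
  have hmd : G ∈ holoRing := hG.1.1
  rw [H117.eord, sigmaTau_of_realises hG hmd τ, taylorLaurent_apply]
  apply order_ofPowerSeries
  rw [order_taylorAt]
  exact hn

theorem realises_ne_zero {u : FF N} {G : ℍ → ℂ} (hG : Realises N u G) (hu : u ≠ 0) : G ≠ 0 := by
  intro h0
  have h := Realises.hasQExp hG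
  have h1 : coeffMap iotaC ((u : FF N) : LaurentSeries Kbar) = 0 := (h.eq_zero_iff).mpr h0
  apply hu
  apply Subtype.ext
  apply coeffMap_iotaC_injective
  rw [h1]
  simp

/-- **REVERSE DICTIONARY.** -/
theorem exists_analyticOrderAt_eq_mul {u : FF N} {G : ℍ → ℂ} (hG : Realises N u G) (hu : u ≠ 0)
    (p : ℕ) (hp : p ≠ 0) (hdiv : ∀ v : Place Kbar (FF N), (p : ℤ) ∣ v.ord u) (τ : ℍ) :
    ∃ m : ℕ, analyticOrderAt (G ∘ ofComplex) (τ : ℂ) = ((p * m : ℕ) : ℕ∞) := by
  have hmd : MDiff G := hG.1.1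
  have hG0 : G ≠ 0 := realises_ne_zero hG hu
  have htop : ordAt τ G ≠ ⊤ := ordAt_ne_top hmd hG0 τ
  obtain ⟨n, hn⟩ := ENat.ne_top_iff_exists.mp htop
  have hord : H117.eord (sigmaTau N τ) u = (n : ℤ) := eord_sigmaTau_of_realises hG τ hn.symm
  rw [← ordAt_def, ← hn]
  by_cases hnt : ∃ t : FF N, H117.eord (sigmaTau N τ) t ≠ 0
  · obtain ⟨k, hk, h⟩ := H117.exists_mult (K := Kbar) (sigmaTau N τ)
      (fun c => (eord_sigmaTau_algebraMap τ c).ge) hnt
    obtain ⟨j, hj⟩ := hdiv (H117.placeOfEmb (sigmaTau N τ)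
      (fun c => (eord_sigmaTau_algebraMap τ c).ge) hnt)
    have h1 := h u
    rw [hord, hj] at h1
    have hk' : (0 : ℤ) < k := by exact_mod_cast hk
    have hp' : (0 : ℤ) < p := by exact_mod_cast Nat.pos_of_ne_zero hp
    have hj0 : 0 ≤ j := by
      by_contra hneg
      push Not at hneg
      have : (k : ℤ) * (p * j) < 0 :=
        mul_neg_of_pos_of_neg hk' (mul_neg_of_pos_of_neg hp' hneg)
      omega
    refine ⟨k * j.toNat, ?_⟩
    have h2 : (n : ℤ) = ((p * (k * j.toNat) : ℕ) : ℤ) := by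
      push_cast
      rw [Int.toNat_of_nonneg hj0, h1]
      ring
    have h3 : n = p * (k * j.toNat) := by exact_mod_cast h2
    rw [h3]
  · push Not at hnt
    have h1 := hnt u
    rw [hord] at h1
    have h3 : n = 0 := by exact_mod_cast h1
    exact ⟨0, by rw [h3]; simp⟩

end Fermat.Agent.S30.H810

end
end
-- ===== PACK-END S30/H810/RevDict.lean

-- ===== PACK-BEGIN S29/H102/KUniq.lean
section
/-
S29 / M4b / PIECE `K4-UNIQ` (helper102): the Kummer class of a character is unique.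

EXACT statement of `origin/helper822:Fermat/Agent/S29/M4b/Skeleton.lean` (`isKum_unique`):

    theorem isKum_unique (N : ℕ) [NeZero N] (p : ℕ) [NeZero p] {c : G0 N → ZMod p}
        {x x' : JZero N} (h : IsKum N p c x) (h' : IsKum N p c x') : x = x'

Proof.  Data `(f, t, U)`, `(f', t', U')`.  `V := U * U' ^ (p-1)` has trivial character and
`V ^ p = U ^ p * (U' ^ p) ^ (p-1)` is good, so `V` is good and realises a `p`-th root `v ∈ FF N`
of `w := (f t^p) (f' t'^p)^(p-1)` (`KBasic_exists_root`: MERO + root descent + coefficient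
descent).  Hence `f * f' ^ (p-1) = (v / (t * t' ^ (p-1))) ^ p`, so `x + (p-1) • x' = 0`; as
`p • x' = 0` we get `x = x'`.
-/


set_option autoImplicit false

noncomputable section

open ModularCurve AlgebraicCurve CongruenceSubgroup UpperHalfPlane
open scoped MatrixGroups Manifold

namespace Fermat.Agent.S29.H102

open Fermat.Agent.S24 Fermat.Agent.S29 Fermat.Agent.S29.M4b
open Fermat.Agent.S24.H648 Fermat.Agent.S24.H708

section Algebra

variable {K F : Type*} [Field K] [Field F] [Algebra K F]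

/-- Kummer classes of powers. -/
theorem KUniq_isKummerClass_pow {n : ℤ} {g : F} {y : Pic0 K F}
    (h : H455.IsKummerClass n g y) (k : ℕ) : H455.IsKummerClass n (g ^ k) (k • y) := by
  induction k with
  | zero =>
    rw [pow_zero, zero_nsmul]
    exact H455.IsKummerClass.zero
  | succ k ih =>
    rw [pow_succ, succ_nsmul]
    exact ih.add h

/-- The Kummer class of an `n`-th power is trivial. -/
theorem KUniq_eq_zero_of_pow {p : ℕ} (hp : p ≠ 0) {g : F} (hg : g ≠ 0) {y : Pic0 K F}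
    (h : H455.IsKummerClass (p : ℤ) (g ^ p) y) : y = 0 := by
  have hn : (p : ℤ) ≠ 0 := Int.natCast_ne_zero.mpr hp
  rw [h.eq_zero_iff hn]
  refine ⟨g, hg, fun v => ?_⟩
  rw [← zpow_natCast, Place.ord_zpow]

end Algebra

variable (N : ℕ) [NeZero N] (p : ℕ) [NeZero p]

omit [NeZero N] in
/-- The product `U * U' ^ (p-1)` of two twisted functions of the same character is
`Γ₀(N)`-invariant. -/
theorem KUniq_invariant {c : G0 N → ZMod p} {U U' : ℍ → ℂ} (hU : HasChar N p c U)
    (hU' : HasChar N p c U') (γ : SL(2, ℤ)) (hγ : γ ∈ Gamma0 N) (τ : ℍ) :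
    U (γ • τ) * U' (γ • τ) ^ (p - 1) = U τ * U' τ ^ (p - 1) := by
  have h1 := hU ⟨γ, hγ⟩ τ
  have h2 := hU' ⟨γ, hγ⟩ τ
  simp only at h1 h2
  rw [h1, h2, mul_pow]
  have hp : p - 1 + 1 = p := Nat.sub_add_cancel (Nat.one_le_iff_ne_zero.mpr (NeZero.ne p))
  have h3 : zetaP p ^ (c ⟨γ, hγ⟩).val * (zetaP p ^ (c ⟨γ, hγ⟩).val) ^ (p - 1) = 1 := by
    rw [← pow_succ', hp, ← pow_mul, mul_comm, pow_mul, KBasic_zetaP_pow, one_pow]
  calc zetaP p ^ (c ⟨γ, hγ⟩).val * U τ * ((zetaP p ^ (c ⟨γ, hγ⟩).val) ^ (p - 1) * U' τ ^ (p - 1))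
      = (zetaP p ^ (c ⟨γ, hγ⟩).val * (zetaP p ^ (c ⟨γ, hγ⟩).val) ^ (p - 1))
          * (U τ * U' τ ^ (p - 1)) := by ring
    _ = U τ * U' τ ^ (p - 1) := by rw [h3, one_mul]

/-- **PIECE `K4-UNIQ`.** -/
theorem isKum_unique {c : G0 N → ZMod p} {x x' : JZero N}
    (h : IsKum N p c x) (h' : IsKum N p c x') : x = x' := by
  obtain ⟨f, t, U, ht, hx, hU, hR⟩ := h
  obtain ⟨f', t', U', ht', hx', hU', hR'⟩ := h'
  have hp : p ≠ 0 := NeZero.ne p
  have hp1 : p - 1 + 1 = p := Nat.sub_add_cancel (Nat.one_le_iff_ne_zero.mpr hp)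
  -- the invariant function
  set V : ℍ → ℂ := fun τ => U τ * U' τ ^ (p - 1) with hVdef
  have hVmd : MDifferentiable 𝓘(ℂ) 𝓘(ℂ) V := hU.mdiff.mul (hU'.mdiff.pow (p - 1))
  have hVinv : ∀ γ ∈ Gamma0 N, ∀ τ : ℍ, V (γ • τ) = V τ := fun γ hγ τ =>
    KUniq_invariant N p hU.hasChar hU'.hasChar γ hγ τ
  have hVfun : (fun τ => V τ ^ p)
      = (fun τ => U τ ^ p) * (fun τ => U' τ ^ p) ^ (p - 1) := by
    funext τ
    simp only [hVdef, Pi.mul_apply, Pi.pow_apply]
    rw [mul_pow, ← pow_mul, ← pow_mul, mul_comm (p - 1) p]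
  have hVpow : (fun τ => V τ ^ p) ∈ goodRing N := by
    rw [hVfun]
    exact (goodRing N).mul_mem hR.1 ((goodRing N).pow_mem hR'.1 _)
  have hVgood : V ∈ goodRing N := KBasic_mem_goodRing_of_pow hp hVmd hVinv hVpow
  -- the algebraic function realised by `V ^ p`
  set w : FF N := (f * t ^ p) * (f' * t' ^ p) ^ (p - 1) with hwdef
  have hw : Realises N w (fun τ => V τ ^ p) := by
    refine ⟨hVpow, ?_⟩
    have h1 := (KBasic_realises_hasQExp hR).mul ((KBasic_realises_hasQExp hR').pow (p - 1))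
    rw [← hVfun] at h1
    rw [h1.qexpFun_eq, hwdef]
    simp only [MulMemClass.coe_mul, SubmonoidClass.coe_pow, map_mul, map_pow]
  obtain ⟨v, hvp, -⟩ := KBasic_exists_root hp hVgood hw
  -- `f * f' ^ (p-1)` is a `p`-th power
  have hf0 : f ≠ 0 := hx.ne_zero
  have hf0' : f' ≠ 0 := hx'.ne_zero
  have hd0 : t * t' ^ (p - 1) ≠ 0 := mul_ne_zero ht (pow_ne_zero _ ht')
  have hv0 : v ≠ 0 := by
    intro h0
    have : w = 0 := by rw [← hvp, h0, zero_pow hp]
    rw [hwdef] at this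
    exact (mul_ne_zero (mul_ne_zero hf0 (pow_ne_zero _ ht))
      (pow_ne_zero _ (mul_ne_zero hf0' (pow_ne_zero _ ht')))) this
  have hg0 : v / (t * t' ^ (p - 1)) ≠ 0 := div_ne_zero hv0 hd0
  have hpow : f * f' ^ (p - 1) = (v / (t * t' ^ (p - 1))) ^ p := by
    rw [div_pow, hvp, hwdef, eq_div_iff (pow_ne_zero _ hd0)]
    ring
  have hcl : H455.IsKummerClass (p : ℤ) (f * f' ^ (p - 1)) (x + (p - 1) • x') :=
    hx.add (KUniq_isKummerClass_pow hx' (p - 1))
  rw [hpow] at hcl
  have hzero : x + (p - 1) • x' = 0 := KUniq_eq_zero_of_pow hp hg0 hcl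
  have hpx' : p • x' = 0 := by
    have := hx'.zsmul_eq_zero
    rwa [natCast_zsmul] at this
  have h2 : (p - 1) • x' + x' = 0 := by
    rw [← succ_nsmul, hp1]
    exact hpx'
  have h3 : (p - 1) • x' = -x' := eq_neg_of_add_eq_zero_left h2
  rw [h3] at hzero
  exact eq_of_sub_eq_zero (by rw [sub_eq_add_neg]; exact hzero)

end Fermat.Agent.S29.H102

end
end
-- ===== PACK-END S29/H102/KUniq.lean

-- ===== PACK-BEGIN S30/H810/Fin.lean
section
/-
S30 / piece FIN (helper810): `J₀(N)(ℚ̄)[m]` is FINITE, unconditionally, for every `m ≥ 1`.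

* `dcStatement N m : H109.DCStatement N m` — the converse dictionary in helper109's shape,
  from the reverse dictionary `exists_analyticOrderAt_eq_mul` (`RevDict.lean`);
* `torsion_finite N m : {x : JZero N | m • x = 0}.Finite` — via helper109's `finite_torsion`
  and the landed M4b piece K4-UNIQ (`H102.isKum_unique`);
* `exists_hom_isKum_of_torsion` — ONTO with an additive character.
-/




set_option autoImplicit false
set_option linter.unusedSectionVars false

noncomputable section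

open ModularCurve AlgebraicCurve CongruenceSubgroup UpperHalfPlane HahnSeries
open scoped MatrixGroups Manifold

namespace Fermat.Agent.S30.H810

open Fermat.Agent.S24 Fermat.Agent.S24.H648 Fermat.Agent.S24.H708 Fermat.Agent.S24.Deg457
open Fermat.Agent.S24.H624 Fermat.Agent.S24.H997 Fermat.Agent.S29 Fermat.Agent.S29.M4b
open Fermat.Agent.S29.H882

variable (N : ℕ) [NeZero N]

/-- Clearing poles: every `f ∈ FF N` times a suitable `m`-th power is realised by a good
function. -/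
theorem exists_realises_mul_pow (m : ℕ) (hm : m ≠ 0) (f : FF N) :
    ∃ (t : FF N) (G : ℍ → ℂ), t ≠ 0 ∧ Realises N (f * t ^ m) G := by
  obtain ⟨r, t, ht, hft⟩ := exists_div_inclRN N f
  have ht' : inclRN N t ≠ 0 := fun h => ht (inclRN_injective N (by rw [h, _root_.map_zero]))
  obtain ⟨q, hq⟩ : ∃ q : ℕ, m = q + 1 := ⟨m - 1, by have := Nat.pos_of_ne_zero hm; omega⟩
  have hur : f * inclRN N t ^ m = inclRN N (r * t ^ q) := by
    rw [hft, hq, _root_.map_mul, map_pow, pow_succ]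
    field_simp
  refine ⟨inclRN N t, realFun N (r * t ^ q), ht', realFun_mem N _, ?_⟩
  rw [(realFun_hasQExp N (r * t ^ q)).qexpFun_eq, hur]
  rfl

/-- **The converse dictionary** in helper109's shape. -/
theorem dcStatement (m : ℕ) [NeZero m] : H109.DCStatement N m := by
  intro f hf hdiv
  have hm : m ≠ 0 := NeZero.ne m
  obtain ⟨t, G, ht, hG⟩ := exists_realises_mul_pow N m hm f
  refine ⟨t, G, ht, hG, fun τ => ?_⟩
  refine exists_analyticOrderAt_eq_mul hG (mul_ne_zero hf (pow_ne_zero _ ht)) m hm ?_ τ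
  intro v
  rw [Place.ord_mul v hf (pow_ne_zero _ ht), H117.ord_pow]
  exact dvd_add (hdiv v) (dvd_mul_right _ _)

/-- **FIN**: the `m`-torsion of `J₀(N)(ℚ̄)` is finite. -/
theorem torsion_finite (m : ℕ) [NeZero m] : {x : JZero N | m • x = 0}.Finite :=
  H109.finite_torsion N m (dcStatement N m)
    (fun _ _ _ h h' => H102.isKum_unique N m h h')

/-- **ONTO** with an additive character. -/
theorem exists_hom_isKum_of_torsion (m : ℕ) [NeZero m] {x : JZero N} (hx : (m : ℤ) • x = 0) :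
    ∃ c : G0 N → ZMod m, (∀ γ γ' : G0 N, c (γ * γ') = c γ + c γ') ∧ IsKum N m c x :=
  H109.exists_isKum_of_torsion N m (dcStatement N m) hx

end Fermat.Agent.S30.H810

end
end
-- ===== PACK-END S30/H810/Fin.lean

-- ===== PACK-BEGIN S30/H810/Onto.lean
section
/-
S30 / piece FIN-ONTO (helper810), part 3: REVERSE KUMMER (ONTO, weak form).

Every `p`-torsion class `x ∈ J₀(N)(ℚ̄)` is the Kummer class (M4b `IsKum`) of some character
`c : Γ₀(N) → ℤ/p`:  `x = [D]`, `p D = div f`, `f t^p` is realised by a good function `G`, all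
analytic orders of `G` are divisible by `p` (reverse dictionary), so `G = U^p` with `U` holomorphic
on `ℍ` (ROOT, landed `H751`), and `U ∘ γ = ζ_p^{c(γ)} U` by the identity theorem.
-/




set_option autoImplicit false
set_option linter.unusedSectionVars false

noncomputable section

open ModularCurve AlgebraicCurve CongruenceSubgroup UpperHalfPlane HahnSeries
open scoped MatrixGroups Manifold

namespace Fermat.Agent.S30.H810

open Fermat.Agent.S24 Fermat.Agent.S24.H648 Fermat.Agent.S24.H708 Fermat.Agent.S24.Deg457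
open Fermat.Agent.S24.H624 Fermat.Agent.S24.H997 Fermat.Agent.S29 Fermat.Agent.S29.M4b
open Fermat.Agent.S29.H882

theorem isPrimitiveRoot_zetaP (p : ℕ) (hp : p ≠ 0) : IsPrimitiveRoot (zetaP p) p :=
  Complex.isPrimitiveRoot_exp p hp

theorem mdiff_comp_smul {U : ℍ → ℂ} (hU : MDiff U) (γ : SL(2, ℤ)) :
    MDiff (fun τ => U (γ • τ)) := by
  have h := (γ⁻¹ • (⟨U, hU⟩ : holoRing)).2
  have h2 : ((γ⁻¹ • (⟨U, hU⟩ : holoRing) : holoRing) : ℍ → ℂ) = fun τ => U (γ • τ) := by
    funext τ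
    rw [smul_holoRing_apply, inv_inv]
  rw [← h2]
  exact h

/-- Two holomorphic functions on `ℍ` with the same `p`-th power differ by a power of `ζ_p`. -/
theorem exists_zetaP_pow_of_pow_eq {A B : ℍ → ℂ} (hA : MDiff A) (hB : MDiff B) (p : ℕ)
    (hp : p ≠ 0) (hB0 : ∃ τ, B τ ≠ 0) (h : ∀ τ, A τ ^ p = B τ ^ p) :
    ∃ k : ZMod p, ∀ τ, A τ = zetaP p ^ k.val * B τ := by
  obtain ⟨τ₀, hτ₀⟩ := hB0
  have hA0 : A τ₀ ≠ 0 := by
    intro h0
    have := h τ₀
    rw [h0, zero_pow hp] at this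
    exact hτ₀ (pow_eq_zero_iff hp |>.mp this.symm)
  have hζ : (A τ₀ / B τ₀) ^ p = 1 := by
    rw [div_pow, h τ₀, div_self (pow_ne_zero _ hτ₀)]
  have : NeZero p := ⟨hp⟩
  obtain ⟨i, hi, hiζ⟩ := (isPrimitiveRoot_zetaP p hp).eq_pow_of_pow_eq_one hζ
  refine ⟨(i : ZMod p), ?_⟩
  rw [ZMod.val_natCast_of_lt hi, hiζ]
  have hB' : MDiff (fun τ => A τ₀ / B τ₀ * B τ) := by
    have : (fun τ => A τ₀ / B τ₀ * B τ) = (fun _ : ℍ => A τ₀ / B τ₀) * B := rfl
    rw [this]
    exact mdifferentiable_const.mul hB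
  have key := H751.eq_of_pow_eq_UHP hA hB' hp (fun τ => by rw [mul_pow, hζ, one_mul, h τ])
    (τ₀ := τ₀) (by rw [div_mul_cancel₀ _ hτ₀]) hA0
  intro τ
  exact congrFun key τ

variable (N : ℕ) [NeZero N]

/-- **REVERSE KUMMER (ONTO)**, weak form: every `p`-torsion class is the Kummer class of a
character. -/
theorem exists_isKum_of_torsion (p : ℕ) [NeZero p] {x : JZero N} (hx : (p : ℤ) • x = 0) :
    ∃ c : G0 N → ZMod p, IsKum N p c x := by
  classical
  have hp : p ≠ 0 := NeZero.ne p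
  obtain ⟨f, hf⟩ := H455.exists_isKummerClass_of_zsmul_eq_zero hx
  have hf0 : f ≠ 0 := hf.ne_zero
  obtain ⟨r, t, ht, hft⟩ := exists_div_inclRN N f
  have ht' : inclRN N t ≠ 0 := fun h => ht (inclRN_injective N (by rw [h, _root_.map_zero]))
  -- the pole-free representative
  obtain ⟨q, hq⟩ : ∃ q : ℕ, p = q + 1 := ⟨p - 1, by have := Nat.pos_of_ne_zero hp; omega⟩
  set u : FF N := f * inclRN N t ^ p with hu
  have hu0 : u ≠ 0 := mul_ne_zero hf0 (pow_ne_zero _ ht')
  have hur : u = inclRN N (r * t ^ q) := by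
    rw [hu, hft, hq, _root_.map_mul, map_pow, pow_succ]
    field_simp
  set G : ℍ → ℂ := realFun N (r * t ^ q) with hG
  have hGr : Realises N u G := by
    refine ⟨realFun_mem N _, ?_⟩
    rw [(realFun_hasQExp N (r * t ^ q)).qexpFun_eq, hur]
    rfl
  have hmd : MDiff G := hGr.1.1
  -- divisibility of the algebraic orders
  have hdiv : ∀ v : Place Kbar (FF N), (p : ℤ) ∣ v.ord u := by
    intro v
    obtain ⟨-, D, -, hD⟩ := hf
    rw [hu, Place.ord_mul v hf0 (pow_ne_zero _ ht'), H117.ord_pow, ← hD v]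
    exact dvd_add (dvd_mul_right _ _) (dvd_mul_right _ _)
  -- the p-th root
  obtain ⟨U, hU, hUp⟩ := H751.exists_pow_eq_UHP hmd p hp
    (fun τ => exists_analyticOrderAt_eq_mul hGr hu0 p hp hdiv τ)
  have hG0 : G ≠ 0 := realises_ne_zero hGr hu0
  have hU0 : ∃ τ, U τ ≠ 0 := by
    by_contra hcon
    push Not at hcon
    apply hG0
    funext τ
    rw [← hUp τ, hcon τ, zero_pow hp]
    rfl
  -- the character
  have hchar : ∀ γ : G0 N, ∃ k : ZMod p, ∀ τ : ℍ,
      U ((γ : SL(2, ℤ)) • τ) = zetaP p ^ k.val * U τ := by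
    intro γ
    refine exists_zetaP_pow_of_pow_eq (_root_.Fermat.Agent.S30.H810.mdiff_comp_smul hU (γ : SL(2, ℤ))) hU p hp hU0 ?_
    intro τ
    rw [hUp, hUp]
    exact hGr.1.2.1 _ γ.2 τ
  choose c hc using hchar
  refine ⟨c, f, inclRN N t, U, ht', hf, ⟨hU, hU0, hc, ?_⟩, ?_⟩
  · have : (fun τ => U τ ^ p) = G := funext hUp
    rw [this]
    exact hGr.1
  · have : (fun τ => U τ ^ p) = G := funext hUp
    rw [this]
    exact hGr

end Fermat.Agent.S30.H810

end
end
-- ===== PACK-END S30/H810/Onto.lean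

-- ===== PACK-BEGIN S33/H692/OrdEigen.lean
section
/-
Row S33 (ordinary at `p ‖ N`), leaf ALG (helper692):

    ordEigen_of_geoEigen : GeoEigenStatement → OrdEigenStatement     (Spec2.lean → Spec.lean)

Proof.  Take the eigenmodule `E` of GEO-EIG at the point `P`.  Every `g` satisfies on `E.M` the
characteristic polynomial of `H.ρ g` specialised at `P` (REL, `S32.H692.rel`), `T[G_ℚ] → End V` is
onto (`S31.H202`), the residual representation has an ordinary line, so `ordEig_galois`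
(`OrdAlgGal.lean`: Boston–Lenstra–Ribet over the fraction field and over the residue field of
`P.O`, line lemma) gives the two identities with the constant `P.χ (det ρ σ₀)`.  The determinant
is cyclotomic (`S59.H540`), and a cyclotomic value in `P.O` is unique (Krull), so the constant is
the given `c`.
-/







set_option autoImplicit false

noncomputable section

namespace Fermat.Agent.S33.H692

open IsLocalRing

/-- A cyclotomic value in a Noetherian local ring with `p ∈ 𝔪` is unique. -/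
theorem isCycVal_unique {p : ℕ} (hp : p ≠ 0) {A : Type} [CommRing A] [IsLocalRing A]
    [IsNoetherianRing A] (hpA : (p : A) ∈ maximalIdeal A)
    {σ : AlgebraicClosure ℚ ≃ₐ[ℚ] AlgebraicClosure ℚ} {c c' : A}
    (hc : Fermat.Agent.S33.IsCycVal p σ c) (hc' : Fermat.Agent.S33.IsCycVal p σ c') : c = c' := by
  have hmem : ∀ n : ℕ, c - c' ∈ maximalIdeal A ^ n := by
    intro n
    obtain ⟨a, ha⟩ := Fermat.Agent.S59.H659.exists_isCycExp (p ^ n) (pow_ne_zero n hp) σ
    have h1 := hc n a ha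
    have h2 := hc' n a ha
    have hle : Ideal.span {((p ^ n : ℕ) : A)} ≤ maximalIdeal A ^ n := by
      rw [Ideal.span_le, Set.singleton_subset_iff, Nat.cast_pow]
      exact Ideal.pow_mem_pow hpA n
    have h3 : c - c' = (c - (a : A)) - (c' - (a : A)) := by ring
    rw [h3]
    exact Ideal.sub_mem _ (hle h1) (hle h2)
  have hbot : (⨅ n, maximalIdeal A ^ n) = ⊥ :=
    Ideal.iInf_pow_eq_bot_of_isLocalRing (maximalIdeal A) Ideal.IsPrime.ne_top'
  have h0 : c - c' ∈ (⨅ n, maximalIdeal A ^ n) := by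
    rw [Ideal.mem_iInf]
    exact hmem
  rw [hbot, Ideal.mem_bot, sub_eq_zero] at h0
  exact h0

/-- In a local ring whose maximal ideal contains an odd prime, `2` is a unit. -/
theorem isUnit_two_of_odd_mem {p : ℕ} (hp : p.Prime) (hp2 : p ≠ 2) {A : Type} [CommRing A]
    [IsLocalRing A] (hpA : (p : A) ∈ maximalIdeal A) : IsUnit (2 : A) := by
  by_contra hnu
  have h2 : (2 : A) ∈ maximalIdeal A := (mem_maximalIdeal _).mpr hnu
  have hodd : Odd p := hp.odd_of_ne_two hp2
  obtain ⟨k, hk⟩ := hodd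
  have h1 : (1 : A) = (p : A) - 2 * (k : A) := by
    rw [hk]
    push_cast
    ring
  have : (1 : A) ∈ maximalIdeal A := by
    rw [h1]
    exact Ideal.sub_mem _ hpA (Ideal.mul_mem_right _ _ h2)
  exact (Ideal.ne_top_iff_one _).mp (maximalIdeal.isMaximal A).ne_top this

/-- **Leaf ALG of row S33.** -/
theorem ordEigen_of_geoEigen (hGeo : Fermat.Agent.S33.GeoEigenStatement) :
    Fermat.Agent.S33.OrdEigenStatement := by
  intro p _ hp2 N _ S hN hNS 𝒪 _ _ _ _ _ _ hp𝒪 θ T _ _ _ _ _ _ _ _ H hres P hloc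
  have hp : p.Prime := Fact.out
  have hpS : p ∈ S := hNS p hp hN.1
  obtain ⟨E, hE⟩ := hGeo p hp2 N S hN hNS P.O P.hp (P.χ.comp H.π)
  refine ⟨E, ?_⟩
  have hspan := Fermat.Agent.S31.H202.span_range_rho_eq_top H.ρ H.residual_absIrr
  have hrel := Fermat.Agent.S32.H692.rel p N S hpS hNS 𝒪 θ T H P hloc E
  have h2u : IsUnit (2 : P.O) := isUnit_two_of_odd_mem hp hp2 P.hp
  -- `p` lies in the maximal ideal of `T`
  have hpT : (p : T) ∈ maximalIdeal T := by
    rw [mem_maximalIdeal, mem_nonunits_iff]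
    intro hu
    have h1 : (p : T) = algebraMap 𝒪 T (p : 𝒪) := by rw [map_natCast]
    rw [h1] at hu
    have h2 : IsUnit (p : 𝒪) := isUnit_of_map_unit (algebraMap 𝒪 T) _ hu
    exact (mem_nonunits_iff.mp ((mem_maximalIdeal _).mp hp𝒪)) h2
  have hdetc : H.ρ.DetIsCyclotomic p :=
    Fermat.Agent.S59.H540.heckeGaloisRepDatum_detIsCyclotomic S H p hpT
  intro Pl hPl σ₀ hσ₀ c hc
  -- the constant
  have hc' : Fermat.Agent.S33.IsCycVal p σ₀ (P.χ ((H.ρ.det σ₀ : Tˣ) : T)) := by
    intro n a ha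
    have h1 := hdetc.2 n σ₀ a ha
    rw [Ideal.mem_span_singleton] at h1 ⊢
    obtain ⟨d, hd⟩ := h1
    refine ⟨P.χ d, ?_⟩
    have e : ((H.ρ.det σ₀ : Tˣ) : T) = LinearMap.det (H.ρ.ρ σ₀) := rfl
    rw [e, ← map_natCast P.χ a, ← map_sub, hd, map_mul, map_natCast]
  have hcc : P.χ ((H.ρ.det σ₀ : Tˣ) : T) = c := isCycVal_unique hp.ne_zero P.hp hc' hc
  have hgeo := hE Pl hPl
  constructor
  · intro σ hσ
    have h := (ordEig_galois H.ρ P.χ E.ρ hspan hloc h2u hrel hres Pl hPl hgeo hσ₀ hσ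
      (τ := 1) (Subgroup.one_mem _)).1
    rw [hcc] at h
    exact h
  · intro τ hτ
    have h := (ordEig_galois H.ρ P.χ E.ρ hspan hloc h2u hrel hres Pl hPl hgeo hσ₀ hσ₀ hτ).2
    rw [hcc] at h
    exact h

end Fermat.Agent.S33.H692

end
end
-- ===== PACK-END S33/H692/OrdEigen.lean

-- ===== PACK-BEGIN S29/H718/KInj.lean
section
/-
S29 / layer M / sub-layer M4b, piece `K4-INJ` (helper718): only the trivial character has Kummer
class `0`.
-/




set_option autoImplicit false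

noncomputable section

open ModularCurve AlgebraicCurve CongruenceSubgroup UpperHalfPlane
open scoped MatrixGroups Manifold

namespace Fermat.Agent.S29.H718

open Fermat.Agent.S24 Fermat.Agent.S29 Fermat.Agent.S29.M4b

/-- `ζ_p` is a primitive `p`-th root of unity. -/
theorem zetaP_isPrimitiveRoot (p : ℕ) [NeZero p] : IsPrimitiveRoot (zetaP p) p :=
  Complex.isPrimitiveRoot_exp p (NeZero.ne p)

/-- `ζ_p ^ a.val = 1` only for `a = 0`. -/
theorem eq_zero_of_zetaP_pow_val (p : ℕ) [NeZero p] (a : ZMod p)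
    (h : zetaP p ^ a.val = 1) : a = 0 := by
  have h1 : p ∣ a.val := (zetaP_isPrimitiveRoot p).dvd_of_pow_eq_one _ h
  have h2 : a.val = 0 := Nat.eq_zero_of_dvd_of_lt h1 (ZMod.val_lt a)
  exact (ZMod.val_eq_zero a).mp h2

/-- Every element of `FF N` is a quotient of two elements of `A_{ℚ̄}` (polynomials in the
`j(q^d)`, `d ∣ N`). -/
theorem exists_div_AK (N : ℕ) [NeZero N] (v : FF N) :
    ∃ r ∈ Deg457.AK Kbar N, ∃ s ∈ Deg457.AK Kbar N,
      ((v : FF N) : LaurentSeries Kbar) = r / s := by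
  have hv := Deg457.laurentBaseChange_full_le (K := Kbar) N v.2
  rw [IntermediateField.mem_adjoin_iff_div] at hv
  exact hv

/-- Every element of `A_{ℚ̄}` is realised by a good function. -/
theorem exists_good_of_mem_AK (N : ℕ) [NeZero N] {r : LaurentSeries Kbar}
    (hr : r ∈ Deg457.AK Kbar N) :
    ∃ R : ℍ → ℂ, R ∈ H648.goodRing N ∧ H708.HasQExp 1 R (coeffMap Deg457.iotaC r) :=
  H882.AK_le_goodQ N (Deg457.coeffMap_mem_AK Deg457.iotaC hr)

/-- If `U ^ p` realises a `p`-th power `v ^ p`, `v ≠ 0`, and `U` is holomorphic, then `U` is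
`Γ₀(N)`-invariant at some point where it does not vanish. -/
theorem exists_invariant_point (N : ℕ) [NeZero N] (p : ℕ) [NeZero p] {v : FF N} (hv : v ≠ 0)
    {U : ℍ → ℂ} (hU : MDifferentiable 𝓘(ℂ) 𝓘(ℂ) U)
    (hR : Realises N (v ^ p) (fun τ => U τ ^ p)) :
    ∃ τ₀ : ℍ, U τ₀ ≠ 0 ∧ ∀ γ ∈ Gamma0 N, U (γ • τ₀) = U τ₀ := by
  obtain ⟨r, hr, s, hs, hvrs⟩ := exists_div_AK N v
  have hv0 : ((v : FF N) : LaurentSeries Kbar) ≠ 0 := fun h => hv (Subtype.ext h)
  have hs0 : s ≠ 0 := by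
    rintro rfl
    rw [div_zero] at hvrs
    exact hv0 hvrs
  have hr0 : r ≠ 0 := by
    rintro rfl
    rw [zero_div] at hvrs
    exact hv0 hvrs
  obtain ⟨R, hRg, hRq⟩ := exists_good_of_mem_AK N hr
  obtain ⟨S, hSg, hSq⟩ := exists_good_of_mem_AK N hs
  -- `(U * S) ^ p` and `R ^ p` have the same `q`-expansion
  have hUq : H708.HasQExp 1 (fun τ => U τ ^ p)
      (coeffMap Deg457.iotaC (((v ^ p : FF N) : FF N) : LaurentSeries Kbar)) :=
    ⟨H882.isMerInf_of_mem_goodRing hR.1, hR.2⟩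
  have h1 : H708.HasQExp 1 ((fun τ => U τ ^ p) * S ^ p)
      (coeffMap Deg457.iotaC (((v ^ p : FF N) : FF N) : LaurentSeries Kbar)
        * coeffMap Deg457.iotaC s ^ p) := hUq.mul (hSq.pow p)
  have h2 : H708.HasQExp 1 (R ^ p) (coeffMap Deg457.iotaC r ^ p) := hRq.pow p
  have hser : coeffMap Deg457.iotaC (((v ^ p : FF N) : FF N) : LaurentSeries Kbar)
        * coeffMap Deg457.iotaC s ^ p = coeffMap Deg457.iotaC r ^ p := by
    rw [← map_pow, ← map_pow, ← map_mul]
    congr 1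
    have : (((v ^ p : FF N) : FF N) : LaurentSeries Kbar)
        = ((v : FF N) : LaurentSeries Kbar) ^ p := rfl
    rw [this, hvrs, div_pow, div_mul_cancel₀ _ (pow_ne_zero p hs0)]
  rw [hser] at h1
  have hfun : (fun τ => U τ ^ p) * S ^ p = R ^ p := h1.eq_of_eq h2
  -- a point where `R` does not vanish
  have hR0 : R ≠ 0 := by
    intro h0
    have := (hRq.eq_zero_iff).mpr h0
    exact hr0 ((coeffMap Deg457.iotaC).injective (by rw [this, map_zero]))
  obtain ⟨τ₀, hτ₀⟩ : ∃ τ₀ : ℍ, R τ₀ ≠ 0 := by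
    by_contra hcon
    push Not at hcon
    exact hR0 (funext hcon)
  have hpt : ∀ τ : ℍ, (U τ * S τ) ^ p = R τ ^ p := by
    intro τ
    have := congrFun hfun τ
    simpa [mul_pow] using this
  have hUS0 : U τ₀ * S τ₀ ≠ 0 := by
    intro h0
    have := hpt τ₀
    rw [h0, zero_pow (NeZero.ne p)] at this
    exact pow_ne_zero p hτ₀ this.symm
  set ξ : ℂ := U τ₀ * S τ₀ / R τ₀ with hξ
  have hξp : ξ ^ p = 1 := by
    rw [hξ, div_pow, hpt τ₀, div_self (pow_ne_zero p hτ₀)]
  have hAB : (fun τ => U τ * S τ) = (fun τ => ξ * R τ) := by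
    refine H751.eq_of_pow_eq_UHP (hU.mul hSg.1) ((mdifferentiable_const (c := ξ)).mul hRg.1)
      (NeZero.ne p) (fun τ => ?_) (τ₀ := τ₀) ?_ hUS0
    · rw [hpt τ, mul_pow, hξp, one_mul]
    · show U τ₀ * S τ₀ = ξ * R τ₀
      rw [hξ, div_mul_cancel₀ _ hτ₀]
  refine ⟨τ₀, left_ne_zero_of_mul hUS0, fun γ hγ => ?_⟩
  have e1 : U (γ • τ₀) * S (γ • τ₀) = ξ * R (γ • τ₀) := congrFun hAB (γ • τ₀)
  have e2 : U τ₀ * S τ₀ = ξ * R τ₀ := congrFun hAB τ₀
  rw [hSg.2.1 γ hγ τ₀, hRg.2.1 γ hγ τ₀, ← e2] at e1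
  exact mul_right_cancel₀ (right_ne_zero_of_mul hUS0) e1

/-- PIECE `K4-INJ`: only the trivial character has Kummer class `0`. -/
theorem isKum_zero_right (N : ℕ) [NeZero N] (p : ℕ) [NeZero p] {c : G0 N → ZMod p}
    (h : IsKum N p c (0 : JZero N)) : c = 0 := by
  obtain ⟨f, t, U, ht, hx, hU, hR⟩ := h
  have hp0 : (p : ℤ) ≠ 0 := Int.natCast_ne_zero.mpr (NeZero.ne p)
  obtain ⟨g, hg, hfg⟩ := (hx.eq_zero_iff hp0).mp rfl
  have hf : f ≠ 0 := hx.ne_zero
  -- `f / g ^ p` is a constant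
  have hgp : g ^ p ≠ 0 := pow_ne_zero p hg
  have hu0 : f * (g ^ p)⁻¹ ≠ 0 := mul_ne_zero hf (inv_ne_zero hgp)
  have hord : ∀ w : Place Kbar (FF N), w.ord (f * (g ^ p)⁻¹) = 0 := by
    intro w
    rw [Place.ord_mul w hf (inv_ne_zero hgp), Place.ord_inv, hfg w, ← zpow_natCast g p,
      Place.ord_zpow]
    ring
  obtain ⟨a, ha⟩ := Fermat.Agent.S18.H504.constOfOrdZero_modularFunctionFieldBar N _ hu0 hord
  obtain ⟨b, hb⟩ := IsAlgClosed.exists_pow_nat_eq a (Nat.pos_of_ne_zero (NeZero.ne p))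
  have hb0 : b ≠ 0 := by
    rintro rfl
    rw [zero_pow (NeZero.ne p)] at hb
    rw [← hb, map_zero] at ha
    exact hu0 ha
  set v : FF N := algebraMap Kbar (FF N) b * g * t with hv
  have hv0 : v ≠ 0 :=
    mul_ne_zero (mul_ne_zero ((map_ne_zero _).mpr hb0) hg) ht
  have hvp : v ^ p = f * t ^ p := by
    have h1 : f = algebraMap Kbar (FF N) a * g ^ p := by
      rw [← ha, mul_assoc, inv_mul_cancel₀ hgp, mul_one]
    rw [hv, mul_pow, mul_pow, ← map_pow, hb, ← h1]
  rw [← hvp] at hR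
  obtain ⟨τ₀, hτ₀, hinv⟩ := exists_invariant_point N p hv0 hU.mdiff hR
  funext γ
  apply eq_zero_of_zetaP_pow_val
  have h1 := hU.hasChar γ τ₀
  have h2 := hinv (γ : SL(2, ℤ)) γ.2
  rw [h2] at h1
  have h3 : (zetaP p ^ (c γ).val - 1) * U τ₀ = 0 := by
    rw [sub_mul, one_mul, ← h1, sub_self]
  rcases mul_eq_zero.mp h3 with h4 | h4
  · exact sub_eq_zero.mp h4
  · exact absurd h4 hτ₀

end Fermat.Agent.S29.H718

end
end
-- ===== PACK-END S29/H718/KInj.lean

-- ===== PACK-BEGIN S29/M4b/H89/K4Uniq.lean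
section
/-
S29 row, layer M, sub-layer M4b — PIECE `K4-UNIQ` (helper89): the Kummer class of a character is
unique.  Exact statement of `M4b/Skeleton.lean` (helper822); `pieceUniq : PieceUniq N p` is the
shape of `M4b/Top.lean` (helper269).

Proof: for two data `(f, t, U)`, `(f', t', U')` of the same character `c`, the function
`V := U * U' ^ (p-1)` is `Γ₀(N)`-invariant, holomorphic, and good (its `p`-th power is), so its
`q`-expansion `b` lies in `F_ℂ` (MERO, `H882`).  `b ^ p` is the image of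
`w = (f t^p) (f' t'^p)^(p-1) ∈ FF N`, so `b = ι v` with `v ∈ ℚ̄((q))` (PROOT), and `v ∈ FF N`
(`H882` (C)).  Hence `f * f' ^ (p-1)` is a `p`-th power in `FF N`, so `x + (p-1) x' = 0`, and
`p x' = 0` gives `x = x'`.
-/




set_option autoImplicit false

noncomputable section

open ModularCurve AlgebraicCurve CongruenceSubgroup UpperHalfPlane
open scoped MatrixGroups Manifold

namespace Fermat.Agent.S29.M4b.H89

open Fermat.Agent.S24 Fermat.Agent.S29 Fermat.Agent.S29.M4b

section K4Uniq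

variable (N : ℕ) [NeZero N] (p : ℕ) [NeZero p]

theorem K4Uniq_zetaP_pow : zetaP p ^ p = 1 := by
  have hp : (p : ℂ) ≠ 0 := Nat.cast_ne_zero.2 (NeZero.ne p)
  rw [zetaP, ← Complex.exp_nat_mul]
  have : (p : ℂ) * (2 * Real.pi * Complex.I / p) = 2 * Real.pi * Complex.I := by
    field_simp
  rw [this, Complex.exp_two_pi_mul_I]

/-- `p`-th root of a growth bound. -/
theorem K4Uniq_expGrowth_of_pow {f : ℍ → ℂ}
    (hf : H648.ExpGrowth (fun τ => f τ ^ p)) : H648.ExpGrowth f := by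
  obtain ⟨C, m, h⟩ := hf
  refine ⟨1 + |C|, m, fun τ hτ => ?_⟩
  have h1 := h τ hτ
  rw [norm_pow] at h1
  have hexp : 1 ≤ Real.exp (2 * Real.pi * m * τ.im) := by
    apply Real.one_le_exp
    have := Real.pi_pos
    have := τ.im_pos
    positivity
  have hpos : 0 < p := Nat.pos_of_ne_zero (NeZero.ne p)
  by_cases hle : ‖f τ‖ ≤ 1
  · calc ‖f τ‖ ≤ 1 := hle
      _ ≤ 1 * Real.exp (2 * Real.pi * m * τ.im) := by rw [one_mul]; exact hexp
      _ ≤ (1 + |C|) * Real.exp (2 * Real.pi * m * τ.im) := by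
          apply mul_le_mul_of_nonneg_right _ (Real.exp_pos _).le
          linarith [abs_nonneg C]
  · rw [not_le] at hle
    calc ‖f τ‖ ≤ ‖f τ‖ ^ p := le_self_pow₀ hle.le (NeZero.ne p)
      _ ≤ C * Real.exp (2 * Real.pi * m * τ.im) := h1
      _ ≤ (1 + |C|) * Real.exp (2 * Real.pi * m * τ.im) := by
          apply mul_le_mul_of_nonneg_right _ (Real.exp_pos _).le
          linarith [le_abs_self C]


omit [NeZero N] in
/-- `V = U * U' ^ (p-1)` is invariant under `Γ₀(N)` when `U`, `U'` have the same character. -/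
theorem K4Uniq_invariant {c : G0 N → ZMod p} {U U' : ℍ → ℂ} (hU : HasChar N p c U)
    (hU' : HasChar N p c U') (γ : SL(2, ℤ)) (hγ : γ ∈ Gamma0 N) (τ : ℍ) :
    U (γ • τ) * U' (γ • τ) ^ (p - 1) = U τ * U' τ ^ (p - 1) := by
  have h1 := hU ⟨γ, hγ⟩ τ
  have h2 := hU' ⟨γ, hγ⟩ τ
  simp only at h1 h2
  rw [h1, h2, mul_pow, ← pow_mul]
  have hp : 1 ≤ p := Nat.one_le_iff_ne_zero.2 (NeZero.ne p)
  have e : zetaP p ^ (c ⟨γ, hγ⟩).val * U τ * (zetaP p ^ ((c ⟨γ, hγ⟩).val * (p - 1)) * U' τ ^ (p - 1))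
      = zetaP p ^ ((c ⟨γ, hγ⟩).val * p) * (U τ * U' τ ^ (p - 1)) := by
    have : (c ⟨γ, hγ⟩).val * p = (c ⟨γ, hγ⟩).val + (c ⟨γ, hγ⟩).val * (p - 1) := by
      rw [Nat.mul_sub_one, Nat.add_sub_cancel' (Nat.le_mul_of_pos_right _ hp)]
    rw [this, pow_add]
    ring
  rw [e, mul_comm (c ⟨γ, hγ⟩).val p, pow_mul, K4Uniq_zetaP_pow, one_pow, one_mul]

omit [NeZero N] in
/-- `V = U * U' ^ (p-1)` is a good function. -/
theorem K4Uniq_mem_goodRing {c : G0 N → ZMod p} {U U' : ℍ → ℂ} (hU : IsTwisted N p c U)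
    (hU' : IsTwisted N p c U') : (fun τ => U τ * U' τ ^ (p - 1)) ∈ H648.goodRing N := by
  have hp : 1 ≤ p := Nat.one_le_iff_ne_zero.2 (NeZero.ne p)
  refine ⟨hU.mdiff.mul (hU'.mdiff.pow (p - 1)), fun γ hγ τ => ?_, fun g => ?_⟩
  · exact K4Uniq_invariant N p hU.hasChar hU'.hasChar γ hγ τ
  · apply K4Uniq_expGrowth_of_pow p
    have h1 : (fun τ => U τ ^ p) * (fun τ => U' τ ^ p) ^ (p - 1) ∈ H648.goodRing N :=
      (H648.goodRing N).mul_mem hU.pow_mem ((H648.goodRing N).pow_mem hU'.pow_mem _)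
    have h2 := h1.2.2 g
    have e : (fun τ : ℍ => (U (g • τ) * U' (g • τ) ^ (p - 1)) ^ p)
        = fun τ => ((fun τ => U τ ^ p) * (fun τ => U' τ ^ p) ^ (p - 1)) (g • τ) := by
      funext τ
      simp only [Pi.mul_apply, Pi.pow_apply]
      ring
    rw [e]
    exact h2


/-- Kummer classes of powers. -/
theorem K4Uniq_kummer_pow {K F : Type*} [Field K] [Field F] [Algebra K F] {n : ℤ} {f : F}
    {x : Pic0 K F} (hx : H455.IsKummerClass n f x) (k : ℕ) :
    H455.IsKummerClass n (f ^ k) (k • x) := by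
  induction k with
  | zero =>
    rw [pow_zero, zero_nsmul]
    exact H455.IsKummerClass.zero
  | succ k ih =>
    rw [pow_succ, succ_nsmul]
    exact ih.add hx

theorem K4Uniq_coeffMap_injective {K L : Type*} [Field K] [Field L] (ι : K →+* L) :
    Function.Injective (coeffMap ι) := by
  intro a b hab
  ext n
  have := congrArg (fun z : LaurentSeries L => z.coeff n) hab
  simp only [coeffMap_coeff] at this
  exact ι.injective this

/-- PIECE `K4-UNIQ`: the Kummer class of a character is unique. -/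
theorem isKum_unique {c : G0 N → ZMod p} {x x' : JZero N}
    (h : IsKum N p c x) (h' : IsKum N p c x') : x = x' := by
  obtain ⟨f, t, U, ht, hx, hU, hR⟩ := h
  obtain ⟨f', t', U', ht', hx', hU', hR'⟩ := h'
  have hp1 : 1 ≤ p := Nat.one_le_iff_ne_zero.2 (NeZero.ne p)
  have hpK : ((p : ℕ) : Kbar) ≠ 0 := Nat.cast_ne_zero.2 (NeZero.ne p)
  -- the invariant function `V`
  have hV := K4Uniq_mem_goodRing N p hU hU'
  have hVq := H882.hasQExp_of_mem_goodRing hV
  have hUq : H708.HasQExp 1 (fun τ => U τ ^ p)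
      (coeffMap Deg457.iotaC ((f * t ^ p : FF N) : LaurentSeries Kbar)) :=
    ⟨H882.isMerInf_of_mem_goodRing hR.1, hR.2⟩
  have hU'q : H708.HasQExp 1 (fun τ => U' τ ^ p)
      (coeffMap Deg457.iotaC ((f' * t' ^ p : FF N) : LaurentSeries Kbar)) :=
    ⟨H882.isMerInf_of_mem_goodRing hR'.1, hR'.2⟩
  have hprod := hUq.mul (hU'q.pow (p - 1))
  have hfun : (fun τ => U τ * U' τ ^ (p - 1)) ^ p
      = (fun τ => U τ ^ p) * (fun τ => U' τ ^ p) ^ (p - 1) := by
    funext τ
    simp only [Pi.pow_apply, Pi.mul_apply]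
    ring
  have hVp := hVq.pow p
  rw [hfun] at hVp
  have hbw := hVp.unique hprod
  have hbw' : H708.qexpFun 1 (fun τ => U τ * U' τ ^ (p - 1)) ^ p
      = coeffMap Deg457.iotaC
        ((((f * t ^ p) * (f' * t' ^ p) ^ (p - 1) : FF N)) : LaurentSeries Kbar) := by
    rw [hbw]
    push_cast
    simp only [map_mul, map_pow]
  obtain ⟨v, hv⟩ := PRoot.exists_coeffMap_eq_of_pow Deg457.iotaC hpK _ _ hbw'
  have hbFC := H882.qexpFun_mem_FC hV
  have hvFF : v ∈ modularFunctionFieldBar N :=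
    H882.mem_laurentBaseChange_of_coeffMap_mem Deg457.iotaC _ (by rw [hv]; exact hbFC)
  have hvp : v ^ p = ((((f * t ^ p) * (f' * t' ^ p) ^ (p - 1) : FF N)) : LaurentSeries Kbar) := by
    apply K4Uniq_coeffMap_injective Deg457.iotaC
    rw [map_pow, hv, hbw']
  have hvFp : (⟨v, hvFF⟩ : FF N) ^ p = (f * t ^ p) * (f' * t' ^ p) ^ (p - 1) := by
    apply Subtype.ext
    rw [← hvp]
    rfl
  -- the `p`-th root of `f * f' ^ (p-1)`
  have htt : t * t' ^ (p - 1) ≠ 0 := mul_ne_zero ht (pow_ne_zero _ ht')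
  have hg : f * f' ^ (p - 1) = ((⟨v, hvFF⟩ : FF N) / (t * t' ^ (p - 1))) ^ p := by
    rw [div_pow, hvFp, eq_div_iff (pow_ne_zero _ htt)]
    ring
  have hf := hx.ne_zero
  have hf' := hx'.ne_zero
  have hg0 : (⟨v, hvFF⟩ : FF N) / (t * t' ^ (p - 1)) ≠ 0 := by
    intro h0
    rw [h0, zero_pow (NeZero.ne p)] at hg
    exact mul_ne_zero hf (pow_ne_zero _ hf') hg
  have hk : H455.IsKummerClass (p : ℤ) (f * f' ^ (p - 1)) (x + (p - 1) • x') :=
    hx.add (K4Uniq_kummer_pow hx' (p - 1))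
  have hpz : ((p : ℕ) : ℤ) ≠ 0 := Int.natCast_ne_zero.2 (NeZero.ne p)
  have hzero : x + (p - 1) • x' = 0 :=
    (hk.eq_zero_iff hpz).2 ⟨_, hg0, fun w => by
      rw [hg, ← zpow_natCast, Place.ord_zpow]⟩
  have hpx' : (p : ℤ) • x' = 0 := hx'.zsmul_eq_zero
  have hpx'' : p • x' = 0 := by
    rw [← natCast_zsmul]; exact hpx'
  have e : p • x' = (p - 1) • x' + x' := by
    conv_lhs => rw [← Nat.sub_add_cancel hp1]
    rw [succ_nsmul]
  rw [e] at hpx''
  -- `x + a = 0` and `a + x' = 0`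
  calc x = x + ((p - 1) • x' + x') := by rw [hpx'', add_zero]
    _ = (x + (p - 1) • x') + x' := by rw [add_assoc]
    _ = x' := by rw [hzero, zero_add]

/-- PIECE `K4-UNIQ` in the shape of `M4b/Top.lean`. -/
theorem pieceUniq : PieceUniq N p := fun h h' => isKum_unique N p h h'

end K4Uniq

end Fermat.Agent.S29.M4b.H89

end
end
-- ===== PACK-END S29/M4b/H89/K4Uniq.lean

-- ===== PACK-BEGIN A3/H319/Level.lean
section











/-!
# A3 / LEVEL (helper319): `levelStatement : S19.LevelStatement`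

The torsion `J₀(N)[ℓ^k]` embeds Galois-equivariantly into `J₀(N p)[ℓ^k]` for every prime `p ≠ ℓ`
(we need `p = 2` for `ℓ = 3` and `p = 3` for `ℓ = 2`): the map is the pull-back (conorm) along
the Prelude degeneracy map `heckeAlphaBar N p` (inclusion of function fields).

Injectivity uses the Kummer dictionary on main instead of ramification theory:
`x` is the Kummer class of an additive character `c` of `Γ₀(N)` (ONTO, `S30.H810`), its pull-back
is the Kummer class of `c|Γ₀(N p)` (`isKum_levelPull`), which vanishes if the pull-back is `0`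
(`S29.H718.isKum_zero_right`); a character of `Γ₀(N)` with values in `ℤ/ℓ^k` vanishing on
`Γ₀(N p)` is `0` (`eq_zero_of_forall_mem_Gamma0_mul`), hence `x = 0` (`S29.M4b.H89.isKum_unique`).
-/

set_option autoImplicit false
set_option linter.style.haveILetI false

noncomputable section

namespace Fermat.Agent.A3.H319

open ModularCurve AlgebraicCurve CongruenceSubgroup UpperHalfPlane
open Fermat.Agent.S24 Fermat.Agent.S29 Fermat.Agent.S29.M4b
open scoped MatrixGroups Manifold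

variable (N p : ℕ) [NeZero N] [NeZero p]

/-- The degeneracy map `α : FF N → FF (N p)` (inclusion) is integral. -/
theorem levelAlpha_integral : (heckeAlphaBar Kbar N p).toRingHom.IsIntegral :=
  H812.isIntegral_of_finiteAlong (H812.finiteAlong_heckeAlphaBar N p)

theorem levelAlpha_fundId :
    haveI : HasPrincipalDivisors Kbar (FF (N * p)) :=
      Fermat.Agent.Lib.RR.H864.hasPrincipalDivisors_modularFunctionFieldBar (N * p)
    FundamentalIdentityAlong Kbar (heckeAlphaBar Kbar N p) (levelAlpha_integral N p) := by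
  haveI : HasPrincipalDivisors Kbar (FF (N * p)) :=
    Fermat.Agent.Lib.RR.H864.hasPrincipalDivisors_modularFunctionFieldBar (N * p)
  exact H812.fundamentalIdentityAlong (H812.exists_coord_modular N) (heckeAlphaBar Kbar N p)
    (H812.finiteAlong_heckeAlphaBar N p) (levelAlpha_integral N p)

/-- The pull-back (conorm) `J₀(N)(ℚ̄) → J₀(N p)(ℚ̄)`. -/
def levelPull : JZero N →+ JZero (N * p) :=
  haveI : HasPrincipalDivisors Kbar (FF (N * p)) :=
    Fermat.Agent.Lib.RR.H864.hasPrincipalDivisors_modularFunctionFieldBar (N * p)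
  pic0Pull (heckeAlphaBar Kbar N p) (levelAlpha_integral N p) (levelAlpha_fundId N p)

/-- The pull-back is Galois-equivariant. -/
theorem levelPull_smul (σ : Kbar ≃ₐ[ℚ] Kbar) (x : JZero N) :
    levelPull N p (σ • x) = σ • levelPull N p x := by
  haveI : HasPrincipalDivisors Kbar (FF (N * p)) :=
    Fermat.Agent.Lib.RR.H864.hasPrincipalDivisors_modularFunctionFieldBar (N * p)
  rw [galois_smul_pic0_def, galois_smul_pic0_def]
  exact pic0Pull_smul (heckeAlphaBar Kbar N p) (levelAlpha_integral N p) (levelAlpha_fundId N p)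
    (H571.intertwines_heckeAlphaBar N p σ) x

/-- Restriction of a function on `Γ₀(N)` to `Γ₀(N p)`. -/
def resG0 {A : Type*} (c : G0 N → A) : G0 (N * p) → A :=
  fun γ => c ⟨(γ : SL(2, ℤ)), Gamma0_mul_le N p γ.2⟩

omit [NeZero N] [NeZero p] in
theorem goodRing_mul_le : H648.goodRing N ≤ H648.goodRing (N * p) := by
  rintro f ⟨h1, h2, h3⟩
  exact ⟨h1, fun γ hγ τ => h2 γ (Gamma0_mul_le N p hγ) τ, h3⟩

/-- **Kummer classes pull back**: if `x` is the Kummer class of `c` at level `N`, then the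
pull-back of `x` is the Kummer class of `c|Γ₀(N p)` at level `N p`. -/
theorem isKum_levelPull {n : ℕ} {c : G0 N → ZMod n} {x : JZero N} (h : IsKum N n c x) :
    IsKum (N * p) n (resG0 N p c) (levelPull N p x) := by
  haveI : HasPrincipalDivisors Kbar (FF (N * p)) :=
    Fermat.Agent.Lib.RR.H864.hasPrincipalDivisors_modularFunctionFieldBar (N * p)
  obtain ⟨f, t, U, ht, hx, hU, hR⟩ := h
  refine ⟨heckeAlphaBar Kbar N p f, heckeAlphaBar Kbar N p t, U,
    (map_ne_zero (heckeAlphaBar Kbar N p)).mpr ht,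
    isKummerClass_pic0Pull (heckeAlphaBar Kbar N p) (levelAlpha_integral N p)
      (levelAlpha_fundId N p) hx,
    ⟨hU.mdiff, hU.ne_zero, fun γ τ => hU.hasChar ⟨(γ : SL(2, ℤ)), Gamma0_mul_le N p γ.2⟩ τ,
      goodRing_mul_le N p hU.pow_mem⟩,
    goodRing_mul_le N p hR.1, ?_⟩
  rw [hR.2, ← map_pow, ← map_mul, coe_heckeAlphaBar]

/-- `ℤ/n` has no `p`-torsion when `p` is prime to `n`. -/
theorem zmod_eq_zero_of_nsmul {n p : ℕ} (h : Nat.Coprime p n) (a : ZMod n) (ha : p • a = 0) :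
    a = 0 := by
  rw [nsmul_eq_mul] at ha
  have hu : IsUnit ((p : ℕ) : ZMod n) := (ZMod.unitOfCoprime p h).isUnit
  exact (hu.mul_right_eq_zero).mp ha

/-- **Injectivity of the pull-back on torsion prime to `p`.** -/
theorem eq_zero_of_levelPull_eq_zero (hp : p.Prime) (n : ℕ) [NeZero n] (hnp : Nat.Coprime p n)
    {x : JZero N} (hx : (n : ℤ) • x = 0) (h0 : levelPull N p x = 0) : x = 0 := by
  obtain ⟨c, hc⟩ := Fermat.Agent.S30.H810.exists_isKum_of_torsion N n hx
  have hadd := fun γ γ' => Fermat.Agent.S30.Fin.fin_isKum_map_mul hc γ γ'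
  have h1 := isKum_levelPull N p hc
  rw [h0] at h1
  have hres : resG0 N p c = 0 := Fermat.Agent.S29.H718.isKum_zero_right (N * p) n h1
  have hc0 : c = 0 := by
    funext γ
    exact eq_zero_of_forall_mem_Gamma0_mul hp (zmod_eq_zero_of_nsmul hnp) c hadd
      (fun γ hγ => congrFun hres ⟨(γ : SL(2, ℤ)), hγ⟩) γ
  obtain ⟨c₀, hc₀⟩ := Fermat.Agent.S30.H810.exists_isKum_of_torsion N n
    (x := (0 : JZero N)) (smul_zero _)
  have hc₀0 : c₀ = 0 := Fermat.Agent.S29.H718.isKum_zero_right N n hc₀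
  rw [hc0] at hc
  rw [hc₀0] at hc₀
  exact Fermat.Agent.S29.M4b.H89.isKum_unique N n hc hc₀

open Fermat.Agent.S19 in
/-- The pull-back on `ℓ^k`-torsion. -/
def torsPull (ℓ k : ℕ) : Tors N ℓ k →+ Tors (N * p) ℓ k :=
  (((levelPull N p).toIntLinearMap).restrict
    (p := Submodule.torsionBy ℤ (JZero N) ((ℓ : ℤ) ^ k))
    (q := Submodule.torsionBy ℤ (JZero (N * p)) ((ℓ : ℤ) ^ k)) (fun x hx => by
      rw [Submodule.mem_torsionBy_iff] at hx ⊢
      rw [← map_smul, hx, map_zero])).toAddMonoidHom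

open Fermat.Agent.S19 in
theorem coe_torsPull (ℓ k : ℕ) (x : Tors N ℓ k) :
    ((torsPull N p ℓ k x : Tors (N * p) ℓ k) : JZero (N * p)) = levelPull N p (x : JZero N) :=
  rfl

open Fermat.Agent.S19 in
theorem torsPull_injective (hp : p.Prime) (ℓ k : ℕ) (hℓ : ℓ.Prime) (hℓp : ℓ ≠ p) :
    Function.Injective (torsPull N p ℓ k) := by
  rw [injective_iff_map_eq_zero]
  intro x hx
  have h0 : levelPull N p (x : JZero N) = 0 := by
    rw [← coe_torsPull, hx]; rfl
  haveI : NeZero (ℓ ^ k) := ⟨pow_ne_zero k hℓ.ne_zero⟩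
  have hcop : Nat.Coprime p (ℓ ^ k) :=
    Nat.Coprime.pow_right k ((Nat.coprime_primes hp hℓ).mpr (Ne.symm hℓp))
  have hx' : ((ℓ ^ k : ℕ) : ℤ) • (x : JZero N) = 0 := by
    have := (Submodule.mem_torsionBy_iff _ _).mp x.2
    push_cast
    exact this
  exact Subtype.ext (eq_zero_of_levelPull_eq_zero N p hp (ℓ ^ k) hcop hx' h0)

open Fermat.Agent.S19 in
theorem torsPull_torsAct (ℓ k : ℕ) (σ : GalQ) (x : Tors N ℓ k) :
    torsPull N p ℓ k (torsAct N ℓ k σ x) = torsAct (N * p) ℓ k σ (torsPull N p ℓ k x) := by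
  apply Subtype.ext
  rw [coe_torsPull, coe_torsAct, coe_torsAct, coe_torsPull]
  exact levelPull_smul N p σ (x : JZero N)

open Fermat.Agent.S19 in
/-- **LEVEL node of A3** (frozen interface `Fermat.Agent.S19.LevelStatement`). -/
theorem levelStatement : Fermat.Agent.S19.LevelStatement := by
  intro N _ ℓ hℓ hℓN k
  have hprime : ℓ.Prime := hℓ.out
  by_cases h5 : 5 ≤ ℓ
  · exact ⟨N, inferInstance, k, hℓN, Or.inl h5, AddMonoidHom.id _, Function.injective_id,
      fun _ _ => rfl⟩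
  · -- `ℓ = 2` or `ℓ = 3`
    have hℓ23 : ℓ = 2 ∨ ℓ = 3 := by
      have h2 := hprime.two_le
      have hlt : ℓ < 5 := not_le.mp h5
      interval_cases ℓ
      · exact Or.inl rfl
      · exact Or.inr rfl
      · exact absurd hprime (by decide)
    rcases hℓ23 with rfl | rfl
    · -- `ℓ = 2`, auxiliary prime `3`
      by_cases h3 : 3 ∣ N
      · exact ⟨N, inferInstance, k, hℓN, Or.inr (Or.inr ⟨rfl, h3⟩), AddMonoidHom.id _,
          Function.injective_id, fun _ _ => rfl⟩
      · refine ⟨N * 3, inferInstance, k, ?_, Or.inr (Or.inr ⟨rfl, dvd_mul_left 3 N⟩),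
          torsPull N 3 2 k, torsPull_injective N 3 Nat.prime_three 2 k Nat.prime_two (by decide),
          fun σ x => torsPull_torsAct N 3 2 k σ x⟩
        intro h
        rcases (Nat.Prime.dvd_mul Nat.prime_two).mp h with h | h
        · exact hℓN h
        · exact absurd h (by decide)
    · -- `ℓ = 3`, auxiliary prime `2`
      by_cases h2 : 2 ∣ N
      · exact ⟨N, inferInstance, k, hℓN, Or.inr (Or.inl ⟨rfl, h2⟩), AddMonoidHom.id _,
          Function.injective_id, fun _ _ => rfl⟩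
      · refine ⟨N * 2, inferInstance, k, ?_, Or.inr (Or.inl ⟨rfl, dvd_mul_left 2 N⟩),
          torsPull N 2 3 k, torsPull_injective N 2 Nat.prime_two 3 k Nat.prime_three (by decide),
          fun σ x => torsPull_torsAct N 2 3 k σ x⟩
        intro h
        rcases (Nat.Prime.dvd_mul Nat.prime_three).mp h with h | h
        · exact hℓN h
        · exact absurd h (by decide)

end Fermat.Agent.A3.H319

end
end
-- ===== PACK-END A3/H319/Level.lean

-- ===== PACK-BEGIN S33/H92/LevelBridge.lean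
section



/-!
# S33 — the level bridge (the `p = 3` gap of the wall at `p`)  — helper92

The wall at `p` (clause (S2) of `S33.OrdFilStatement`) needs the semistable model `A2.ModSSData`
at level `N = p M'` with `q = p`.  For `p = 3` the A2 block produces it only when `2 ∣ N`
(`A2.Top.H994.ModSSGoodStatement`), and the A2 descent to odd levels (norm of degree `3`) is not
available for `3`-torsion.  This file removes the problem at the level of **(K)**:

* `keyAt_of_injOn`        : (K) descends along any equivariant additive map which is injective on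
                            `p`-torsion (abstract, Mathlib + `KeyCore` only);
* `keyAt_of_keyAt_mul`    : `KeyAt I p J₀(N q) → KeyAt I p J₀(N)` for every prime `q ≠ p`
                            (pull-back `A3.H319.levelPull`, injective on torsion prime to `q` by
                            `A3.H319.eq_zero_of_levelPull_eq_zero`, which is on main);
* `OrdFilReadyStatement`  : `S33.OrdFilStatement` restricted to READY levels (`p = 3 → 2 ∣ M'`);
* `keyStatement_of_ready` : `OrdFilReadyStatement → OldAugStatement → KeyStatement`.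

So the wall only has to deliver (S2) at levels `p M'` with `2 ∣ M'` when `p = 3`.
-/

set_option autoImplicit false
set_option linter.style.haveILetI false

namespace Fermat.Agent.S33.H92

open Fermat.Agent.S33 Fermat.Agent.S31

/-! ### Abstract transfer -/

section Abstract

variable {G : Type*} [Group G] {J J' : Type*} [AddCommGroup J] [AddCommGroup J']
  [DistribMulAction G J] [DistribMulAction G J']

/-- **Transfer of (K)** along an equivariant additive map which is injective on `p`-torsion. -/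
theorem keyAt_of_injOn (f : J →+ J') (hf : ∀ (σ : G) (x : J), f (σ • x) = σ • f x)
    (I : Subgroup G) (p : ℕ) (hinj : ∀ x : J, p • x = 0 → f x = 0 → x = 0)
    (hK : KeyAt I p J') : KeyAt I p J := by
  intro Y hYG hY y hy
  have hY' : Y.map f ≤ Fermat.Agent.S33.iAug I (Y.map f) := by
    refine hK (Y.map f) ?_ ?_
    · rintro σ _ ⟨z, hz, rfl⟩
      exact ⟨σ • z, hYG σ z hz, hf σ z⟩
    · rintro _ ⟨z, hz, rfl⟩
      exact (Fermat.Agent.S33.H270.spec_inSPlus_iff I p _).mpr
        (((Fermat.Agent.S33.H270.spec_inSPlus_iff I p _).mp (hY z hz)).map f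
          (fun σ _ x => hf σ x))
  obtain ⟨w, hw, hwy⟩ := Fermat.Agent.S33.H270.exists_mem_iAug_of_mem_iAug_map f
    (fun σ _ x => hf σ x) (hY' (AddSubgroup.mem_map_of_mem f hy))
  have hwY : w ∈ Y := Fermat.Agent.S33.H270.iAug_le_self (fun σ _ z hz => hYG σ z hz) hw
  have h0 : y - w = 0 :=
    hinj (y - w) (by rw [smul_sub, (hY y hy).1, (hY w hwY).1, sub_zero])
      (by rw [map_sub, hwy, sub_self])
  rw [sub_eq_zero] at h0
  rw [h0]
  exact hw

end Abstract

/-! ### The level bridge for `J₀` -/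

open ModularCurve

/-- **Level bridge.**  (K) at level `N q` implies (K) at level `N`, for every auxiliary prime
`q ≠ p` (no condition on `N`). -/
theorem keyAt_of_keyAt_mul {p : ℕ} (hp : p.Prime) (N : ℕ) [NeZero N] {q : ℕ} [NeZero q]
    (hq : q.Prime) (hqp : q ≠ p) (I : Subgroup GQ) (hK : KeyAt I p (JZero (N * q))) :
    KeyAt I p (JZero N) := by
  haveI : NeZero p := ⟨hp.ne_zero⟩
  refine keyAt_of_injOn (Fermat.Agent.A3.H319.levelPull N q)
    (fun σ x => Fermat.Agent.A3.H319.levelPull_smul N q σ x) I p (fun x hx h0 => ?_) hK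
  refine Fermat.Agent.A3.H319.eq_zero_of_levelPull_eq_zero N q hq p
    ((Nat.coprime_primes hq hp).mpr hqp) ?_ h0
  rw [natCast_zsmul]
  exact hx

/-! ### READY levels -/

/-- **NEW at READY levels**: `S33.OrdFilStatement` with the extra hypothesis `p = 3 → 2 ∣ M'`
(the levels at which `A2.Top.H994.ModSSGoodStatement` provides the semistable model at
`q = p`). -/
def OrdFilReadyStatement : Prop :=
  ∀ (p M' : ℕ) [NeZero M'] [NeZero (p * M')], p.Prime → p ≠ 2 → ¬ p ∣ M' → (p = 3 → 2 ∣ M') →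
    ∃ (α β : ModularCurve.JZero (p * M') →+ ModularCurve.JZero M'),
      (∀ (σ : GQ) (x : ModularCurve.JZero (p * M')), α (σ • x) = σ • α x) ∧
      (∀ (σ : GQ) (x : ModularCurve.JZero (p * M')), β (σ • x) = σ • β x) ∧
      ∀ A : ValuationSubring Qb, A.LiesOverPrime p →
        ∃ 𝒮 : Set (ModularCurve.JZero (p * M')),
          (∀ x : ModularCurve.JZero (p * M'), InSPlus (A.inertiaSubgroupIn ℚ) p x → x ∈ 𝒮) ∧
          (∀ x ∈ 𝒮, p • x = 0 → α x = 0 → β x = 0 →
            ∀ σ ∈ A.inertiaSubgroupIn ℚ, ∀ c : ℕ,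
              (∀ ζ : Qb, ζ ^ p = 1 → σ ζ = ζ ^ c) → σ • x = c • x)

/-- The full statement implies the READY one. -/
theorem ordFilReady_of_ordFil (h : OrdFilStatement) : OrdFilReadyStatement :=
  fun p M' _ _ hp hp2 hpM' _ => h p M' hp hp2 hpM'

/-- **(K) at a READY level** (the proof of `H270.keyStatement`, level by level). -/
theorem keyAt_of_ready (hNEW : OrdFilReadyStatement) (hOLD : OldAugStatement)
    {p : ℕ} (hp : p.Prime) (hp2 : p ≠ 2) (N : ℕ) [NeZero N] (hN : p ∣ N) (hN2 : ¬ p ^ 2 ∣ N)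
    (hr : p = 3 → 2 ∣ N) (P : ValuationSubring Qb) (hP : P.LiesOverPrime p) :
    KeyAt (P.inertiaSubgroupIn ℚ) p (JZero N) := by
  obtain ⟨M', rfl⟩ := hN
  have hM' : M' ≠ 0 := by
    rintro rfl
    exact NeZero.ne (p * 0) (mul_zero p)
  haveI : NeZero M' := ⟨hM'⟩
  have hpM' : ¬ p ∣ M' := by
    rintro ⟨k, rfl⟩
    exact hN2 ⟨k, by ring⟩
  have hr' : p = 3 → 2 ∣ M' := by
    intro h3
    have h2 : 2 ∣ p * M' := hr h3
    subst h3
    exact (Nat.Coprime.dvd_of_dvd_mul_left (by decide) h2)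
  obtain ⟨α, β, hα, hβ, hfil⟩ := hNEW p M' hp hp2 hpM' hr'
  obtain ⟨𝒮, hS1, hS2⟩ := hfil P hP
  obtain ⟨σ₀, hσ₀, c₀, d, hc₀, hcd⟩ :=
    Fermat.Agent.S33.H270.exists_inertia_scalar_spec hp hp2 P hP
  intro Y hYG hY
  rw [Fermat.Agent.S33.H270.spec_iAug_eq]
  refine Fermat.Agent.S33.H270.key_of (I := P.inertiaSubgroupIn ℚ) (p := p) α β hα hβ hσ₀ hcd 𝒮
    (fun x hx => hS1 x hx) (fun x hx hpx hαx hβx => hS2 x hx hpx hαx hβx σ₀ hσ₀ c₀ hc₀)
    (fun Y' hY'G hY' => hOLD p M' hp hp2 hpM' P hP Y' hY'G hY') Y hYG hY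

/-- **KEY from the wall at READY levels.** -/
theorem keyStatement_of_ready (hNEW : OrdFilReadyStatement) (hOLD : OldAugStatement) :
    KeyStatement := by
  intro p N _ hp hp2 hN hN2 P hP
  by_cases hr : p = 3 → 2 ∣ N
  · exact keyAt_of_ready hNEW hOLD hp hp2 N hN hN2 hr P hP
  · -- `p = 3`, `N` odd: go up to level `N * 2`
    refine keyAt_of_keyAt_mul hp N Nat.prime_two (Ne.symm hp2) _ ?_
    refine keyAt_of_ready hNEW hOLD hp hp2 (N * 2) (hN.mul_right 2) ?_
      (fun _ => dvd_mul_left 2 N) P hP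
    intro h
    apply hN2
    have hcop : Nat.Coprime (p ^ 2) 2 :=
      Nat.Coprime.pow_left 2 ((Nat.coprime_primes hp Nat.prime_two).mpr hp2)
    exact hcop.dvd_of_dvd_mul_right h

end Fermat.Agent.S33.H92

end
-- ===== PACK-END S33/H92/LevelBridge.lean

-- ===== PACK-BEGIN A3/H499/OrthInst.lean
section




/-!
# A3 / GR-ORTH (helper499): the leaf `A3.H739.OrthLeaf`, UNCONDITIONALLY

`orthLeaf : OrthLeaf N V hVG` for every level `N`, every prime `ℓ ∤ N` and every valuation ring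
`V ⊆ Q̄` above `ℓ` — the field `orthonormal` of the `GoodRed` instance of `X₀(N)`
(`O = modO`, `red = modρ`, `I = inertiaImage V N`).

Route D (`OrthDatum.lean`): only the degree equality `[F_N : Q̄(j)] = ψ(N) = [F_{N,k} : k(j̄)]`
(`S37.H628.good_H1`, unconditional) and inertia-fixed lifts (`exists_fixed_lift`: the generators
`j(q^d)` have rational `q`-expansions, constants have Teichmüller lifts) are used.
No place map, no `div_red`, no normality (H3).
-/

set_option autoImplicit false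
set_option synthInstance.maxHeartbeats 400000
set_option linter.unusedSectionVars false
set_option linter.style.longLine false

noncomputable section

namespace Fermat.Agent.A3.H499

open AlgebraicCurve ModularCurve HahnSeries IsLocalRing
open Fermat.Agent.S19 (GalQ IsInertiaAt)
open Fermat.Agent.S37.Red (Qb FN kA FNk ModVG modO modρ modFrac modGj jk ofSeries
  modρ_ofSeries coe_ofSeries inv_mem_modO jqNModC_mem_bar)
open Fermat.Agent.A3.H739

variable {N : ℕ} {V : ValuationSubring _root_.Fermat.Agent.S37.Red.Qb}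

/-- the reductions which have an inertia-fixed lift, as a set of series -/
def fixImage (hVG : ModVG N V) : Set (LaurentSeries (kA V)) :=
  {g | ∃ u : modO hVG, (∀ γ ∈ inertiaImage V N, γ • ((u : modO hVG) : FN N) = u) ∧
    ((modρ hVG u : FNk V N) : LaurentSeries (kA V)) = g}

theorem fixImage_mul (hVG : ModVG N V) {a b : LaurentSeries (kA V)}
    (ha : a ∈ fixImage hVG) (hb : b ∈ fixImage hVG) : a * b ∈ fixImage hVG := by
  obtain ⟨u, hu, rfl⟩ := ha
  obtain ⟨v, hv, rfl⟩ := hb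
  refine ⟨u * v, fun γ hγ => ?_, ?_⟩
  · show γ • (((u : modO hVG) : FN N) * ((v : modO hVG) : FN N)) = _
    rw [smul_mul', hu γ hγ, hv γ hγ]
    rfl
  · rw [(modρ hVG).map_mul u v]
    rfl

theorem fixImage_add (hVG : ModVG N V) {a b : LaurentSeries (kA V)}
    (ha : a ∈ fixImage hVG) (hb : b ∈ fixImage hVG) : a + b ∈ fixImage hVG := by
  obtain ⟨u, hu, rfl⟩ := ha
  obtain ⟨v, hv, rfl⟩ := hb
  refine ⟨u + v, fun γ hγ => ?_, ?_⟩
  · show γ • (((u : modO hVG) : FN N) + ((v : modO hVG) : FN N)) = _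
    rw [smul_add, hu γ hγ, hv γ hγ]
    rfl
  · rw [(modρ hVG).map_add u v]
    rfl

theorem fixImage_one (hVG : ModVG N V) : (1 : LaurentSeries (kA V)) ∈ fixImage hVG :=
  ⟨1, fun γ _ => smul_one γ, by rw [(modρ hVG).map_one]; rfl⟩

theorem fixImage_zero (hVG : ModVG N V) : (0 : LaurentSeries (kA V)) ∈ fixImage hVG :=
  ⟨0, fun γ _ => smul_zero γ, by rw [(modρ hVG).map_zero]; rfl⟩

theorem fixImage_algebraMap {ℓ : ℕ} [Fact ℓ.Prime] (hV : V.LiesOverPrime ℓ) (hVG : ModVG N V)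
    (c : kA V) : algebraMap (kA V) (LaurentSeries (kA V)) c ∈ fixImage hVG := by
  obtain ⟨a, hac, hfix⟩ := gr_I_lift_const N hV c
  refine ⟨⟨algebraMap _root_.Fermat.Agent.S37.Red.Qb (FN N) (a : _root_.Fermat.Agent.S37.Red.Qb), (modFrac N V).ctx.A_mem a⟩, fun γ hγ => ?_, ?_⟩
  · show γ • (algebraMap _root_.Fermat.Agent.S37.Red.Qb (FN N) (a : _root_.Fermat.Agent.S37.Red.Qb)) = algebraMap _root_.Fermat.Agent.S37.Red.Qb (FN N) (a : _root_.Fermat.Agent.S37.Red.Qb)
    rw [SemilinearAut.smul_algebraMap, hfix γ hγ]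
  · have h := (modFrac N V).ctx.ρ_A a
    have h' : modρ hVG ⟨algebraMap _root_.Fermat.Agent.S37.Red.Qb (FN N) (a : _root_.Fermat.Agent.S37.Red.Qb), (modFrac N V).ctx.A_mem a⟩ =
        algebraMap (kA V) (FNk V N) (residue V a) := h
    rw [h', hac]
    rfl

theorem fixImage_inv (hVG : ModVG N V) {a : LaurentSeries (kA V)}
    (ha : a ∈ fixImage hVG) : a⁻¹ ∈ fixImage hVG := by
  obtain ⟨u, hufix, rfl⟩ := ha
  by_cases hu : modρ hVG u = 0
  · refine ⟨0, fun γ _ => smul_zero γ, ?_⟩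
    rw [hu, (modρ hVG).map_zero]
    show (0 : LaurentSeries (kA V)) = (0 : LaurentSeries (kA V))⁻¹
    rw [inv_zero]
  · refine ⟨⟨((u : FN N))⁻¹, inv_mem_modO hVG u hu⟩, fun γ hγ => ?_, ?_⟩
    · show γ • ((u : FN N))⁻¹ = ((u : FN N))⁻¹
      rw [smul_inv'', hufix γ hγ]
    · have hu0 : (u : FN N) ≠ 0 := by
        intro h0
        apply hu
        have : u = 0 := Subtype.ext h0
        rw [this, (modρ hVG).map_zero]
      have hmul : (⟨((u : FN N))⁻¹, inv_mem_modO hVG u hu⟩ : modO hVG) * u = 1 :=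
        Subtype.ext (inv_mul_cancel₀ hu0)
      have h1 : modρ hVG ⟨((u : FN N))⁻¹, inv_mem_modO hVG u hu⟩ * modρ hVG u = 1 := by
        rw [← (modρ hVG).map_mul, hmul, (modρ hVG).map_one]
      have h2 : modρ hVG ⟨((u : FN N))⁻¹, inv_mem_modO hVG u hu⟩ = (modρ hVG u)⁻¹ :=
        eq_inv_of_mul_eq_one_left h1
      rw [h2]
      rfl

/-- the reductions with an inertia-fixed lift form an intermediate field -/
def fixField {ℓ : ℕ} [Fact ℓ.Prime] (hV : V.LiesOverPrime ℓ) (hVG : ModVG N V) :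
    IntermediateField (kA V) (LaurentSeries (kA V)) where
  carrier := fixImage hVG
  mul_mem' := fun ha hb => fixImage_mul hVG ha hb
  one_mem' := fixImage_one hVG
  add_mem' := fun ha hb => fixImage_add hVG ha hb
  zero_mem' := fixImage_zero hVG
  algebraMap_mem' := fun c => fixImage_algebraMap hV hVG c
  inv_mem' := fun _ ha => fixImage_inv hVG ha

/-- the generators `j(q^d)`, `d ∣ N`, of `F_{N,k}` have inertia-fixed lifts -/
theorem generators_mem_fixField {ℓ : ℕ} [Fact ℓ.Prime] (hV : V.LiesOverPrime ℓ)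
    (hVG : ModVG N V) :
    divisorExpansionsC (kA V) N ⊆ (fixField hV hVG : Set (LaurentSeries (kA V))) := by
  rintro g ⟨d, hne, hd, rfl⟩
  have := hne
  have hy : coeffMap V.subtype (jqNModC V d) ∈ modularFunctionFieldBar N := by
    rw [coeffMap_jqNModC]
    exact jqNModC_mem_bar hd
  have hyk : coeffMap (residue V) (jqNModC V d) ∈ modularFunctionFieldFullC (kA V) N := by
    rw [coeffMap_jqNModC]
    exact jqModCd_mem_full (kA V) N hd
  refine ⟨ofSeries hVG (jqNModC V d) hy hyk, fun γ hγ => ?_, ?_⟩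
  · obtain ⟨σ, -, rfl⟩ := (mem_inertiaImage V).mp hγ
    apply Subtype.ext
    rw [coe_arithmeticGalois_smul, coe_ofSeries]
    show coeffMap (σ : _root_.Fermat.Agent.S37.Red.Qb →+* _root_.Fermat.Agent.S37.Red.Qb) (coeffMap V.subtype (jqNModC V d)) =
      coeffMap V.subtype (jqNModC V d)
    rw [coeffMap_jqNModC, coeffMap_jqNModC]
  · rw [modρ_ofSeries]
    show coeffMap (residue V) (jqNModC V d) = _
    rw [coeffMap_jqNModC]
    rfl

/-- **Inertia-fixed lifts**: every element of `F_{N,k}` is the reduction of an inertia-fixed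
element of `O`. -/
theorem exists_fixed_lift {ℓ : ℕ} [Fact ℓ.Prime] (hV : V.LiesOverPrime ℓ) (hVG : ModVG N V)
    (c : FNk V N) :
    ∃ f : modO hVG, modρ hVG f = c ∧
      ∀ γ ∈ inertiaImage V N, γ • ((f : modO hVG) : FN N) = f := by
  have hle : modularFunctionFieldFullC (kA V) N ≤ fixField hV hVG :=
    IntermediateField.adjoin_le_iff.mpr (generators_mem_fixField hV hVG)
  obtain ⟨u, hufix, hu⟩ := hle c.2
  exact ⟨u, Subtype.ext hu, hufix⟩

/-- inertia fixes the coordinate `j` -/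
theorem inertia_smul_x (hVG : ModVG N V) (htr : Transcendental (kA V) (jk N V))
    (γ : SemilinearAut _root_.Fermat.Agent.S37.Red.Qb (FN N)) (hγ : γ ∈ inertiaImage V N) :
    γ • (modGj hVG htr).x = (modGj hVG htr).x := by
  obtain ⟨σ, -, rfl⟩ := (mem_inertiaImage V).mp hγ
  apply Subtype.ext
  rw [coe_arithmeticGalois_smul]
  show coeffMap (σ : _root_.Fermat.Agent.S37.Red.Qb →+* _root_.Fermat.Agent.S37.Red.Qb) (coeffMap V.subtype (jqModC V)) = coeffMap V.subtype (jqModC V)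
  rw [coeffMap_jqModC, coeffMap_jqModC]

/-- **Leaf GR-ORTH** of the `GoodRed` instance of `X₀(N)`: unconditional. -/
theorem orthLeaf (N : ℕ) [NeZero N] {ℓ : ℕ} [Fact ℓ.Prime] (hℓN : ¬ ℓ ∣ N)
    (V : ValuationSubring _root_.Fermat.Agent.S37.Red.Qb) (hV : V.LiesOverPrime ℓ) (hVG : ModVG N V) :
    OrthLeaf N V hVG := by
  have htr : Transcendental (kA V) (jk N V) := Fermat.Agent.S37.H579.RimBase.transcendental_jk N V
  obtain ⟨h1, h2, -, h4⟩ := Fermat.Agent.S37.H628.good_H1 N Fact.out hℓN V hV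
    (modGj hVG htr) (Fermat.Agent.S37.H579.RimBase.coe_x_modGj _ _)
    (Fermat.Agent.S37.H579.RimBase.coe_xk_modGj _ _)
  exact orthonormal_of_good (modGj hVG htr) h1 h2 h4
    (Fermat.Agent.Lib.RR.H864.ff1_modularFunctionFieldBar N) (inertiaImage V N)
    (inertia_smul_x hVG htr) (exists_fixed_lift hV hVG)

end Fermat.Agent.A3.H499

end

end
-- ===== PACK-END A3/H499/OrthInst.lean

-- ===== PACK-BEGIN A3/H319/Fin.lean
section





/-!
# A3 / FIN (helper319): the torsion of `J₀(N)(ℚ̄)` is finite — `S19.FinStatement`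

Glue of three results on main:

* ONTO   `S30.H810.exists_isKum_of_torsion` (helper810): every `m`-torsion class is the Kummer
  class of some character `c : Γ₀(N) → ℤ/m`;
* UNIQ   `S29.M4b.H89.isKum_unique` (helper89): the Kummer class of a character is unique;
* COUNT  `S30.Fin.finite_torsion_of` (helper49): ONTO + UNIQ + `Γ₀(N)` finitely generated ⟹ finite.

Output: `finite_torsionBy` (any `m ≠ 0`), `finite_tors`, and `finStatement : S19.FinStatement`
(the FIN block of the frozen A3 interface `Fermat/Agent/S19/Defs.lean`).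
-/

set_option autoImplicit false

noncomputable section

namespace Fermat.Agent.A3.H319

open ModularCurve

/-- The `m`-torsion of `J₀(N)(ℚ̄)` is a finite set, `m ≠ 0`. -/
theorem finite_setOf_zsmul_eq_zero (N : ℕ) [NeZero N] (m : ℕ) [NeZero m] :
    {x : JZero N | (m : ℤ) • x = 0}.Finite :=
  Fermat.Agent.S30.Fin.finite_torsion_of N m
    (fun _ hx => Fermat.Agent.S30.H810.exists_isKum_of_torsion N m hx)
    (fun _ _ _ h h' => Fermat.Agent.S29.M4b.H89.isKum_unique N m h h')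

/-- `J₀(N)(ℚ̄)[m]` is finite for every integer `m ≠ 0`. -/
theorem finite_torsionBy (N : ℕ) [NeZero N] (m : ℤ) (hm : m ≠ 0) :
    Finite (Submodule.torsionBy ℤ (JZero N) m) := by
  have : NeZero m.natAbs := ⟨Int.natAbs_ne_zero.mpr hm⟩
  have h := finite_setOf_zsmul_eq_zero N m.natAbs
  have hsub : ((Submodule.torsionBy ℤ (JZero N) m : Submodule ℤ (JZero N)) : Set (JZero N)) ⊆
      {x : JZero N | ((m.natAbs : ℕ) : ℤ) • x = 0} := by
    intro x hx
    have hx' : m • x = 0 := (Submodule.mem_torsionBy_iff _ _).mp hx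
    show ((m.natAbs : ℕ) : ℤ) • x = 0
    rcases Int.natAbs_eq m with h1 | h1
    · rw [← h1]; exact hx'
    · have h2 : ((m.natAbs : ℕ) : ℤ) = -m := by omega
      rw [h2, neg_smul, hx', neg_zero]
  exact (h.subset hsub).to_subtype

/-- `J₀(N)(ℚ̄)[ℓ^k]` is finite (no hypothesis on `ℓ` beyond `ℓ ≠ 0`). -/
theorem finite_tors (N : ℕ) [NeZero N] (ℓ : ℕ) (hℓ : ℓ ≠ 0) (k : ℕ) :
    Finite (Fermat.Agent.S19.Tors N ℓ k) :=
  finite_torsionBy N ((ℓ : ℤ) ^ k) (pow_ne_zero k (Int.natCast_ne_zero.mpr hℓ))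

/-- **FIN block of A3** (frozen interface `Fermat.Agent.S19.FinStatement`). -/
theorem finStatement : Fermat.Agent.S19.FinStatement := by
  intro N _ ℓ hℓ k
  exact finite_tors N ℓ hℓ.out.ne_zero k

end Fermat.Agent.A3.H319

end
end
-- ===== PACK-END A3/H319/Fin.lean

-- ===== PACK-BEGIN S19/Top2.lean
section




/-!
# Cell A3 (S19) — top assembly, v2: frozen S19 from the THREE open nodes

ORD (`H15.ordStatement`; independent second/third proofs: `H19.ordStatement`, `A3.H619.ord`),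
FIN (`A3.H319.finStatement`, helper319) and CONT (`contStatement`) are proved on main.  Open:

    UNR   : UnrStatement      (pure algebra; split UA/UB/UC in `S19/Unr/Spec.lean`)
    LOCAL : LocalStatement    (abstract `A3.H799.LocalStatement` + GoodRed instance for `X₀(M)`)
    LEVEL : LevelStatement    (ℓ = 2, 3: equivariant embedding into a good level)
-/

set_option autoImplicit false

namespace Fermat.Agent.S19

/-- ORDER from the three open nodes. -/
theorem orderStatement_of_three (hunr : UnrStatement) (hlocal : LocalStatement)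
    (hlevel : LevelStatement) : OrderStatement :=
  orderStatement_of_blocks Fermat.Agent.A3.H319.finStatement hunr hlocal hlevel

/-- **Top assembly v2**: frozen S19 from UNR, LOCAL, LEVEL. -/
theorem S19_of_three (hunr : UnrStatement) (hlocal : LocalStatement) (hlevel : LevelStatement)
    (p : ℕ) [NeZero p] (ℓ : ℕ) [Fact ℓ.Prime] (hℓp : ¬ ℓ ∣ p) (k : ℕ) :
    FrozenConclusion p ℓ k :=
  S19_of_five H15.ordStatement Fermat.Agent.A3.H319.finStatement hunr hlocal hlevel p ℓ hℓp k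

end Fermat.Agent.S19

end
-- ===== PACK-END S19/Top2.lean

-- ===== PACK-BEGIN S35/G/H862/ModelCore.lean
section



/-!
# S35, piece (G') — leaf MODEL, the charts with their cut data (helper862)

`exists_chart_cutBy` : from the sub-assemblies S1, S2, S3 of `A2/Mod/Asm.lean` the semistable chart
`SSChart w (chartAlg y)` TOGETHER with the description of its two components by the valuation rings
`V∞`, `V₀ = V∞ ∘ W` (`CutBy` of `S35/G/SpecLevel.lean`): `B ⊆ V∞`, `B ⊆ V₀`, `p∞ = B ∩ w V∞`,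
`p₀ = B ∩ w V₀`.  (`A2.Mod.nonempty_ssChart` forgets the cut data.)

`B ⊆ V∞, V₀`: `y = α(y_M) β(y_M)` and `W y` are products of `j_d^{±1}`, units of `V∞`
(`H372.CoordFacts`), and valuation rings are integrally closed (`H372.mem_of_isIntegralElem`).
-/

set_option autoImplicit false
set_option linter.style.haveILetI false
set_option linter.unusedSectionVars false
set_option synthInstance.maxHeartbeats 400000
set_option maxHeartbeats 1600000

noncomputable section

namespace Fermat.Agent.S35.G.H862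

open ModularCurve Fermat.Agent.A2.Mod

variable {A : ValuationSubring _root_.Fermat.Agent.S35.G.Qb} {E : IntermediateField ℚ _root_.Fermat.Agent.S35.G.Qb} {M q : ℕ} [NeZero M] [NeZero q]
  {w : RE A E}

/-- The chart of a coordinate `y ∈ {x, x⁻¹}` lies in `V∞`. -/
theorem chartAlg_le_vinf (hS : Setting A E M q w) {VM : ValuationSubring (FE E M)}
    {V : ValuationSubring (FE E (M * q))} {W : FE E (M * q) ≃ₐ[E] FE E (M * q)}
    (hVM : IsVinf A E M VM) (hV : IsVinf A E (M * q) V) (hW : IsFricke E (M * q) W)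
    {yM : FE E M} {y : FE E (M * q)} (hy : IsCoordPair E M q yM y) :
    ∀ b ∈ chartAlg A E (M * q) y, b ∈ V := by
  have hC := H372.coordFacts_of_isCoordPair w hS hVM hV hW hy
  have hyV : y ∈ V := by
    rw [hC.eq_mul]
    exact V.mul_mem _ _ (H372.alpha_mem hVM hV hC.mem) hC.beta_mem
  intro b hb
  exact H372.mem_of_isIntegralElem V (algebraMap (RE A E) (FE E (M * q))) y
    (fun r => H372.cE_mem w hS hV r) hyV (H372.mem_chartAlg_iff.mp hb)

/-- The chart of a coordinate `y ∈ {x, x⁻¹}` lies in `V₀ = V∞ ∘ W`. -/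
theorem chartAlg_le_vzero (hS : Setting A E M q w) {VM : ValuationSubring (FE E M)}
    {V : ValuationSubring (FE E (M * q))} {W : FE E (M * q) ≃ₐ[E] FE E (M * q)}
    (hVM : IsVinf A E M VM) (hV : IsVinf A E (M * q) V) (hW : IsFricke E (M * q) W)
    {yM : FE E M} {y : FE E (M * q)} (hy : IsCoordPair E M q yM y) :
    ∀ b ∈ chartAlg A E (M * q) y,
      b ∈ V.comap (W : FE E (M * q) →+* FE E (M * q)) := by
  have hC := H372.coordFacts_of_isCoordPair w hS hVM hV hW hy
  have hyV : y ∈ V.comap (W : FE E (M * q) →+* FE E (M * q)) := by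
    rw [ValuationSubring.mem_comap]
    show W y ∈ V
    rw [hC.eq_mul, map_mul]
    exact V.mul_mem _ _ hC.alpha_mem₀ hC.beta_mem₀
  intro b hb
  refine H372.mem_of_isIntegralElem (V.comap (W : FE E (M * q) →+* FE E (M * q)))
    (algebraMap (RE A E) (FE E (M * q))) y (fun r => ?_) hyV (H372.mem_chartAlg_iff.mp hb)
  rw [ValuationSubring.mem_comap]
  show W (cE A E (M * q) r) ∈ V
  have hWc : W (cE A E (M * q) r) = cE A E (M * q) r := W.commutes (r : E)
  rw [hWc]
  exact H372.cE_mem w hS hV r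

/-- **The semistable chart with its cut data**, from S1, S2, S3. -/
theorem exists_chart_cutBy (hS : Setting A E M q w)
    (hS1 : S1Statement A E M q w) (hS2 : S2Statement A E M q w) (hS3 : S3Statement A E M q w)
    (VM : ValuationSubring (FE E M)) (V : ValuationSubring (FE E (M * q)))
    (W : FE E (M * q) ≃ₐ[E] FE E (M * q))
    (hVM : IsVinf A E M VM) (hV : IsVinf A E (M * q) V) (hW : IsFricke E (M * q) W)
    (yM : FE E M) (y : FE E (M * q)) (hy : IsCoordPair E M q yM y)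
    (hgood : GoodRedAt A E M w VM yM) :
    ∃ c : A2.SSChart w (chartAlg A E (M * q) y),
      CutBy w (chartAlg A E (M * q) y) c V (V.comap (W : FE E (M * q) →+* FE E (M * q))) := by
  have hy' : IsCoord E M q y := by
    rcases hy with ⟨-, h⟩ | ⟨-, h⟩
    · exact Or.inl h
    · exact Or.inr h
  obtain ⟨p₁, p₂, hc₁, hc₂, hp₁, hp₂, h₁₂, h₂₁, hinf⟩ := hS1 hS V W hV hW y hy'
  obtain ⟨hn₁, hn₂⟩ := hS2 hS VM V W hVM hV hW yM y hy hgood p₁ p₂ hc₁ hc₂
  have hrad := hS3 hS VM V W hVM hV hW yM y hy hgood p₁ p₂ hc₁ hc₂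
  refine ⟨{ p₁ := p₁
            p₂ := p₂
            prime₁ := hp₁
            prime₂ := hp₂
            ne := fun h => h₁₂ (h ▸ le_refl p₁)
            not_le₁₂ := h₁₂
            not_le₂₁ := h₂₁
            inf_eq := hinf
            normal₁ := hn₁
            normal₂ := hn₂
            transversal := hrad }, ?_⟩
  exact
    { le₁ := chartAlg_le_vinf hS hVM hV hW hy
      le₂ := chartAlg_le_vzero hS hVM hV hW hy
      cut₁ := fun b => hc₁ b
      cut₂ := fun b => hc₂ b }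

end Fermat.Agent.S35.G.H862

end

end
-- ===== PACK-END S35/G/H862/ModelCore.lean

-- ===== PACK-BEGIN Ribet/H552/ASBridge.lean
section




/-!
# RIBET wall-p, leaf GLUE-p (helper552), part 3: from `LocOneR` to the Gauss ring

Toolkit for the elementwise local conditions `A2.Alg.LocOne` / `H495.AlgP.LocOneR`:

* `locOne_mul`, `locOne_inv`, `locOne_of_le` : `1 + I B_n` is a group, monotone in `n`;
* `locOneR_pow_prime` : `h ∈ 1 + λ w B_n ⟹ h ^ p ∈ 1 + λ^p w B_n` (`λ = ζ - 1`; via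
  `a^p - b^p = ∏_k (a - ζ^k b)`, no binomial coefficients);
* `exists_gaussO_of_locOneR` (**bridge**): `h ∈ 1 + r B_{p₁}` and `h ∈ 1 + r B_{p₂}` on the two
  components of a reduced special fibre `⟹ h ∈ 1 + r · gaussO`, for every `r ∈ R`.
-/

set_option autoImplicit false
set_option linter.unusedSectionVars false

namespace Fermat.Agent.Ribet.H552

open Polynomial Fermat.Agent.S18.H138 Fermat.Agent.A2.H729
open Fermat.Agent.A2 Fermat.Agent.A2.Alg Fermat.Agent.Ribet.H495.AlgP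

section LocOne

variable {R F : Type*} [CommRing R] [Field F] [Algebra R F] {B : Subalgebra R F}

theorem locOne_mul {n I : Ideal B} (hn : n.IsPrime) {g g' : F}
    (h : LocOne B n I g) (h' : LocOne B n I g') : LocOne B n I (g * g') := by
  obtain ⟨a, b, hb, hab, e⟩ := h
  obtain ⟨a', b', hb', hab', e'⟩ := h'
  refine ⟨a * a', b * b', fun hmem => ?_, ?_, ?_⟩
  · rcases hn.mem_or_mem hmem with h1 | h1
    · exact hb h1
    · exact hb' h1
  · have : a * a' - b * b' = a * (a' - b') + (a - b) * b' := by ring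
    rw [this]
    exact I.add_mem (I.mul_mem_left _ hab') (I.mul_mem_right _ hab)
  · push_cast
    rw [← e, ← e']
    ring

theorem locOne_inv {n I : Ideal B} (hIn : I ≤ n) {g : F} (h : LocOne B n I g) :
    LocOne B n I g⁻¹ := by
  obtain ⟨a, b, hb, hab, e⟩ := h
  have ha : a ∉ n := by
    intro ha
    apply hb
    have : b = a - (a - b) := by ring
    rw [this]
    exact n.sub_mem ha (hIn hab)
  have hg : g ≠ 0 := by
    rintro rfl
    rw [zero_mul] at e
    apply ha
    have : a = 0 := Subtype.ext e.symm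
    rw [this]
    exact n.zero_mem
  refine ⟨b, a, ha, ?_, ?_⟩
  · have : b - a = -(a - b) := by ring
    rw [this]
    exact I.neg_mem hab
  · rw [← e, ← mul_assoc, inv_mul_cancel₀ hg, one_mul]

theorem locOne_of_le {n n' I : Ideal B} (hn : n' ≤ n) {g : F} (h : LocOne B n I g) :
    LocOne B n' I g := by
  obtain ⟨a, b, hb, hab, e⟩ := h
  exact ⟨a, b, fun hmem => hb (hn hmem), hab, e⟩

theorem locOne_ne_zero {n I : Ideal B} (hIn : I ≤ n) {g : F} (h : LocOne B n I g) : g ≠ 0 := by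
  obtain ⟨a, b, hb, hab, e⟩ := h
  rintro rfl
  rw [zero_mul] at e
  apply hb
  have ha : a = 0 := Subtype.ext e.symm
  have hb' : b = -(a - b) := by rw [ha]; ring
  rw [hb']
  exact n.neg_mem (hIn hab)

/-- `a ^ p - b ^ p = ∏_{k<p} (a - ζ ^ k b)`. -/
theorem prod_range_sub_mul {p : ℕ} (hp : 0 < p) {ζ : F} (hζ : IsPrimitiveRoot ζ p) (a b : F) :
    ∏ k ∈ Finset.range p, (a - ζ ^ k * b) = a ^ p - b ^ p := by
  by_cases hb : b = 0
  · subst hb
    simp [zero_pow hp.ne']
  · have h := prod_range_sub_pow hp hζ (a * b⁻¹)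
    have h2 : ∏ k ∈ Finset.range p, (a - ζ ^ k * b) =
        b ^ p * ∏ k ∈ Finset.range p, (a * b⁻¹ - ζ ^ k) := by
      rw [← Finset.card_range p, ← Finset.prod_const, Finset.card_range,
        ← Finset.prod_mul_distrib]
      refine Finset.prod_congr rfl fun k _ => ?_
      field_simp
    rw [h2, h, mul_pow, inv_pow]
    field_simp

/-- `h ∈ 1 + λ w B_n ⟹ h ^ p ∈ 1 + λ ^ p w B_n`. -/
theorem locOneR_pow_prime (hinj : Function.Injective (algebraMap R F)) {n : Ideal B}
    (hn : n.IsPrime) {p : ℕ} (hp : p.Prime) {ζ : R} (hζ : IsPrimitiveRoot ζ p) (w : R) {h : F}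
    (hh : LocOneR B n ((ζ - 1) * w) h) : LocOneR B n ((ζ - 1) ^ p * w) (h ^ p) := by
  classical
  obtain ⟨a, b, hb, hab, e⟩ := hh
  obtain ⟨c, hc⟩ := Ideal.mem_span_singleton'.1 hab
  have hζF : IsPrimitiveRoot (algebraMap R F ζ) p := hζ.map_of_injective hinj
  refine ⟨a ^ p, b ^ p, fun hmem => hb (hn.mem_of_pow_mem _ hmem), ?_, ?_⟩
  · rw [Ideal.mem_span_singleton']
    refine ⟨c * ∏ k ∈ Finset.Ico 1 p,
      (algebraMap R B w * c - algebraMap R B (geomS ζ k) * b), ?_⟩
    apply Subtype.ext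
    have hcF : (c : F) * (algebraMap R F (ζ - 1) * algebraMap R F w) = (a : F) - (b : F) := by
      have := congrArg (fun t : B => (t : F)) hc
      simpa [_root_.map_mul] using this
    have hfac : ∀ k, (a : F) - algebraMap R F ζ ^ k * (b : F) =
        algebraMap R F (ζ - 1) * (algebraMap R F w * (c : F) -
          algebraMap R F (geomS ζ k) * (b : F)) := by
      intro k
      have h1 : algebraMap R F (geomS ζ k) * algebraMap R F (ζ - 1) =
          algebraMap R F ζ ^ k - 1 := by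
        rw [← _root_.map_mul, geomS_mul, _root_.map_sub, _root_.map_pow, _root_.map_one]
      linear_combination -hcF + (b : F) * h1
    have hprod := prod_range_sub_mul hp.pos hζF (a : F) (b : F)
    rw [Finset.range_eq_Ico, Finset.prod_eq_prod_Ico_succ_bot hp.pos, pow_zero, one_mul,
      zero_add, Finset.prod_congr rfl (fun k _ => hfac k), Finset.prod_mul_distrib,
      Finset.prod_const, Nat.card_Ico] at hprod
    have hpp : algebraMap R F (ζ - 1) ^ p =
        algebraMap R F (ζ - 1) ^ (p - 1) * algebraMap R F (ζ - 1) := by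
      rw [← pow_succ]
      congr 1
      have := hp.pos
      omega
    have hgoal : ((c * ∏ k ∈ Finset.Ico 1 p,
        (algebraMap R B w * c - algebraMap R B (geomS ζ k) * b) : B) : F) *
        ((algebraMap R B ((ζ - 1) ^ p * w) : B) : F) = ((a ^ p - b ^ p : B) : F) := by
      have e1 : ((algebraMap R B ((ζ - 1) ^ p * w) : B) : F) =
          algebraMap R F (ζ - 1) ^ p * algebraMap R F w := by
        rw [← _root_.map_pow, ← _root_.map_mul]
        rfl
      have e2 : ((c * ∏ k ∈ Finset.Ico 1 p,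
          (algebraMap R B w * c - algebraMap R B (geomS ζ k) * b) : B) : F) =
          (c : F) * ∏ k ∈ Finset.Ico 1 p,
            (algebraMap R F w * (c : F) - algebraMap R F (geomS ζ k) * (b : F)) := by
        push_cast
        rfl
      have e3 : ((a ^ p - b ^ p : B) : F) = (a : F) ^ p - (b : F) ^ p := by
        push_cast
        rfl
      rw [e1, e2, e3, ← hprod, hpp]
      linear_combination (algebraMap R F (ζ - 1) ^ (p - 1) * ∏ k ∈ Finset.Ico 1 p,
        (algebraMap R F w * (c : F) - algebraMap R F (geomS ζ k) * (b : F))) * hcF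
    exact hgoal
  · push_cast
    rw [← e, mul_pow]

end LocOne

section Bridge

variable {R : Type*} [CommRing R] [IsDomain R] {F : Type*} [Field F] [Algebra R F]

/-- **Bridge, depth `r`.**  `h ∈ 1 + r B_{p₁}` and `h ∈ 1 + r B_{p₂}` imply
`h ∈ 1 + r · gaussO`. -/
theorem exists_gaussO_of_locOneR {w : R} (hw : Prime w) {x : F}
    (hx : Transcendental R x) {p₁ p₂ : Ideal (chart R ({x} : Set F))}
    (hp₁ : p₁.IsPrime) (hp₂ : p₂.IsPrime)
    (hinf : p₁ ⊓ p₂ = Ideal.span {algebraMap R (chart R ({x} : Set F)) w})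
    (h₁₂ : ¬ p₁ ≤ p₂) (h₂₁ : ¬ p₂ ≤ p₁) (r : R) {h : F}
    (hone₁ : LocOneR (chart R ({x} : Set F)) p₁ r h)
    (hone₂ : LocOneR (chart R ({x} : Set F)) p₂ r h) :
    ∃ t ∈ gaussO hw x, h - 1 = algebraMap R F r * t := by
  obtain ⟨a₁, b₁, hb₁, hab₁, e₁⟩ := hone₁
  obtain ⟨a₂, b₂, hb₂, hab₂, e₂⟩ := hone₂
  obtain ⟨d₁, hd₁⟩ := Ideal.mem_span_singleton'.1 hab₁
  obtain ⟨d₂, hd₂⟩ := Ideal.mem_span_singleton'.1 hab₂
  obtain ⟨c₂, hc₂p₁, hc₂p₂⟩ := SetLike.not_le_iff_exists.1 h₁₂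
  obtain ⟨c₁, hc₁p₂, hc₁p₁⟩ := SetLike.not_le_iff_exists.1 h₂₁
  -- `c₁ ∈ p₂ ∖ p₁`, `c₂ ∈ p₁ ∖ p₂`
  set b := b₁ * c₁ + b₂ * c₂ with hb
  have hbp₁ : b ∉ p₁ := by
    intro hmem
    have h1 : b₂ * c₂ ∈ p₁ := p₁.mul_mem_left _ hc₂p₁
    have h2 : b₁ * c₁ ∈ p₁ := by
      have := p₁.sub_mem hmem h1
      rwa [hb, add_sub_cancel_right] at this
    rcases hp₁.mem_or_mem h2 with h3 | h3
    · exact hb₁ h3
    · exact hc₁p₁ h3
  have hbp₂ : b ∉ p₂ := by
    intro hmem
    have h1 : b₁ * c₁ ∈ p₂ := p₂.mul_mem_left _ hc₁p₂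
    have h2 : b₂ * c₂ ∈ p₂ := by
      have := p₂.sub_mem hmem h1
      rwa [hb, add_sub_cancel_left] at this
    rcases hp₂.mem_or_mem h2 with h3 | h3
    · exact hb₂ h3
    · exact hc₂p₂ h3
  have hbinv := inv_mem_gaussO_of_not_mem hw hx hp₁ hp₂ hinf hbp₁ hbp₂
  have hb0 : (b : F) ≠ 0 := by
    intro h0
    apply hbp₁
    have : b = 0 := Subtype.ext h0
    rw [this]
    exact p₁.zero_mem
  have hd₁F : (d₁ : F) * algebraMap R F r = (a₁ : F) - (b₁ : F) :=
    congrArg (fun t : chart R ({x} : Set F) => (t : F)) hd₁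
  have hd₂F : (d₂ : F) * algebraMap R F r = (a₂ : F) - (b₂ : F) :=
    congrArg (fun t : chart R ({x} : Set F) => (t : F)) hd₂
  have hbF : (b : F) = (b₁ : F) * c₁ + (b₂ : F) * c₂ := by rw [hb]; rfl
  refine ⟨((d₁ : F) * c₁ + (d₂ : F) * c₂) * (b : F)⁻¹,
    Subalgebra.mul_mem _ (chart_fin_le_gaussO hw x
      (Subalgebra.add_mem _ (Subalgebra.mul_mem _ d₁.2 c₁.2) (Subalgebra.mul_mem _ d₂.2 c₂.2)))
      hbinv, ?_⟩
  have key : (h - 1) * (b : F) = algebraMap R F r * ((d₁ : F) * c₁ + (d₂ : F) * c₂) := by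
    rw [hbF]
    linear_combination (c₁ : F) * e₁ + (c₂ : F) * e₂ - (c₁ : F) * hd₁F - (c₂ : F) * hd₂F
  have : h - 1 = ((h - 1) * (b : F)) * (b : F)⁻¹ := by
    rw [mul_assoc, mul_inv_cancel₀ hb0, mul_one]
  rw [this, key]
  ring

end Bridge

end Fermat.Agent.Ribet.H552

end
-- ===== PACK-END Ribet/H552/ASBridge.lean

-- ===== PACK-BEGIN Ribet/H552/GlueP.lean
section






/-!
# RIBET wall-p, piece W-ALGP (I5), leaf **GLUE-p** (helper552)

`glueP : H495.AlgP.GluePLeaf` — statement VERBATIM that of `Ribet/H495/AlgPSpec.lean`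
(sub-architect helper495): a Kummer class `v` of prime order `p` (`p` = residue characteristic,
`ζ ∈ R` a primitive `p`-th root of unity, `λ = ζ - 1`) which is locally factored at depth `λ^p w`
at every closed point of the special fibre of both charts is a `p`-th power.

Proof (route B-p).  Suppose `v` is not a `p`-th power: `L = F[X]/(X^p - v)` is a field, cyclic
Galois over `F`.
* `hRL` : `R` is integrally closed in `L` (`as_isIntegral_mem_range`: the valuation ring
  `compVal = (Bf)_{p₁}` is unramified in `L` because `v ∈ 1 + λ^p w (Bf)_{p₁}`, `R` henselian with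
  algebraically closed residue field).
* `as_ss` (field form, on `A2.H729.generic_idempotent_trivial` for the canonical Gauss ring of
  `L`): the Artin–Schreier coordinate `Y = (y - 1)/λ` of the root `y` is `≡ g_k mod w O_L` for
  one `k` globally, so `ζ^{-k} y` is fixed by `Gal(L/F)`, i.e. `v` is a `p`-th power in `F`.
Neither `p ≠ 2`, nor `p ∈ 𝔪_R`, nor `DivisibleDiv` is used.
-/

set_option autoImplicit false
set_option linter.unusedSectionVars false
set_option linter.unusedVariables false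

namespace Fermat.Agent.Ribet.H552

open Polynomial Fermat.Agent.S18.H138 Fermat.Agent.A2.H729
open Fermat.Agent.A2 Fermat.Agent.A2.Alg Fermat.Agent.Ribet.H495.AlgP

section Adapter

variable {R : Type*} [CommRing R] [IsDomain R] {F : Type*} [Field F] [Algebra R F]

theorem span_le_of_mem {B : Subalgebra R F} {n : Ideal B} {w : R}
    (hwn : algebraMap R B w ∈ n) (r : R) : Ideal.span {algebraMap R B (r * w)} ≤ n := by
  rw [Ideal.span_singleton_le_iff_mem, _root_.map_mul]
  exact n.mul_mem_left _ hwn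

theorem ssChart_mem₁ {w : R} {B : Subalgebra R F} (c : SSChart w B) :
    algebraMap R B w ∈ c.p₁ := by
  have : algebraMap R B w ∈ c.p₁ ⊓ c.p₂ := by
    rw [c.inf_eq]; exact Ideal.mem_span_singleton_self _
  exact this.1

theorem ssChart_mem₂ {w : R} {B : Subalgebra R F} (c : SSChart w B) :
    algebraMap R B w ∈ c.p₂ := by
  have : algebraMap R B w ∈ c.p₁ ⊓ c.p₂ := by
    rw [c.inf_eq]; exact Ideal.mem_span_singleton_self _
  exact this.2

/-- `v ∈ 1 + λ^p w B_q` for a prime `q ∋ w` on which the local correction factors are `≡ 1`. -/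
theorem locOneR_of_locallyFactoredP (hinj : Function.Injective (algebraMap R F)) {w : R}
    {B : Subalgebra R F} (c : SSChart w B) {p : ℕ} (hp : p.Prime) {ζ : R}
    (hζ : IsPrimitiveRoot ζ p) {v : F} (hf : LocallyFactoredP B c p (ζ - 1) v)
    (q : Ideal B) (hq : q.IsPrime) (hwq : algebraMap R B w ∈ q)
    (hsel : ∀ h : F, LocOneR B c.p₁ ((ζ - 1) * w) h → LocOneR B c.p₂ ((ζ - 1) * w) h →
      LocOneR B q ((ζ - 1) * w) h) :
    LocOneR B q ((ζ - 1) ^ p * w) v := by
  obtain ⟨𝔪, h𝔪, hq𝔪⟩ := Ideal.exists_le_maximal q hq.ne_top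
  obtain ⟨h, hh0, hloc, h1, h2⟩ := hf 𝔪 h𝔪 (hq𝔪 hwq)
  have hA : LocOneR B q ((ζ - 1) ^ p * w) (v * h ^ p) := locOne_of_le hq𝔪 hloc
  have hB : LocOneR B q ((ζ - 1) ^ p * w) (h ^ p) :=
    locOneR_pow_prime hinj hq hp hζ w (hsel h h1 h2)
  have hB' : LocOneR B q ((ζ - 1) ^ p * w) (h ^ p)⁻¹ := locOne_inv (span_le_of_mem hwq _) hB
  have hC : LocOneR B q ((ζ - 1) ^ p * w) (v * h ^ p * (h ^ p)⁻¹) := locOne_mul hq hA hB'
  rwa [mul_assoc, mul_inv_cancel₀ (pow_ne_zero _ hh0), mul_one] at hC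

/-- The wild local factorisations in Gauss-ring form (input of `as_ss`). -/
theorem wildLF_of_locallyFactoredP {w : R} (hw : Prime w) {x : F} (hx : Transcendental R x)
    (c : SSChart w (chart R ({x} : Set F))) (hc : Incomparable c) {p : ℕ} {ζ : R} {v : F}
    (hf : LocallyFactoredP (chart R ({x} : Set F)) c p (ζ - 1) v) :
    ∀ 𝔫₀ : Ideal (chart R ({x} : Set F)), 𝔫₀.IsMaximal →
      algebraMap R (chart R ({x} : Set F)) w ∈ 𝔫₀ →
      ∃ s : chart R ({x} : Set F), s ∉ 𝔫₀ ∧ ∃ h ε : F,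
        (∃ t ∈ gaussO hw x, h - 1 = algebraMap R F ((ζ - 1) * w) * t) ∧ v = ε * h ^ p ∧
        ∃ c' ∈ chart R ({x} : Set F),
          (s : F) * (ε - 1) = algebraMap R F ((ζ - 1) ^ p * w) * c' := by
  intro 𝔫₀ h𝔫 hw𝔫
  obtain ⟨h, hh0, ⟨a, b, hb, hab, e⟩, h1, h2⟩ := hf 𝔫₀ h𝔫 hw𝔫
  have h1' : LocOneR (chart R ({x} : Set F)) c.p₁ ((ζ - 1) * w) h⁻¹ :=
    locOne_inv (span_le_of_mem (ssChart_mem₁ c) (ζ - 1)) h1
  have h2' : LocOneR (chart R ({x} : Set F)) c.p₂ ((ζ - 1) * w) h⁻¹ :=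
    locOne_inv (span_le_of_mem (ssChart_mem₂ c) (ζ - 1)) h2
  obtain ⟨t, ht, htt⟩ := exists_gaussO_of_locOneR hw hx c.prime₁ c.prime₂ c.inf_eq hc.1 hc.2
    ((ζ - 1) * w) h1' h2'
  obtain ⟨c', hc'⟩ := Ideal.mem_span_singleton'.1 hab
  refine ⟨b, hb, h⁻¹, v * h ^ p, ⟨t, ht, htt⟩, ?_, c', c'.2, ?_⟩
  · rw [inv_pow, mul_assoc, mul_inv_cancel₀ (pow_ne_zero _ hh0), mul_one]
  · have hc'F : (c' : F) * algebraMap R F ((ζ - 1) ^ p * w) = (a : F) - (b : F) :=
      congrArg (fun t : chart R ({x} : Set F) => (t : F)) hc'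
    linear_combination e - hc'F

/-- `v ∈ 1 + λ^p w · gaussO`. -/
theorem exists_gaussO_of_locallyFactoredP (hinj : Function.Injective (algebraMap R F)) {w : R}
    (hw : Prime w) {x : F} (hx : Transcendental R x)
    (c : SSChart w (chart R ({x} : Set F))) (hc : Incomparable c) {p : ℕ} (hp : p.Prime)
    {ζ : R} (hζ : IsPrimitiveRoot ζ p) {v : F}
    (hf : LocallyFactoredP (chart R ({x} : Set F)) c p (ζ - 1) v) :
    ∃ t ∈ gaussO hw x, v - 1 = algebraMap R F ((ζ - 1) ^ p * w) * t :=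
  exists_gaussO_of_locOneR hw hx c.prime₁ c.prime₂ c.inf_eq hc.1 hc.2 _
    (locOneR_of_locallyFactoredP hinj c hp hζ hf c.p₁ c.prime₁ (ssChart_mem₁ c)
      (fun _ h1 _ => h1))
    (locOneR_of_locallyFactoredP hinj c hp hζ hf c.p₂ c.prime₂ (ssChart_mem₂ c)
      (fun _ _ h2 => h2))

end Adapter

section Final

variable {R E F : Type*} [CommRing R] [IsDomain R] [IsDiscreteValuationRing R]
  [HenselianLocalRing R] [IsAlgClosed (IsLocalRing.ResidueField R)]
  [Field E] [CharZero E] [Algebra R E] [IsFractionRing R E]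
  [Field F] [Algebra E F] [Algebra R F] [IsScalarTower R E F]

/-- **GLUE-p**, universe-polymorphic form, without the unused hypotheses. -/
theorem glueP_core (p : ℕ) (hp : p.Prime) (ζ : R) (hζ : IsPrimitiveRoot ζ p)
    (w : R) (x : F) (Bf Bi : Subalgebra R F)
    (hBf : ChartCtx E w x Bf) (hBi : ChartCtx E w x⁻¹ Bi)
    (cf : SSChart w Bf) (ci : SSChart w Bi) (hcf : Incomparable cf) (hci : Incomparable ci)
    (v : F) (hv : v ≠ 0)
    (hf : LocallyFactoredP Bf cf p (ζ - 1) v) (hi : LocallyFactoredP Bi ci p (ζ - 1) v) :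
    ∃ y : F, y ≠ 0 ∧ v = y ^ p := by
  classical
  obtain rfl := H34.chart_eq x Bf hBf.hB
  obtain rfl := H34.chart_eq x⁻¹ Bi hBi.hB
  have : CharZero F := H34.charZero_of_field (E := E)
  have := H34.finiteDimensional_baseField (R := R) x hBf.hfin
  have hinjR : Function.Injective (algebraMap R F) := H34.algebraMap_RF_injective E
  have hx : Transcendental R x := H34.transcendental_of_field hBf.hx
  have hx0 : x ≠ 0 := ne_zero_of_transcendental hx
  have hxi : Transcendental R x⁻¹ := transcendental_inv hx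
  have hw : Prime w := hBf.hw.prime
  have hw0 : algebraMap R F w ≠ 0 := fun h => hw.ne_zero (hinjR (by rw [h, _root_.map_zero]))
  by_contra hcon
  have hnp : ∀ b : F, b ^ p ≠ v := by
    intro b hb
    apply hcon
    refine ⟨b, ?_, hb.symm⟩
    rintro rfl
    rw [zero_pow hp.ne_zero] at hb
    exact hv hb.symm
  have hirr : Irreducible (X ^ p - C v) := X_pow_sub_C_irreducible_of_prime hp hnp
  have hfact := Fact.mk hirr
  -- the cover `L = F[X]/(X^p - v)`
  have hζF : IsPrimitiveRoot (algebraMap R F ζ) p := hζ.map_of_injective hinjR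
  have hprim : (primitiveRoots p F).Nonempty := ⟨_, (mem_primitiveRoots hp.pos).2 hζF⟩
  have hsplit := isSplittingField_AdjoinRoot_X_pow_sub_C hprim hirr
  have hgal : IsGalois F (AdjoinRoot (X ^ p - C v)) :=
    isGalois_of_isSplittingField_X_pow_sub_C hprim hirr _
  have hfd : FiniteDimensional F (AdjoinRoot (X ^ p - C v)) :=
    IsSplittingField.finiteDimensional _ (X ^ p - C v)
  have hι : Function.Injective (algebraMap F (AdjoinRoot (X ^ p - C v))) :=
    (algebraMap F _).injective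
  have hinjL : Function.Injective (algebraMap R (AdjoinRoot (X ^ p - C v))) := by
    rw [IsScalarTower.algebraMap_eq R F]
    exact hι.comp hinjR
  have : CharZero (AdjoinRoot (X ^ p - C v)) := charZero_of_injective_algebraMap hι
  have hxL : Transcendental R (algebraMap F (AdjoinRoot (X ^ p - C v)) x) :=
    (transcendental_algebraMap_iff hι).2 hx
  have hfdL := Fermat.Agent.A2.H552.finiteDimensional_baseField_cover (R := R) (E := E)
    (L := AdjoinRoot (X ^ p - C v)) x hBf.hfin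
  -- the root
  have hyu : (AdjoinRoot.root (X ^ p - C v)) ^ p = algebraMap F (AdjoinRoot (X ^ p - C v)) v := by
    have h := AdjoinRoot.eval₂_root (X ^ p - C v : F[X])
    rw [eval₂_sub, eval₂_pow, eval₂_X, eval₂_C, sub_eq_zero] at h
    exact h
  -- Gauss-ring data on the base
  have hgen := exists_gaussO_of_locallyFactoredP hinjR hw hx cf hcf hp hζ hf
  have hLF_fin := wildLF_of_locallyFactoredP hw hx cf hcf hf
  have hLF_inf := wildLF_of_locallyFactoredP hw hxi ci hci hi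
  rw [gaussO_inv hw hx0] at hLF_inf
  -- no new constants
  have hRL : ∀ y : AdjoinRoot (X ^ p - C v), IsIntegral R y →
      y ∈ Set.range (algebraMap R (AdjoinRoot (X ^ p - C v))) := by
    obtain ⟨hN, -, hFr⟩ := H34.chart_instances' w x (chart R ({x} : Set F)) hBf
    have := hN
    have := hFr
    obtain ⟨a, b, hb, hab, e⟩ := locOneR_of_locallyFactoredP hinjR cf hp hζ hf cf.p₁ cf.prime₁
      (ssChart_mem₁ cf) (fun _ h1 _ => h1)
    obtain ⟨c', hc'⟩ := Ideal.mem_span_singleton'.1 hab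
    have hb0 : (b : F) ≠ 0 := Alg.H729.coe_ne_zero_of_not_mem hb
    have hc'F : (c' : F) * algebraMap R F ((ζ - 1) ^ p * w) = (a : F) - (b : F) :=
      congrArg (fun t : chart R ({x} : Set F) => (t : F)) hc'
    have ht : (c' : F) * (b : F)⁻¹ ∈ Alg.H729.compVal w (chart R ({x} : Set F)) cf.p₁ cf.p₂
        cf.prime₁ cf.inf_eq hcf.2 hw0 := by
      refine ⟨c', b, hb, ?_⟩
      rw [mul_assoc, inv_mul_cancel₀ hb0, mul_one]
    have hvt : v = 1 + algebraMap R F ((ζ - 1) ^ p * w) * ((c' : F) * (b : F)⁻¹) := by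
      have e1 : (b : F) * (b : F)⁻¹ = 1 := mul_inv_cancel₀ hb0
      linear_combination (b : F)⁻¹ * e - (b : F)⁻¹ * hc'F - (v - 1) * e1
    intro y hy
    exact as_isIntegral_mem_range E w hBf.hw
      (Alg.H729.compVal w (chart R ({x} : Set F)) cf.p₁ cf.p₂ cf.prime₁ cf.inf_eq hcf.2 hw0)
      (Alg.H729.algebraMap_mem_compVal w _ cf.p₁ cf.p₂ cf.prime₁ cf.inf_eq hcf.2 hw0)
      (Alg.H729.inv_not_mem_compVal w _ cf.p₁ cf.p₂ cf.prime₁ cf.inf_eq hcf.2 hw0)
      (Alg.H729.mul_inv_mem_compVal w _ cf.p₁ cf.p₂ cf.prime₁ cf.inf_eq hcf.2 hw0)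
      (Alg.H729.exists_pow_mul_mem_compVal w _ cf.p₁ cf.p₂ cf.prime₁ cf.inf_eq hcf.2 hw0)
      p hp ζ hζ _ ht (AdjoinRoot.root (X ^ p - C v)) (by rw [hyu, ← hvt])
      (fun b => by rw [AdjoinRoot.adjoinRoot_eq_top]; exact Algebra.mem_top) y hy
  obtain ⟨y₀, hy₀⟩ := as_ss (F₀ := F) (F := AdjoinRoot (X ^ p - C v)) hinjL hRL hxL hw hp hζ
    hyu hgen hLF_fin hLF_inf
  exact hnp y₀ hy₀

end Final

/-- **GLUE-p** : the leaf `GluePLeaf` of `Ribet/H495/AlgPSpec.lean`, VERBATIM. -/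
theorem glueP : GluePLeaf := by
  intro R E F _ _ _ _ _ _ _ _ _ _ _ _ _ p hp _ _ ζ hζ w x Bf Bi hBf hBi cf ci hcf hci v hv _ hf hi
  exact glueP_core p hp ζ hζ w x Bf Bi hBf hBi cf ci hcf hci v hv hf hi

end Fermat.Agent.Ribet.H552

end
-- ===== PACK-END Ribet/H552/GlueP.lean

-- ===== PACK-BEGIN Ribet/H552/AlgPFinal.lean
section





/-!
# RIBET wall-p, piece W-ALGP (I5): `AlgPStatement`, UNCONDITIONAL (helper552)

`algP : H495.AlgP.AlgPStatement` — the frozen interface of `Ribet/H495/AlgPSpec.lean`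
(sub-architect helper495), from the assembly `H495.AlgP.algP_of_leaves` and the three leaves
* WPS   `H913.wpSmoothLeaf` (helper913),
* WPN   `H224.wpNodeLeaf`   (helper224),
* GLUE-p `H552.glueP`       (helper552).
-/

set_option autoImplicit false

namespace Fermat.Agent.Ribet.H552

/-- **ALG-p** (wild ALG): inertia acts on the deeply split Kummer classes of order `p` through the
cyclotomic exponent. -/
theorem algP : Fermat.Agent.Ribet.H495.AlgP.AlgPStatement :=
  Fermat.Agent.Ribet.H495.AlgP.algP_of_leaves Fermat.Agent.Ribet.H913.wpSmoothLeaf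
    Fermat.Agent.Ribet.H224.wpNodeLeaf glueP

end Fermat.Agent.Ribet.H552

end
-- ===== PACK-END Ribet/H552/AlgPFinal.lean

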