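import Mathlib
import Fermat.Prelude.Thm_ModularCurve_coeffMap_qExpand
import Fermat.Prelude.Def_ModularCurve_X0ModL
import Fermat.Prelude.Def_EllipticCurve_FrobeniusTrace
import Fermat.Prelude.Def_ModularCurve_HeckeOperator
import Fermat.Agent.Pack.S33.E19L3
import Fermat.Agent.Pack.S33.E20L2
import Fermat.Agent.Pack.S33.E18L0
import Fermat.Agent.Pack.S33.E18L3
import Fermat.Agent.Pack.S33.E14L3
import Fermat.Agent.Pack.S33.E4L2
import Fermat.Agent.Pack.S33.E17L0
import Fermat.Agent.Pack.S33.E17L1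
import Fermat.Agent.Pack.S33.E20L1
import Fermat.Agent.Pack.S33.E7L0
import Fermat.Agent.Pack.S33.E18L2
import Fermat.Agent.Pack.S33.E1L1
import Fermat.Agent.Pack.S33.E19L0
import Fermat.Agent.Pack.S33.E11L1
import Fermat.Agent.Pack.S33.E13L3
import Fermat.Agent.Pack.S33.E20L0
import Fermat.Agent.Pack.S33.E13L0
import Fermat.Agent.Pack.S33.E3L0
import Fermat.Agent.Pack.S33.E5L0
import Fermat.Agent.Pack.S33.E6L1

-- ===== PACK-BEGIN S29/H150/K2Hol.lean
section
/-
S29 / M4b / piece K2 (helper150), part 1: analytic preparation.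

* `k2Char hc` : the multiplicative character `γ ↦ ζ_p ^ c(γ)` of a parabolic hom `c`;
* `mem_holN_of_isTwisted` : a twisted function (M4b `IsTwisted`) lies in the S24 ring `holN N`;
* `qexp_eq_qExpand` : the S24 expansion in `q^{1/N}` of a function with `q`-expansion `φ`
  is `φ(z^N)`;
* `sigmaG_eq_of_qexp` : the S24 embedding `σ_g` of `u ∈ FF N` is the expansion of `G ∘ g⁻¹`
  for every `G ∈ holN N` with the `q`-expansion of `u`.
-/







set_option autoImplicit false
set_option linter.unusedSectionVars false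

noncomputable section

open ModularCurve AlgebraicCurve CongruenceSubgroup UpperHalfPlane HahnSeries
open scoped MatrixGroups Manifold

namespace Fermat.Agent.S29.H150

open Fermat.Agent.S24 Fermat.Agent.S24.H997 Fermat.Agent.S29 Fermat.Agent.S29.M4b

local notation "Δ" => ModularForm.discriminant

variable {N : ℕ} [NeZero N] {p : ℕ} [NeZero p]

/-! ### The character `ζ_p ^ c` -/

theorem k2_map_one {c : G0 N → ZMod p} (hc : IsParHom c) : c 1 = 0 := by
  have h := hc.map_mul 1 1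
  rw [mul_one] at h
  have h2 : c 1 + 0 = c 1 + c 1 := by rw [add_zero]; exact h
  exact (add_left_cancel h2).symm

/-- The multiplicative character `γ ↦ ζ_p ^ c(γ)`. -/
def k2Char {c : G0 N → ZMod p} (hc : IsParHom c) : Gamma0 N →* ℂˣ where
  toFun γ := Units.mk0 (zetaP p ^ (c γ).val) (pow_ne_zero _ (H822.zetaP_ne_zero p))
  map_one' := by
    apply Units.ext
    show zetaP p ^ (c 1).val = 1
    rw [k2_map_one hc, ZMod.val_zero, pow_zero]
  map_mul' γ γ' := by
    apply Units.ext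
    show zetaP p ^ (c (γ * γ')).val = zetaP p ^ (c γ).val * zetaP p ^ (c γ').val
    rw [hc.map_mul, H822.zetaP_pow_val_add]

theorem k2Char_coe {c : G0 N → ZMod p} (hc : IsParHom c) (γ : Gamma0 N) :
    ((k2Char hc γ : ℂˣ) : ℂ) = zetaP p ^ (c γ).val := rfl

theorem k2Char_eq_one_of {c : G0 N → ZMod p} (hc : IsParHom c) {γ : Gamma0 N} (h : c γ = 0) :
    k2Char hc γ = 1 := by
  apply Units.ext
  rw [k2Char_coe, h, ZMod.val_zero, pow_zero, Units.val_one]

theorem k2Char_parTrivial {c : G0 N → ZMod p} (hc : IsParHom c) :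
    H332.ParTrivial (k2Char hc) := fun γ hγ => k2Char_eq_one_of hc (hc.parabolic γ hγ)

theorem k2Char_ellTrivial {c : G0 N → ZMod p} (hc : IsParHom c) :
    H332.EllTrivial (k2Char hc) := fun γ n hn hγ => k2Char_eq_one_of hc (hc.elliptic γ n hn hγ)

theorem hasCharacter_of_hasChar {c : G0 N → ZMod p} (hc : IsParHom c) {U : ℍ → ℂ}
    (hU : HasChar N p c U) : H332.HasCharacter (k2Char hc) U := fun γ τ => by
  rw [k2Char_coe]
  exact hU γ τ

/-! ### Twisted functions lie in `holN N` -/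

omit [NeZero N] in
theorem norm_le_one_add_norm_pow (x : ℂ) : ‖x‖ ≤ 1 + ‖x ^ p‖ := by
  rw [norm_pow]
  rcases le_or_gt ‖x‖ 1 with h | h
  · have : 0 ≤ ‖x‖ ^ p := pow_nonneg (norm_nonneg x) p
    linarith
  · have h1 : ‖x‖ ≤ ‖x‖ ^ p := le_self_pow₀ h.le (NeZero.ne p)
    linarith

omit [NeZero N] in
theorem exists_bdd_of_expGrowth_pow {U : ℍ → ℂ} (g : SL(2, ℤ))
    (h : H648.ExpGrowth (fun τ => U (g • τ) ^ p)) :
    ∃ m : ℕ, IsBoundedAtImInfty (fun τ => Δ τ ^ m * compSL g U τ) := by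
  obtain ⟨C, m, hC⟩ := h
  refine ⟨m, ?_⟩
  have hb : IsBoundedAtImInfty (fun τ => compSL g U τ * Δ τ ^ m) := by
    apply H108.isBoundedAtImInfty_mul_discriminant_pow_of_exp_growth
    refine ⟨1 + |C|, 1, fun τ hτ => ?_⟩
    have h1 := hC τ hτ
    have h2 := norm_le_one_add_norm_pow (p := p) (U (g • τ))
    have he : 1 ≤ Real.exp (2 * Real.pi * m * τ.im) := by
      apply Real.one_le_exp
      have := τ.im_pos
      have := Real.pi_pos
      positivity
    have h3 : C * Real.exp (2 * Real.pi * m * τ.im) ≤ |C| * Real.exp (2 * Real.pi * m * τ.im) :=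
      mul_le_mul_of_nonneg_right (le_abs_self C) (Real.exp_pos _).le
    show ‖U (g • τ)‖ ≤ _
    calc ‖U (g • τ)‖ ≤ 1 + ‖U (g • τ) ^ p‖ := h2
      _ ≤ 1 + |C| * Real.exp (2 * Real.pi * m * τ.im) := by linarith
      _ ≤ Real.exp (2 * Real.pi * m * τ.im) + |C| * Real.exp (2 * Real.pi * m * τ.im) := by
          linarith
      _ = (1 + |C|) * Real.exp (2 * Real.pi * m * τ.im) := by ring
  have : (fun τ => Δ τ ^ m * compSL g U τ) = fun τ => compSL g U τ * Δ τ ^ m := by
    funext τ; ring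
  rw [this]
  exact hb

/-- A twisted function lies in the S24 ring `holN N`. -/
theorem mem_holN_of_isTwisted {c : G0 N → ZMod p} (hc : IsParHom c) {U : ℍ → ℂ}
    (hU : IsTwisted N p c U) : U ∈ holN N := by
  refine ⟨hU.mdiff, fun g => ?_⟩
  obtain ⟨m, hm⟩ := exists_bdd_of_expGrowth_pow (p := p) g (hU.pow_mem.2.2 g)
  exact (hasCharacter_of_hasChar hc hU.hasChar).compSL_mem_expRing (k2Char_parTrivial hc)
    hU.mdiff m g hm

omit [NeZero N] [NeZero p] in
theorem ne_zero_of_isTwisted {c : G0 N → ZMod p} {U : ℍ → ℂ}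
    (hU : IsTwisted N p c U) : U ≠ 0 := by
  obtain ⟨τ, hτ⟩ := hU.ne_zero
  intro h
  exact hτ (by rw [h]; rfl)

/-! ### Comparison of expansions -/

omit [NeZero N] in
theorem infExp_one_of_hasQExp {f : ℍ → ℂ} {φ : LaurentSeries ℂ} (h : H708.HasQExp 1 f φ) :
    InfExp 1 f φ := fun τ => by
  have := h.hasSum τ
  exact this

theorem infExp_of_hasQExp_one {f : ℍ → ℂ} {φ : LaurentSeries ℂ} (h : H708.HasQExp 1 f φ) :
    InfExp N f (qExpand ℂ N φ) := by
  have h1 : InfExp 1 f φ := infExp_one_of_hasQExp h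
  have h2 := h1.subst (N := N) (fun τ => τ) 1 N (fun τ => by
    rw [Units.val_one, one_mul, infZ_def, infZ_def, ← Complex.exp_nat_mul]
    congr 1
    have hN : (N : ℂ) ≠ 0 := by exact_mod_cast NeZero.ne N
    push_cast
    field_simp)
  rwa [infTwist_one] at h2

/-- The S24 expansion (in `q^{1/N}`) of an element of `holN N` with `q`-expansion `φ`. -/
theorem qexp_eq_qExpand {f : ℍ → ℂ} (hf : f ∈ holN N) {φ : LaurentSeries ℂ}
    (h : H708.HasQExp 1 f φ) :
    (holBase N).qexp ⟨f, hf⟩ = qExpand ℂ N φ :=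
  (expInf_spec (holToExp N ⟨f, hf⟩)).unique (infExp_of_hasQExp_one h)

/-- The S24 expansion of an analytic realisation of `u ∈ FF N`. -/
theorem qexp_eq_Φ_of_realises {u : FF N} {G : ℍ → ℂ} (hG : G ∈ holN N)
    (hu : Realises N u G) :
    (holBase N).qexp ⟨G, hG⟩ = HolBase.Φ N ((u : FF N) : LaurentSeries Kbar) :=
  qexp_eq_qExpand hG (H822.realises_hasQExp hu)

/-! ### The embeddings `σ_g` on realised elements -/

/-- If `G ∈ holN N` has the `q`-expansion of `u ∈ FF N`, then `σ_g u` is the expansion of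
`G ∘ g⁻¹`, for every S24 expansion `X` and every `g ∈ SL₂(ℤ)`. -/
theorem sigmaG_eq_of_qexp (X : Expansion (holBase N)) (g : SL(2, ℤ)) {u : FF N} {G : ℍ → ℂ}
    (hG : G ∈ holN N)
    (hq : (holBase N).qexp ⟨G, hG⟩ = HolBase.Φ N ((u : FF N) : LaurentSeries Kbar)) :
    (holBase N).sigmaG X g u = X.E ((holBase N).compH g⁻¹ ⟨G, hG⟩) := by
  obtain ⟨r, t, ht, rfl⟩ := exists_div_inclRN N u
  have ht' : (holBase N).bridge t ≠ 0 := fun h0 =>
    ht ((holBase N).bridge_injective (h0.trans (_root_.map_zero _).symm))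
  have key : (⟨G, hG⟩ : (holBase N).Hol) * (holBase N).bridge t = (holBase N).bridge r := by
    apply (holBase N).qexp_injective
    rw [_root_.map_mul, hq, HolBase.qexp_bridge, HolBase.qexp_bridge]
    have h1 : (((inclRN N r / inclRN N t : FF N) : FF N) : LaurentSeries Kbar)
        = (r : LaurentSeries Kbar) / (t : LaurentSeries Kbar) := rfl
    rw [h1, map_div₀]
    have h2 : HolBase.Φ N (t : LaurentSeries Kbar) ≠ 0 := by
      rw [← HolBase.qexp_bridge (holBase N)]
      intro h0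
      exact ht' ((holBase N).qexp_injective (h0.trans (_root_.map_zero _).symm))
    exact div_mul_cancel₀ _ h2
  have hE : X.E ((holBase N).compH g⁻¹ ((holBase N).bridge t)) ≠ 0 := by
    intro h0
    have h1 := X.inj (h0.trans (_root_.map_zero _).symm)
    exact ht' ((holBase N).compH_injective g⁻¹ (h1.trans (_root_.map_zero _).symm))
  rw [map_div₀, HolBase.sigmaG_inclRN, HolBase.sigmaG_inclRN, ← key, _root_.map_mul, _root_.map_mul,
    mul_div_assoc, div_self hE, mul_one]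

end Fermat.Agent.S29.H150

end
end
-- ===== PACK-END S29/H150/K2Hol.lean

-- ===== PACK-BEGIN S29/H150/K2Local.lean
section
/-
S29 / M4b / piece K2 (helper150), part 2: local divisibility at every place.

For the S24 local data `mkLocalData X ε R t` at the zero of `t` (`t = j - a` or `t = 1/j`):
if `u ∈ FF N` is realised by `U ^ p`, `U ∈ holN N` with a character killing all conjugates of
powers of `ε` lying in `Γ₀(N)`, then `p ∣ ord_v u` at every place `v` with `ord_v t > 0`.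
-/




set_option autoImplicit false
set_option linter.unusedSectionVars false
set_option linter.style.haveILetI false
set_option linter.unusedTactic false

noncomputable section

open ModularCurve AlgebraicCurve CongruenceSubgroup UpperHalfPlane HahnSeries
open scoped MatrixGroups Manifold

namespace Fermat.Agent.S29.H150

open Fermat.Agent.S24 Fermat.Agent.S24.H997 Fermat.Agent.S29 Fermat.Agent.S29.M4b

/-! ### Orbits of the monodromy permutation -/

section Orbit

variable {K F : Type*} [Field K] [Field F] [Algebra K F] [IsAlgClosed K] [CharZero K]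
variable {C : Type*} [Field C] [CharZero C] {X : Type*} [Finite X]

/-- The ramification index of the place induced by `x` is the length of the cycle of `x`. -/
theorem orbit_card_eq_ord (t : F) [FiniteDimensional ↥(IntermediateField.adjoin K {t}) F]
    (hrank : Module.finrank ↥(IntermediateField.adjoin K {t}) F = Nat.card X)
    (d : LocalData K F C X t) (x : X) :
    (Nat.card (MulAction.orbit (Subgroup.zpowers d.perm) x) : ℤ) = (H117.placeOf d x).ord t := by
  classical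
  have hfin : (zeroPlaces K t).Finite := (sub_local_count t hrank d).1
  have hs : ∀ v : Place K F, v ∈ hfin.toFinset ↔ 0 < v.ord t := fun v => by simp [zeroPlaces]
  have hsum := (sub_local_count t hrank d).2.2
  rw [finsum_mem_eq_finite_toFinset_sum _ hfin] at hsum
  exact (H117.localThm d (IntermediateField.adjoin K {t}) le_rfl hrank hfin.toFinset hs
    hsum.ge).2.1 x

omit [Finite X] in
theorem perm_pow_orbit_card [Finite X] (π : Equiv.Perm X) (x : X) :
    (π ^ Nat.card (MulAction.orbit (Subgroup.zpowers π) x)) x = x := by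
  classical
  haveI : Fintype (MulAction.orbit (Subgroup.zpowers π) x) := Fintype.ofFinite _
  have h := Function.isPeriodicPt_minimalPeriod (fun y : X => π • y) x
  rw [MulAction.minimalPeriod_eq_card, ← Nat.card_eq_fintype_card] at h
  have h2 : (fun y : X => π • y)^[Nat.card (MulAction.orbit (Subgroup.zpowers π) x)] x = x := h
  rw [smul_iterate] at h2
  exact h2

end Orbit

variable {N : ℕ} [NeZero N] {p : ℕ} [NeZero p]

/-! ### The key local statement -/

theorem permOf_pow_apply (ε : SL(2, ℤ)) (k : ℕ) (g : SL(2, ℤ)) :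
    (permOf N ε ^ k) (g : XX N) = ((ε ^ k * g : SL(2, ℤ)) : XX N) := by
  induction k with
  | zero => simp
  | succ k ih =>
    rw [pow_succ', Equiv.Perm.mul_apply, ih, pow_succ', mul_assoc]
    rfl

/-- **Local divisibility.** -/
theorem dvd_ord_of_mkLocalData (X : Expansion (holBase N)) (ε : SL(2, ℤ))
    (R : RotData (holBase N) X ε) (t : FF N) (s : LaurentSeries ℂ)
    (ht : ∀ g : SL(2, ℤ), (holBase N).sigmaG X g t = s) (hs : s.order = (R.m : ℤ))
    [FiniteDimensional ↥(IntermediateField.adjoin Kbar {t}) (FF N)]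
    (hrank : Module.finrank ↥(IntermediateField.adjoin Kbar {t}) (FF N) = Nat.card (XX N))
    {χ : Gamma0 N →* ℂˣ}
    (hχε : ∀ (g : SL(2, ℤ)) (k : ℕ) (hk : g * ε ^ k * g⁻¹ ∈ Gamma0 N), χ ⟨_, hk⟩ = 1)
    {U : ℍ → ℂ} (hchar : H332.HasCharacter χ U) (hmem : U ∈ holN N) (hU0 : U ≠ 0)
    {u : FF N}
    (hq : (holBase N).qexp (⟨U, hmem⟩ ^ p)
      = HolBase.Φ N ((u : FF N) : LaurentSeries Kbar))
    (v : Place Kbar (FF N)) (hv : 0 < v.ord t) : (p : ℤ) ∣ v.ord u := by
  classical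
  haveI : Finite (XX N) := inferInstance
  set d : LocalData Kbar (FF N) ℂ (XX N) t := (holBase N).mkLocalData X ε R t s ht hs with hd
  obtain ⟨x, hx⟩ := H117.exists_placeOf_eq d (IntermediateField.adjoin Kbar {t}) le_rfl hrank v hv
  -- the cycle length
  set k : ℕ := Nat.card (MulAction.orbit (Subgroup.zpowers d.perm) x) with hk
  have hke : (k : ℤ) = (H117.placeOf d x).ord t := orbit_card_eq_ord t hrank d x
  have hkpos : (0 : ℤ) < k := by rw [hke, hx]; exact hv
  have hper : (d.perm ^ k) x = x := perm_pow_orbit_card d.perm x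
  -- representative
  set g : SL(2, ℤ) := Quotient.out x with hg
  have hxg : ((g : SL(2, ℤ)) : XX N) = x := QuotientGroup.out_eq' x
  have hmemΓ : g⁻¹ * ε ^ k * g⁻¹⁻¹ ∈ Gamma0 N := by
    have h1 : (permOf N ε⁻¹ ^ k) (g : XX N) = (g : XX N) := by
      rw [hxg]; exact hper
    rw [permOf_pow_apply] at h1
    have h2 := QuotientGroup.eq.mp h1
    have h3 : (ε⁻¹ ^ k * g)⁻¹ * g = g⁻¹ * ε ^ k * g⁻¹⁻¹ := by
      rw [mul_inv_rev, inv_pow, inv_inv, inv_inv]
    rwa [h3] at h2
  -- rotation argument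
  have hdiv := hchar.dvd_mul_order hmem hU0 X R g⁻¹ k hmemΓ (hχε _ _ hmemΓ)
  set n : ℤ := (X.E ((holBase N).compH g⁻¹ ⟨U, hmem⟩)).order with hn
  -- `m = mult * e`
  have hm : (H117.mult d x : ℤ) * (H117.placeOf d x).ord t = (R.m : ℤ) := H117.mult_mul_ord_t d x
  rw [← hke] at hm
  have hmult : (H117.mult d x : ℤ) ∣ n := by
    rw [← hm] at hdiv
    have h4 : (H117.mult d x : ℤ) * k ∣ n * k := by rwa [mul_comm n k]
    exact (mul_dvd_mul_iff_right hkpos.ne').mp h4
  -- the order of `σ_x u`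
  have hσ : d.σ x u = X.E ((holBase N).compH g⁻¹ ⟨U, hmem⟩) ^ p := by
    show (holBase N).sigmaG X g u = _
    have hG : (fun τ => U τ ^ p) ∈ holN N := (holN N).pow_mem hmem p
    have := sigmaG_eq_of_qexp X g (u := u) (G := fun τ => U τ ^ p) hG hq
    rw [this, ← map_pow, ← map_pow]
    rfl
  have hord := H117.order_eq d x u
  rw [hσ, HahnSeries.order_pow, hx, nsmul_eq_mul, ← hn] at hord
  obtain ⟨n', hn'⟩ := hmult
  have hmpos : (H117.mult d x : ℤ) ≠ 0 := by
    exact_mod_cast (H117.mult_pos d x).ne'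
  refine ⟨n', ?_⟩
  have h5 : (H117.mult d x : ℤ) * v.ord u = (H117.mult d x : ℤ) * ((p : ℤ) * n') := by
    rw [← hord, hn']; push_cast; ring
  exact mul_left_cancel₀ hmpos h5

end Fermat.Agent.S29.H150

end
end
-- ===== PACK-END S29/H150/K2Local.lean

-- ===== PACK-BEGIN S29/H150/K2.lean
section
/-
S29 / M4b / PIECE K2 (helper150): `pieceK2 : PieceK2 N p` for every modulus `p ≠ 0`
(EXACT `Prop` of `Fermat/Agent/S29/M4b/Top.lean`, = `exists_isKummerClass_of_realised` of
helper822's skeleton), DIRECTLY over `ℚ̄` on top of the landed S24 dictionary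
(`H997.analyticCore`, `H117.exists_placeOf_eq`, `H117.order_eq`, `H117.localThm`) and the
rotation lemma `H332.HasCharacter.dvd_mul_order`.

If `u ∈ FF N` is realised by `U ^ p`, `U` twisted of a character killing parabolic and
finite-order elements, then `p ∣ ord_v u` at EVERY place `v` of `FF N / ℚ̄`; the divisor
`(1/p) div u` has degree `0` and its class is the Kummer class of `u`.
-/




set_option autoImplicit false
set_option linter.unusedSectionVars false
set_option linter.style.haveILetI false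

noncomputable section

open ModularCurve AlgebraicCurve CongruenceSubgroup UpperHalfPlane HahnSeries
open scoped MatrixGroups Manifold

namespace Fermat.Agent.S29.H150

open Fermat.Agent.S24 Fermat.Agent.S24.H997 Fermat.Agent.S29 Fermat.Agent.S29.M4b

variable {N : ℕ} [NeZero N] {p : ℕ} [NeZero p]

/-! ### Finite order of the rotations `1`, `S`, `S * T` -/

theorem k2_S_pow : (ModularGroup.S : SL(2, ℤ)) ^ 12 = 1 := by
  have h4 : (ModularGroup.S : SL(2, ℤ)) ^ 4 = 1 := by
    ext i j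
    fin_cases i <;> fin_cases j <;>
      simp [pow_succ, ModularGroup.S, Matrix.mul_apply, Fin.sum_univ_two]
  have : (ModularGroup.S : SL(2, ℤ)) ^ 12 = (ModularGroup.S ^ 4) ^ 3 := by rw [← pow_mul]
  rw [this, h4, one_pow]

theorem k2_ST_pow : (ModularGroup.S * ModularGroup.T : SL(2, ℤ)) ^ 12 = 1 := by
  have h6 : (ModularGroup.S * ModularGroup.T : SL(2, ℤ)) ^ 6 = 1 := by
    ext i j
    fin_cases i <;> fin_cases j <;>
      simp [pow_succ, ModularGroup.S, ModularGroup.T, Matrix.mul_apply, Fin.sum_univ_two]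
  have : (ModularGroup.S * ModularGroup.T : SL(2, ℤ)) ^ 12
      = ((ModularGroup.S * ModularGroup.T) ^ 6) ^ 2 := by rw [← pow_mul]
  rw [this, h6, one_pow]

/-- Point data over every finite point `a ∈ ℚ̄`, with a rotation of finite order. -/
theorem exists_pointData (a : Kbar) :
    ∃ (ε : SL(2, ℤ)) (_ : PointData (holBase N) (ιK a) ε), ε ^ 12 = 1 := by
  by_cases h0 : a = 0
  · refine ⟨ModularGroup.S * ModularGroup.T, ?_, k2_ST_pow⟩
    rw [h0, _root_.map_zero]
    exact (analyticCore N).at0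
  · by_cases h1 : a = 1728
    · refine ⟨ModularGroup.S, ?_, k2_S_pow⟩
      have : ιK a = 1728 := by rw [h1]; exact map_ofNat ιK 1728
      rw [this]
      exact (analyticCore N).at1728
    · refine ⟨1, ?_, one_pow 12⟩
      exact (analyticCore N).generic (ιK a)
        (fun h => h0 (ιK_injective (by rw [h, _root_.map_zero])))
        (fun h => h1 (ιK_injective (by rw [h]; exact (map_ofNat ιK 1728).symm)))

/-! ### Divisibility at every place -/

/-- **DICT (hard direction) over `ℚ̄`**: `p ∣ ord_v u` at every place. -/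
theorem dvd_ord_of_realised {c : G0 N → ZMod p} (hc : IsParHom c) {U : ℍ → ℂ} {u : FF N}
    (hU : IsTwisted N p c U) (hu : Realises N u (fun τ => U τ ^ p))
    (v : Place Kbar (FF N)) : (p : ℤ) ∣ v.ord u := by
  classical
  have hmem : U ∈ holN N := mem_holN_of_isTwisted hc hU
  have hU0 : U ≠ 0 := ne_zero_of_isTwisted hU
  have hchar := hasCharacter_of_hasChar hc hU.hasChar
  have hG : (fun τ => U τ ^ p) ∈ holN N := (holN N).pow_mem hmem p
  have hq : (holBase N).qexp (⟨U, hmem⟩ ^ p)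
      = HolBase.Φ N ((u : FF N) : LaurentSeries Kbar) :=
    qexp_eq_Φ_of_realises hG hu
  obtain ⟨hfd, hle⟩ := Deg457.degree_fields N
  haveI := hfd
  have hrank : Module.finrank ↥(IntermediateField.adjoin Kbar {jF N}) (FF N) = Nat.card (XX N) :=
    le_antisymm hle (analyticCore N).card_le_finrank
  rcases sub_exists_point (jF N) v with h | ⟨a, ha⟩
  · -- the cusps
    have hv : 0 < v.ord (jF N)⁻¹ := by rw [v.ord_inv]; omega
    obtain ⟨hfd', hfr'⟩ := finiteDimensional_and_finrank_of_eq (adjoin_inv Kbar (jF N))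
    haveI := hfd'
    refine dvd_ord_of_mkLocalData (holBase N).qexpExpansion ModularGroup.T
      (analyticCore N).infRot (jF N)⁻¹ ((holBase N).qexp ((holBase N).JH 1 (one_dvd N)))⁻¹
      (fun g => by rw [map_inv₀, HolBase.sigmaG_jF]; rfl)
      (by
        rw [RotRel.order_inv' (holBase N).qexp_J_one_ne_zero, (holBase N).order_qexp_J_one,
          neg_neg]
        rfl)
      (hfr'.trans hrank)
      (fun g k hk => (k2Char_parTrivial hc).conj_T g k hk) hchar hmem hU0 hq v hv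
  · -- finite points
    obtain ⟨ε, P, hε⟩ := exists_pointData (N := N) a
    obtain ⟨hfd', hfr'⟩ := finiteDimensional_and_finrank_of_eq (adjoin_sub_algebraMap Kbar (jF N) a)
    haveI := hfd'
    exact dvd_ord_of_mkLocalData P.X ε P.R (jF N - algebraMap Kbar (FF N) a)
      (P.X.E ((holBase N).JH 1 (one_dvd N) - (holBase N).constH (ιK a)))
      (fun g => (analyticCore N).sigmaG_sub P g) P.order_J (hfr'.trans hrank)
      (fun g k hk => (k2Char_ellTrivial hc).conj (by norm_num) hε g k hk) hchar hmem hU0 hq v ha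

omit [NeZero p] in
theorem ne_zero_of_realised {c : G0 N → ZMod p} {U : ℍ → ℂ} {u : FF N}
    (hU : IsTwisted N p c U) (hu : Realises N u (fun τ => U τ ^ p)) : u ≠ 0 := by
  rintro rfl
  have h1 := H822.realises_hasQExp hu
  have h2 : (fun τ => U τ ^ p) = 0 := by
    have := h1.eq_zero_iff.mp (by simp)
    exact this
  obtain ⟨τ, hτ⟩ := hU.ne_zero
  have h3 : U τ ^ p = 0 := congrFun h2 τ
  have hp0 : p ≠ 0 := by
    intro hp0
    rw [hp0, pow_zero] at h3
    exact one_ne_zero h3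
  exact hτ ((pow_eq_zero_iff hp0).mp h3)

/-! ### The Kummer class -/

/-- **PIECE K2**, exact statement of helper822's skeleton. -/
theorem exists_isKummerClass_of_realised {c : G0 N → ZMod p} (hc : IsParHom c) {U : ℍ → ℂ}
    {u : FF N} (hU : IsTwisted N p c U) (hu : Realises N u (fun τ => U τ ^ p)) :
    ∃ x : JZero N, H455.IsKummerClass (p : ℤ) u x := by
  classical
  have hu0 : u ≠ 0 := ne_zero_of_realised hU hu
  have hdvd := dvd_ord_of_realised hc hU hu
  haveI := Fermat.Agent.Lib.RR.H864.hasPrincipalDivisors_modularFunctionFieldBar N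
  obtain ⟨E, hE, hdeg⟩ := HasPrincipalDivisors.exists_divisor (K := Kbar) (F := FF N) u hu0
  have hp0 : (p : ℤ) ≠ 0 := by exact_mod_cast NeZero.ne p
  -- `D = E / p`
  let D : Divisor Kbar (FF N) := E.mapRange (fun n => n / (p : ℤ)) (by simp)
  have hD : ∀ w : Place Kbar (FF N), (p : ℤ) * D w = w.ord u := by
    intro w
    show (p : ℤ) * (E.mapRange (fun n => n / (p : ℤ)) (by simp)) w = _
    rw [Finsupp.mapRange_apply, hE w]
    exact Int.mul_ediv_cancel' (hdvd w)
  have hpD : (p : ℤ) • D = E := by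
    ext w
    rw [Finsupp.smul_apply, smul_eq_mul, hD w, hE w]
  have hdegD : Divisor.degree D = 0 := by
    have h1 : Divisor.degree ((p : ℤ) • D) = 0 := by rw [hpD]; exact hdeg
    rw [map_zsmul, smul_eq_mul] at h1
    exact (mul_eq_zero.mp h1).resolve_left hp0
  exact ⟨Pic0.mk ⟨D, hdegD⟩, hu0, ⟨D, hdegD⟩, rfl, hD⟩

/-- **PIECE K2** as the `Prop` of `M4b/Top.lean`. -/
theorem pieceK2 (N : ℕ) [NeZero N] (p : ℕ) [NeZero p] : PieceK2 N p :=
  fun hc _ _ hU hu => exists_isKummerClass_of_realised hc hU hu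

/-- **PIECE K2** for prime moduli, in the shape consumed by `M4bStatement_of_pieces`. -/
theorem pieceK2_prime (N : ℕ) [NeZero N] (p : ℕ) (hp : p.Prime) : PieceK2 N p :=
  haveI : NeZero p := ⟨hp.ne_zero⟩
  pieceK2 N p

end Fermat.Agent.S29.H150

end
end
-- ===== PACK-END S29/H150/K2.lean

-- ===== PACK-BEGIN S29/M4b/H822/K4Basic.lean
section
/-
S29 / M4b (helper822): PIECES `K4-ADD` (`isKum_add`) and `K4-INJ` (`isKum_zero_right`) of
`M4b/Skeleton.lean`, exact statements.  Sorry-free.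
-/




set_option autoImplicit false

noncomputable section

open ModularCurve AlgebraicCurve CongruenceSubgroup UpperHalfPlane
open scoped MatrixGroups Manifold

namespace Fermat.Agent.S29.M4b.H822

open Fermat.Agent.S24 Fermat.Agent.S29 Fermat.Agent.S29.M4b

variable (N : ℕ) [NeZero N] (p : ℕ) [NeZero p]

/-- A function which is not the zero function has a point of non-vanishing. -/
theorem exists_ne_zero_of_ne_zero {G : ℍ → ℂ} (h : G ≠ 0) : ∃ τ : ℍ, G τ ≠ 0 := by
  by_contra hh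
  exact h (funext fun τ => not_not.mp fun hτ => hh ⟨τ, hτ⟩)

/-- PIECE `K4-ADD`: additivity of the Kummer relation. -/
theorem isKum_add {c c' : G0 N → ZMod p} {x x' : JZero N}
    (h : IsKum N p c x) (h' : IsKum N p c' x') : IsKum N p (c + c') (x + x') := by
  obtain ⟨f, t, U, ht, hx, hU, hr⟩ := h
  obtain ⟨f', t', U', ht', hx', hU', hr'⟩ := h'
  have hfun : (fun τ => (U τ * U' τ) ^ p) = (fun τ => U τ ^ p) * (fun τ => U' τ ^ p) := by
    funext τ
    simp [mul_pow]
  have hreal : Realises N (f * f' * (t * t') ^ p) (fun τ => (U τ * U' τ) ^ p) := by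
    have h1 := realises_mul hr hr'
    rw [hfun]
    have h2 : f * f' * (t * t') ^ p = f * t ^ p * (f' * t' ^ p) := by ring
    rw [h2]
    exact h1
  refine ⟨f * f', t * t', fun τ => U τ * U' τ, mul_ne_zero ht ht', hx.add hx', ?_, hreal⟩
  refine ⟨hU.mdiff.mul hU'.mdiff, ?_, hasChar_mul hU.hasChar hU'.hasChar, hreal.1⟩
  have hne : f * f' * (t * t') ^ p ≠ 0 :=
    mul_ne_zero (mul_ne_zero hx.ne_zero hx'.ne_zero) (pow_ne_zero _ (mul_ne_zero ht ht'))
  obtain ⟨τ, hτ⟩ := exists_ne_zero_of_ne_zero (realises_ne_zero hreal hne)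
  refine ⟨τ, fun h0 => hτ ?_⟩
  show (U τ * U' τ) ^ p = 0
  rw [h0, zero_pow (NeZero.ne p)]

/-- PIECE `K4-INJ`: only the trivial character has Kummer class `0`. -/
theorem isKum_zero_right {c : G0 N → ZMod p} (h : IsKum N p c (0 : JZero N)) : c = 0 := by
  obtain ⟨f, t, U, ht, hx, hU, hr⟩ := h
  have hp0 : (p : ℤ) ≠ 0 := by exact_mod_cast NeZero.ne p
  have hpn : p ≠ 0 := NeZero.ne p
  obtain ⟨g, hg, hfg⟩ := (hx.eq_zero_iff hp0).mp rfl
  have hf0 := hx.ne_zero
  -- `f / g ^ p` is a constant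
  have hu : ∀ v : Place Kbar (FF N), v.ord (f / g ^ p) = 0 := by
    intro v
    have hpow : v.ord (g ^ p) = (p : ℤ) * v.ord g := by
      rw [← zpow_natCast, Place.ord_zpow]
    rw [div_eq_mul_inv, Place.ord_mul v hf0 (inv_ne_zero (pow_ne_zero _ hg)), Place.ord_inv,
      hpow, hfg v]
    ring
  obtain ⟨a0, ha0⟩ := Fermat.Agent.S18.H564.constOfOrdZero_modularFunctionFieldBar N (f / g ^ p)
    (div_ne_zero hf0 (pow_ne_zero _ hg)) hu
  obtain ⟨b0, hb0⟩ := IsAlgClosed.exists_pow_nat_eq a0 (Nat.pos_of_ne_zero hpn)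
  -- `f * t ^ p = v ^ p`
  set v : FF N := algebraMap Kbar (FF N) b0 * g * t with hv
  have hvp : v ^ p = f * t ^ p := by
    have h1 : f = algebraMap Kbar (FF N) a0 * g ^ p := by
      rw [← ha0, div_mul_cancel₀ _ (pow_ne_zero _ hg)]
    rw [hv, mul_pow, mul_pow, ← map_pow, hb0, ← h1]
  have hv0 : v ≠ 0 := by
    intro h0
    have : f * t ^ p = 0 := by rw [← hvp, h0, zero_pow hpn]
    exact (mul_ne_zero hf0 (pow_ne_zero _ ht)) this
  -- `v = A / B` with `A, B` polynomials in the `j(q^d)`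
  obtain ⟨A, B, hB0, hvAB⟩ := H997.exists_div_inclRN N v
  have hB0' : H997.inclRN N B ≠ 0 := fun h0 =>
    hB0 (H997.inclRN_injective N (by rw [h0, map_zero]))
  have hA0' : H997.inclRN N A ≠ 0 := by
    intro h0
    rw [h0, zero_div] at hvAB
    exact hv0 hvAB
  obtain ⟨GA, hGA⟩ := exists_realises_of_mem_AK (a := H997.inclRN N A) A.2
  obtain ⟨GB, hGB⟩ := exists_realises_of_mem_AK (a := H997.inclRN N B) B.2
  have h3 : f * t ^ p * (H997.inclRN N B) ^ p = (H997.inclRN N A) ^ p := by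
    rw [← hvp, ← mul_pow, hvAB, div_mul_cancel₀ _ hB0']
  have h1 : Realises N ((H997.inclRN N A) ^ p) ((fun τ => U τ ^ p) * GB ^ p) := by
    have := realises_mul hr (realises_pow hGB p)
    rwa [h3] at this
  have h4 : (fun τ => U τ ^ p) * GB ^ p = GA ^ p := realises_unique_right h1 (realises_pow hGA p)
  have h5 : ∀ τ : ℍ, (U τ * GB τ) ^ p = GA τ ^ p := by
    intro τ
    have := congrFun h4 τ
    simp only [Pi.mul_apply, Pi.pow_apply] at this
    rw [mul_pow]
    exact this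
  obtain ⟨τ₀, hτ₀⟩ := exists_ne_zero_of_ne_zero (realises_ne_zero hGA hA0')
  have hUB0 : U τ₀ * GB τ₀ ≠ 0 := by
    intro h0
    have := h5 τ₀
    rw [h0, zero_pow hpn] at this
    exact hτ₀ (pow_eq_zero_iff hpn |>.mp this.symm)
  set z : ℂ := U τ₀ * GB τ₀ / GA τ₀ with hz
  have hzp : z ^ p = 1 := by
    rw [hz, div_pow, h5 τ₀, div_self (pow_ne_zero _ hτ₀)]
  have hGAmd : MDifferentiable 𝓘(ℂ) 𝓘(ℂ) GA := hGA.1.1
  have hGBmd : MDifferentiable 𝓘(ℂ) 𝓘(ℂ) GB := hGB.1.1
  have hEq : (fun τ => U τ * GB τ) = fun τ => z * GA τ := by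
    refine H751.eq_of_pow_eq_UHP (hU.mdiff.mul hGBmd) (mdifferentiable_const.mul hGAmd) hpn
      (fun τ => ?_) (τ₀ := τ₀) ?_ hUB0
    · show (U τ * GB τ) ^ p = (z * GA τ) ^ p
      rw [mul_pow z, hzp, one_mul, h5 τ]
    · show U τ₀ * GB τ₀ = z * GA τ₀
      rw [hz, div_mul_cancel₀ _ hτ₀]
  funext γ
  have hinvA : GA ((γ : SL(2, ℤ)) • τ₀) = GA τ₀ := hGA.1.2.1 _ γ.2 τ₀
  have hinvB : GB ((γ : SL(2, ℤ)) • τ₀) = GB τ₀ := hGB.1.2.1 _ γ.2 τ₀
  have e1 := congrFun hEq ((γ : SL(2, ℤ)) • τ₀)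
  have e2 := congrFun hEq τ₀
  rw [hinvA, hinvB, ← e2, hU.hasChar γ τ₀] at e1
  have e3 : (zetaP p ^ (c γ).val - 1) * (U τ₀ * GB τ₀) = 0 := by
    linear_combination e1
  rcases mul_eq_zero.mp e3 with h | h
  · exact (zetaP_pow_val_eq_one_iff p (c γ)).mp (sub_eq_zero.mp h)
  · exact absurd h hUB0

end Fermat.Agent.S29.M4b.H822

end
end
-- ===== PACK-END S29/M4b/H822/K4Basic.lean

-- ===== PACK-BEGIN S29/M4b/H822/K4Uniq.lean
section
/-
S29 / M4b (helper822): PIECE `K4-UNIQ` (`isKum_unique`) of `M4b/Skeleton.lean`, exact statement.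
Sorry-free.  Inputs (all on main): MERO `H882.qexpFun_mem_FC`, `H32.mem_range_of_finite_orbit`,
`H32.exists_of_coeff_mem_range`, `H455.IsKummerClass` API.
-/




set_option autoImplicit false

noncomputable section

open ModularCurve AlgebraicCurve CongruenceSubgroup UpperHalfPlane
open scoped MatrixGroups Manifold

namespace Fermat.Agent.S29.M4b.H822

open Fermat.Agent.S24 Fermat.Agent.S29 Fermat.Agent.S29.M4b

/-! ### Growth of roots -/

theorem expGrowth_of_pow {F : ℍ → ℂ} {p : ℕ} (hp : p ≠ 0)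
    (h : H648.ExpGrowth (fun τ => F τ ^ p)) : H648.ExpGrowth F := by
  obtain ⟨C, m, hC⟩ := h
  refine ⟨1 + |C|, m, fun τ hτ => ?_⟩
  have h1 := hC τ hτ
  rw [norm_pow] at h1
  have hE : (1 : ℝ) ≤ Real.exp (2 * Real.pi * m * τ.im) := by
    apply Real.one_le_exp
    have : (0 : ℝ) ≤ τ.im := τ.im_pos.le
    positivity
  have h2 : ‖F τ‖ ≤ 1 + ‖F τ‖ ^ p := by
    rcases le_or_gt ‖F τ‖ 1 with h | h
    · have : (0 : ℝ) ≤ ‖F τ‖ ^ p := by positivity
      linarith
    · have : ‖F τ‖ ≤ ‖F τ‖ ^ p := le_self_pow₀ h.le hp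
      linarith
  have h3 : C * Real.exp (2 * Real.pi * m * τ.im) ≤ |C| * Real.exp (2 * Real.pi * m * τ.im) :=
    mul_le_mul_of_nonneg_right (le_abs_self C) (Real.exp_pos _).le
  calc ‖F τ‖ ≤ 1 + ‖F τ‖ ^ p := h2
    _ ≤ 1 + |C| * Real.exp (2 * Real.pi * m * τ.im) := by linarith
    _ ≤ Real.exp (2 * Real.pi * m * τ.im) + |C| * Real.exp (2 * Real.pi * m * τ.im) := by
        linarith
    _ = (1 + |C|) * Real.exp (2 * Real.pi * m * τ.im) := by ring

/-- A holomorphic `Γ₀(N)`-invariant function whose `p`-th power is good is good. -/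
theorem mem_goodRing_of_pow_mem {N : ℕ} {V : ℍ → ℂ} {p : ℕ} (hp : p ≠ 0)
    (hV : MDifferentiable 𝓘(ℂ) 𝓘(ℂ) V)
    (hinv : ∀ γ ∈ Gamma0 N, ∀ τ : ℍ, V (γ • τ) = V τ)
    (hpow : (fun τ => V τ ^ p) ∈ H648.goodRing N) : V ∈ H648.goodRing N :=
  ⟨hV, hinv, fun g => expGrowth_of_pow hp (hpow.2.2 g)⟩

/-! ### Algebraicity of the coefficients of a `p`-th root -/

/-- The algebra structure `ℚ̄ → ℂ` given by the fixed embedding `iotaC`. -/
abbrev algKbarC : Algebra Kbar ℂ := Deg457.iotaC.toAlgebra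

theorem isScalarTower_algKbarC :
    letI := algKbarC
    IsScalarTower ℚ Kbar ℂ := by
  letI := algKbarC
  refine IsScalarTower.of_algebraMap_eq fun q => ?_
  show (algebraMap ℚ ℂ) q = Deg457.iotaC (algebraMap ℚ Kbar q)
  unfold Deg457.iotaC
  simp

/-- If `s ^ p` has coefficients in `ℚ̄`, so has `s` (`p ≥ 1`). -/
theorem coeff_mem_range_of_pow_eq {p : ℕ} [NeZero p] {s : LaurentSeries ℂ}
    {w : LaurentSeries Kbar} (hs : s ^ p = coeffMap Deg457.iotaC w) (n : ℤ) :
    s.coeff n ∈ Set.range Deg457.iotaC := by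
  letI := algKbarC
  have hpn : p ≠ 0 := NeZero.ne p
  show s.coeff n ∈ Set.range (algebraMap Kbar ℂ)
  apply H32.mem_range_of_finite_orbit
  rcases eq_or_ne s 0 with rfl | hs0
  · refine (Set.finite_singleton (0 : ℂ)).subset ?_
    rintro _ ⟨σ, rfl⟩
    simp
  -- the conjugates are among the `ζ ^ i * s_n`
  refine (Set.finite_range fun i : Fin p => zetaP p ^ (i : ℕ) * s.coeff n).subset ?_
  rintro _ ⟨σ, rfl⟩
  set s' : LaurentSeries ℂ := coeffMap (σ : ℂ →+* ℂ) s with hs'
  have h1 : s' ^ p = s ^ p := by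
    rw [hs', ← map_pow, hs, coeffMap_coeffMap]
    apply coeffMap_congr
    ext c
    exact σ.commutes c
  have h2 : (s' / s) ^ p = 1 := by
    rw [div_pow, h1, div_self (pow_ne_zero _ hs0)]
  have hprim : IsPrimitiveRoot (algebraMap ℂ (LaurentSeries ℂ) (zetaP p)) p :=
    (isPrimitiveRoot_zetaP p).map_of_injective (algebraMap ℂ (LaurentSeries ℂ)).injective
  obtain ⟨i, hi, hi2⟩ := hprim.eq_pow_of_pow_eq_one h2
  have h3 : s' = algebraMap ℂ (LaurentSeries ℂ) (zetaP p ^ i) * s := by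
    rw [map_pow, hi2, div_mul_cancel₀ _ hs0]
  refine ⟨⟨i, hi⟩, ?_⟩
  show zetaP p ^ i * s.coeff n = σ (s.coeff n)
  have h4 : s'.coeff n = σ (s.coeff n) := rfl
  rw [← h4, h3, H32.coeff_algebraMap_mul]

/-! ### Powers of Kummer classes -/

theorem isKummerClass_pow {K F : Type*} [Field K] [Field F] [Algebra K F] {n : ℤ} {f : F}
    {x : Pic0 K F} (h : H455.IsKummerClass n f x) (k : ℕ) :
    H455.IsKummerClass n (f ^ k) (k • x) := by
  induction k with
  | zero => simpa using (H455.IsKummerClass.zero (n := n) (K := K) (F := F))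
  | succ k ih =>
    rw [pow_succ, succ_nsmul]
    exact ih.add h

/-! ### The piece -/

variable (N : ℕ) [NeZero N] (p : ℕ) [NeZero p]

/-- PIECE `K4-UNIQ`: the Kummer class of a character is unique. -/
theorem isKum_unique {c : G0 N → ZMod p} {x x' : JZero N}
    (h : IsKum N p c x) (h' : IsKum N p c x') : x = x' := by
  obtain ⟨f, t, U, ht, hx, hU, hr⟩ := h
  obtain ⟨f', t', U', ht', hx', hU', hr'⟩ := h'
  have hpn : p ≠ 0 := NeZero.ne p
  have hp0 : (p : ℤ) ≠ 0 := by exact_mod_cast hpn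
  have hp1 : p - 1 + 1 = p := Nat.sub_add_cancel (Nat.pos_of_ne_zero hpn)
  -- the invariant function `V = U * U' ^ (p - 1)`
  set V : ℍ → ℂ := fun τ => U τ * U' τ ^ (p - 1) with hVdef
  set w : FF N := f * t ^ p * (f' * t' ^ p) ^ (p - 1) with hw
  have hVpow : (fun τ => V τ ^ p) = (fun τ => U τ ^ p) * (fun τ => U' τ ^ p) ^ (p - 1) := by
    funext τ
    simp only [hVdef, Pi.mul_apply, Pi.pow_apply, mul_pow]
    rw [← pow_mul, ← pow_mul, mul_comm (p - 1) p]
  have hWreal : Realises N w (fun τ => V τ ^ p) := by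
    rw [hVpow]
    exact realises_mul hr (realises_pow hr' (p - 1))
  have hVmd : MDifferentiable 𝓘(ℂ) 𝓘(ℂ) V := hU.mdiff.mul (hU'.mdiff.pow (p - 1))
  have hVinv : ∀ γ ∈ Gamma0 N, ∀ τ : ℍ, V (γ • τ) = V τ := by
    intro γ hγ τ
    have e1 := hU.hasChar ⟨γ, hγ⟩ τ
    have e2 := hU'.hasChar ⟨γ, hγ⟩ τ
    simp only at e1 e2
    show U (γ • τ) * U' (γ • τ) ^ (p - 1) = U τ * U' τ ^ (p - 1)
    rw [e1, e2, mul_pow]
    have e3 : zetaP p ^ (c ⟨γ, hγ⟩).val * (zetaP p ^ (c ⟨γ, hγ⟩).val) ^ (p - 1) = 1 := by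
      rw [← pow_succ', hp1, ← pow_mul, mul_comm, pow_mul, zetaP_pow_self, one_pow]
    linear_combination (U τ * U' τ ^ (p - 1)) * e3
  have hVgood : V ∈ H648.goodRing N := mem_goodRing_of_pow_mem hpn hVmd hVinv hWreal.1
  -- its `q`-expansion `s`
  set s : LaurentSeries ℂ := H708.qexpFun 1 V with hsdef
  have hsQ : H708.HasQExp 1 V s := H882.hasQExp_of_mem_goodRing hVgood
  have hsFC : s ∈ laurentBaseChange ℂ (modularFunctionFieldFull N) := H882.qexpFun_mem_FC (N := N) hVgood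
  have hsp : s ^ p = coeffMap Deg457.iotaC ((w : FF N) : LaurentSeries Kbar) := by
    have h1 := hsQ.pow p
    have h2 : V ^ p = fun τ => V τ ^ p := rfl
    rw [h2] at h1
    exact h1.unique (realises_hasQExp hWreal)
  -- descent of `s` to `ℚ̄`
  let _ : Algebra Kbar ℂ := algKbarC
  have _ : IsScalarTower ℚ Kbar ℂ := isScalarTower_algKbarC
  obtain ⟨y, hy, hys⟩ := H32.exists_of_coeff_mem_range (k := Kbar) (Ω := ℂ)
    (modularFunctionFieldFull N) hsFC (fun n => coeff_mem_range_of_pow_eq hsp n)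
  set vv : FF N := ⟨y, hy⟩ with hvv
  have hvvp : vv ^ p = w := by
    apply Subtype.ext
    apply coeffMap_iotaC_injective
    show coeffMap Deg457.iotaC (((vv ^ p : FF N) : FF N) : LaurentSeries Kbar) = _
    rw [← hsp, ← hys]
    simp only [SubmonoidClass.coe_pow, map_pow]
    rfl
  -- `f * f' ^ (p - 1)` is a `p`-th power
  have hf0 := hx.ne_zero
  have hf0' := hx'.ne_zero
  have hd0 : t * t' ^ (p - 1) ≠ 0 := mul_ne_zero ht (pow_ne_zero _ ht')
  set g : FF N := vv / (t * t' ^ (p - 1)) with hg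
  have hgp : g ^ p = f * f' ^ (p - 1) := by
    rw [hg, div_pow, hvvp, hw]
    rw [div_eq_iff (pow_ne_zero _ hd0)]
    have e1 : (t' ^ p) ^ (p - 1) = (t' ^ (p - 1)) ^ p := by
      rw [← pow_mul, ← pow_mul, mul_comm]
    rw [mul_pow, mul_pow, e1]
    ring
  have hg0 : g ≠ 0 := by
    intro h0
    rw [h0, zero_pow hpn] at hgp
    exact (mul_ne_zero hf0 (pow_ne_zero _ hf0')) hgp.symm
  have hsum : H455.IsKummerClass (p : ℤ) (f * f' ^ (p - 1)) (x + (p - 1) • x') :=
    hx.add (isKummerClass_pow hx' (p - 1))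
  have hzero : x + (p - 1) • x' = 0 := by
    refine (hsum.eq_zero_iff hp0).mpr ⟨g, hg0, fun v => ?_⟩
    rw [← hgp, ← zpow_natCast, Place.ord_zpow]
  have hpx' : (p : ℤ) • x' = 0 := hx'.zsmul_eq_zero
  have h5 : (p - 1) • x' + x' = 0 := by
    rw [← succ_nsmul, hp1, ← natCast_zsmul]
    exact hpx'
  have h6 : x - x' = 0 := by
    have : x - x' = (x + (p - 1) • x') - ((p - 1) • x' + x') := by abel
    rw [this, hzero, h5, sub_zero]
  exact sub_eq_zero.mp h6

end Fermat.Agent.S29.M4b.H822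

end
end
-- ===== PACK-END S29/M4b/H822/K4Uniq.lean

-- ===== PACK-BEGIN S29/M4b/H822/K4.lean
section
/-
S29 / M4b (helper822): the pieces `K4-UNIQ`, `K4-INJ`, `K4-ADD` of the Kummer map, in the EXACT
shape of the `Prop`s `PieceUniq`, `PieceInj`, `PieceAdd` of `M4b/Top.lean` (for every modulus
`p ≠ 0`, in particular for `p` prime).  Sorry-free.
-/




set_option autoImplicit false

namespace Fermat.Agent.S29.M4b.H822

open Fermat.Agent.S24 Fermat.Agent.S29 Fermat.Agent.S29.M4b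

/-- PIECE `K4-UNIQ`, exact `Prop` of `M4b/Top.lean`. -/
theorem pieceUniq (N : ℕ) [NeZero N] (p : ℕ) (hp : p ≠ 0) : PieceUniq N p := by
  haveI : NeZero p := ⟨hp⟩
  intro c x x' h h'
  exact isKum_unique N p h h'

/-- PIECE `K4-INJ`, exact `Prop` of `M4b/Top.lean`. -/
theorem pieceInj (N : ℕ) [NeZero N] (p : ℕ) (hp : p ≠ 0) : PieceInj N p := by
  haveI : NeZero p := ⟨hp⟩
  intro c h
  exact isKum_zero_right N p h

/-- PIECE `K4-ADD`, exact `Prop` of `M4b/Top.lean`. -/
theorem pieceAdd (N : ℕ) [NeZero N] (p : ℕ) (hp : p ≠ 0) : PieceAdd N p := by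
  haveI : NeZero p := ⟨hp⟩
  intro c c' x x' h h'
  exact isKum_add N p h h'

/-- The Kummer bridge `M4bStatement` from the FOUR remaining pieces (`K1`, `K3`, `K2`,
`K4-HECKE`), for all levels and prime moduli. -/
theorem m4bStatement_of_four
    (h1 : ∀ (N : ℕ) [NeZero N] (p : ℕ), p.Prime → PieceK1 N p)
    (h3 : ∀ (N : ℕ) [NeZero N] (p : ℕ), p.Prime → PieceK3 N p)
    (h2 : ∀ (N : ℕ) [NeZero N] (p : ℕ), p.Prime → PieceK2 N p)
    (hh : ∀ (N : ℕ) [NeZero N] (p : ℕ), p.Prime → PieceHecke N p) :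
    M4bStatement :=
  M4bStatement_of_pieces h1 h3 h2 (fun N _ p hp => pieceUniq N p hp.ne_zero)
    (fun N _ p hp => pieceInj N p hp.ne_zero) (fun N _ p hp => pieceAdd N p hp.ne_zero) hh

end Fermat.Agent.S29.M4b.H822

end
-- ===== PACK-END S29/M4b/H822/K4.lean

-- ===== PACK-BEGIN Ribet/H801/DegBeta.lean
section
/-
RIBET / W-DEG (helper801), part 4: Hecke-equivariance of `β_* : J₀(Mp) → J₀(M)`:

    β_* ∘ T_ℓ^{(Mp)} = T_ℓ^{(M)} ∘ β_*     for all primes `ℓ ≠ p`,

from the norm compatibility of the `ββ`-square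

      F_M    --β_p-->  F_{Mp}
       |β_ℓ             |β_ℓ
       v                v
      F_{Mℓ} --β_p-->  F_{Mpℓ}

(`F_{Mpℓ} = V_p(F_{Mℓ}) ⊔ V_ℓ(F_{Mp})` and equal degrees).
-/




set_option autoImplicit false
set_option linter.style.haveILetI false

noncomputable section

namespace Fermat.Agent.Ribet.H801

open AlgebraicCurve ModularCurve Fermat.Agent.S37.H818 Fermat.Agent.S29.H801
open Fermat.Agent.Lib.HI Fermat.Agent.S37

section Retarget

variable (L : Type*) [Field L] [Algebra ℚ L]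
variable {M ℓ M' : ℕ} [NeZero M] [NeZero ℓ] [NeZero M']

theorem betaTo_finite (h : M * ℓ = M') (hfin : FiniteAlong L (heckeBetaBar L M ℓ)) :
    FiniteAlong L (betaTo L M ℓ M' h) := by
  subst h
  exact hfin

theorem betaTo_normFormula (h : M * ℓ = M') (hfin : FiniteAlong L (heckeBetaBar L M ℓ))
    (hN : NormFormulaAlong L (heckeBetaBar L M ℓ) hfin) :
    NormFormulaAlong L (betaTo L M ℓ M' h) (betaTo_finite L h hfin) := by
  subst h
  exact hN

theorem betaTo_finrankAlong (h : M * ℓ = M') :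
    finrankAlong L (betaTo L M ℓ M' h) = finrankAlong L (heckeBetaBar L M ℓ) := by
  subst h
  rfl

end Retarget

section Span

variable (L : Type*) [Field L] [Algebra ℚ L]

theorem intermediateField_smul_eq {K E : Type*} [Field K] [Field E] [Algebra K E]
    (A : IntermediateField K E) (a : A) (x : E) : a • x = (a : E) * x := by
  rw [Algebra.smul_def]
  rfl

theorem smul_betaTo_coe {M ℓ M' : ℕ} [NeZero M] [NeZero ℓ] [NeZero M'] (h : M * ℓ = M')
    (a : _root_.Fermat.Agent.S29.H801.FB L M) (x : _root_.Fermat.Agent.S29.H801.FB L M') :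
    letI := algebraAlong (betaTo L M ℓ M' h)
    ((a • x : _root_.Fermat.Agent.S29.H801.FB L M') : LaurentSeries L) = qExpand L ℓ (a : LaurentSeries L) * (x : LaurentSeries L) := by
  letI := algebraAlong (betaTo L M ℓ M' h)
  have h1 : a • x = betaTo L M ℓ M' h a * x := rfl
  rw [h1, MulMemClass.coe_mul, coe_betaTo]

/-- The image of `β_ℓ : F_{Mp} → F_{Mpℓ}` spans `F_{Mpℓ}` over `β_p(F_{Mℓ})`. -/
theorem span_range_beta_of_sup (M p ℓ : ℕ) [NeZero M] [NeZero p] [NeZero ℓ]
    (hsup : laurentBaseChange L (modularFunctionFieldFull (M * p * ℓ))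
      = (laurentBaseChange L (modularFunctionFieldFull (M * ℓ))).map (qExpandAlgHomC L p)
        ⊔ (laurentBaseChange L (modularFunctionFieldFull (M * p))).map (qExpandAlgHomC L ℓ))
    (halg : ∀ x ∈ (laurentBaseChange L (modularFunctionFieldFull (M * p))).map
        (qExpandAlgHomC L ℓ),
      IsAlgebraic ((laurentBaseChange L (modularFunctionFieldFull (M * ℓ))).map
        (qExpandAlgHomC L p)) x) :
    letI := algebraAlong (betaTo L (M * ℓ) p (M * p * ℓ) (Nat.mul_right_comm M ℓ p))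
    Submodule.span (_root_.Fermat.Agent.S29.H801.FB L (M * ℓ)) (Set.range (heckeBetaBar L (M * p) ℓ)) = ⊤ := by
  letI := algebraAlong (betaTo L (M * ℓ) p (M * p * ℓ) (Nat.mul_right_comm M ℓ p))
  rw [eq_top_iff]
  rintro t -
  have ht : (t : LaurentSeries L) ∈
      (laurentBaseChange L (modularFunctionFieldFull (M * ℓ))).map (qExpandAlgHomC L p)
        ⊔ (laurentBaseChange L (modularFunctionFieldFull (M * p))).map (qExpandAlgHomC L ℓ) := by
    rw [← hsup]
    exact t.2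
  have hs := mem_span_of_mem_sup _ _ halg ht
  have key : ∀ x : LaurentSeries L,
      x ∈ Submodule.span
        ((laurentBaseChange L (modularFunctionFieldFull (M * ℓ))).map (qExpandAlgHomC L p))
        (((laurentBaseChange L (modularFunctionFieldFull (M * p))).map (qExpandAlgHomC L ℓ) :
          IntermediateField L (LaurentSeries L)) : Set (LaurentSeries L)) →
      ∃ y : _root_.Fermat.Agent.S29.H801.FB L (M * p * ℓ),
        y ∈ Submodule.span (_root_.Fermat.Agent.S29.H801.FB L (M * ℓ)) (Set.range (heckeBetaBar L (M * p) ℓ)) ∧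
        (y : LaurentSeries L) = x := by
    intro x hx
    induction hx using Submodule.span_induction with
    | mem x hx =>
      obtain ⟨z, hz, rfl⟩ := hx
      refine ⟨heckeBetaBar L (M * p) ℓ ⟨z, hz⟩, Submodule.subset_span ⟨_, rfl⟩, ?_⟩
      rw [coe_heckeBetaBar]
      rfl
    | zero => exact ⟨0, Submodule.zero_mem _, rfl⟩
    | add x y _ _ hx hy =>
      obtain ⟨x', hx', rfl⟩ := hx
      obtain ⟨y', hy', rfl⟩ := hy
      exact ⟨x' + y', Submodule.add_mem _ hx' hy', rfl⟩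
    | smul a x _ hx =>
      obtain ⟨x', hx', rfl⟩ := hx
      obtain ⟨g, hg, hga⟩ := a.2
      refine ⟨(⟨g, hg⟩ : _root_.Fermat.Agent.S29.H801.FB L (M * ℓ)) • x', Submodule.smul_mem _ _ hx', ?_⟩
      rw [smul_betaTo_coe, intermediateField_smul_eq, ← hga]
      rfl
  obtain ⟨y, hy, hyt⟩ := key _ hs
  have : y = t := Subtype.ext hyt
  rw [← this]
  exact hy

/-- Norm compatibility of the `ββ`-square from generation and degrees. -/
theorem normCompat_beta_of_sup (M p ℓ : ℕ) [NeZero M] [NeZero p] [NeZero ℓ]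
    (hfin : FiniteAlong L (heckeBetaBar L M p))
    (hfin' : FiniteAlong L (heckeBetaBar L (M * ℓ) p))
    (hrk : finrankAlong L (heckeBetaBar L M p) ≤ finrankAlong L (heckeBetaBar L (M * ℓ) p))
    (hsup : laurentBaseChange L (modularFunctionFieldFull (M * p * ℓ))
      = (laurentBaseChange L (modularFunctionFieldFull (M * ℓ))).map (qExpandAlgHomC L p)
        ⊔ (laurentBaseChange L (modularFunctionFieldFull (M * p))).map (qExpandAlgHomC L ℓ))
    (halg : ∀ x ∈ (laurentBaseChange L (modularFunctionFieldFull (M * p))).map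
        (qExpandAlgHomC L ℓ),
      IsAlgebraic ((laurentBaseChange L (modularFunctionFieldFull (M * ℓ))).map
        (qExpandAlgHomC L p)) x) :
    NormCompat (heckeBetaBar L M p) (heckeBetaBar L M ℓ)
      (betaTo L (M * ℓ) p (M * p * ℓ) (Nat.mul_right_comm M ℓ p)) (heckeBetaBar L (M * p) ℓ) :=
  normCompat_of_span _ _ _ _ (rel_BB M p ℓ) hfin
    (betaTo_finite L _ hfin')
    (by rw [betaTo_finrankAlong]; exact hrk)
    (span_range_beta_of_sup L M p ℓ hsup halg)

end Span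

section Bar

variable (M p ℓ : ℕ) [NeZero M] [NeZero p] [NeZero ℓ]

/-- **Norm compatibility of the `ββ`-square over `ℚ̄`.** -/
theorem normCompat_beta_bar (hp : p.Prime) (hℓ : ℓ.Prime) (hne : ℓ ≠ p) :
    NormCompat (heckeBetaBar (AlgebraicClosure ℚ) M p) (heckeBetaBar (AlgebraicClosure ℚ) M ℓ)
      (betaTo (AlgebraicClosure ℚ) (M * ℓ) p (M * p * ℓ) (Nat.mul_right_comm M ℓ p))
      (heckeBetaBar (AlgebraicClosure ℚ) (M * p) ℓ) := by
  have hsup0 := bar_eq_sup_map_map M p ℓ hp hℓ hne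
  have hsup : modularFunctionFieldBar (M * p * ℓ) =
      (modularFunctionFieldBar (M * ℓ)).map (qExpandAlgHomC (AlgebraicClosure ℚ) p) ⊔
        (modularFunctionFieldBar (M * p)).map (qExpandAlgHomC (AlgebraicClosure ℚ) ℓ) := by
    rw [← hsup0]
    exact modularFunctionFieldBar_congr (Nat.mul_right_comm M p ℓ)
  have hAT : (modularFunctionFieldBar (M * ℓ)).map (qExpandAlgHomC (AlgebraicClosure ℚ) p)
      ≤ modularFunctionFieldBar (M * ℓ * p) := H218.map_qExpand_bar_le (M * ℓ) p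
  have hd : ((modularFunctionFieldBar (M * ℓ)).map
      (qExpandAlgHomC (AlgebraicClosure ℚ) p)).relfinrank (modularFunctionFieldBar (M * ℓ * p))
        ≠ 0 := by
    rw [H218.relfinrank_map_qExpand_bar_mul_prime (M * ℓ) p (NeZero.ne _) hp]
    split_ifs
    · exact hp.ne_zero
    · omega
  have hpdvd : p ∣ M * ℓ ↔ p ∣ M := by
    constructor
    · intro h
      rcases (Nat.Prime.dvd_mul hp).mp h with h1 | h1
      · exact h1
      · exact absurd ((Nat.prime_dvd_prime_iff_eq hp hℓ).mp h1).symm hne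
    · intro h
      exact h.mul_right ℓ
  refine normCompat_beta_of_sup (AlgebraicClosure ℚ) M p ℓ (H864.finiteAlong_beta M p)
    (H864.finiteAlong_beta (M * ℓ) p) ?_ hsup ?_
  · by_cases h : p ∣ M
    · rw [H218.finrankAlong_heckeBetaBar_of_dvd M p hp h,
        H218.finrankAlong_heckeBetaBar_of_dvd (M * ℓ) p hp (hpdvd.mpr h)]
    · rw [H218.finrankAlong_heckeBetaBar_of_not_dvd M p hp h,
        H218.finrankAlong_heckeBetaBar_of_not_dvd (M * ℓ) p hp (fun h' => h (hpdvd.mp h'))]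
  · intro x hx
    refine isAlgebraic_of_relfinrank_ne_zero hAT hd ?_
    rw [hsup0]
    exact (le_sup_right : (modularFunctionFieldBar (M * p)).map
      (qExpandAlgHomC (AlgebraicClosure ℚ) ℓ) ≤ _) hx

/-- **`β_*` is Hecke-equivariant** (operator form, any prime `ℓ ≠ p`). -/
theorem betaPush_heckeOperatorAlong (hℓ : ℓ.Prime) (hp : p.Prime) (hne : ℓ ≠ p)
    (x : JZero (M * p)) :
    betaPush M p (heckeOperatorAlong (AlgebraicClosure ℚ) (M * p) ℓ x) =
      heckeOperatorAlong (AlgebraicClosure ℚ) M ℓ (betaPush M p x) := by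
  haveI hP₁ : HasPrincipalDivisors (AlgebraicClosure ℚ)
      (laurentBaseChange (AlgebraicClosure ℚ) (modularFunctionFieldFull (M * p))) :=
    H864.hasPrincipalDivisors_FF (M * p)
  haveI hP₂ : HasPrincipalDivisors (AlgebraicClosure ℚ)
      (laurentBaseChange (AlgebraicClosure ℚ) (modularFunctionFieldFull (M * ℓ))) :=
    H864.hasPrincipalDivisors_FF (M * ℓ)
  haveI hP₃ : HasPrincipalDivisors (AlgebraicClosure ℚ)
      (laurentBaseChange (AlgebraicClosure ℚ) (modularFunctionFieldFull (M * p * ℓ))) :=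
    H864.hasPrincipalDivisors_FF (M * p * ℓ)
  have hc : M * ℓ * p = M * p * ℓ := Nat.mul_right_comm M ℓ p
  rw [heckeOperatorAlong_eq (H864.heckeAlphaBarIntegral (M * p) ℓ)
      (H864.heckeBetaBarIntegral (M * p) ℓ) (H864.fundamentalIdentityAlong_beta (M * p) ℓ _)
      (H864.finiteAlong_alpha (M * p) ℓ) (H864.normFormulaAlong_alpha (M * p) ℓ _),
    heckeOperatorAlong_eq (H864.heckeAlphaBarIntegral M ℓ)
      (H864.heckeBetaBarIntegral M ℓ) (H864.fundamentalIdentityAlong_beta M ℓ _)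
      (H864.finiteAlong_alpha M ℓ) (H864.normFormulaAlong_alpha M ℓ _)]
  exact pushPic0_correspondence
    (heckeBetaBar (AlgebraicClosure ℚ) M p)
    (heckeBetaBar (AlgebraicClosure ℚ) M ℓ) (heckeAlphaBar (AlgebraicClosure ℚ) M ℓ)
    (heckeBetaBar (AlgebraicClosure ℚ) (M * p) ℓ) (heckeAlphaBar (AlgebraicClosure ℚ) (M * p) ℓ)
    (betaTo (AlgebraicClosure ℚ) (M * ℓ) p (M * p * ℓ) hc)
    (H864.heckeBetaBarIntegral M p) (H864.heckeBetaBarIntegral M ℓ)
    (H864.heckeAlphaBarIntegral M ℓ) (H864.heckeBetaBarIntegral (M * p) ℓ)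
    (H864.heckeAlphaBarIntegral (M * p) ℓ)
    (betaTo_integral (AlgebraicClosure ℚ) hc (H864.heckeBetaBarIntegral (M * ℓ) p))
    (rel_BB M p ℓ) (rel_sq₁ M p ℓ).symm
    (H864.fundamentalIdentityAlong_beta M ℓ _) (H864.fundamentalIdentityAlong_beta (M * p) ℓ _)
    (H864.finiteAlong_alpha M ℓ) (H864.normFormulaAlong_alpha M ℓ _)
    (H864.finiteAlong_alpha (M * p) ℓ) (H864.normFormulaAlong_alpha (M * p) ℓ _)
    (H864.finiteAlong_beta M p) (H864.normFormulaAlong_beta M p _)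
    (betaTo_finite (AlgebraicClosure ℚ) hc (H864.finiteAlong_beta (M * ℓ) p))
    (betaTo_normFormula (AlgebraicClosure ℚ) hc (H864.finiteAlong_beta (M * ℓ) p)
      (H864.normFormulaAlong_beta (M * ℓ) p _))
    (normCompat_beta_bar M p ℓ hp hℓ hne)
    (hasLocalGenerators_of_hasPrincipalDivisors _ _) x

end Bar

section BarPrimes

variable (M p : ℕ) [NeZero M] [NeZero p]

/-- **`β_*` is Hecke-equivariant**: `β_* (T_ℓ x) = T_ℓ (β_* x)` for every prime `ℓ ≠ p`. -/
theorem betaPush_heckeOperatorBar (hp : p.Prime) (ℓ : Nat.Primes) (hne : (ℓ : ℕ) ≠ p)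
    (x : JZero (M * p)) :
    betaPush M p (heckeOperatorBar (M * p) ℓ x) = heckeOperatorBar M ℓ (betaPush M p x) := by
  haveI : NeZero (ℓ : ℕ) := ⟨ℓ.2.ne_zero⟩
  rw [heckeOperatorBar_apply, heckeOperatorBar_apply]
  exact betaPush_heckeOperatorAlong M p (ℓ : ℕ) ℓ.2 hp hne x

end BarPrimes

end Fermat.Agent.Ribet.H801

end

end
-- ===== PACK-END Ribet/H801/DegBeta.lean

-- ===== PACK-BEGIN Ribet/H801/Deg.lean
section
/-
RIBET / W-DEG (helper801), final file: the degeneracy pair in the exact shape of the wall spec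

    Wall.IsDegPair p M' {p} (alphaL p M') (betaL p M')

(`Fermat/Agent/Ribet/H944/WallSpec.lean`): `alphaL`, `betaL : J₀(p M')(ℚ̄) →+ J₀(M')(ℚ̄)` are the
push-forwards `α_*`, `β_*` along `F_{M'} ⊆ F_{M'p}` and `V_p : F_{M'} → F_{M'p}`; they are additive,
`G_ℚ`-equivariant and commute with `T_ℓ` for every prime `ℓ ≠ p` (also for `ℓ ∣ M'`).

No hypothesis on `p`, `M'` other than `p` prime: `p ∣ M'` is allowed.
-/




set_option autoImplicit false
set_option linter.style.haveILetI false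

noncomputable section

namespace Fermat.Agent.Ribet.H801

open AlgebraicCurve ModularCurve
open Fermat.Agent.Ribet.Spec Fermat.Agent.Ribet.H944

section Cast

/-- Transport of `J₀(N)(ℚ̄)` along an equality of levels. -/
def jzeroCast {N N' : ℕ} [NeZero N] [NeZero N'] (h : N = N') : JZero N ≃+ JZero N' := by
  subst h
  exact AddEquiv.refl _

theorem jzeroCast_smul {N N' : ℕ} [NeZero N] [NeZero N'] (h : N = N')
    (σ : AlgebraicClosure ℚ ≃ₐ[ℚ] AlgebraicClosure ℚ) (x : JZero N) :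
    jzeroCast h (σ • x) = σ • jzeroCast h x := by
  subst h
  rfl

theorem jzeroCast_heckeOperatorBar {N N' : ℕ} [NeZero N] [NeZero N'] (h : N = N')
    (ℓ : Nat.Primes) (x : JZero N) :
    jzeroCast h (heckeOperatorBar N ℓ x) = heckeOperatorBar N' ℓ (jzeroCast h x) := by
  subst h
  rfl

theorem jzeroCast_rfl {N : ℕ} [NeZero N] (x : JZero N) : jzeroCast (rfl : N = N) x = x :=
  rfl

end Cast

section Pair

variable (p M' : ℕ) [NeZero M'] [NeZero p] [NeZero (p * M')]

/-- `α_* : J₀(p M') → J₀(M')`, in the level convention of the wall spec. -/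
def alphaL : JZero (p * M') →+ JZero M' :=
  (alphaPush M' p).comp (jzeroCast (Nat.mul_comm p M')).toAddMonoidHom

/-- `β_* : J₀(p M') → J₀(M')`, in the level convention of the wall spec. -/
def betaL : JZero (p * M') →+ JZero M' :=
  (betaPush M' p).comp (jzeroCast (Nat.mul_comm p M')).toAddMonoidHom

theorem alphaL_apply (x : JZero (p * M')) :
    alphaL p M' x = alphaPush M' p (jzeroCast (Nat.mul_comm p M') x) :=
  rfl

theorem betaL_apply (x : JZero (p * M')) :
    betaL p M' x = betaPush M' p (jzeroCast (Nat.mul_comm p M') x) :=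
  rfl

theorem alphaL_smul (σ : AlgebraicClosure ℚ ≃ₐ[ℚ] AlgebraicClosure ℚ) (x : JZero (p * M')) :
    alphaL p M' (σ • x) = σ • alphaL p M' x := by
  rw [alphaL_apply, alphaL_apply, jzeroCast_smul, alphaPush_smul]

theorem betaL_smul (σ : AlgebraicClosure ℚ ≃ₐ[ℚ] AlgebraicClosure ℚ) (x : JZero (p * M')) :
    betaL p M' (σ • x) = σ • betaL p M' x := by
  rw [betaL_apply, betaL_apply, jzeroCast_smul, betaPush_smul]

theorem alphaL_heckeOperatorBar (hp : p.Prime) (ℓ : Nat.Primes) (hne : (ℓ : ℕ) ≠ p)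
    (x : JZero (p * M')) :
    alphaL p M' (heckeOperatorBar (p * M') ℓ x) = heckeOperatorBar M' ℓ (alphaL p M' x) := by
  rw [alphaL_apply, alphaL_apply, jzeroCast_heckeOperatorBar,
    alphaPush_heckeOperatorBar M' p hp ℓ hne]

theorem betaL_heckeOperatorBar (hp : p.Prime) (ℓ : Nat.Primes) (hne : (ℓ : ℕ) ≠ p)
    (x : JZero (p * M')) :
    betaL p M' (heckeOperatorBar (p * M') ℓ x) = heckeOperatorBar M' ℓ (betaL p M' x) := by
  rw [betaL_apply, betaL_apply, jzeroCast_heckeOperatorBar,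
    betaPush_heckeOperatorBar M' p hp ℓ hne]

/-- **W-DEG**: `(α_*, β_*)` is a degeneracy pair in the sense of the wall spec, with exceptional
set `S₀ = {p}`. -/
theorem isDegPair_alphaL_betaL (hp : p.Prime) :
    Wall.IsDegPair p M' {p} (alphaL p M') (betaL p M') where
  galois_left := alphaL_smul p M'
  galois_right := betaL_smul p M'
  hecke_left := fun ℓ hℓ x =>
    alphaL_heckeOperatorBar p M' hp ℓ (fun h => hℓ (Finset.mem_singleton.2 h)) x
  hecke_right := fun ℓ hℓ x =>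
    betaL_heckeOperatorBar p M' hp ℓ (fun h => hℓ (Finset.mem_singleton.2 h)) x

end Pair

section Statements

/-- W-DEG as an existence statement (no `NeZero p` instance needed). -/
theorem exists_isDegPair (p M' : ℕ) [NeZero M'] [NeZero (p * M')] (hp : p.Prime) :
    ∃ α β : JZero (p * M') →+ JZero M', Wall.IsDegPair p M' {p} α β := by
  haveI : NeZero p := ⟨hp.ne_zero⟩
  exact ⟨alphaL p M', betaL p M', isDegPair_alphaL_betaL p M' hp⟩

/-- **(W0)** in the shape used by the wall: an embedded `E[p] ⊂ J₀(pM')` which is not killed by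
both degeneracy maps makes the eigensystem occur at level `M'`. -/
theorem occursIn_of_not_killed {E : WeierstrassCurve ℚ} (p M' : ℕ) [NeZero M'] [NeZero p]
    [NeZero (p * M')] (hp : p.Prime) {S : Finset ℕ} {a : ℕ → ℤ}
    (ι : Wall.ETorsion E p →+ JZero (p * M'))
    (hT : ∀ ℓ : Nat.Primes, (ℓ : ℕ) ∉ S → ∀ x : Wall.ETorsion E p,
      heckeOperatorBar (p * M') ℓ (ι x) = a ℓ • ι x)
    (h : ∃ x, alphaL p M' (ι x) ≠ 0 ∨ betaL p M' (ι x) ≠ 0) :
    OccursIn M' p (S ∪ {p}) a :=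
  Wall.occursIn_of_not_new (isDegPair_alphaL_betaL p M' hp) ι hT h

/-- The wall's `NewKernelStatement` is reduced to **(WP)** for the concrete pair
`(alphaL, betaL)`. -/
theorem newKernel_of_WP
    (hWP : ∀ (p M' : ℕ) [NeZero M'] [NeZero p] [NeZero (p * M')], p.Prime → p ≠ 2 → ¬ p ∣ M' →
      Wall.WPFor p M' (alphaL p M') (betaL p M')) :
    Wall.NewKernelStatement := by
  intro p M' _ _ hp hp2 hpM'
  haveI : NeZero p := ⟨hp.ne_zero⟩
  exact ⟨{p}, alphaL p M', betaL p M', isDegPair_alphaL_betaL p M' hp, hWP p M' hp hp2 hpM'⟩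

end Statements

end Fermat.Agent.Ribet.H801

end

end
-- ===== PACK-END Ribet/H801/Deg.lean

-- ===== PACK-BEGIN Ribet/H944/WallTargets.lean
section



/-!
# Row 38, WALL-p: the four targets of the sub-architects and the assembly (W-ASM, helper944)

With the concrete degeneracy pair `(α, β) = (H801.alphaL p M', H801.betaL p M')` (W-DEG, on main)
the package `Wall.AtPFiltrationFor p M'` is the conjunction, for every place `A` over `p`, of four
statements about two subgroups `𝓕` ("finite part": slopes `0`) and `𝒮` ("split part": slopes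
`0` and trivial reductions on both components) of `J₀(pM')(ℚ̄)`:

* `S1For p M' A 𝒮`   — SLOPE+DLOG (helper884): `σ x - x ∈ 𝒮` for `x ∈ J[p]`, `σ ∈ I`;
* `S2For p M' A 𝒮`   — I4 + I5 (helper103): `I` acts through `χ` on the new part of `𝒮`;
* `S3For p M' 𝓕 𝒮`   — I3 (helper764): a new eigenclass in `𝓕 ∖ 𝒮` is lowered;
* `S4For p M' A 𝓕`   — I6 (helper704): new + non-Eisenstein + ordinary shape + peu ⇒ in `𝓕`.

`atPFiltrationFor_of` assembles them.  The owner of SLOPE+DLOG DEFINES `𝓕` and `𝒮` (as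
`AddSubgroup (JZero (p * M'))`, depending on `A`); the other three prove their statement for
these two subgroups.
-/

set_option autoImplicit false
set_option linter.style.haveILetI false

open WeierstrassCurve WeierstrassCurve.Affine WeierstrassCurve.Affine.Point
open CuspForm ModularFormClass UpperHalfPlane ModularCurve

namespace Fermat.Agent.Ribet.H944.Wall

open Fermat.Agent.Ribet.Spec Fermat.Agent.Ribet.H801

section Targets

variable (p M' : ℕ) [NeZero M'] [NeZero p] [NeZero (p * M')]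

/-- `x` is a new `p`-torsion class: `p x = 0`, `α_* x = 0`, `β_* x = 0`. -/
def IsNewTors (x : JZero (p * M')) : Prop :=
  p • x = 0 ∧ alphaL p M' x = 0 ∧ betaL p M' x = 0

/-- **(S1)**  inertia acts trivially on `J[p] / 𝒮`. -/
def S1For (A : ValuationSubring (AlgebraicClosure ℚ)) (𝒮 : AddSubgroup (JZero (p * M'))) :
    Prop :=
  ∀ x : JZero (p * M'), p • x = 0 → ∀ σ ∈ A.inertiaSubgroupIn ℚ, σ • x - x ∈ 𝒮

/-- **(S2)**  inertia acts through `χ` on the new part of `𝒮`. -/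
def S2For (A : ValuationSubring (AlgebraicClosure ℚ)) (𝒮 : AddSubgroup (JZero (p * M'))) :
    Prop :=
  ∀ x ∈ 𝒮, IsNewTors p M' x →
    ∀ σ ∈ A.inertiaSubgroupIn ℚ, ∀ c : ℕ, CycloAt p σ c → σ • x = c • x

/-- **(S3)**  a new Hecke-eigenclass in `𝓕 ∖ 𝒮` has its eigensystem at level `M'`. -/
def S3For (𝓕 𝒮 : AddSubgroup (JZero (p * M'))) : Prop :=
  ∀ (S : Finset ℕ) (a : ℕ → ℤ), ∀ x ∈ 𝓕, x ∉ 𝒮 → IsNewTors p M' x →
    EigenAt (p * M') S a x → Lowered M' p S a

/-- **(S4) = I6**  new + non-Eisenstein + ordinary shape + peu ramifiée ⇒ in `𝓕`. -/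
def S4For (A : ValuationSubring (AlgebraicClosure ℚ)) (𝓕 : AddSubgroup (JZero (p * M'))) :
    Prop :=
  ∀ (S : Finset ℕ) (a : ℕ → ℤ), NonEisAway p a → ∀ x t : JZero (p * M'),
    IsNewTors p M' x → EigenAt (p * M') S a x →
    IsNewTors p M' t → EigenAt (p * M') S a t →
    (∀ σ ∈ A.inertiaSubgroupIn ℚ, ∀ c : ℕ, CycloAt p σ c → σ • t = c • t) →
    (∀ σ ∈ A.inertiaSubgroupIn ℚ, ∃ n : ℕ, σ • x = x + n • t) →
    (∀ σ : GQ, PeuFixes A p σ → σ • x = x) → x ∈ 𝓕

/-- **W-ASM**: the package at `(p, M')` from the four targets. -/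
theorem atPFiltrationFor_of (hp : p.Prime)
    (h : ∀ A : ValuationSubring (AlgebraicClosure ℚ), A.LiesOverPrime p →
      ∃ 𝓕 𝒮 : AddSubgroup (JZero (p * M')),
        S1For p M' A 𝒮 ∧ S2For p M' A 𝒮 ∧ S3For p M' 𝓕 𝒮 ∧ S4For p M' A 𝓕) :
    AtPFiltrationFor p M' := by
  refine ⟨{p}, alphaL p M', betaL p M', isDegPair_alphaL_betaL p M' hp, fun A hA => ?_⟩
  obtain ⟨𝓕, 𝒮, h1, h2, h3, h4⟩ := h A hA
  refine ⟨𝓕, 𝒮, h1, ?_, ?_, ?_⟩
  · intro x hx hpx hαx hβx
    exact h2 x hx ⟨hpx, hαx, hβx⟩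
  · intro S a x hx hxS hpx hαx hβx heig
    exact h3 S a x hx hxS ⟨hpx, hαx, hβx⟩ heig
  · intro S a hNE x t hpx hαx hβx hex hpt hαt hβt het hχ hsh hpeu
    exact h4 S a hNE x t ⟨hpx, hαx, hβx⟩ hex ⟨hpt, hαt, hβt⟩ het hχ hsh hpeu

end Targets

/-- The four targets for all primes `p ≥ 5` (enough for S44). -/
def WallTargets5Statement : Prop :=
  ∀ (p M' : ℕ) [NeZero M'] [NeZero p] [NeZero (p * M')], p.Prime → 5 ≤ p → ¬ p ∣ M' →
    ∀ A : ValuationSubring (AlgebraicClosure ℚ), A.LiesOverPrime p →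
      ∃ 𝓕 𝒮 : AddSubgroup (JZero (p * M')),
        S1For p M' A 𝒮 ∧ S2For p M' A 𝒮 ∧ S3For p M' 𝓕 𝒮 ∧ S4For p M' A 𝓕

/-- The four targets for all odd primes (needed for S40). -/
def WallTargetsStatement : Prop :=
  ∀ (p M' : ℕ) [NeZero M'] [NeZero p] [NeZero (p * M')], p.Prime → p ≠ 2 → ¬ p ∣ M' →
    ∀ A : ValuationSubring (AlgebraicClosure ℚ), A.LiesOverPrime p →
      ∃ 𝓕 𝒮 : AddSubgroup (JZero (p * M')),
        S1For p M' A 𝒮 ∧ S2For p M' A 𝒮 ∧ S3For p M' 𝓕 𝒮 ∧ S4For p M' A 𝓕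

theorem atPFiltration5_of_targets (h : WallTargets5Statement) : AtPFiltration5Statement := by
  intro p M' _ _ hp h5 hpM'
  haveI : NeZero p := ⟨hp.ne_zero⟩
  exact atPFiltrationFor_of p M' hp (h p M' hp h5 hpM')

theorem atPFiltration_of_targets (h : WallTargetsStatement) : AtPFiltrationStatement := by
  intro p M' _ _ hp hp2 hpM'
  haveI : NeZero p := ⟨hp.ne_zero⟩
  exact atPFiltrationFor_of p M' hp (h p M' hp hp2 hpM')

/-- **S44 from the four targets (`p ≥ 5`), ELOC-ord for the Frey curve and the row inputs.** -/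
theorem S44_of_targets5 (hE : EmbedStatement) (hPl : PlacesStatement)
    (hT : WallTargets5Statement) (hEL : ELOCOrdFreyStatement)
    (hNMT : NotMultiplicativeTypeStatement) (hNE : NonEisensteinStatement)
    (hR3 : EigenformOfOccursAwayStatement) (hR3' : AlmostAllToWitnessStatement) :
    S44Statement :=
  S44_of_filtration5 hE hPl (atPFiltration5_of_targets hT) hEL hNMT hNE hR3 hR3'

/-- **S40 from the four targets (all odd `p`), ELOC-ord (good reduction) and the row inputs.** -/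
theorem S40_of_targets (hE : EmbedWStatement) (hPl : PlacesStatement)
    (hT : WallTargetsStatement) (hEL : ELOCOrdGoodStatement)
    (hNMT : NotMultTypeWStatement) (hNE : NonEisWStatement)
    (hR3 : EigenformOfOccursAwayStatement) (hR3' : AlmostAllToWitnessWStatement) :
    S40Statement :=
  S40_of_wall hE (wallGood_of_filtration hPl (atPFiltration_of_targets hT) hEL hNMT hNE)
    hR3 hR3'

end Fermat.Agent.Ribet.H944.Wall

end
-- ===== PACK-END Ribet/H944/WallTargets.lean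

-- ===== PACK-BEGIN Ribet/H884/SlopeSpec.lean
section




/-!
# Row 38, WALL-p: the two subgroups `𝓕 = finPart`, `𝒮 = splitPart` of `J₀(pM')(ℚ̄)` and the
# SLOPE + DLOG leaves (I1, I2)   (sub-architect helper884; FROZEN, definitions + Props + glue)

`N = p·M'`, `p ∤ M'`, `A` a valuation subring of `ℚ̄` over `p`, `k = kA A` its residue field,
`FF N = ℚ̄(X₀(N)) ⊆ ℚ̄((t))`.  Everything is stated on `t`-expansions (as in `H764.I3Spec` and in
the Prelude module `Def_ModularCurve_ReductionModL`), no model is mentioned.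

## Definitions
* `IsKummerGen N p f x` : `f ∈ FF N` is a Kummer generator of `x ∈ J₀(N)`: `x = [D]`, `div f = p·D`.
* `IsRedInf N A f r`    : `r ∈ k((t))` is a reduction of `f` on the `∞`-component:
                          `f · U₂ = c · U₁` with `c ∈ ℚ̄ˣ`, `U₁, U₂ ∈ A((t))` primitive, `r · Ū₂ = Ū₁`
                          (the normal form of `A2/H708/GaussInf`; `r` is unique up to `kˣ`).
* `IsRedZero N A f r`   : the same for `w_N f` (`w_N` = Fricke involution `H528.wF`), i.e. the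
                          reduction on the `0`-component (`V₀ = V∞ ∘ w_N`, `H708.Vzero`).
* `PDivSeries p M' r`   : `r` lies in `F_k = modularFunctionFieldFullC k M'` (function field of
                          `X₀(M')_k`), `r ≠ 0`, and `p ∣ ord_Q r` at EVERY place `Q` of `F_k`
                          ("all slopes are `0`": at the smooth points this is automatic for a
                          Kummer generator, at the supersingular points `ord_Q r` IS the slope).
* `SplitSeries p r`     : `r ∈ k((t^p))` (`⇔ θ r = 0 ⇔ r` is a `p`-th power in `k((t))`).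
* `finSet`, `splitSet`  : the classes having a Kummer generator whose two reductions are
                          `PDivSeries` (resp. `PDivSeries` and `SplitSeries`);
* **`finPart p M' A`, `splitPart p M' A`** : the subgroups generated by them.
  (`FinClosedStatement`, `SplitClosedStatement`: nothing is added by taking the closure.)

## Targets / leaves
| leaf | Prop | content |
|---|---|---|
| (S1)   | `S1Statement`          | `Wall.S1For p M' A (splitPart p M' A)` : `σ f / f` has reductions `1` |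
| (S2)   | `S2Statement`          | `Wall.S2For p M' A (splitPart p M' A)` (I4 + I5, helper103) |
| RED    | `RedExistsStatement`, `RedUniqueStatement`, `RedFieldStatement` | reductions exist, are unique up to `kˣ`, lie in `k(X₀(M'))` |
| GEN    | `GenIndepStatement`    | membership in `finSet`/`splitSet` can be tested on ANY Kummer generator |
| CLOSED | `FinClosedStatement`, `SplitClosedStatement` | `finSet`, `splitSet` are subgroups |
| SYM    | `NodeSymStatement`     | node symmetry: slopes on `C∞` vanish iff slopes on `C₀` vanish |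
| HECKE  | `HeckeStableStatement` | `T_ℓ` preserves `finPart` and `splitPart` (`ℓ ∤ pM'`) |
| RES    | `ResFieldStatement`    | `k` is algebraically closed of characteristic `p` |
| DLOG   | `DlogOutStatement`     | I2: `x ∈ 𝓕 ∖ 𝒮` new eigen ⇒ nonzero eigen-`dlog` of a reduction, EXACTLY the input of `H764.I3.R3PStatement` |
| EIS    | `EisSlopeStatement`    | output of I6-core + NODE + Brandt: under the hypotheses of (S4), `T_ℓ x - (ℓ+1) x ∈ 𝓕` off a finite set |

## Proved here (glue)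
* `splitPart_le_finPart`;
* `s3For_of : ResField → DlogOut → R3P → S3For (finPart) (splitPart)`;
* `mem_finPart_of_eis`, `s4For_of : EisSlope → S4For (finPart)` (pure group theory: NE + Bezout);
* `wallTargets5_of : S1 → S2 → ResField → DlogOut → R3P → EisSlope → H944.Wall.WallTargets5Statement`.
-/

set_option autoImplicit false
set_option synthInstance.maxHeartbeats 400000
set_option maxHeartbeats 1000000

noncomputable section

namespace Fermat.Agent.Ribet.H884

open AlgebraicCurve ModularCurve HahnSeries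
open Fermat.Agent.S24 Fermat.Agent.A2.H708 Fermat.Agent.A2.H528
open Fermat.Agent.Ribet.Spec Fermat.Agent.Ribet.H944.Wall

/-- The residue field of `A`. -/
abbrev kA (A : ValuationSubring Kbar) : Type := IsLocalRing.ResidueField A

/-! ## Kummer generators and reductions -/

section Defs

variable (N : ℕ) [NeZero N]

/-- `f` is a Kummer generator of the class `x`: `x = [D]` and `div f = p · D`. -/
def IsKummerGen (p : ℕ) (f : FF N) (x : JZero N) : Prop :=
  f ≠ 0 ∧ ∃ D : Divisor.degZero (K := Kbar) (F := FF N), Pic0.mk D = x ∧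
    ∀ v : Place Kbar (FF N), v.ord f = (p : ℤ) * (D : Divisor Kbar (FF N)) v

variable (A : ValuationSubring Kbar)

/-- `r ∈ k((t))` is a reduction of `f` on the `∞`-component: `f = c · U₁ / U₂` with `c` a nonzero
constant and `U₁, U₂` primitive `A`-integral series, and `r = Ū₁ / Ū₂`. -/
def IsRedInf (f : FF N) (r : LaurentSeries (kA A)) : Prop :=
  ∃ (c : Kbar) (U₁ U₂ : LaurentSeries A), c ≠ 0 ∧ red A U₁ ≠ 0 ∧ red A U₂ ≠ 0 ∧
    (f : LaurentSeries Kbar) * incl A U₂ = cst c * incl A U₁ ∧ r * red A U₂ = red A U₁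

/-- `r ∈ k((t))` is a reduction of `f` on the `0`-component (`V₀ = V∞ ∘ w_N`). -/
def IsRedZero (f : FF N) (r : LaurentSeries (kA A)) : Prop :=
  IsRedInf N A (wF N f) r

end Defs

/-- `r` is a nonzero element of `F_k = k(X₀(M'))` all of whose orders are divisible by `p`. -/
def PDivSeries (p M' : ℕ) {k : Type} [Field k] (r : LaurentSeries k) : Prop :=
  ∃ h : modularFunctionFieldFullC k M', (h : LaurentSeries k) = r ∧ h ≠ 0 ∧
    ∀ Q : Place k (modularFunctionFieldFullC k M'), (p : ℤ) ∣ Q.ord h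

/-- `r ∈ k((t^p))`. -/
def SplitSeries (p : ℕ) {k : Type} [Field k] (r : LaurentSeries k) : Prop :=
  ∀ n : ℤ, ¬ (p : ℤ) ∣ n → r.coeff n = 0

/-! ## The two subgroups -/

section Parts

variable (p M' : ℕ) [NeZero (p * M')] (A : ValuationSubring Kbar)

/-- `f` has slopes `0` on both components. -/
def FinGen (f : FF (p * M')) : Prop :=
  ∃ r₁ r₂ : LaurentSeries (kA A), IsRedInf (p * M') A f r₁ ∧ IsRedZero (p * M') A f r₂ ∧
    PDivSeries p M' r₁ ∧ PDivSeries p M' r₂

/-- `f` has slopes `0` and `p`-th power reductions on both components. -/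
def SplitGen (f : FF (p * M')) : Prop :=
  ∃ r₁ r₂ : LaurentSeries (kA A), IsRedInf (p * M') A f r₁ ∧ IsRedZero (p * M') A f r₂ ∧
    PDivSeries p M' r₁ ∧ PDivSeries p M' r₂ ∧ SplitSeries p r₁ ∧ SplitSeries p r₂

/-- Classes with a Kummer generator of slopes `0`. -/
def finSet : Set (JZero (p * M')) :=
  {x | ∃ f : FF (p * M'), IsKummerGen (p * M') p f x ∧ FinGen p M' A f}

/-- Classes with a Kummer generator of slopes `0` and `p`-th power reductions. -/
def splitSet : Set (JZero (p * M')) :=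
  {x | ∃ f : FF (p * M'), IsKummerGen (p * M') p f x ∧ SplitGen p M' A f}

/-- **The finite part `𝓕`** of `J₀(pM')[p]` at `A`. -/
def finPart : AddSubgroup (JZero (p * M')) := AddSubgroup.closure (finSet p M' A)

/-- **The split part `𝒮`** of `J₀(pM')[p]` at `A`. -/
def splitPart : AddSubgroup (JZero (p * M')) := AddSubgroup.closure (splitSet p M' A)

theorem SplitGen.finGen {f : FF (p * M')} (h : SplitGen p M' A f) : FinGen p M' A f := by
  obtain ⟨r₁, r₂, h1, h2, h3, h4, -, -⟩ := h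
  exact ⟨r₁, r₂, h1, h2, h3, h4⟩

theorem splitSet_subset_finSet : splitSet p M' A ⊆ finSet p M' A := by
  rintro x ⟨f, hf, hs⟩
  exact ⟨f, hf, hs.finGen p M' A⟩

theorem splitPart_le_finPart : splitPart p M' A ≤ finPart p M' A :=
  AddSubgroup.closure_mono (splitSet_subset_finSet p M' A)

end Parts

/-! ## Leaves -/

/-- **(S1)** = the target `Wall.S1For` for `𝒮 = splitPart`. -/
def S1Statement : Prop :=
  ∀ (p M' : ℕ) [NeZero M'] [NeZero p] [NeZero (p * M')], p.Prime → ¬ p ∣ M' →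
    ∀ A : ValuationSubring Kbar, A.LiesOverPrime p → S1For p M' A (splitPart p M' A)

/-- **(S2)** = the target `Wall.S2For` for `𝒮 = splitPart` (I4 + I5, sub-architect helper103). -/
def S2Statement : Prop :=
  ∀ (p M' : ℕ) [NeZero M'] [NeZero p] [NeZero (p * M')], p.Prime → p ≠ 2 → ¬ p ∣ M' →
    ∀ A : ValuationSubring Kbar, A.LiesOverPrime p → S2For p M' A (splitPart p M' A)

/-- **REDEX**: every nonzero function has a reduction on each component
(`H708.exists_normal_form`). -/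
def RedExistsStatement : Prop :=
  ∀ (p N : ℕ) [NeZero N], p.Prime → ∀ A : ValuationSubring Kbar, A.LiesOverPrime p →
    ∀ f : FF N, f ≠ 0 →
      (∃ r : LaurentSeries (kA A), IsRedInf N A f r) ∧
      (∃ r : LaurentSeries (kA A), IsRedZero N A f r)

/-- **REDUNIQ**: a reduction is nonzero and unique up to a nonzero constant of `k`. -/
def RedUniqueStatement : Prop :=
  ∀ (p N : ℕ) [NeZero N], p.Prime → ∀ A : ValuationSubring Kbar, A.LiesOverPrime p →
    ∀ (f : FF N) (r r' : LaurentSeries (kA A)), IsRedInf N A f r → IsRedInf N A f r' →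
      r ≠ 0 ∧ ∃ c : kA A, c ≠ 0 ∧ r' = HahnSeries.C c * r

/-- **REDFIELD** (part of MOD at `p`: the residue fields of `V∞`, `V₀` at level `pM'` are
`k(X₀(M'))`): every reduction of a function of level `pM'` lies in
`modularFunctionFieldFullC k M'`. -/
def RedFieldStatement : Prop :=
  ∀ (p M' : ℕ) [NeZero M'] [NeZero p] [NeZero (p * M')], p.Prime → ¬ p ∣ M' →
    ∀ A : ValuationSubring Kbar, A.LiesOverPrime p →
    ∀ (f : FF (p * M')) (r : LaurentSeries (kA A)),
      (IsRedInf (p * M') A f r ∨ IsRedZero (p * M') A f r) →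
      ∃ h : modularFunctionFieldFullC (kA A) M', (h : LaurentSeries (kA A)) = r

/-- **GEN**: membership can be tested on any Kummer generator. -/
def GenIndepStatement : Prop :=
  ∀ (p M' : ℕ) [NeZero M'] [NeZero p] [NeZero (p * M')], p.Prime → ¬ p ∣ M' →
    ∀ A : ValuationSubring Kbar, A.LiesOverPrime p →
    ∀ (x : JZero (p * M')) (f : FF (p * M')), IsKummerGen (p * M') p f x →
      (x ∈ finSet p M' A → FinGen p M' A f) ∧ (x ∈ splitSet p M' A → SplitGen p M' A f)

/-- **CLOSED (𝓕)**: `finSet` is already a subgroup. -/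
def FinClosedStatement : Prop :=
  ∀ (p M' : ℕ) [NeZero M'] [NeZero p] [NeZero (p * M')], p.Prime → ¬ p ∣ M' →
    ∀ A : ValuationSubring Kbar, A.LiesOverPrime p →
    ∀ x ∈ finPart p M' A, x ∈ finSet p M' A

/-- **CLOSED (𝒮)**: `splitSet` is already a subgroup. -/
def SplitClosedStatement : Prop :=
  ∀ (p M' : ℕ) [NeZero M'] [NeZero p] [NeZero (p * M')], p.Prime → ¬ p ∣ M' →
    ∀ A : ValuationSubring Kbar, A.LiesOverPrime p →
    ∀ x ∈ splitPart p M' A, x ∈ splitSet p M' A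

/-- **SYM** (node symmetry, `res₁ = - res₂`): for a Kummer generator the slopes on `C∞` vanish
iff the slopes on `C₀` vanish. -/
def NodeSymStatement : Prop :=
  ∀ (p M' : ℕ) [NeZero M'] [NeZero p] [NeZero (p * M')], p.Prime → ¬ p ∣ M' →
    ∀ A : ValuationSubring Kbar, A.LiesOverPrime p →
    ∀ (x : JZero (p * M')) (f : FF (p * M')), IsKummerGen (p * M') p f x →
    ∀ r₁ r₂ : LaurentSeries (kA A), IsRedInf (p * M') A f r₁ → IsRedZero (p * M') A f r₂ →
      (PDivSeries p M' r₁ ↔ PDivSeries p M' r₂)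

/-- **HECKE**: `T_ℓ` (`ℓ ∤ pM'`) preserves `𝓕` and `𝒮`. -/
def HeckeStableStatement : Prop :=
  ∀ (p M' : ℕ) [NeZero M'] [NeZero p] [NeZero (p * M')], p.Prime → ¬ p ∣ M' →
    ∀ A : ValuationSubring Kbar, A.LiesOverPrime p →
    ∀ ℓ : Nat.Primes, ¬ (ℓ : ℕ) ∣ p * M' →
      (∀ x ∈ finPart p M' A, heckeOperatorBar (p * M') ℓ x ∈ finPart p M' A) ∧
      (∀ x ∈ splitPart p M' A, heckeOperatorBar (p * M') ℓ x ∈ splitPart p M' A)

/-- **RES**: the residue field of `A` is algebraically closed of characteristic `p`. -/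
def ResFieldStatement : Prop :=
  ∀ (p : ℕ), p.Prime → ∀ A : ValuationSubring Kbar, A.LiesOverPrime p →
    IsAlgClosed (kA A) ∧ CharP (kA A) p

/-- **DLOG (I2)**: a new eigenclass in `𝓕 ∖ 𝒮` produces, on one of the two components, a
reduction `h ∈ k(X₀(M'))` with `p ∣ div h` whose logarithmic derivative `g = θh / h` is a nonzero
`T_ℓ`-eigenseries with eigenvalues `a_ℓ`: exactly the input of `H764.I3.R3PStatement`. -/
def DlogOutStatement : Prop :=
  ∀ (p M' : ℕ) [NeZero M'] [NeZero p] [NeZero (p * M')], p.Prime → p ≠ 2 → ¬ p ∣ M' →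
    ∀ A : ValuationSubring Kbar, A.LiesOverPrime p →
    ∀ (S : Finset ℕ) (a : ℕ → ℤ), ∀ x ∈ finPart p M' A, x ∉ splitPart p M' A →
      IsNewTors p M' x → EigenAt (p * M') S a x →
      ∃ (S' : Finset ℕ) (h : modularFunctionFieldFullC (kA A) M') (g : PowerSeries (kA A)),
        S ⊆ S' ∧ h ≠ 0 ∧
        (∀ Q : Place (kA A) (modularFunctionFieldFullC (kA A) M'), (p : ℤ) ∣ Q.ord h) ∧
        H764.I3.IsDlog (h : LaurentSeries (kA A)) g ∧ g ≠ 0 ∧ H764.I3.IsEigenSeries M' S' a g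

/-- `x` has Eisenstein slopes off `S'`: `T_ℓ x - (ℓ + 1) x ∈ 𝓕`. -/
def IsEisMod (p M' : ℕ) [NeZero (p * M')] (A : ValuationSubring Kbar) (S' : Finset ℕ)
    (x : JZero (p * M')) : Prop :=
  ∀ ℓ : Nat.Primes, (ℓ : ℕ) ∉ S' →
    heckeOperatorBar (p * M') ℓ x - ((ℓ : ℕ) + 1) • x ∈ finPart p M' A

/-- **EIS** (output of I6-core + NODE + Hecke/Brandt equivariance of the slopes): under the
hypotheses of (S4) — WITHOUT the non-Eisenstein hypothesis — the slope vector of `x` is a multiple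
of the slope vector of the modular unit `Δ(z)/Δ(pz)`, which is Eisenstein; hence
`T_ℓ x - (ℓ+1) x ∈ 𝓕` off a finite set. -/
def EisSlopeStatement : Prop :=
  ∀ (p M' : ℕ) [NeZero M'] [NeZero p] [NeZero (p * M')], p.Prime → 5 ≤ p → ¬ p ∣ M' →
    ∀ A : ValuationSubring Kbar, A.LiesOverPrime p →
    ∀ (S : Finset ℕ) (a : ℕ → ℤ) (x t : JZero (p * M')),
      IsNewTors p M' x → EigenAt (p * M') S a x →
      IsNewTors p M' t → EigenAt (p * M') S a t →
      (∀ σ ∈ A.inertiaSubgroupIn ℚ, ∀ c : ℕ, CycloAt p σ c → σ • t = c • t) →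
      (∀ σ ∈ A.inertiaSubgroupIn ℚ, ∃ n : ℕ, σ • x = x + n • t) →
      (∀ σ : GQ, PeuFixes A p σ → σ • x = x) →
      ∃ S' : Finset ℕ, IsEisMod p M' A S' x

/-! ## Glue -/

/-- **(S3)** from DLOG (I2) and `R3P` (I3). -/
theorem s3For_of (hR : ResFieldStatement) (hD : DlogOutStatement)
    (h3 : H764.I3.R3PStatement)
    (p M' : ℕ) [NeZero M'] [NeZero p] [NeZero (p * M')] (hp : p.Prime) (hp2 : p ≠ 2)
    (hpM : ¬ p ∣ M') (A : ValuationSubring Kbar) (hA : A.LiesOverPrime p) :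
    S3For p M' (finPart p M' A) (splitPart p M' A) := by
  intro S a x hx hxS hnew heig
  obtain ⟨S', h, g, hSS', h0, hdiv, hdlog, hg0, heigs⟩ :=
    hD p M' hp hp2 hpM A hA S a x hx hxS hnew heig
  obtain ⟨hac, hch⟩ := hR p hp A hA
  obtain ⟨S'', hS'', hlow⟩ := h3 p M' hp hpM (kA A) S' a h h0 hdiv g hdlog hg0 heigs
  exact ⟨S'', hSS'.trans hS'', hlow⟩

/-- Pure group theory: an eigenclass with non-Eisenstein eigenvalues and Eisenstein slopes has
slopes `0`. -/
theorem mem_finPart_of_eis (p M' : ℕ) [NeZero (p * M')] (hp : p.Prime)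
    (A : ValuationSubring Kbar) (S S' : Finset ℕ) (a : ℕ → ℤ) (hNE : NonEisAway p a)
    (x : JZero (p * M')) (hpx : p • x = 0) (heig : EigenAt (p * M') S a x)
    (hE : IsEisMod p M' A S' x) : x ∈ finPart p M' A := by
  obtain ⟨ℓ, hℓ, hℓS, hndvd⟩ := hNE (S ∪ S')
  have hℓ1 : ℓ ∉ S := fun h => hℓS (Finset.mem_union_left _ h)
  have hℓ2 : ℓ ∉ S' := fun h => hℓS (Finset.mem_union_right _ h)
  have h1 := hE ⟨ℓ, hℓ⟩ hℓ2
  rw [heig ⟨ℓ, hℓ⟩ hℓ1] at h1
  -- `(a ℓ - (ℓ + 1)) • x ∈ 𝓕`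
  have h2 : (a ℓ - ((ℓ : ℤ) + 1)) • x ∈ finPart p M' A := by
    have e : (a ℓ - ((ℓ : ℤ) + 1)) • x = a ℓ • x - ((ℓ : ℕ) + 1) • x := by
      have h3 : ((ℓ : ℤ) + 1) = (((ℓ : ℕ) + 1 : ℕ) : ℤ) := by push_cast; ring
      rw [sub_smul, h3, natCast_zsmul]
    rw [e]
    exact h1
  -- Bezout
  have hcop : IsCoprime (a ℓ - ((ℓ : ℤ) + 1)) (p : ℤ) := by
    have hpp : Prime (p : ℤ) := Nat.prime_iff_prime_int.mp hp
    exact (IsCoprime.symm ((Prime.coprime_iff_not_dvd hpp).mpr hndvd))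
  obtain ⟨u, v, huv⟩ := hcop
  have hx : x = u • ((a ℓ - ((ℓ : ℤ) + 1)) • x) + v • ((p : ℤ) • x) := by
    rw [smul_smul, smul_smul, ← add_zsmul, huv, one_zsmul]
  rw [hx]
  refine (finPart p M' A).add_mem ((finPart p M' A).zsmul_mem h2 u) ?_
  have : ((p : ℤ) • x) = 0 := by rw [natCast_zsmul]; exact hpx
  rw [this, smul_zero]
  exact (finPart p M' A).zero_mem

/-- **(S4)** from EIS, for `p ≥ 5`. -/
theorem s4For_of (hE : EisSlopeStatement)
    (p M' : ℕ) [NeZero M'] [NeZero p] [NeZero (p * M')] (hp : p.Prime) (hp5 : 5 ≤ p)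
    (hpM : ¬ p ∣ M') (A : ValuationSubring Kbar) (hA : A.LiesOverPrime p) :
    S4For p M' A (finPart p M' A) := by
  intro S a hNE x t hx hex ht het hχ hsh hpeu
  obtain ⟨S', hS'⟩ := hE p M' hp hp5 hpM A hA S a x t hx hex ht het hχ hsh hpeu
  exact mem_finPart_of_eis p M' hp A S S' a hNE x hx.1 hex hS'

/-- **The four targets for `p ≥ 5`** (`H944.Wall.WallTargets5Statement`, hence S44 by
`H944.Wall.S44_of_targets5`) from the leaves of the four sub-architects. -/
theorem wallTargets5_of (h1 : S1Statement) (h2 : S2Statement) (hR : ResFieldStatement)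
    (hD : DlogOutStatement) (h3 : H764.I3.R3PStatement) (hE : EisSlopeStatement) :
    WallTargets5Statement := by
  intro p M' _ _ _ hp hp5 hpM A hA
  have hp2 : p ≠ 2 := by omega
  exact ⟨finPart p M' A, splitPart p M' A, h1 p M' hp hpM A hA, h2 p M' hp hp2 hpM A hA,
    s3For_of hR hD h3 p M' hp hp2 hpM A hA, s4For_of hE p M' hp hp5 hpM A hA⟩

end Fermat.Agent.Ribet.H884

end

end
-- ===== PACK-END Ribet/H884/SlopeSpec.lean

-- ===== PACK-BEGIN Ribet/H801/DegKummer.lean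
section
/-
RIBET / W-DEG (helper801), part 6: the KUMMER FORM of the degeneracy maps (input of W-NC / I4).

For a class `x = [D]` with `m • D = div f` (Kummer generator `f`):

    a_* x = 0   ↔   Nm_a f = g ^ m  for some `g ≠ 0` of the lower field

(`K` algebraically closed, functions without zeros and poles constant).  Instances:
`alphaL`, `betaL : J₀(p M') → J₀(M')` with the norms along
`alphaTo`, `betaTo : F_{M'} → F_{p M'}` (`S29.H801`; inclusion, resp. `t ↦ t ^ p`).
-/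





set_option autoImplicit false
set_option linter.style.haveILetI false

noncomputable section

namespace Fermat.Agent.Ribet.H801

open AlgebraicCurve ModularCurve Fermat.Agent.S37.H818 Fermat.Agent.S29.H801
open Fermat.Agent.Lib.HI Fermat.Agent.S29.H395

section Generic

variable {K F F₁ : Type*} [Field K] [Field F] [Field F₁] [Algebra K F] [Algebra K F₁]
variable (a : F →ₐ[K] F₁) (ha : a.toRingHom.IsIntegral)
  (hfin : FiniteAlong K a) (hN : NormFormulaAlong K a hfin)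

theorem ord_pow_nat (v : Place K F) (y : F) (m : ℕ) : v.ord (y ^ m) = m * v.ord y := by
  have := v.ord_zpow y (m : ℤ)
  simpa using this

theorem ord_algebraMap_zero (v : Place K F) {c : K} (hc : c ≠ 0) :
    v.ord (algebraMap K F c) = 0 := by
  have h1 : algebraMap K F c ∈ v.toValuationSubring := v.algebraMap_mem' c
  have h2 : algebraMap K F c⁻¹ ∈ v.toValuationSubring := v.algebraMap_mem' c⁻¹
  have hu : IsUnit (⟨algebraMap K F c, h1⟩ : v.toValuationSubring) := by
    refine IsUnit.of_mul_eq_one (⟨algebraMap K F c⁻¹, h2⟩ : v.toValuationSubring) ?_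
    ext
    show algebraMap K F c * algebraMap K F c⁻¹ = 1
    rw [← map_mul, mul_inv_cancel₀ hc, map_one]
  exact v.ord_coe_unit hu.unit

include hfin hN in
/-- `m • a_* D = div (Nm_a f)` if `m • D = div f`. -/
theorem pushforwardAlong_kummer {m : ℤ} (D : Divisor K F₁) {f : F₁} (hf : f ≠ 0)
    (hD : ∀ w : Place K F₁, m * D w = w.ord f) (v : Place K F) :
    m * Divisor.pushforwardAlong a ha D v = v.ord (normAlong a f) := by
  have h1 : ∀ w, (m • D) w = w.ord f := fun w => by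
    rw [Finsupp.smul_apply, smul_eq_mul]; exact hD w
  have h2 := pushforwardAlong_apply_eq_ord a ha hfin hN hf h1 v
  rw [map_zsmul, Finsupp.smul_apply, smul_eq_mul] at h2
  exact h2

/-- **Kummer form of the kernel of a push-forward.** -/
theorem pushPic0_mk_eq_zero_iff [IsAlgClosed K]
    (hconst : ∀ u : F, u ≠ 0 → (∀ v : Place K F, v.ord u = 0) → ∃ c : K, u = algebraMap K F c)
    {m : ℕ} (hm : m ≠ 0) (D : Divisor.degZero (K := K) (F := F₁)) {f : F₁} (hf : f ≠ 0)
    (hD : ∀ w : Place K F₁, (m : ℤ) * (D : Divisor K F₁) w = w.ord f) :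
    pushPic0 a ha hfin hN (Pic0.mk D) = 0 ↔ ∃ g : F, g ≠ 0 ∧ normAlong a f = g ^ m := by
  have hm' : (m : ℤ) ≠ 0 := by exact_mod_cast hm
  have hNf : normAlong a f ≠ 0 := normAlong_ne_zero a hfin hf
  have key : ∀ v : Place K F,
      (m : ℤ) * (pushDegZero a ha D : Divisor K F) v = v.ord (normAlong a f) := fun v =>
    pushforwardAlong_kummer a ha hfin hN (D : Divisor K F₁) hf hD v
  rw [pushPic0_mk, mk_eq_zero_iff]
  constructor
  · rintro ⟨g₀, hg₀, hg₀D⟩
    have hu0 : normAlong a f * (g₀ ^ m)⁻¹ ≠ 0 :=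
      mul_ne_zero hNf (inv_ne_zero (pow_ne_zero m hg₀))
    obtain ⟨c, hc⟩ := hconst (normAlong a f * (g₀ ^ m)⁻¹) hu0 (fun v => by
      rw [v.ord_mul hNf (inv_ne_zero (pow_ne_zero m hg₀)), v.ord_inv, ord_pow_nat, ← key v,
        hg₀D v]
      ring)
    have hc0 : c ≠ 0 := by
      rintro rfl
      rw [map_zero] at hc
      exact hu0 hc
    obtain ⟨d, hd⟩ := IsAlgClosed.exists_pow_nat_eq c (Nat.pos_of_ne_zero hm)
    have hd0 : d ≠ 0 := by
      rintro rfl
      rw [zero_pow hm] at hd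
      exact hc0 hd.symm
    refine ⟨algebraMap K F d * g₀, mul_ne_zero (by simpa using hd0) hg₀, ?_⟩
    rw [mul_pow, ← map_pow, hd, ← hc, mul_assoc, inv_mul_cancel₀ (pow_ne_zero m hg₀), mul_one]
  · rintro ⟨g, hg, hgf⟩
    refine ⟨g, hg, fun v => ?_⟩
    have h1 := key v
    rw [hgf, ord_pow_nat] at h1
    exact mul_left_cancel₀ hm' h1

/-- Every `m`-torsion class has a Kummer generator. -/
theorem exists_kummer_of_nsmul_eq_zero {m : ℕ} (x : Pic0 K F₁) (hx : m • x = 0) :
    ∃ (D : Divisor.degZero (K := K) (F := F₁)) (f : F₁), x = Pic0.mk D ∧ f ≠ 0 ∧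
      ∀ w : Place K F₁, (m : ℤ) * (D : Divisor K F₁) w = w.ord f := by
  obtain ⟨D, rfl⟩ := Pic0.mk_surjective x
  have h0 : Pic0.mk (m • D) = 0 := hx
  obtain ⟨f, hf, hfD⟩ := mk_eq_zero_iff.1 h0
  refine ⟨D, f, rfl, hf, fun w => ?_⟩
  rw [← hfD w]
  simp [Finsupp.smul_apply]

end Generic

section Modular

local notation "Qb" => AlgebraicClosure ℚ

variable (M p : ℕ) [NeZero M] [NeZero p]

/-- `α_*` with the top level renamed. -/
def alphaPushTo (N : ℕ) [NeZero N] (h : M * p = N) : JZero N →+ JZero M :=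
  pushPic0 (alphaTo Qb M p N h) (alphaTo_integral Qb h (H864.heckeAlphaBarIntegral M p))
    (alphaTo_finite Qb h (H864.finiteAlong_alpha M p))
    (alphaTo_normFormula Qb h (H864.finiteAlong_alpha M p) (H864.normFormulaAlong_alpha M p _))

/-- `β_*` with the top level renamed. -/
def betaPushTo (N : ℕ) [NeZero N] (h : M * p = N) : JZero N →+ JZero M :=
  pushPic0 (betaTo Qb M p N h) (betaTo_integral Qb h (H864.heckeBetaBarIntegral M p))
    (betaTo_finite Qb h (H864.finiteAlong_beta M p))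
    (betaTo_normFormula Qb h (H864.finiteAlong_beta M p) (H864.normFormulaAlong_beta M p _))

theorem alphaPushTo_eq (N : ℕ) [NeZero N] (h : M * p = N) (x : JZero N) :
    alphaPushTo M p N h x = alphaPush M p (jzeroCast h.symm x) := by
  subst h
  rfl

theorem betaPushTo_eq (N : ℕ) [NeZero N] (h : M * p = N) (x : JZero N) :
    betaPushTo M p N h x = betaPush M p (jzeroCast h.symm x) := by
  subst h
  rfl

theorem constOfOrdZero_bar (u : modularFunctionFieldBar M) (hu0 : u ≠ 0)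
    (hu : ∀ v : Place Qb (modularFunctionFieldBar M), v.ord u = 0) :
    ∃ c : Qb, u = algebraMap Qb (modularFunctionFieldBar M) c :=
  Fermat.Agent.S18.H144.constOfOrdZero_modularFunctionFieldBar M u hu0 hu

/-- **Kummer form of `ker α_*`** (any renamed top level). -/
theorem alphaPushTo_mk_eq_zero_iff (N : ℕ) [NeZero N] (h : M * p = N) {m : ℕ} (hm : m ≠ 0)
    (D : Divisor.degZero (K := Qb) (F := modularFunctionFieldBar N))
    {f : modularFunctionFieldBar N} (hf : f ≠ 0)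
    (hD : ∀ w : Place Qb (modularFunctionFieldBar N),
      (m : ℤ) * (D : Divisor Qb (modularFunctionFieldBar N)) w = w.ord f) :
    alphaPushTo M p N h (Pic0.mk D) = 0 ↔
      ∃ g : modularFunctionFieldBar M, g ≠ 0 ∧ normAlong (alphaTo Qb M p N h) f = g ^ m :=
  pushPic0_mk_eq_zero_iff _ _ _ _ (constOfOrdZero_bar M) hm D hf hD

/-- **Kummer form of `ker β_*`** (any renamed top level). -/
theorem betaPushTo_mk_eq_zero_iff (N : ℕ) [NeZero N] (h : M * p = N) {m : ℕ} (hm : m ≠ 0)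
    (D : Divisor.degZero (K := Qb) (F := modularFunctionFieldBar N))
    {f : modularFunctionFieldBar N} (hf : f ≠ 0)
    (hD : ∀ w : Place Qb (modularFunctionFieldBar N),
      (m : ℤ) * (D : Divisor Qb (modularFunctionFieldBar N)) w = w.ord f) :
    betaPushTo M p N h (Pic0.mk D) = 0 ↔
      ∃ g : modularFunctionFieldBar M, g ≠ 0 ∧ normAlong (betaTo Qb M p N h) f = g ^ m :=
  pushPic0_mk_eq_zero_iff _ _ _ _ (constOfOrdZero_bar M) hm D hf hD

end Modular

section Wall

local notation "Qb" => AlgebraicClosure ℚ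

variable (p M' : ℕ) [NeZero M'] [NeZero p] [NeZero (p * M')]

theorem alphaL_eq_alphaPushTo (x : JZero (p * M')) :
    alphaL p M' x = alphaPushTo M' p (p * M') (Nat.mul_comm M' p) x := by
  rw [alphaPushTo_eq]
  rfl

theorem betaL_eq_betaPushTo (x : JZero (p * M')) :
    betaL p M' x = betaPushTo M' p (p * M') (Nat.mul_comm M' p) x := by
  rw [betaPushTo_eq]
  rfl

/-- **Kummer form of `ker α_*`, wall convention**: for `x = [D]`, `m D = div f`:
`α_* x = 0 ↔ Nm_α f` is an `m`-th power in `F_{M'}`. -/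
theorem alphaL_mk_eq_zero_iff {m : ℕ} (hm : m ≠ 0)
    (D : Divisor.degZero (K := Qb) (F := modularFunctionFieldBar (p * M')))
    {f : modularFunctionFieldBar (p * M')} (hf : f ≠ 0)
    (hD : ∀ w : Place Qb (modularFunctionFieldBar (p * M')),
      (m : ℤ) * (D : Divisor Qb (modularFunctionFieldBar (p * M'))) w = w.ord f) :
    alphaL p M' (Pic0.mk D) = 0 ↔
      ∃ g : modularFunctionFieldBar M', g ≠ 0 ∧
        normAlong (alphaTo Qb M' p (p * M') (Nat.mul_comm M' p)) f = g ^ m := by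
  rw [alphaL_eq_alphaPushTo]
  exact alphaPushTo_mk_eq_zero_iff M' p (p * M') _ hm D hf hD

/-- **Kummer form of `ker β_*`, wall convention.** -/
theorem betaL_mk_eq_zero_iff {m : ℕ} (hm : m ≠ 0)
    (D : Divisor.degZero (K := Qb) (F := modularFunctionFieldBar (p * M')))
    {f : modularFunctionFieldBar (p * M')} (hf : f ≠ 0)
    (hD : ∀ w : Place Qb (modularFunctionFieldBar (p * M')),
      (m : ℤ) * (D : Divisor Qb (modularFunctionFieldBar (p * M'))) w = w.ord f) :
    betaL p M' (Pic0.mk D) = 0 ↔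
      ∃ g : modularFunctionFieldBar M', g ≠ 0 ∧
        normAlong (betaTo Qb M' p (p * M') (Nat.mul_comm M' p)) f = g ^ m := by
  rw [betaL_eq_betaPushTo]
  exact betaPushTo_mk_eq_zero_iff M' p (p * M') _ hm D hf hD

/-- **The new part of `J₀(pM')[m]` in Kummer form**: every `x` with `m x = 0`,
`α_* x = β_* x = 0` is the class of a divisor `D` with `m D = div f`, where both norms of `f` to
level `M'` are `m`-th powers. -/
theorem exists_kummer_of_new {m : ℕ} (hm : m ≠ 0) (x : JZero (p * M')) (hx : m • x = 0)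
    (hα : alphaL p M' x = 0) (hβ : betaL p M' x = 0) :
    ∃ (D : Divisor.degZero (K := Qb) (F := modularFunctionFieldBar (p * M')))
      (f : modularFunctionFieldBar (p * M')) (g₁ g₂ : modularFunctionFieldBar M'),
      x = Pic0.mk D ∧ f ≠ 0 ∧ g₁ ≠ 0 ∧ g₂ ≠ 0 ∧
      (∀ w : Place Qb (modularFunctionFieldBar (p * M')),
        (m : ℤ) * (D : Divisor Qb (modularFunctionFieldBar (p * M'))) w = w.ord f) ∧
      normAlong (alphaTo Qb M' p (p * M') (Nat.mul_comm M' p)) f = g₁ ^ m ∧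
      normAlong (betaTo Qb M' p (p * M') (Nat.mul_comm M' p)) f = g₂ ^ m := by
  obtain ⟨D, f, rfl, hf, hD⟩ := exists_kummer_of_nsmul_eq_zero x hx
  obtain ⟨g₁, hg₁, h₁⟩ := (alphaL_mk_eq_zero_iff p M' hm D hf hD).1 hα
  obtain ⟨g₂, hg₂, h₂⟩ := (betaL_mk_eq_zero_iff p M' hm D hf hD).1 hβ
  exact ⟨D, f, g₁, g₂, rfl, hf, hg₁, hg₂, hD, h₁, h₂⟩

end Wall

end Fermat.Agent.Ribet.H801

end

end
-- ===== PACK-END Ribet/H801/DegKummer.lean

-- ===== PACK-BEGIN A2/H612/Kron.lean
section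
/-
Cell A2, piece KRON-concrete (helper612): the SEMILINEAR Kronecker congruences via a Frobenius
element, at the two Gauss valuations of the function field of `X₀(Mℓ)` over `Q̄`.

PART 1 (series level).  `A` a valuation subring of a field `K`, residue field of characteristic
`ℓ`, `ψ : K →+* K` with `ψ A ⊆ A` and `(ψ c)^ℓ ≡ c mod 𝔪_A` (`ψ = φ⁻¹`, `φ` a Frobenius element).
For `x` in the Gauss ring `gaussA A ⊆ K((q))` (helper553):
* `pow_eq_qExpand_frobenius` : in characteristic `ℓ`, `y^ℓ = (Frob y)(q^ℓ)`;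
* `qExpand_mem_gaussA`, `redA_qExpand`, `coeffMap_mem_gaussA_of_frob`;
* `redA_qExpand_eq_pow` : `red (x(q^ℓ)) = (red (ψ x))^ℓ`;   `redA_kron_eq_zero`.

PART 2 (level `M → Mℓ`).  `A ⊆ Q̄` over `ℓ`, `A.IsFrobeniusAt φ ℓ` (Prelude),
`α = heckeAlphaBar`, `β = heckeBetaBar : FF M → FF (M ℓ)`, `g = gal M φ⁻¹`,
`V∞ = H553.VinfModular`, `V₀ = H553.VzeroModular = V∞ ∘ w`:
* `kron_inf`  : `a ∈ V∞(M)  ⟹  β a - (α (g a))^ℓ ∈ 𝔪_{V∞(Mℓ)}`;
* `kron_zero` : `a ∈ V₀(M)  ⟹  α a - (β (g a))^ℓ ∈ 𝔪_{V₀(Mℓ)}`;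
* `wF_heckeAlphaBar`, `wF_heckeBetaBar` : `w_{Mℓ} ∘ α = β ∘ w_M`, `w_{Mℓ} ∘ β = α ∘ w_M`;
* `heckeAlphaBar_gal`, `heckeBetaBar_gal`, membership lemmas for `V∞`, `V₀`;
* `kron_of_isIntegral` : CHART FORM — `a` integral over any subring `S ⊆ V∞(M) ∩ V₀(M)`
  (e.g. `(A ∩ E)[j]`; `jFd_mem_Vinf`, `jFd_mem_Vzero`): both congruences with `a' = φ⁻¹ a`;
  `isIntegral_gal_symm` : `a'` is again integral over `S` if `S` is `φ⁻¹`-stable.

So in `H372.KronCong ℓ α β P₁ P₂` (`P₁ = 𝔪_{V∞} ∩ B`, `P₂ = 𝔪_{V₀} ∩ B`) the witness `a' := φ⁻¹ a`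
works for EVERY `a` of the level-`M` chart over any `φ`-stable `E`: no base change
`B_M = R · B_{M,0}`, no discreteness, any `M` (also `ℓ ∣ M`).
-/







set_option autoImplicit false
set_option linter.unusedSectionVars false
set_option synthInstance.maxHeartbeats 400000
set_option maxHeartbeats 1000000

noncomputable section

namespace Fermat.Agent.A2.H612

section SeriesLevel

open ModularCurve HahnSeries Fermat.Agent.S28.H86 Fermat.Agent.A2.H553

/-! ### Frobenius on Laurent series in characteristic `ℓ` -/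

section Frobenius

variable {k : Type*} [Field k] (ℓ : ℕ) [hℓ : Fact ℓ.Prime] [CharP k ℓ]

/-- In characteristic `ℓ`: `(∑ cₙ qⁿ)^ℓ = ∑ cₙ^ℓ q^{ℓ n}`. -/
theorem pow_eq_qExpand_frobenius [NeZero ℓ] (y : LaurentSeries k) :
    y ^ ℓ = qExpand k ℓ (coeffMap (frobenius k ℓ) y) := by
  have hps : ∀ u : PowerSeries k, u ^ ℓ = (u.map (frobenius k ℓ)).expand ℓ hℓ.out.ne_zero := by
    intro u
    have h := MvPowerSeries.map_frobenius_expand (σ := Unit) (R := k) ℓ hℓ.out.ne_zero (f := u)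
    rw [← h]
    exact PowerSeries.map_expand ℓ hℓ.out.ne_zero (frobenius k ℓ) u
  conv_lhs => rw [← LaurentSeries.single_order_mul_powerSeriesPart y]
  conv_rhs => rw [← LaurentSeries.single_order_mul_powerSeriesPart y]
  rw [mul_pow, _root_.map_mul (coeffMap (frobenius k ℓ)), _root_.map_mul (qExpand k ℓ), coeffMap_single,
    RingHom.map_one, qExpand_single, HahnSeries.single_pow, one_pow, coeffMap_ofPowerSeries,
    Fermat.Agent.A2.H528.qExpand_ofPowerSeries, ← map_pow, hps, nsmul_eq_mul]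

end Frobenius

/-! ### The Gauss ring: `q ↦ q^n` -/

section QExpand

variable {K : Type*} [Field K] (A : ValuationSubring K) (n : ℕ) [NeZero n]

theorem qExpand_inclL (a : LaurentSeries ↥A.toSubring) :
    qExpand K n (inclL A.toSubring a) = inclL A.toSubring (qExpand ↥A.toSubring n a) :=
  (coeffMap_qExpand A.toSubring.subtype n a).symm

theorem redL_qExpand (a : LaurentSeries ↥A.toSubring) :
    redL (resA A) (qExpand ↥A.toSubring n a) =
      qExpand (IsLocalRing.ResidueField ↥A) n (redL (resA A) a) :=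
  coeffMap_qExpand (resA A) n a

theorem qExpand_ne_zero {R : Type*} [CommRing R] {y : LaurentSeries R} (hy : y ≠ 0) :
    qExpand R n y ≠ 0 := fun h =>
  hy (qExpand_injective n (h.trans (_root_.map_zero _).symm))

/-- `x(q) ↦ x(q^n)` preserves the Gauss ring. -/
theorem qExpand_mem_gaussA {x : LaurentSeries K} (hx : x ∈ gaussA A) :
    qExpand K n x ∈ gaussA A := by
  obtain ⟨a, b, hb, hab⟩ := hx
  refine ⟨qExpand _ n a, qExpand _ n b, ?_, ?_⟩
  · rw [redL_qExpand]
    exact qExpand_ne_zero n hb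
  · rw [← qExpand_inclL, ← qExpand_inclL, ← _root_.map_mul, hab]

/-- reduction commutes with `q ↦ q^n`. -/
theorem redA_qExpand (x : gaussA A) :
    redA A ⟨qExpand K n (x : LaurentSeries K), qExpand_mem_gaussA A n x.2⟩ =
      qExpand (IsLocalRing.ResidueField ↥A) n (redA A x) := by
  obtain ⟨a, b, hb, hab⟩ := x.2
  have hb' : redL (resA A) (qExpand ↥A.toSubring n b) ≠ 0 := by
    rw [redL_qExpand]
    exact qExpand_ne_zero n hb
  have hab' : qExpand K n (x : LaurentSeries K) * inclL A.toSubring (qExpand _ n b) =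
      inclL A.toSubring (qExpand _ n a) := by
    rw [← qExpand_inclL, ← qExpand_inclL, ← _root_.map_mul, hab]
  rw [redA_eq ⟨_, qExpand_mem_gaussA A n x.2⟩ _ _ hb' hab', redA_eq x a b hb hab,
    redL_qExpand, redL_qExpand, map_div₀]

end QExpand

/-! ### The semilinear Kronecker congruence -/

section Kron

variable {K : Type*} [Field K] (A : ValuationSubring K) (ℓ : ℕ) [hℓ : Fact ℓ.Prime]

/-- The residue field has characteristic `ℓ` when `ℓ` is a nonunit of `A`. -/
theorem charP_residueField (hA : (ℓ : K) ∈ A.nonunits) :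
    CharP (IsLocalRing.ResidueField ↥A) ℓ := by
  rw [CharP.charP_iff_prime_eq_zero hℓ.out]
  have h1 : resA A ((ℓ : ℕ) : ↥A.toSubring) = 0 := by
    rw [resA_eq_zero_iff]
    have : (((ℓ : ℕ) : ↥A.toSubring) : K) = (ℓ : K) := by simp
    rw [this]
    exact A.mem_nonunits_iff.mp hA
  rw [map_natCast] at h1
  exact h1

variable (ψ : K →+* K)

/-- restriction of `ψ` to `A`. -/
def restrictPsi (hψA : ∀ c : K, c ∈ A → ψ c ∈ A) : ↥A.toSubring →+* ↥A.toSubring :=
  (ψ.comp A.toSubring.subtype).codRestrict A.toSubring (fun x => hψA _ x.2)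

theorem coe_restrictPsi (hψA : ∀ c : K, c ∈ A → ψ c ∈ A) (x : ↥A.toSubring) :
    ((restrictPsi A ψ hψA x : ↥A.toSubring) : K) = ψ (x : K) := rfl

theorem coeffMap_psi_inclL (hψA : ∀ c : K, c ∈ A → ψ c ∈ A) (a : LaurentSeries ↥A.toSubring) :
    coeffMap ψ (inclL A.toSubring a) = inclL A.toSubring (coeffMap (restrictPsi A ψ hψA) a) := by
  ext n
  rfl


/-- **Frobenius twist, integral series.**  `(red (ψ a))^ℓ = (red a)(q^ℓ)`. -/
theorem redL_psi_pow [NeZero ℓ] (hψA : ∀ c : K, c ∈ A → ψ c ∈ A)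
    (hA : (ℓ : K) ∈ A.nonunits)
    (hfrob : ∀ c : K, c ∈ A → A.valuation ((ψ c) ^ ℓ - c) < 1) (a : LaurentSeries ↥A.toSubring) :
    (redL (resA A) (coeffMap (restrictPsi A ψ hψA) a)) ^ ℓ =
      qExpand (IsLocalRing.ResidueField ↥A) ℓ (redL (resA A) a) := by
  have := charP_residueField A ℓ hA
  rw [pow_eq_qExpand_frobenius ℓ]
  congr 1
  ext n
  rw [coeffMap_coeff, redL_coeff, redL_coeff, coeffMap_coeff, frobenius_def, ← map_pow,
    ← sub_eq_zero, ← _root_.map_sub, resA_eq_zero_iff]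
  exact hfrob _ (a.coeff n).2

/-- `ψ` preserves primitivity. -/
theorem redL_psi_ne_zero [NeZero ℓ] (hψA : ∀ c : K, c ∈ A → ψ c ∈ A)
    (hA : (ℓ : K) ∈ A.nonunits)
    (hfrob : ∀ c : K, c ∈ A → A.valuation ((ψ c) ^ ℓ - c) < 1)
    {b : LaurentSeries ↥A.toSubring} (hb : redL (resA A) b ≠ 0) :
    redL (resA A) (coeffMap (restrictPsi A ψ hψA) b) ≠ 0 := by
  intro h0
  have h1 := redL_psi_pow A ℓ ψ hψA hA hfrob b
  rw [h0, zero_pow hℓ.out.ne_zero] at h1
  exact qExpand_ne_zero ℓ hb h1.symm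

/-- `ψ` (coefficientwise) preserves the Gauss ring. -/
theorem coeffMap_mem_gaussA_of_frob [NeZero ℓ] (hψA : ∀ c : K, c ∈ A → ψ c ∈ A)
    (hA : (ℓ : K) ∈ A.nonunits)
    (hfrob : ∀ c : K, c ∈ A → A.valuation ((ψ c) ^ ℓ - c) < 1)
    {x : LaurentSeries K} (hx : x ∈ gaussA A) :
    coeffMap ψ x ∈ gaussA A := by
  obtain ⟨a, b, hb, hab⟩ := hx
  refine ⟨coeffMap (restrictPsi A ψ hψA) a, coeffMap (restrictPsi A ψ hψA) b,
    redL_psi_ne_zero A ℓ ψ hψA hA hfrob hb, ?_⟩
  rw [← coeffMap_psi_inclL A ψ hψA, ← coeffMap_psi_inclL A ψ hψA, ← _root_.map_mul, hab]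

/-- **Semilinear Kronecker congruence, reduction form**:
`red (x(q^ℓ)) = (red (ψ x))^ℓ` for `x` in the Gauss ring. -/
theorem redA_qExpand_eq_pow [NeZero ℓ] (hψA : ∀ c : K, c ∈ A → ψ c ∈ A)
    (hA : (ℓ : K) ∈ A.nonunits)
    (hfrob : ∀ c : K, c ∈ A → A.valuation ((ψ c) ^ ℓ - c) < 1) (x : gaussA A) :
    redA A ⟨qExpand K ℓ (x : LaurentSeries K), qExpand_mem_gaussA A ℓ x.2⟩ =
      (redA A ⟨coeffMap ψ (x : LaurentSeries K),
        coeffMap_mem_gaussA_of_frob A ℓ ψ hψA hA hfrob x.2⟩) ^ ℓ := by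
  obtain ⟨a, b, hb, hab⟩ := x.2
  have hb' := redL_psi_ne_zero A ℓ ψ hψA hA hfrob hb
  have hab' : coeffMap ψ (x : LaurentSeries K) *
      inclL A.toSubring (coeffMap (restrictPsi A ψ hψA) b) =
      inclL A.toSubring (coeffMap (restrictPsi A ψ hψA) a) := by
    rw [← coeffMap_psi_inclL A ψ hψA, ← coeffMap_psi_inclL A ψ hψA, ← _root_.map_mul, hab]
  rw [redA_qExpand, redA_eq x a b hb hab,
    redA_eq ⟨_, coeffMap_mem_gaussA_of_frob A ℓ ψ hψA hA hfrob x.2⟩ _ _ hb' hab', div_pow,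
    redL_psi_pow A ℓ ψ hψA hA hfrob, redL_psi_pow A ℓ ψ hψA hA hfrob, map_div₀]

/-- **Semilinear Kronecker congruence**: `x(q^ℓ) - (ψ x)^ℓ` lies in the Gauss ring and reduces
to `0`. -/
theorem redA_kron_eq_zero [NeZero ℓ] (hψA : ∀ c : K, c ∈ A → ψ c ∈ A)
    (hA : (ℓ : K) ∈ A.nonunits)
    (hfrob : ∀ c : K, c ∈ A → A.valuation ((ψ c) ^ ℓ - c) < 1) (x : gaussA A) :
    ∃ h : qExpand K ℓ (x : LaurentSeries K) - (coeffMap ψ (x : LaurentSeries K)) ^ ℓ ∈ gaussA A,
      redA A ⟨_, h⟩ = 0 := by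
  have h1 := qExpand_mem_gaussA A ℓ x.2
  have h2 := coeffMap_mem_gaussA_of_frob A ℓ ψ hψA hA hfrob x.2
  refine ⟨sub_mem h1 (pow_mem h2 ℓ), ?_⟩
  have e : (⟨_, sub_mem h1 (pow_mem h2 ℓ)⟩ : gaussA A) =
      ⟨_, h1⟩ - (⟨_, h2⟩ : gaussA A) ^ ℓ := rfl
  rw [e, _root_.map_sub, map_pow, redA_qExpand_eq_pow A ℓ ψ hψA hA hfrob x, sub_self]

end Kron

end SeriesLevel

open ModularCurve HahnSeries IntermediateField AlgebraicCurve
open Fermat.Agent.S24 Fermat.Agent.S24.H997 Fermat.Agent.A2.H528 Fermat.Agent.A2.H553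
open Fermat.Agent.S28.H86

local notation "Q̄" => AlgebraicClosure ℚ

/-! ### Frobenius elements, elementary form -/

section FrobElt

variable (A : ValuationSubring Q̄) {ℓ : ℕ} {φ : Q̄ ≃ₐ[ℚ] Q̄}

theorem symm_mem_decomposition (hφ : A.IsFrobeniusAt φ ℓ) :
    φ.symm ∈ A.decompositionSubgroup ℚ := by
  have h := _root_.InvMemClass.inv_mem hφ.mem_decompositionSubgroup
  exact h

theorem symm_apply_mem (hφ : A.IsFrobeniusAt φ ℓ) {c : Q̄} (hc : c ∈ A) : φ.symm c ∈ A :=
  Fermat.Agent.A2.H708.apply_mem_of_mem_decomposition A (symm_mem_decomposition A hφ) hc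

/-- A Frobenius element is congruent to the `ℓ`-th power map on `A`. -/
theorem valuation_frob_sub_pow_lt_one (hφ : A.IsFrobeniusAt φ ℓ) {z : Q̄} (hz : z ∈ A) :
    A.valuation (φ z - z ^ ℓ) < 1 := by
  obtain ⟨hσD, hF⟩ := hφ
  have h2 := hF (IsLocalRing.residue A ⟨z, hz⟩)
  rw [← IsLocalRing.ResidueField.residue_smul, ← map_pow] at h2
  have h3 : ((⟨φ, hσD⟩ : A.decompositionSubgroup ℚ) • (⟨z, hz⟩ : A)) - (⟨z, hz⟩ : A) ^ ℓ
      ∈ IsLocalRing.maximalIdeal A := by
    rw [← Ideal.Quotient.eq]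
    exact h2
  rw [ValuationSubring.valuation_lt_one_iff] at h3
  exact h3

/-- `(φ⁻¹ c)^ℓ ≡ c` modulo the maximal ideal of `A`. -/
theorem valuation_symm_pow_sub_lt_one (hφ : A.IsFrobeniusAt φ ℓ) {c : Q̄} (hc : c ∈ A) :
    A.valuation ((φ.symm c) ^ ℓ - c) < 1 := by
  have h := valuation_frob_sub_pow_lt_one A hφ (symm_apply_mem A hφ hc)
  rw [AlgEquiv.apply_symm_apply] at h
  rw [← Valuation.map_neg, neg_sub]
  exact h

end FrobElt

/-! ### The congruence at `V∞` -/

section Inf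

variable (A : ValuationSubring Q̄) {ℓ : ℕ} [hℓp : Fact ℓ.Prime] (hℓ : ℓ ≠ 0)
  (hA : A.LiesOverPrime ℓ) (M : ℕ) [NeZero M] [NeZero ℓ] {φ : Q̄ ≃ₐ[ℚ] Q̄}

theorem mem_VinfModular_iff {N : ℕ} {f : FF N} :
    f ∈ VinfModular A hℓ hA N ↔ (f : LaurentSeries Q̄) ∈ gaussA A := Iff.rfl

/-- `α` maps `V∞(M)` into `V∞(Mℓ)`. -/
theorem heckeAlphaBar_mem_Vinf {a : FF M} (ha : a ∈ VinfModular A hℓ hA M) :
    heckeAlphaBar Q̄ M ℓ a ∈ VinfModular A hℓ hA (M * ℓ) := by
  rw [mem_VinfModular_iff] at ha ⊢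
  rw [coe_heckeAlphaBar]
  exact ha

/-- `β` maps `V∞(M)` into `V∞(Mℓ)`. -/
theorem heckeBetaBar_mem_Vinf {a : FF M} (ha : a ∈ VinfModular A hℓ hA M) :
    heckeBetaBar Q̄ M ℓ a ∈ VinfModular A hℓ hA (M * ℓ) := by
  rw [mem_VinfModular_iff] at ha ⊢
  rw [coe_heckeBetaBar]
  exact qExpand_mem_gaussA A ℓ ha

/-- `φ⁻¹` preserves `V∞`. -/
theorem gal_symm_mem_Vinf (hφ : A.IsFrobeniusAt φ ℓ) {N : ℕ} {a : FF N}
    (ha : a ∈ VinfModular A hℓ hA N) : gal N φ.symm a ∈ VinfModular A hℓ hA N :=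
  arithmeticRingAut_mem_Vinf _ (symm_mem_decomposition A hφ) ha

/-- **Semilinear Kronecker congruence at `V∞`.** -/
theorem kron_inf (hφ : A.IsFrobeniusAt φ ℓ) {a : FF M} (ha : a ∈ VinfModular A hℓ hA M) :
    (VinfModular A hℓ hA (M * ℓ)).valuation
      (heckeBetaBar Q̄ M ℓ a - (heckeAlphaBar Q̄ M ℓ (gal M φ.symm a)) ^ ℓ) < 1 := by
  set y : FF (M * ℓ) := heckeBetaBar Q̄ M ℓ a - (heckeAlphaBar Q̄ M ℓ (gal M φ.symm a)) ^ ℓ
    with hy
  have hyV : y ∈ VinfModular A hℓ hA (M * ℓ) :=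
    _root_.sub_mem (heckeBetaBar_mem_Vinf A hℓ hA M ha)
      (_root_.pow_mem (heckeAlphaBar_mem_Vinf A hℓ hA M (gal_symm_mem_Vinf A hℓ hA hφ ha)) ℓ)
  have key := redA_kron_eq_zero A ℓ (φ.symm : Q̄ →+* Q̄)
    (fun c hc => symm_apply_mem A hφ hc) hA
    (fun c hc => valuation_symm_pow_sub_lt_one A hφ hc) ⟨(a : LaurentSeries Q̄), ha⟩
  obtain ⟨h1, h2⟩ := key
  have h3 := (redInf_eq_zero_iff (gaussInput_modular A hℓ hA (M * ℓ)) ⟨y, hyV⟩).mp (by
    rw [redInf_apply]
    exact h2)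
  exact h3

end Inf

/-! ### Fricke and the degeneracy maps -/

section Fricke

variable (M : ℕ) [NeZero M] (ℓ : ℕ) [NeZero ℓ]

theorem heckeBetaBar_jFd (d : ℕ) [NeZero d] (hd : d ∣ M) :
    heckeBetaBar Q̄ M ℓ (jFd M d hd) = jFd (M * ℓ) (d * ℓ) (Nat.mul_dvd_mul_right hd ℓ) := by
  apply Subtype.ext
  rw [coe_heckeBetaBar, coe_jFd, coe_jFd]
  show qExpand Q̄ ℓ (coeffMap (algebraMap ℚ Q̄) _) = coeffMap (algebraMap ℚ Q̄) _
  rw [← coeffMap_qExpand (algebraMap ℚ Q̄) ℓ, qExpand_qExpand]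
  congr 1
  exact qExpand_congr (mul_comm ℓ d) jq

theorem heckeAlphaBar_jFd (d : ℕ) [NeZero d] (hd : d ∣ M) :
    heckeAlphaBar Q̄ M ℓ (jFd M d hd) = jFd (M * ℓ) d (hd.mul_right ℓ) := by
  apply Subtype.ext
  rw [coe_heckeAlphaBar, coe_jFd, coe_jFd]

/-- Two ring homomorphisms out of `FF M` which agree on the constants and on the generators
`j(q^d)`, `d ∣ M`, are equal. -/
theorem ringHom_ext_FF {L : Type*} [Field L] (f g : FF M →+* L)
    (hc : ∀ c : Q̄, f (algebraMap Q̄ (FF M) c) = g (algebraMap Q̄ (FF M) c))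
    (hj : ∀ (d : ℕ) [NeZero d] (hd : d ∣ M), f (jFd M d hd) = g (jFd M d hd)) : f = g := by
  have hR : ∀ r : RN M, f (inclRN M r) = g (inclRN M r) := by
    rintro ⟨r, hr⟩
    induction hr using Algebra.adjoin_induction with
    | mem x hx =>
        obtain ⟨y, ⟨d, hne, hd, rfl⟩, rfl⟩ := hx
        have := hne
        exact hj d hd
    | algebraMap c =>
        have h1 : (⟨algebraMap Q̄ (LaurentSeries Q̄) c, Subalgebra.algebraMap_mem _ c⟩ : RN M)
            = algebraMap Q̄ (RN M) c := rfl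
        have h2 : inclRN M (algebraMap Q̄ (RN M) c) = algebraMap Q̄ (FF M) c :=
          (inclRN M).commutes c
        rw [h1, h2]
        exact hc c
    | add x y hx hy ihx ihy =>
        have h1 : (⟨x + y, _root_.AddMemClass.add_mem hx hy⟩ : RN M) = ⟨x, hx⟩ + ⟨y, hy⟩ := rfl
        rw [h1, _root_.map_add, _root_.map_add, _root_.map_add, ihx, ihy]
    | mul x y hx hy ihx ihy =>
        have h1 : (⟨x * y, _root_.MulMemClass.mul_mem hx hy⟩ : RN M) = ⟨x, hx⟩ * ⟨y, hy⟩ := rfl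
        rw [h1, _root_.map_mul, _root_.map_mul, _root_.map_mul, ihx, ihy]
  refine RingHom.ext fun a => ?_
  obtain ⟨r, t, -, rfl⟩ := exists_div_inclRN M a
  rw [map_div₀, map_div₀, hR, hR]

/-- `w_{Mℓ} ∘ α = β ∘ w_M`. -/
theorem wF_heckeAlphaBar (a : FF M) :
    wF (M * ℓ) (heckeAlphaBar Q̄ M ℓ a) = heckeBetaBar Q̄ M ℓ (wF M a) := by
  have h := ringHom_ext_FF M
    (((wF (M * ℓ) : FF (M * ℓ) ≃ₐ[Q̄] FF (M * ℓ)) : FF (M * ℓ) →+* FF (M * ℓ)).comp
      (heckeAlphaBar Q̄ M ℓ : FF M →+* FF (M * ℓ)))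
    ((heckeBetaBar Q̄ M ℓ : FF M →+* FF (M * ℓ)).comp
      ((wF M : FF M ≃ₐ[Q̄] FF M) : FF M →+* FF M)) ?_ ?_
  · exact RingHom.congr_fun h a
  · intro c
    simp only [RingHom.comp_apply, RingHom.coe_coe, AlgHom.commutes, AlgEquiv.commutes]
  · intro d _ hd
    have := neZero_div M hd
    simp only [RingHom.comp_apply, RingHom.coe_coe]
    rw [heckeAlphaBar_jFd, wF_jFd, wF_jFd, heckeBetaBar_jFd]
    have := neZero_div (M * ℓ) (hd.mul_right ℓ)
    exact jFd_congr (M * ℓ) _ _ (Nat.mul_div_right_comm hd ℓ)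

/-- `w_{Mℓ} ∘ β = α ∘ w_M`. -/
theorem wF_heckeBetaBar (a : FF M) :
    wF (M * ℓ) (heckeBetaBar Q̄ M ℓ a) = heckeAlphaBar Q̄ M ℓ (wF M a) := by
  have h := ringHom_ext_FF M
    (((wF (M * ℓ) : FF (M * ℓ) ≃ₐ[Q̄] FF (M * ℓ)) : FF (M * ℓ) →+* FF (M * ℓ)).comp
      (heckeBetaBar Q̄ M ℓ : FF M →+* FF (M * ℓ)))
    ((heckeAlphaBar Q̄ M ℓ : FF M →+* FF (M * ℓ)).comp
      ((wF M : FF M ≃ₐ[Q̄] FF M) : FF M →+* FF M)) ?_ ?_
  · exact RingHom.congr_fun h a
  · intro c
    simp only [RingHom.comp_apply, RingHom.coe_coe, AlgHom.commutes, AlgEquiv.commutes]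
  · intro d _ hd
    have := neZero_div M hd
    simp only [RingHom.comp_apply, RingHom.coe_coe]
    rw [heckeBetaBar_jFd, wF_jFd, wF_jFd, heckeAlphaBar_jFd]
    have := neZero_div (M * ℓ) (Nat.mul_dvd_mul_right hd ℓ)
    exact jFd_congr (M * ℓ) _ _
      (Nat.mul_div_mul_right M d (Nat.pos_of_ne_zero (NeZero.ne ℓ)))

/-- `α` commutes with the Galois action on the coefficients. -/
theorem heckeAlphaBar_gal (σ : Q̄ ≃ₐ[ℚ] Q̄) (a : FF M) :
    heckeAlphaBar Q̄ M ℓ (gal M σ a) = gal (M * ℓ) σ (heckeAlphaBar Q̄ M ℓ a) := by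
  apply Subtype.ext
  rw [coe_heckeAlphaBar, coe_arithmeticRingAut_apply, coe_arithmeticRingAut_apply,
    coe_heckeAlphaBar]

/-- `β` commutes with the Galois action on the coefficients. -/
theorem heckeBetaBar_gal (σ : Q̄ ≃ₐ[ℚ] Q̄) (a : FF M) :
    heckeBetaBar Q̄ M ℓ (gal M σ a) = gal (M * ℓ) σ (heckeBetaBar Q̄ M ℓ a) := by
  apply Subtype.ext
  rw [coe_heckeBetaBar, coe_arithmeticRingAut_apply, coe_arithmeticRingAut_apply,
    coe_heckeBetaBar, coeffMap_qExpand]

end Fricke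

/-! ### The congruence at `V₀` -/

section Zero

variable (A : ValuationSubring Q̄) {ℓ : ℕ} [hℓp : Fact ℓ.Prime] (hℓ : ℓ ≠ 0)
  (hA : A.LiesOverPrime ℓ) (M : ℕ) [NeZero M] [NeZero ℓ] {φ : Q̄ ≃ₐ[ℚ] Q̄}

theorem valuation_Vzero_lt_one_iff {N : ℕ} [NeZero N] {f : FF N} :
    (VzeroModular A hℓ hA N).valuation f < 1 ↔
      (VinfModular A hℓ hA N).valuation (wF N f) < 1 :=
  valuation_comapAut_lt_one_iff (VinfModular A hℓ hA N) (wF N).toRingEquiv

/-- `α` maps `V₀(M)` into `V₀(Mℓ)`. -/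
theorem heckeAlphaBar_mem_Vzero {a : FF M} (ha : a ∈ VzeroModular A hℓ hA M) :
    heckeAlphaBar Q̄ M ℓ a ∈ VzeroModular A hℓ hA (M * ℓ) := by
  rw [mem_VzeroModular] at ha ⊢
  rw [wF_heckeAlphaBar]
  exact heckeBetaBar_mem_Vinf A hℓ hA M ha

/-- `β` maps `V₀(M)` into `V₀(Mℓ)`. -/
theorem heckeBetaBar_mem_Vzero {a : FF M} (ha : a ∈ VzeroModular A hℓ hA M) :
    heckeBetaBar Q̄ M ℓ a ∈ VzeroModular A hℓ hA (M * ℓ) := by
  rw [mem_VzeroModular] at ha ⊢
  rw [wF_heckeBetaBar]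
  exact heckeAlphaBar_mem_Vinf A hℓ hA M ha

/-- `φ⁻¹` preserves `V₀`. -/
theorem gal_symm_mem_Vzero (hφ : A.IsFrobeniusAt φ ℓ) {N : ℕ} [NeZero N] {a : FF N}
    (ha : a ∈ VzeroModular A hℓ hA N) : gal N φ.symm a ∈ VzeroModular A hℓ hA N := by
  rw [mem_VzeroModular] at ha ⊢
  rw [wF_gal]
  exact gal_symm_mem_Vinf A hℓ hA hφ ha

/-- **Semilinear Kronecker congruence at `V₀`.** -/
theorem kron_zero (hφ : A.IsFrobeniusAt φ ℓ) {a : FF M} (ha : a ∈ VzeroModular A hℓ hA M) :
    (VzeroModular A hℓ hA (M * ℓ)).valuation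
      (heckeAlphaBar Q̄ M ℓ a - (heckeBetaBar Q̄ M ℓ (gal M φ.symm a)) ^ ℓ) < 1 := by
  rw [valuation_Vzero_lt_one_iff, _root_.map_sub, map_pow, wF_heckeAlphaBar, wF_heckeBetaBar, wF_gal]
  exact kron_inf A hℓ hA M hφ ha

/-- Both congruences with the SAME witness `a' = φ⁻¹ a`, when `a` is integral at both Gauss
valuations of level `M` (for `ℓ ∤ M` these coincide). -/
theorem kron_both (hφ : A.IsFrobeniusAt φ ℓ) {a : FF M} (ha : a ∈ VinfModular A hℓ hA M)
    (ha' : a ∈ VzeroModular A hℓ hA M) :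
    (VinfModular A hℓ hA (M * ℓ)).valuation
        (heckeBetaBar Q̄ M ℓ a - (heckeAlphaBar Q̄ M ℓ (gal M φ.symm a)) ^ ℓ) < 1 ∧
      (VzeroModular A hℓ hA (M * ℓ)).valuation
        (heckeAlphaBar Q̄ M ℓ a - (heckeBetaBar Q̄ M ℓ (gal M φ.symm a)) ^ ℓ) < 1 :=
  ⟨kron_inf A hℓ hA M hφ ha, kron_zero A hℓ hA M hφ ha'⟩

end Zero

/-! ### Chart form: elements integral over `A[j]` -/

section Chart

/-- A valuation subring contains every element integral over a subring it contains. -/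
theorem mem_of_isIntegral_of_le {F : Type*} [Field F] (V : ValuationSubring F) (S : Subring F)
    (hS : ∀ s ∈ S, s ∈ V) {y : F} (hy : IsIntegral S y) : y ∈ V := by
  obtain ⟨p, hp, hpy⟩ := hy
  let ι : S →+* V := (S.subtype).codRestrict V.toSubring (fun s => hS s s.2)
  have h1 : IsIntegral V y := by
    refine ⟨p.map ι, hp.map ι, ?_⟩
    rw [Polynomial.eval₂_map]
    exact hpy
  obtain ⟨z, hz⟩ := IsIntegrallyClosedIn.algebraMap_eq_of_integral h1
  rw [← hz]
  exact z.2

variable (A : ValuationSubring Q̄) {ℓ : ℕ} [hℓp : Fact ℓ.Prime] (hℓ : ℓ ≠ 0)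
  (hA : A.LiesOverPrime ℓ) (M : ℕ) [NeZero M] [NeZero ℓ] {φ : Q̄ ≃ₐ[ℚ] Q̄}

/-- `j(q^d)` is integral at `V∞`. -/
theorem jFd_mem_Vinf (d : ℕ) [NeZero d] (hd : d ∣ M) : jFd M d hd ∈ VinfModular A hℓ hA M :=
  mem_Vinf_of_intEmb A hℓ hA M (coe_jFd_int M d hd)

/-- `j(q^d)` is integral at `V₀`. -/
theorem jFd_mem_Vzero (d : ℕ) [NeZero d] (hd : d ∣ M) : jFd M d hd ∈ VzeroModular A hℓ hA M := by
  have := neZero_div M hd
  rw [mem_VzeroModular, wF_jFd]
  exact jFd_mem_Vinf A hℓ hA M _ _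

/-- **Semilinear Kronecker congruences, chart form.**  `S` any subring of `FF M` contained in
`V∞(M) ∩ V₀(M)` (e.g. `(A ∩ E)[j]`), `a` integral over `S`.  Then `a' := φ⁻¹ a` satisfies
`β a ≡ (α a')^ℓ mod 𝔪_{V∞(Mℓ)}` and `α a ≡ (β a')^ℓ mod 𝔪_{V₀(Mℓ)}`. -/
theorem kron_of_isIntegral (hφ : A.IsFrobeniusAt φ ℓ) (S : Subring (FF M))
    (hS : ∀ s ∈ S, s ∈ VinfModular A hℓ hA M) (hS' : ∀ s ∈ S, s ∈ VzeroModular A hℓ hA M)
    {a : FF M} (ha : IsIntegral S a) :
    (VinfModular A hℓ hA (M * ℓ)).valuation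
        (heckeBetaBar Q̄ M ℓ a - (heckeAlphaBar Q̄ M ℓ (gal M φ.symm a)) ^ ℓ) < 1 ∧
      (VzeroModular A hℓ hA (M * ℓ)).valuation
        (heckeAlphaBar Q̄ M ℓ a - (heckeBetaBar Q̄ M ℓ (gal M φ.symm a)) ^ ℓ) < 1 :=
  kron_both A hℓ hA M hφ (mem_of_isIntegral_of_le _ S hS ha) (mem_of_isIntegral_of_le _ S hS' ha)

/-- The witness `φ⁻¹ a` is again integral over `S` when `S` is `φ⁻¹`-stable. -/
theorem isIntegral_gal_symm (S : Subring (FF M)) (σ : Q̄ ≃ₐ[ℚ] Q̄)
    (hσS : ∀ s ∈ S, gal M σ s ∈ S) {a : FF M} (ha : IsIntegral S a) :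
    IsIntegral S (gal M σ a) := by
  obtain ⟨p, hp, hpa⟩ := ha
  let τ : S →+* S := ((gal M σ : FF M →+* FF M).comp S.subtype).codRestrict S
    (fun s => hσS s s.2)
  refine ⟨p.map τ, hp.map τ, ?_⟩
  rw [Polynomial.eval₂_map]
  have h1 : (algebraMap S (FF M)).comp τ = (gal M σ : FF M →+* FF M).comp (algebraMap S (FF M)) :=
    RingHom.ext fun s => rfl
  rw [h1]
  have h2 := Polynomial.hom_eval₂ p (algebraMap S (FF M)) (gal M σ : FF M →+* FF M) a
  rw [hpa, _root_.map_zero] at h2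
  exact h2.symm

end Chart

end Fermat.Agent.A2.H612

end
end
-- ===== PACK-END A2/H612/Kron.lean

-- ===== PACK-BEGIN Ribet/H573/SplitRoot.lean
section





/-!
# Row 38, WALL-p, bridge SPLIT-LIFT, part 1: `p`-th roots in `k(X₀(M))` (helper573)

`k` a perfect field of characteristic `p`, `p ∤ M`, `F_k = modularFunctionFieldFullC k M ⊆ k((t))`.

* `exists_pow_eq_of_split` : a series `r ∈ k((t^p))` is a `p`-th power in `k((t))`;
* `root_mem_full`          : if `s ^ p ∈ F_k` then `s ∈ F_k`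
  (`s` is algebraic over `k(j̄)`, hence separable over it by `S18/H264`, so
  `k(j̄)(s) = k(j̄)(s^p) ⊆ F_k`);
* `exists_root_in_full`    : `r ∈ F_k ∩ k((t^p))  ⟹  r = s ^ p` with `s ∈ F_k`;
* `theta_eq_zero_iff_split`: `θ r = 0 ⟺ r ∈ k((t^p))` (coefficientwise).
-/

set_option autoImplicit false
set_option linter.unusedSectionVars false
set_option linter.style.haveILetI false

noncomputable section

namespace Fermat.Agent.Ribet.H573

open ModularCurve HahnSeries IntermediateField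

section Root

variable {k : Type} [Field k] [PerfectField k] (p : ℕ) [hp : Fact p.Prime] [CharP k p]

/-- A series in `k((t^p))` is a `p`-th power (`k` perfect of characteristic `p`). -/
theorem exists_pow_eq_of_split (r : LaurentSeries k)
    (hr : ∀ n : ℤ, ¬ (p : ℤ) ∣ n → r.coeff n = 0) : ∃ s : LaurentSeries k, s ^ p = r := by
  haveI : NeZero p := ⟨hp.out.ne_zero⟩
  set r' : LaurentSeries k := Fermat.Agent.S37.H340.sect p 0 r with hr'
  have h1 : qExpand k p r' = r := by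
    ext n
    rw [Fermat.Agent.S37.H340.qExpand_coeff]
    split_ifs with h
    · rw [hr', Fermat.Agent.S37.H340.sect_coeff, add_zero, Int.mul_ediv_cancel' h]
    · exact (hr n h).symm
  refine ⟨coeffMap ((frobeniusEquiv k p).symm : k →+* k) r', ?_⟩
  rw [Fermat.Agent.A2.H612.pow_eq_qExpand_frobenius, coeffMap_coeffMap]
  have h2 : (frobenius k p).comp ((frobeniusEquiv k p).symm : k →+* k) = RingHom.id k := by
    ext x
    exact frobenius_apply_frobeniusEquiv_symm k p x
  rw [h2, coeffMap_id, h1]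

/-- **`p`-th roots stay in `F_k`.** -/
theorem root_mem_full (M : ℕ) (hM : M ≠ 0) (hpM : ¬ p ∣ M) (s : LaurentSeries k)
    (hs : s ^ p ∈ modularFunctionFieldFullC k M) : s ∈ modularFunctionFieldFullC k M := by
  have hchar : ∀ q : ℕ, q.Prime → q ∣ M → (q : k) ≠ 0 := by
    intro q hq hqM h0
    have hpq : p ∣ q := (CharP.cast_eq_zero_iff k p q).mp h0
    have : p = q := (Nat.prime_dvd_prime_iff_eq hp.out hq).mp hpq
    exact hpM (this ▸ hqM)
  have halg : IsAlgebraic k⟮jqModC k⟯ (s ^ p) :=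
    Fermat.Agent.S18.MOD.H396.isAlgebraic_of_mem_full k M hM hchar _ hs
  have halg' : IsAlgebraic k⟮jqModC k⟯ s := halg.of_pow hp.out.pos
  have hsep : IsSeparable k⟮jqModC k⟯ s :=
    Fermat.Agent.S18.H264.isSeparable_laurent_jqModC k p s halg'
  haveI : CharP k⟮jqModC k⟯ p := charP_of_injective_algebraMap
    (algebraMap k k⟮jqModC k⟯).injective p
  haveI : ExpChar k⟮jqModC k⟯ p := ExpChar.prime hp.out
  have heq := adjoin_simple_eq_adjoin_pow_expChar_of_isSeparable k⟮jqModC k⟯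
    (LaurentSeries k) hsep p
  have hle : k⟮jqModC k⟯ ≤ modularFunctionFieldFullC k M := by
    rw [adjoin_simple_le_iff]
    exact jqModC_mem_full k M
  have h1 : (k⟮jqModC k⟯)⟮s ^ p⟯ ≤ extendScalars hle := by
    rw [adjoin_simple_le_iff, mem_extendScalars]
    exact hs
  have h2 : s ∈ (k⟮jqModC k⟯)⟮s⟯ := mem_adjoin_simple_self _ s
  rw [heq] at h2
  exact (mem_extendScalars hle).mp (h1 h2)

/-- `r ∈ F_k ∩ k((t^p))` is the `p`-th power of an element of `F_k`. -/
theorem exists_root_in_full (M : ℕ) (hM : M ≠ 0) (hpM : ¬ p ∣ M) (r : LaurentSeries k)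
    (hr : r ∈ modularFunctionFieldFullC k M)
    (hsplit : ∀ n : ℤ, ¬ (p : ℤ) ∣ n → r.coeff n = 0) :
    ∃ s ∈ modularFunctionFieldFullC k M, s ^ p = r := by
  obtain ⟨s, hs⟩ := exists_pow_eq_of_split p r hsplit
  exact ⟨s, root_mem_full p M hM hpM s (hs ▸ hr), hs⟩

omit [PerfectField k] in
/-- `θ r = 0 ⟺ r ∈ k((t^p))`. -/
theorem theta_eq_zero_iff_split (r : LaurentSeries k) :
    (∀ n : ℤ, (n : k) * r.coeff n = 0) ↔ ∀ n : ℤ, ¬ (p : ℤ) ∣ n → r.coeff n = 0 := by
  constructor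
  · intro h n hn
    rcases mul_eq_zero.mp (h n) with h0 | h0
    · exact absurd ((CharP.intCast_eq_zero_iff k p n).mp h0) hn
    · exact h0
  · intro h n
    by_cases hn : (p : ℤ) ∣ n
    · rw [(CharP.intCast_eq_zero_iff k p n).mpr hn, zero_mul]
    · rw [h n hn, mul_zero]

end Root

end Fermat.Agent.Ribet.H573

end
end
-- ===== PACK-END Ribet/H573/SplitRoot.lean

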