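import Fermat.Agent.Pack.S33.E20L3
import Fermat.Agent.Pack.S33.E7L0
import Fermat.Agent.Pack.S33.E9L1
import Fermat.Agent.Pack.S33.E20L1
import Fermat.Agent.Pack.S33.E15L0
import Fermat.Agent.Pack.S33.E19L3
import Fermat.Agent.Pack.S33.E10L2
import Fermat.Agent.Pack.S33.E20L0
import Fermat.Agent.Pack.S33.E13L2
import Fermat.Agent.Pack.S33.E4L2
import Fermat.Agent.Pack.S33.E14L3
import Fermat.Agent.Pack.S33.E1L2
import Fermat.Agent.Pack.S33.E13L0
import Fermat.Agent.Pack.S33.E17L1
import Fermat.Agent.Pack.S33.E19L1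
import Fermat.Agent.Pack.S33.E7L1
import Fermat.Agent.Pack.S33.E17L2
import Fermat.Agent.Pack.S33.E16L1
import Fermat.Agent.Pack.S33.E17L0
import Fermat.Agent.Pack.S33.E19L2
import Fermat.Agent.Pack.S33.E20L2
import Fermat.Agent.Pack.S33.E18L0
import Fermat.Agent.Pack.S33.E16L2
import Fermat.Agent.Pack.S33.E18L1

-- ===== PACK-BEGIN S30/H450/KumTower.lean
section
/-
S30 (p-adic version), helper450: the KUMMER TOWER from the pieces of S29 sub-layer M4b.

* `KumPackage N m` : the pieces of helper822's `M4b/Skeleton.lean` at the modulus `m`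
  (existence, uniqueness, injectivity, additivity, Hecke-equivariance of `M4b.IsKum N m`).
* `KumPackage.of_skeleton` : the package from statements in the EXACT shapes of the M4b skeleton
  (the Hecke piece is converted with the landed `HCoh` facts of helper149).
* `exists_kummerTower_of` : the conclusion of helper49's `SkeletonLat.exists_kummerTower`
  (maps `κ n` on characters mod `p ^ n`, additive, injective, `p • κ (n+1) c = κ n (c mod p ^ n)`,
  Hecke-equivariant), from `KumPackage N (p ^ n)` for all `n`; the tower compatibility is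
  `isKum_red` of `KumCompat.lean`.
-/



set_option autoImplicit false

noncomputable section

open ModularCurve AlgebraicCurve CongruenceSubgroup UpperHalfPlane
open scoped MatrixGroups Manifold

namespace Fermat.Agent.S30.H450

open Fermat.Agent.S24 Fermat.Agent.S29 Fermat.Agent.S29.M4b

/-- The pieces of S29 sub-layer M4b at the modulus `m`. -/
structure KumPackage (N m : ℕ) [NeZero N] : Prop where
  ex : ∀ c : G0 N → ZMod m, IsParHom c → ∃ x : JZero N, IsKum N m c x
  uniq : ∀ (c : G0 N → ZMod m) (x x' : JZero N), IsKum N m c x → IsKum N m c x' → x = x'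
  inj : ∀ c : G0 N → ZMod m, IsKum N m c (0 : JZero N) → c = 0
  add : ∀ (c c' : G0 N → ZMod m) (x x' : JZero N),
    IsKum N m c x → IsKum N m c' x' → IsKum N m (c + c') (x + x')
  hecke : ∀ ℓ : Nat.Primes, ¬ (ℓ : ℕ) ∣ N * m → ∀ (c : G0 N → ZMod m) (x : JZero N),
    IsParHom c → IsKum N m c x → IsKum N m (heckeCoh N ℓ c) (heckeOperatorBar N ℓ x)

section Skeleton

variable {N : ℕ} [NeZero N]

omit [NeZero N] in
/-- The transfer of `c` is `heckeCoh N ℓ c` (for `ℓ ∤ N` prime; landed `HCoh`). -/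
theorem isTransfer_heckeCoh_h450 {ℓ : ℕ} (hℓ : ℓ.Prime) (hℓN : ¬ ℓ ∣ N) {A : Type*}
    [AddCommMonoid A] (c : G0 N → A) : IsTransfer N ℓ c (heckeCoh N ℓ c) := by
  intro γ π δ hfac
  unfold heckeCoh
  refine Finset.sum_congr rfl fun i _ => ?_
  rw [H149.HCoh_heckeFac_unique hℓ hℓN (hfac i)]

omit [NeZero N] in
/-- Existence of the Hecke factorisation with a permutation of the indices (landed `HCoh`). -/
theorem exists_perm_factor_h450 {ℓ : ℕ} (hℓ : ℓ.Prime) (hℓN : ¬ ℓ ∣ N) (γ : G0 N) :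
    ∃ (π : Equiv.Perm (Option (Fin ℓ))) (δ : Option (Fin ℓ) → G0 N),
      ∀ i, IsHeckeFactor ℓ γ i (π i, δ i) :=
  ⟨H149.HCoh_perm (H149.HCoh_isFactorSystem hℓ hℓN) γ, fun i => (heckeFac N ℓ γ i).2,
    fun i => H149.HCoh_heckeFac_spec hℓ hℓN γ i⟩

/-- The package at the modulus `m` from statements in the EXACT shapes of
`Fermat/Agent/S29/M4b/Skeleton.lean` (`isKum_exists`, `isKum_unique`, `isKum_zero_right`,
`isKum_add`, `isKum_hecke`). -/
theorem KumPackage.of_skeleton {m : ℕ}
    (hex : ∀ {c : G0 N → ZMod m}, IsParHom c → ∃ x : JZero N, IsKum N m c x)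
    (huniq : ∀ {c : G0 N → ZMod m} {x x' : JZero N}, IsKum N m c x → IsKum N m c x' → x = x')
    (hinj : ∀ {c : G0 N → ZMod m}, IsKum N m c (0 : JZero N) → c = 0)
    (hadd : ∀ {c c' : G0 N → ZMod m} {x x' : JZero N},
      IsKum N m c x → IsKum N m c' x' → IsKum N m (c + c') (x + x'))
    (hhecke : ∀ (ℓ : Nat.Primes), ¬ (ℓ : ℕ) ∣ N * m →
      (∀ γ : G0 N, ∃ (π : Equiv.Perm (Option (Fin (ℓ : ℕ)))) (δ : Option (Fin (ℓ : ℕ)) → G0 N),
        ∀ i, IsHeckeFactor (ℓ : ℕ) γ i (π i, δ i)) →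
      ∀ {c c' : G0 N → ZMod m}, IsParHom c → IsTransfer N (ℓ : ℕ) c c' →
      ∀ {x : JZero N}, IsKum N m c x → IsKum N m c' (heckeOperatorBar N ℓ x)) :
    KumPackage N m where
  ex _ hc := hex hc
  uniq _ _ _ h h' := huniq h h'
  inj _ h := hinj h
  add _ _ _ _ h h' := hadd h h'
  hecke ℓ hℓ c x hc h := by
    have hℓN : ¬ (ℓ : ℕ) ∣ N := fun hd => hℓ (Dvd.dvd.mul_right hd m)
    exact hhecke ℓ hℓ (exists_perm_factor_h450 ℓ.2 hℓN) hc
      (isTransfer_heckeCoh_h450 ℓ.2 hℓN c) h

end Skeleton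

section Tower

variable (N : ℕ) [NeZero N] (p : ℕ)

open Classical in
/-- The Kummer tower: `kumTower N p n c` is THE Kummer class of the character `c` mod `p ^ n`
(and `0` if there is none). -/
def kumTower (n : ℕ) (c : G0 N → ZMod (p ^ n)) : JZero N :=
  if h : ∃ x : JZero N, IsKum N (p ^ n) c x then h.choose else 0

variable {N p}

theorem isKum_kumTower (H : ∀ n, KumPackage N (p ^ n)) {n : ℕ} {c : G0 N → ZMod (p ^ n)}
    (hc : IsParHom c) : IsKum N (p ^ n) c (kumTower N p n c) := by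
  have h := (H n).ex c hc
  rw [kumTower, dif_pos h]
  exact h.choose_spec

theorem kumTower_eq (H : ∀ n, KumPackage N (p ^ n)) {n : ℕ} {c : G0 N → ZMod (p ^ n)}
    {x : JZero N} (h : IsKum N (p ^ n) c x) : kumTower N p n c = x := by
  have h' : ∃ x : JZero N, IsKum N (p ^ n) c x := ⟨x, h⟩
  rw [kumTower, dif_pos h']
  exact (H n).uniq c _ _ h'.choose_spec h

theorem not_dvd_mul_pow {ℓ : ℕ} (hℓ : ℓ.Prime) {N p : ℕ} (h : ¬ ℓ ∣ N * p) (n : ℕ) :
    ¬ ℓ ∣ N * p ^ n := by
  intro hd
  rcases (Nat.Prime.dvd_mul hℓ).1 hd with h1 | h1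
  · exact h (Dvd.dvd.mul_right h1 p)
  · exact h (Dvd.dvd.mul_left (hℓ.dvd_of_dvd_pow h1) N)

/-- **The Kummer tower** (conclusion of helper49's `SkeletonLat.exists_kummerTower`, with the
extra information that `κ n c` IS the Kummer class of `c`), from the M4b pieces at all moduli
`p ^ n`. -/
theorem exists_kummerTower_isKum_of [NeZero p] (H : ∀ n, KumPackage N (p ^ n)) :
    ∃ κ : (n : ℕ) → (G0 N → ZMod (p ^ n)) → JZero N,
      (∀ n c, IsParHom c → IsKum N (p ^ n) c (κ n c)) ∧
      (∀ n c c', IsParHom c → IsParHom c' → κ n (c + c') = κ n c + κ n c') ∧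
      (∀ n c, IsParHom c → κ n c = 0 → c = 0) ∧
      (∀ (n : ℕ) (c : G0 N → ZMod (p ^ (n + 1))), IsParHom c →
        (p : ℤ) • κ (n + 1) c =
          κ n (fun γ => ZMod.castHom (pow_dvd_pow p (Nat.le_succ n)) (ZMod (p ^ n)) (c γ))) ∧
      (∀ ℓ : Nat.Primes, ¬ (ℓ : ℕ) ∣ N * p → ∀ n c, IsParHom c →
        κ n (heckeCoh N ℓ c) = heckeOperatorBar N ℓ (κ n c)) := by
  refine ⟨kumTower N p, fun n c hc => isKum_kumTower H hc, fun n c c' hc hc' => ?_,
    fun n c hc h0 => ?_, fun n c hc => ?_, fun ℓ hℓ n c hc => ?_⟩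
  · exact kumTower_eq H ((H n).add c c' _ _ (isKum_kumTower H hc) (isKum_kumTower H hc'))
  · have h := isKum_kumTower H hc
    rw [h0] at h
    exact (H n).inj c h
  · have h := isKum_kumTower H hc
    have h1 := isKum_red' (m := p ^ n) (d := p) (pow_succ p n)
      (pow_dvd_pow p (Nat.le_succ n)) h
    rw [natCast_zsmul]
    exact (kumTower_eq H h1).symm
  · exact kumTower_eq H ((H n).hecke ℓ (not_dvd_mul_pow ℓ.2 hℓ n) c _ hc (isKum_kumTower H hc))

/-- **The Kummer tower**, EXACT conclusion of helper49's `SkeletonLat.exists_kummerTower`. -/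
theorem exists_kummerTower_of [NeZero p] (H : ∀ n, KumPackage N (p ^ n)) :
    ∃ κ : (n : ℕ) → (G0 N → ZMod (p ^ n)) → JZero N,
      (∀ n c c', IsParHom c → IsParHom c' → κ n (c + c') = κ n c + κ n c') ∧
      (∀ n c, IsParHom c → κ n c = 0 → c = 0) ∧
      (∀ (n : ℕ) (c : G0 N → ZMod (p ^ (n + 1))), IsParHom c →
        (p : ℤ) • κ (n + 1) c =
          κ n (fun γ => ZMod.castHom (pow_dvd_pow p (Nat.le_succ n)) (ZMod (p ^ n)) (c γ))) ∧
      (∀ ℓ : Nat.Primes, ¬ (ℓ : ℕ) ∣ N * p → ∀ n c, IsParHom c →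
        κ n (heckeCoh N ℓ c) = heckeOperatorBar N ℓ (κ n c)) := by
  obtain ⟨κ, -, h1, h2, h3, h4⟩ := exists_kummerTower_isKum_of H
  exact ⟨κ, h1, h2, h3, h4⟩

end Tower

end Fermat.Agent.S30.H450

end
end
-- ===== PACK-END S30/H450/KumTower.lean

-- ===== PACK-BEGIN S30/H330/KumQZ.lean
section
/-
S30 -- ADIC MODULE LAYER, input (K) from the pieces of S29 sub-layer M4b (helper330).

The Kummer relation `M4b.IsKum N m c x` of helper822 is stated for `ℤ/m`-valued characters; the
adic module layer uses `ℚ/ℤ`-valued characters.  This file provides the dictionary: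

* `zmodToQZ m : ZMod m →+ ℚ/ℤ`, `a ↦ a/m` (injective, onto the `m`-torsion);
* `IsKumQZ N m c x` : `x` is the Kummer class of the `ℚ/ℤ`-valued character `c`, at modulus `m`;
  it is insensitive to the modulus (`IsKumQZ.mul_right`, inflation of helper450);
* `kummerInjStatement_of_packages` : the Kummer packages `H450.KumPackage N (p ^ n)` for all `n`
  (= the seven pieces of M4b at the moduli `p ^ n`) give a Kummer map on the `p`-primary
  parabolic characters with values in `ℚ/ℤ`: additive, injective, Hecke-equivariant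
  (`KummerInjStatement N p`).

Only characters of `p`-power order are used, because piece `K4-HECKE` at the modulus `m` is only
available for the primes `ℓ ∤ N m`.
-/



set_option autoImplicit false

noncomputable section

namespace Fermat.Agent.S30.H330

open Fermat.Agent.S29 Fermat.Agent.S29.M4b ModularCurve Fermat.Agent.S30.H450

/-! ### The embedding `ℤ/m → ℚ/ℤ` -/

/-- `1/m` in `ℚ/ℤ`. -/
def invQZ (m : ℕ) : QZ := (((m : ℚ)⁻¹ : ℚ) : QZ)

theorem nsmul_invQZ (m : ℕ) : m • invQZ m = 0 := by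
  rcases Nat.eq_zero_or_pos m with h | h
  · subst h; simp
  · unfold invQZ
    rw [← AddCircle.coe_nsmul, nsmul_eq_mul, mul_inv_cancel₀ (by positivity)]
    exact AddCircle.coe_period 1

theorem nsmul_invQZ_mul (m d : ℕ) (hd : d ≠ 0) : d • invQZ (m * d) = invQZ m := by
  unfold invQZ
  rw [← AddCircle.coe_nsmul, nsmul_eq_mul]
  congr 1
  have hd' : (d : ℚ) ≠ 0 := by exact_mod_cast hd
  push_cast
  rw [mul_inv, mul_comm (m : ℚ)⁻¹, ← mul_assoc, mul_inv_cancel₀ hd', one_mul]

/-- The embedding `ℤ/m → ℚ/ℤ`, `a ↦ a/m`. -/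
def zmodToQZ (m : ℕ) : ZMod m →+ QZ :=
  ZMod.lift m ⟨zmultiplesHom QZ (invQZ m), by
    rw [zmultiplesHom_apply, natCast_zsmul]
    exact nsmul_invQZ m⟩

theorem zmodToQZ_intCast (m : ℕ) (k : ℤ) : zmodToQZ m (k : ZMod m) = k • invQZ m := by
  unfold zmodToQZ
  rw [ZMod.lift_coe]
  rfl

theorem zmodToQZ_natCast (m : ℕ) (k : ℕ) : zmodToQZ m (k : ZMod m) = k • invQZ m := by
  have := zmodToQZ_intCast m (k : ℤ)
  rwa [Int.cast_natCast, natCast_zsmul] at this

theorem zmodToQZ_eq_val (m : ℕ) [NeZero m] (a : ZMod m) : zmodToQZ m a = a.val • invQZ m := by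
  conv_lhs => rw [← ZMod.natCast_zmod_val a]
  exact zmodToQZ_natCast m _

theorem zmodToQZ_injective (m : ℕ) [NeZero m] : Function.Injective (zmodToQZ m) := by
  rw [injective_iff_map_eq_zero]
  intro a ha
  rw [zmodToQZ_eq_val] at ha
  have hm : (m : ℚ) ≠ 0 := by exact_mod_cast NeZero.ne m
  have hmpos : (0 : ℚ) < m := by exact_mod_cast Nat.pos_of_ne_zero (NeZero.ne m)
  unfold invQZ at ha
  rw [← AddCircle.coe_nsmul, nsmul_eq_mul, AddCircle.coe_eq_zero_iff] at ha
  obtain ⟨n, hn⟩ := ha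
  rw [zsmul_eq_mul, mul_one] at hn
  have h1 : (a.val : ℚ) = n * m := by
    field_simp at hn
    linarith
  have h2 : (a.val : ℤ) = n * m := by exact_mod_cast h1
  have hlt : (a.val : ℤ) < m := by exact_mod_cast ZMod.val_lt a
  have hnn : (0 : ℤ) ≤ a.val := by positivity
  have hmz : (0 : ℤ) < m := by exact_mod_cast Nat.pos_of_ne_zero (NeZero.ne m)
  have hn0 : n = 0 := by
    by_contra hne
    rcases lt_or_gt_of_ne hne with h | h
    · have : n * (m : ℤ) < 0 := mul_neg_of_neg_of_pos h hmz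
      omega
    · have : (m : ℤ) ≤ n * m := by nlinarith
      omega
  rw [hn0, zero_mul] at h2
  have h3 : a.val = 0 := by exact_mod_cast h2
  exact (ZMod.val_eq_zero a).mp h3

theorem exists_zmodToQZ_eq (m : ℕ) [NeZero m] {y : QZ} (hy : m • y = 0) :
    ∃ a : ZMod m, zmodToQZ m a = y := by
  obtain ⟨q, rfl⟩ := QuotientAddGroup.mk_surjective y
  have hm : (m : ℚ) ≠ 0 := by exact_mod_cast NeZero.ne m
  change m • ((q : ℚ) : QZ) = 0 at hy
  rw [← AddCircle.coe_nsmul, nsmul_eq_mul, AddCircle.coe_eq_zero_iff] at hy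
  obtain ⟨k, hk⟩ := hy
  rw [zsmul_eq_mul, mul_one] at hk
  refine ⟨(k : ZMod m), ?_⟩
  rw [zmodToQZ_intCast]
  unfold invQZ
  rw [← AddCircle.coe_zsmul, zsmul_eq_mul]
  congr 1
  rw [hk]
  field_simp

theorem nsmul_zmodToQZ (m : ℕ) (a : ZMod m) : m • zmodToQZ m a = 0 := by
  rw [← map_nsmul]
  have : m • a = 0 := by
    rw [nsmul_eq_mul, ZMod.natCast_self, zero_mul]
  rw [this, map_zero]

/-! ### Characters with values in `ℤ/m` and in `ℚ/ℤ` -/

section Char

variable {N : ℕ}

/-- A `ℤ/m`-valued function is a parabolic character as soon as its image in `ℚ/ℤ` is one. -/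
theorem isParHom_of_zmodToQZ {m : ℕ} [NeZero m] {cm : G0 N → ZMod m} {c : G0 N → QZ}
    (hc : IsParHom c) (h : ∀ γ, zmodToQZ m (cm γ) = c γ) : IsParHom cm where
  map_mul γ γ' := by
    apply zmodToQZ_injective m
    rw [map_add, h, h, h, hc.map_mul]
  parabolic γ hγ := by
    apply zmodToQZ_injective m
    rw [h, map_zero, hc.parabolic γ hγ]
  elliptic γ n hn hγ := by
    apply zmodToQZ_injective m
    rw [h, map_zero, hc.elliptic γ n hn hγ]

/-- A `ℚ/ℤ`-valued function killed by `m` factors through `ℤ/m`. -/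
theorem exists_zmod_char {m : ℕ} [NeZero m] {c : G0 N → QZ} (hm : m • c = 0) :
    ∃ cm : G0 N → ZMod m, ∀ γ, zmodToQZ m (cm γ) = c γ := by
  have h : ∀ γ, ∃ a : ZMod m, zmodToQZ m a = c γ := fun γ =>
    exists_zmodToQZ_eq m (by simpa using congrFun hm γ)
  exact ⟨fun γ => (h γ).choose, fun γ => (h γ).choose_spec⟩

theorem zmodToQZ_inflChar {m d : ℕ} [NeZero m] [NeZero d] (cm : G0 N → ZMod m) (γ : G0 N) :
    zmodToQZ (m * d) (inflChar m d cm γ) = zmodToQZ m (cm γ) := by
  unfold inflChar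
  rw [zmodToQZ_natCast, zmodToQZ_eq_val, mul_comm d, mul_nsmul',
    nsmul_invQZ_mul m d (NeZero.ne d)]

end Char

/-! ### The Kummer relation for `ℚ/ℤ`-valued characters -/

section Rel

variable {N : ℕ} [NeZero N]

/-- `x` is the Kummer class of the `ℚ/ℤ`-valued character `c`, at the modulus `m`. -/
def IsKumQZ (N : ℕ) [NeZero N] (m : ℕ) (c : G0 N → QZ) (x : JZero N) : Prop :=
  ∃ cm : G0 N → ZMod m, (∀ γ, zmodToQZ m (cm γ) = c γ) ∧ IsKum N m cm x

/-- The modulus can be multiplied (inflation, helper450). -/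
theorem IsKumQZ.mul_right {m : ℕ} [NeZero m] {c : G0 N → QZ} {x : JZero N}
    (h : IsKumQZ N m c x) (d : ℕ) [NeZero d] : IsKumQZ N (m * d) c x := by
  obtain ⟨cm, hcm, hk⟩ := h
  exact ⟨inflChar m d cm, fun γ => by rw [zmodToQZ_inflChar, hcm], isKum_infl hk⟩

/-- The level of a Kummer class in the `p`-power tower can be raised. -/
theorem IsKumQZ.pow_le {p : ℕ} [NeZero p] {n n' : ℕ} (hn : n ≤ n') {c : G0 N → QZ}
    {x : JZero N} (h : IsKumQZ N (p ^ n) c x) : IsKumQZ N (p ^ n') c x := by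
  obtain ⟨k, rfl⟩ := Nat.exists_eq_add_of_le hn
  have := h.mul_right (p ^ k)
  rwa [← pow_add] at this

theorem IsKumQZ.unique {m : ℕ} [NeZero m] (H : KumPackage N m) {c : G0 N → QZ}
    {x x' : JZero N} (h : IsKumQZ N m c x) (h' : IsKumQZ N m c x') : x = x' := by
  obtain ⟨cm, hcm, hk⟩ := h
  obtain ⟨cm', hcm', hk'⟩ := h'
  have : cm = cm' := funext fun γ => zmodToQZ_injective m (by rw [hcm, hcm'])
  subst this
  exact H.uniq cm x x' hk hk'

theorem IsKumQZ.add {m : ℕ} (H : KumPackage N m) {c c' : G0 N → QZ}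
    {x x' : JZero N} (h : IsKumQZ N m c x) (h' : IsKumQZ N m c' x') :
    IsKumQZ N m (c + c') (x + x') := by
  obtain ⟨cm, hcm, hk⟩ := h
  obtain ⟨cm', hcm', hk'⟩ := h'
  exact ⟨cm + cm', fun γ => by rw [Pi.add_apply, map_add, hcm, hcm', Pi.add_apply],
    H.add cm cm' x x' hk hk'⟩

theorem IsKumQZ.eq_zero {m : ℕ} (H : KumPackage N m) {c : G0 N → QZ}
    (h : IsKumQZ N m c (0 : JZero N)) : c = 0 := by
  obtain ⟨cm, hcm, hk⟩ := h
  have h0 := H.inj cm hk
  funext γ
  rw [← hcm, h0, Pi.zero_apply, map_zero, Pi.zero_apply]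

theorem IsKumQZ.hecke {m : ℕ} [NeZero m] (H : KumPackage N m) (ℓ : Nat.Primes)
    (hℓ : ¬ (ℓ : ℕ) ∣ N * m) {c : G0 N → QZ} (hc : IsParHom c) {x : JZero N}
    (h : IsKumQZ N m c x) : IsKumQZ N m (heckeCoh N ℓ c) (heckeOperatorBar N ℓ x) := by
  obtain ⟨cm, hcm, hk⟩ := h
  refine ⟨heckeCoh N ℓ cm, fun γ => ?_, H.hecke ℓ hℓ cm x (isParHom_of_zmodToQZ hc hcm) hk⟩
  have h1 := congrFun (heckeCoh_comp (N := N) (ℓ : ℕ) cm (zmodToQZ m)) γ
  rw [← h1]
  congr 1
  funext γ'
  exact hcm γ'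

theorem IsKumQZ.exists {m : ℕ} [NeZero m] (H : KumPackage N m) {c : G0 N → QZ}
    (hc : IsParHom c) (hm : m • c = 0) : ∃ x : JZero N, IsKumQZ N m c x := by
  obtain ⟨cm, hcm⟩ := exists_zmod_char hm
  obtain ⟨x, hx⟩ := H.ex cm (isParHom_of_zmodToQZ hc hcm)
  exact ⟨x, cm, hcm, hx⟩

end Rel

/-! ### The `p`-primary Kummer map -/

/-- INPUT (K'), the `p`-primary form of `KummerStatement` without surjectivity: a Kummer map on
the parabolic characters of `p`-power order with values in `ℚ/ℤ`, additive, injective and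
Hecke-equivariant. -/
def KummerInjStatement (N : ℕ) [NeZero N] (p : ℕ) : Prop :=
  ∃ κ : (G0 N → QZ) → JZero N,
    (∀ c c', IsParHom c → IsParHom c' → (∃ n : ℕ, p ^ n • c = 0) → (∃ n : ℕ, p ^ n • c' = 0) →
      κ (c + c') = κ c + κ c') ∧
    (∀ c, IsParHom c → (∃ n : ℕ, p ^ n • c = 0) → κ c = 0 → c = 0) ∧
    (∀ ℓ : Nat.Primes, ¬ (ℓ : ℕ) ∣ N * p → ∀ c, IsParHom c → (∃ n : ℕ, p ^ n • c = 0) →
      κ (heckeCoh N ℓ c) = heckeOperatorBar N ℓ (κ c))

/-- INPUT (F): finiteness of the `p`-torsion of `J₀(N)(ℚ̄)`. -/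
def FinStatement (N : ℕ) [NeZero N] (p : ℕ) : Prop :=
  {x : JZero N | p • x = 0}.Finite

section Tower

variable {N : ℕ} [NeZero N] {p : ℕ}

open Classical in
/-- The Kummer map on `ℚ/ℤ`-valued characters: THE Kummer class at some level of the `p`-power
tower (and `0` if there is none). -/
def kumQZ (N : ℕ) [NeZero N] (p : ℕ) (c : G0 N → QZ) : JZero N :=
  if h : ∃ x : JZero N, ∃ n : ℕ, IsKumQZ N (p ^ n) c x then h.choose else 0

theorem kumQZ_eq [NeZero p] (H : ∀ n, KumPackage N (p ^ n)) {c : G0 N → QZ} {x : JZero N}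
    {n : ℕ} (h : IsKumQZ N (p ^ n) c x) : kumQZ N p c = x := by
  have h' : ∃ x : JZero N, ∃ n : ℕ, IsKumQZ N (p ^ n) c x := ⟨x, n, h⟩
  rw [kumQZ, dif_pos h']
  obtain ⟨n', hn'⟩ := h'.choose_spec
  exact IsKumQZ.unique (H (max n n')) (hn'.pow_le (le_max_right n n'))
    (h.pow_le (le_max_left n n'))

theorem isKumQZ_kumQZ [NeZero p] (H : ∀ n, KumPackage N (p ^ n)) {c : G0 N → QZ}
    (hc : IsParHom c) {n : ℕ} (hn : p ^ n • c = 0) : IsKumQZ N (p ^ n) c (kumQZ N p c) := by
  obtain ⟨x, hx⟩ := IsKumQZ.exists (H n) hc hn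
  rw [kumQZ_eq H hx]
  exact hx

theorem nsmul_eq_zero_of_le {A : Type*} [AddCommMonoid A] {p n n' : ℕ} (h : n ≤ n') {c : A}
    (hc : p ^ n • c = 0) : p ^ n' • c = 0 := by
  obtain ⟨k, rfl⟩ := Nat.exists_eq_add_of_le h
  rw [pow_add, mul_comm, mul_nsmul', hc, nsmul_zero]

/-- **Input (K') from the pieces of M4b** at the moduli `p ^ n`. -/
theorem kummerInjStatement_of_packages [NeZero p] (H : ∀ n, KumPackage N (p ^ n)) :
    KummerInjStatement N p := by
  refine ⟨kumQZ N p, ?_, ?_, ?_⟩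
  · rintro c c' hc hc' ⟨n, hn⟩ ⟨n', hn'⟩
    have h1 := isKumQZ_kumQZ H hc (nsmul_eq_zero_of_le (le_max_left n n') hn)
    have h2 := isKumQZ_kumQZ H hc' (nsmul_eq_zero_of_le (le_max_right n n') hn')
    exact kumQZ_eq H (IsKumQZ.add (H _) h1 h2)
  · rintro c hc ⟨n, hn⟩ h0
    have h1 := isKumQZ_kumQZ H hc hn
    rw [h0] at h1
    exact IsKumQZ.eq_zero (H n) h1
  · rintro ℓ hℓ c hc ⟨n, hn⟩
    have h1 := isKumQZ_kumQZ H hc hn
    exact kumQZ_eq H (IsKumQZ.hecke (H n) ℓ (not_dvd_mul_pow ℓ.2 hℓ n) hc h1)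

end Tower

end Fermat.Agent.S30.H330

end
end
-- ===== PACK-END S30/H330/KumQZ.lean

-- ===== PACK-BEGIN S30/H330/AdicInputs.lean
section
/-
S30 -- ADIC MODULE LAYER, assembly from the `p`-PRIMARY inputs (helper330).

`hasAdicFrobModule_of_inj` : (K') + (F) + (P) + (T) + (Sm) + (GH)  ⟹  `HasAdicFrobModule`, where
  (K') `KummerInjStatement N p` : Kummer map on the parabolic characters of `p`-power order
       (additive, injective, Hecke-equivariant; NO surjectivity);
  (F)  `FinStatement N p` : `J₀(N)(ℚ̄)[p]` is finite.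
This is the form of `hasAdicFrobModule_of_inputs` which is fed by the pieces of S29 sub-layer M4b
(`kummerInjStatement_of_packages`) and by piece FIN of the S30 row.
-/


set_option autoImplicit false

noncomputable section

namespace Fermat.Agent.S30.H330

open Fermat.Agent.S29 ModularCurve
open scoped MatrixGroups

/-- `KummerStatement` (all characters, with surjectivity) implies the `p`-primary form. -/
theorem kummerInjStatement_of_kummerStatement {N : ℕ} [NeZero N] {p : ℕ}
    (h : KummerStatement N p) : KummerInjStatement N p := by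
  obtain ⟨κ, hadd, hinj, -, hhecke⟩ := h
  exact ⟨κ, fun c c' hc hc' _ _ => hadd c c' hc hc', fun c hc _ h0 => hinj c hc h0,
    fun ℓ hℓ c hc _ => hhecke ℓ hℓ c hc⟩

/-- `KummerStatement` implies the finiteness of the `p`-torsion. -/
theorem finStatement_of_kummerStatement {N : ℕ} [NeZero N] {p : ℕ} [Fact p.Prime]
    (h : KummerStatement N p) : FinStatement N p :=
  finite_torsion h

/-- The eigenvector `f(x) = κ(γ ↦ ϑ(c(γ) x))`, from the `p`-primary Kummer map. -/
theorem exists_eigenHom_of_inj {p : ℕ} [Fact p.Prime] {N : ℕ} [NeZero N] {S : Finset ℕ}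
    (hpS : p ∈ S) (hNS : ∀ q : ℕ, q.Prime → q ∣ N → q ∈ S)
    {O : Type} [CommRing O] [IsDomain O] [IsDiscreteValuationRing O]
    (hpO : (p : O) ∈ IsLocalRing.maximalIdeal O)
    (χ : CuspForm.heckeAlgebra N 2 (↑S : Set ℕ) →+* O)
    (hK : KummerInjStatement N p) (hP : ParEigenStatement N S O χ) :
    ∃ f : FractionRing O →+ JZero N,
      (∀ r : O, f (algebraMap O (FractionRing O) r) = 0) ∧ f ≠ 0 ∧
      ∀ (ℓ : Nat.Primes), (ℓ : ℕ) ∉ S → ∀ x,
        heckeOperatorBar N ℓ (f x) =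
          f (algebraMap O (FractionRing O) (eigenvalue χ ℓ) * x) := by
  classical
  obtain ⟨κ, hadd, hinj, hhecke⟩ := hK
  obtain ⟨c, hc, hc0, hceig⟩ := hP
  obtain ⟨ϖ, hϖ⟩ := IsDiscreteValuationRing.exists_irreducible O
  obtain ⟨ϑ, hϑ0, hϑ1⟩ := exists_character hϖ
  have hϖ0 : algebraMap O (FractionRing O) ϖ ≠ 0 := algebraMap_irreducible_ne_zero hϖ
  -- the additive map `r ↦ ϑ (r x)`
  let φ : FractionRing O → (O →+ QZ) := fun x =>
    ϑ.comp ((AddMonoidHom.mulRight x).comp (algebraMap O (FractionRing O)).toAddMonoidHom)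
  have hφ : ∀ x r, φ x r = ϑ (algebraMap O (FractionRing O) r * x) := fun x r => rfl
  let cx : FractionRing O → (G0 N → QZ) := fun x γ => φ x (c γ)
  have hcx : ∀ x, IsParHom (cx x) := fun x => isParHom_comp hc (φ x)
  have hcx_add : ∀ x y, cx (x + y) = cx x + cx y := by
    intro x y
    funext γ
    show φ (x + y) (c γ) = φ x (c γ) + φ y (c γ)
    rw [hφ, hφ, hφ, mul_add, map_add]
  -- the characters `cx x` have `p`-power order
  have hcx_pow : ∀ x, ∃ n : ℕ, p ^ n • cx x = 0 := by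
    intro x
    obtain ⟨n, y, rfl⟩ := exists_eq_div_pow hϖ x
    obtain ⟨b, hb⟩ : ∃ b : O, b * ϖ = (p : O) := by
      have h := hpO
      rw [hϖ.maximalIdeal_eq, Ideal.mem_span_singleton'] at h
      exact h
    refine ⟨n, ?_⟩
    funext γ
    show p ^ n • φ _ (c γ) = 0
    rw [hφ, ← map_nsmul]
    have : p ^ n • (algebraMap O (FractionRing O) (c γ) *
        (algebraMap O (FractionRing O) y / algebraMap O (FractionRing O) ϖ ^ n)) =
        algebraMap O (FractionRing O) (c γ * (b ^ n * y)) := by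
      rw [nsmul_eq_mul]
      have hp : ((p ^ n : ℕ) : FractionRing O) = algebraMap O (FractionRing O) ((b * ϖ) ^ n) := by
        rw [hb]; simp
      rw [hp, mul_pow]
      simp only [map_mul, map_pow]
      field_simp
    rw [this]
    exact hϑ0 _
  have hκ0 : κ 0 = 0 := by
    have := hadd 0 0 isParHom_zero isParHom_zero ⟨0, by simp⟩ ⟨0, by simp⟩
    rw [add_zero] at this
    exact left_eq_add.mp this
  let f : FractionRing O →+ JZero N := AddMonoidHom.mk' (fun x => κ (cx x)) (fun x y => by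
    show κ (cx (x + y)) = κ (cx x) + κ (cx y)
    rw [hcx_add, hadd _ _ (hcx x) (hcx y) (hcx_pow x) (hcx_pow y)])
  have hf : ∀ x, f x = κ (cx x) := fun x => rfl
  refine ⟨f, fun r => ?_, ?_, fun ℓ hℓS x => ?_⟩
  · rw [hf]
    have : cx (algebraMap O (FractionRing O) r) = 0 := by
      funext γ
      show φ _ (c γ) = 0
      rw [hφ, ← map_mul]
      exact hϑ0 _
    rw [this]
    exact hκ0
  · intro hf0
    obtain ⟨γ₀, hγ₀⟩ : ∃ γ₀, c γ₀ ≠ 0 := by
      by_contra h
      push Not at h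
      exact hc0 (funext h)
    have hcγ : algebraMap O (FractionRing O) (c γ₀) ≠ 0 := by
      simpa using hγ₀
    set x₀ : FractionRing O :=
      (algebraMap O (FractionRing O) (c γ₀))⁻¹ * (algebraMap O (FractionRing O) ϖ)⁻¹ with hx₀
    have h1 : κ (cx x₀) = 0 := by
      rw [← hf, hf0]
      rfl
    have h2 := hinj _ (hcx x₀) (hcx_pow x₀) h1
    have h3 : cx x₀ γ₀ = 0 := by rw [h2]; rfl
    apply hϑ1
    have h4 : cx x₀ γ₀ = ϑ ((algebraMap O (FractionRing O) ϖ)⁻¹) := by
      show φ x₀ (c γ₀) = _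
      rw [hφ, hx₀, mul_inv_cancel_left₀ hcγ]
    rw [← h4, h3]
  · have hℓ : (ℓ : ℕ).Prime := ℓ.2
    have hℓN : ¬ (ℓ : ℕ) ∣ N := fun h => hℓS (hNS _ hℓ h)
    have hℓS' : (ℓ : ℕ) ∉ (↑S : Set ℕ) := by simpa using hℓS
    have hℓNp : ¬ (ℓ : ℕ) ∣ N * p := by
      intro h
      rcases (Nat.Prime.dvd_mul hℓ).mp h with h | h
      · exact hℓN h
      · have : (ℓ : ℕ) = p := (Nat.prime_dvd_prime_iff_eq hℓ (Fact.out : p.Prime)).mp h
        exact hℓS (this ▸ hpS)
    rw [hf, hf, ← hhecke ℓ hℓNp _ (hcx x) (hcx_pow x)]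
    congr 1
    rw [show cx x = fun γ => φ x (c γ) from rfl, heckeCoh_comp]
    funext γ
    show φ x (heckeCoh N ℓ c γ) = φ _ (c γ)
    rw [hφ, hφ, hceig ℓ hℓ hℓN hℓS' γ, eigenvalue_eq χ hℓ hℓN hℓS']
    congr 1
    rw [map_mul (algebraMap O (FractionRing O))]
    ring

/-- ASSEMBLY of the adic module layer from the `p`-primary inputs:
(K') + (F) + (P) + (T) + (Sm) + (GH) ⟹ `HasAdicFrobModule`. -/
theorem hasAdicFrobModule_of_inj {p : ℕ} [Fact p.Prime] {N : ℕ} [NeZero N] {S : Finset ℕ}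
    (hpS : p ∈ S) (hNS : ∀ q : ℕ, q.Prime → q ∣ N → q ∈ S)
    {O : Type} [CommRing O] [IsDomain O] [IsDiscreteValuationRing O]
    [IsAdicComplete (IsLocalRing.maximalIdeal O) O] [Finite (IsLocalRing.ResidueField O)]
    [CharZero O] (hpO : (p : O) ∈ IsLocalRing.maximalIdeal O)
    (χ : CuspForm.heckeAlgebra N 2 (↑S : Set ℕ) →+* O)
    (hK : KummerInjStatement N p) (hF : FinStatement N p) (hP : ParEigenStatement N S O χ)
    (hT : TorsionRelations N p) (hSm : SmoothStatement N) (hGH : GaloisHeckeStatement N) :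
    HasAdicFrobModule O (N * p) (fun ℓ => ℓ ∉ S) (eigenvalue χ) := by
  classical
  obtain ⟨f, hf0, hf, hfe⟩ := exists_eigenHom_of_inj hpS hNS hpO χ hK hP
  -- index set of Hecke operators
  let t : {ℓ : Nat.Primes // (ℓ : ℕ) ∉ S} → JZero N →+ JZero N := fun i =>
    (heckeOperatorBar N i.1).toAddMonoidHom
  let a : {ℓ : Nat.Primes // (ℓ : ℕ) ∉ S} → O := fun i => eigenvalue χ (i.1 : ℕ)
  have ht : ∀ i (σ : GQ) (x : JZero N), σ • t i x = t i (σ • x) := fun i σ x => hGH σ i.1 x
  obtain ⟨M, i1, i2, i3, i4, ρ, hnt, hcont, hunr, hquad⟩ :=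
    adicModule_of_torsion (J := JZero N) (Fact.out : p.Prime) hpO (fun x => hSm x) hF t ht a f
      hf0 hf (fun i x => hfe i.1 i.2 x)
  refine ⟨M, i1, i2, i3, i4, ρ, hnt, hcont, ?_, ?_⟩
  · intro ℓ hℓ hℓNp A hA σ hσ
    exact hunr σ fun x hx => (hT ℓ hℓ hℓNp A hA).1 σ hσ x hx
  · intro ℓ hℓ hℓS A hA σ hσ
    have hℓN : ¬ ℓ ∣ N := fun h => hℓS (hNS _ hℓ h)
    have hℓNp : ¬ ℓ ∣ N * p := by
      intro h
      rcases (Nat.Prime.dvd_mul hℓ).mp h with h | h
      · exact hℓN h
      · have : ℓ = p := (Nat.prime_dvd_prime_iff_eq hℓ (Fact.out : p.Prime)).mp h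
        exact hℓS (this ▸ hpS)
    exact hquad ⟨⟨ℓ, hℓ⟩, hℓS⟩ ℓ σ fun x hx => (hT ℓ hℓ hℓNp A hA).2 σ hσ x hx

end Fermat.Agent.S30.H330

end
end
-- ===== PACK-END S30/H330/AdicInputs.lean

-- ===== PACK-BEGIN S30/H330/AdicFinal.lean
section
/-
S30 -- the frozen statement S30 from the OPEN PIECES (helper330).

Chain:  pieces of S29 sub-layer M4b at the moduli `p ^ n` (`H450.KumPackage N (p ^ n)`)
        + piece ONTO at the modulus `p` (every `p`-torsion class is a Kummer class)
        + (T) torsion relations (rows S37/S18)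
   ⟹  (K') + (F) + (T)                         [`KumQZ.lean`, `Fin/Count.lean`]
   ⟹  `HasAdicFrobModule`                       [`AdicInputs.lean`; (P) = helper709, (Sm) = S29 M3,
                                                   (GH) = helper571]
   ⟹  `H990.HasAdicEigenModules` ⟹ frozen S30   [top glue of helper990].

* `result_of_inj`      : S30 from (K'), (F), (T);
* `result_of_packages` : S30 from the Kummer packages, ONTO and (T).
-/





set_option autoImplicit false
set_option linter.overlappingInstances false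

noncomputable section

namespace Fermat.Agent.S30.H330

open Fermat.Agent.S29 Fermat.Agent.S29.M4b ModularCurve Fermat.Agent.S30.H450 Polynomial

/-- Input (P) of the adic module layer holds (helper709, unconditional). -/
theorem parEigenStatement {N : ℕ} [NeZero N] {S : Finset ℕ}
    (hNS : ∀ q : ℕ, q.Prime → q ∣ N → q ∈ S) {O : Type} [CommRing O] [IsDomain O]
    (χ : CuspForm.heckeAlgebra N 2 (↑S : Set ℕ) →+* O) : ParEigenStatement N S O χ :=
  Fermat.Agent.S30.H709.exists_parEigen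
    (fun q hq hqN => Finset.mem_coe.mpr (hNS q hq hqN)) χ

/-- Input (F) from ONTO and UNIQ at the modulus `p`. -/
theorem finStatement_of_onto {N : ℕ} [NeZero N] {p : ℕ} [NeZero p]
    (huniq : ∀ (c : G0 N → ZMod p) (x x' : JZero N), IsKum N p c x → IsKum N p c x' → x = x')
    (honto : ∀ x : JZero N, (p : ℤ) • x = 0 → ∃ c : G0 N → ZMod p, IsKum N p c x) :
    FinStatement N p := by
  have h := Fermat.Agent.S30.Fin.finite_torsion_of N p honto huniq
  refine h.subset ?_
  intro x hx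
  show (p : ℤ) • x = 0
  rw [natCast_zsmul]
  exact hx

/-- The Kummer package at the modulus `p` from the tower. -/
theorem kumPackage_one {N : ℕ} [NeZero N] {p : ℕ} (H : ∀ n, KumPackage N (p ^ n)) :
    KumPackage N p := by
  have := H 1
  rwa [pow_one] at this

/-- **S30 from (K'), (F), (T).** -/
theorem result_of_inj
    (hK : ∀ (N : ℕ) [NeZero N] (p : ℕ) [Fact p.Prime], KummerInjStatement N p)
    (hF : ∀ (N : ℕ) [NeZero N] (p : ℕ) [Fact p.Prime], FinStatement N p)
    (hT : ∀ (N : ℕ) [NeZero N] (p : ℕ) [Fact p.Prime], TorsionRelations N p) :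
    ∀ (p : ℕ) [Fact p.Prime] (N : ℕ) [NeZero N] (S : Finset ℕ)
      (_hpS : p ∈ S) (_hNS : ∀ q : ℕ, q.Prime → q ∣ N → q ∈ S)
      (𝒪' : Type) [CommRing 𝒪'] [IsDomain 𝒪'] [IsDiscreteValuationRing 𝒪']
      [IsAdicComplete (IsLocalRing.maximalIdeal 𝒪') 𝒪'] [Finite (IsLocalRing.ResidueField 𝒪')]
      [CharZero 𝒪'] (_hp𝒪' : (p : 𝒪') ∈ IsLocalRing.maximalIdeal 𝒪')
      (χ : CuspForm.heckeAlgebra N 2 (↑S : Set ℕ) →+* 𝒪'),
      ∃ (𝒪'' : Type) (_ : CommRing 𝒪'') (_ : IsDomain 𝒪'') (_ : IsDiscreteValuationRing 𝒪'')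
        (_ : IsAdicComplete (IsLocalRing.maximalIdeal 𝒪'') 𝒪'')
        (_ : Finite (IsLocalRing.ResidueField 𝒪'')) (_ : CharZero 𝒪'')
        (_ : Algebra 𝒪' 𝒪'') (_ : Module.Finite 𝒪' 𝒪'') (_ : IsLocalHom (algebraMap 𝒪' 𝒪'')),
      Function.Injective (algebraMap 𝒪' 𝒪'') ∧
      ∃ ρ : GaloisRepAdic 𝒪'',
        (∀ (ℓ : ℕ) (hℓ : ℓ.Prime) (hℓN : ¬ ℓ ∣ N) (hℓS : ℓ ∉ (↑S : Set ℕ)),
          ∀ A : ValuationSubring (AlgebraicClosure ℚ), A.LiesOverPrime ℓ →
            ∀ σ : AlgebraicClosure ℚ ≃ₐ[ℚ] AlgebraicClosure ℚ, A.IsFrobeniusAt σ ℓ →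
              LinearMap.charpoly (ρ.ρ σ) =
                X ^ 2 - C (algebraMap 𝒪' 𝒪'' (χ (CuspForm.heckeAlgebra.T hℓ hℓN hℓS))) * X
                  + C ((ℓ : 𝒪''))) ∧
        (∀ q : ℕ, q.Prime → ¬ q ∣ N → q ≠ p → ρ.IsUnramifiedAt q) :=
  Fermat.Agent.S30.H990.result_of_hasAdicEigenModules
    (Fermat.Agent.S30.H990.hasAdicEigenModules_of_H330
      (fun p _ N _ _ hpS hNS _ _ _ _ _ _ _ hp𝒪' χ =>
        hasAdicFrobModule_of_inj hpS hNS hp𝒪' χ (hK N p) (hF N p) (parEigenStatement hNS χ)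
          (hT N p) (Fermat.Agent.S30.H990.smoothStatement N)
          (Fermat.Agent.S30.H990.galoisHeckeStatement N)))

/-- **S30 from the open pieces**: the Kummer packages at the moduli `p ^ n` (the seven pieces of
S29 sub-layer M4b, see `H450.KumPackage.of_skeleton`), piece ONTO at the modulus `p`, and the
torsion relations (T). -/
theorem result_of_packages
    (hpk : ∀ (N : ℕ) [NeZero N] (p : ℕ) [Fact p.Prime] (n : ℕ), KumPackage N (p ^ n))
    (honto : ∀ (N : ℕ) [NeZero N] (p : ℕ) [Fact p.Prime] (x : JZero N), (p : ℤ) • x = 0 →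
      ∃ c : G0 N → ZMod p, IsKum N p c x)
    (hT : ∀ (N : ℕ) [NeZero N] (p : ℕ) [Fact p.Prime], TorsionRelations N p) :
    ∀ (p : ℕ) [Fact p.Prime] (N : ℕ) [NeZero N] (S : Finset ℕ)
      (_hpS : p ∈ S) (_hNS : ∀ q : ℕ, q.Prime → q ∣ N → q ∈ S)
      (𝒪' : Type) [CommRing 𝒪'] [IsDomain 𝒪'] [IsDiscreteValuationRing 𝒪']
      [IsAdicComplete (IsLocalRing.maximalIdeal 𝒪') 𝒪'] [Finite (IsLocalRing.ResidueField 𝒪')]
      [CharZero 𝒪'] (_hp𝒪' : (p : 𝒪') ∈ IsLocalRing.maximalIdeal 𝒪')
      (χ : CuspForm.heckeAlgebra N 2 (↑S : Set ℕ) →+* 𝒪'),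
      ∃ (𝒪'' : Type) (_ : CommRing 𝒪'') (_ : IsDomain 𝒪'') (_ : IsDiscreteValuationRing 𝒪'')
        (_ : IsAdicComplete (IsLocalRing.maximalIdeal 𝒪'') 𝒪'')
        (_ : Finite (IsLocalRing.ResidueField 𝒪'')) (_ : CharZero 𝒪'')
        (_ : Algebra 𝒪' 𝒪'') (_ : Module.Finite 𝒪' 𝒪'') (_ : IsLocalHom (algebraMap 𝒪' 𝒪'')),
      Function.Injective (algebraMap 𝒪' 𝒪'') ∧
      ∃ ρ : GaloisRepAdic 𝒪'',
        (∀ (ℓ : ℕ) (hℓ : ℓ.Prime) (hℓN : ¬ ℓ ∣ N) (hℓS : ℓ ∉ (↑S : Set ℕ)),
          ∀ A : ValuationSubring (AlgebraicClosure ℚ), A.LiesOverPrime ℓ →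
            ∀ σ : AlgebraicClosure ℚ ≃ₐ[ℚ] AlgebraicClosure ℚ, A.IsFrobeniusAt σ ℓ →
              LinearMap.charpoly (ρ.ρ σ) =
                X ^ 2 - C (algebraMap 𝒪' 𝒪'' (χ (CuspForm.heckeAlgebra.T hℓ hℓN hℓS))) * X
                  + C ((ℓ : 𝒪''))) ∧
        (∀ q : ℕ, q.Prime → ¬ q ∣ N → q ≠ p → ρ.IsUnramifiedAt q) :=
  result_of_inj
    (fun N _ p hp =>
      haveI : NeZero p := ⟨hp.out.ne_zero⟩
      kummerInjStatement_of_packages (fun n => hpk N p n))
    (fun N _ p hp =>
      haveI : NeZero p := ⟨hp.out.ne_zero⟩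
      finStatement_of_onto (kumPackage_one (fun n => hpk N p n)).uniq (honto N p))
    hT

end Fermat.Agent.S30.H330

end
end
-- ===== PACK-END S30/H330/AdicFinal.lean

-- ===== PACK-BEGIN S29/H395/K4Hecke.lean
section
/-
S29 / layer M / sub-layer M4b, PIECE `K4-HECKE` — helper395.

`isKum_hecke_of_normId` : the exact conclusion of `M4b.isKum_hecke` (helper822's skeleton),
from ONE external input, the `q`-expansion form of the norm identity
`H222.NormId N ℓ : (Nm_α (β y) : ℚ̄((q))) = kronNorm ℓ y` (row S37, NORM-ID / NKI).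

Everything else is proved: Hecke inputs (landed `HI`), the correspondence on Kummer classes
(landed `H455`), the transfer formula for products (`ProdChar`), the analytic Kronecker norm
(`AnalyticKron`), stability of good functions under `heckeProd` (`GoodProd`), and the comparison
of the two index conventions (landed `M4a/Fac`).
-/






set_option autoImplicit false
set_option linter.style.haveILetI false

noncomputable section

open ModularCurve AlgebraicCurve CongruenceSubgroup UpperHalfPlane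
open scoped MatrixGroups Manifold Real

namespace Fermat.Agent.S29.H395

open Fermat.Agent.S24 Fermat.Agent.S29 Fermat.Agent.S29.M4b Fermat.Agent.S37.H400

/-! ### Roots of unity bookkeeping -/

theorem zetaP_pow_self (p : ℕ) [NeZero p] : zetaP p ^ p = 1 :=
  (Complex.isPrimitiveRoot_exp p (NeZero.ne p)).pow_eq_one

theorem zetaP_pow_eq_of_natCast_eq (p : ℕ) [NeZero p] {a b : ℕ}
    (h : (a : ZMod p) = (b : ZMod p)) : zetaP p ^ a = zetaP p ^ b := by
  have hab : a ≡ b [MOD p] := (ZMod.natCast_eq_natCast_iff a b p).mp h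
  rw [← Nat.div_add_mod a p, ← Nat.div_add_mod b p, pow_add, pow_add, pow_mul, pow_mul,
    zetaP_pow_self, one_pow, one_pow, one_mul, one_mul, hab]

/-! ### The character of `heckeProd ℓ U` -/

theorem hasChar_heckeProd (N p : ℕ) [NeZero N] [NeZero p] {ℓ : ℕ} [Fact ℓ.Prime] (hℓN : ¬ ℓ ∣ N)
    {c c' : G0 N → ZMod p} (hcc' : IsTransfer N ℓ c c') {U : ℍ → ℂ} (hU : HasChar N p c U) :
    HasChar N p c' (heckeProd ℓ U) := by
  intro γ τ
  rw [heckeProd_smul hℓN (h := U) (c := fun γ => zetaP p ^ (c γ).val) hU γ τ]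
  congr 1
  rw [Finset.prod_pow_eq_pow_sum]
  apply zetaP_pow_eq_of_natCast_eq
  have h1 := hcc' γ (M4aTop_perm γ) (fun i => H201.trf hℓN γ (M4aTop_idx ℓ i))
    (fun i => M4aTop_isHeckeFactor_trf hℓN γ i)
  rw [ZMod.natCast_zmod_val, h1, Nat.cast_sum]
  simp only [ZMod.natCast_zmod_val]
  exact (Equiv.sum_comp (M4aTop_idx ℓ) (fun x => c (H201.trf hℓN γ x))).symm

/-! ### `q`-expansions: `InfExp` versus `HasQExp` -/

theorem infExp_of_hasQExp {f : ℍ → ℂ} {φ : LaurentSeries ℂ} (h : H708.HasQExp 1 f φ) :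
    InfExp 1 f φ := fun τ => h.hasSum τ

theorem hasQExp_of_infExp {f : ℍ → ℂ} {φ : LaurentSeries ℂ}
    (hol : MDifferentiable 𝓘(ℂ) 𝓘(ℂ) f) (h : InfExp 1 f φ) : H708.HasQExp 1 f φ :=
  H708.HasQExp.of_hasSum hol fun τ => h τ

/-- The `q`-expansion of `heckeProd ℓ G` for a good function `G`. -/
theorem qexpFun_heckeProd {N : ℕ} [NeZero N] {ℓ : ℕ} [Fact ℓ.Prime] (hℓN : ¬ ℓ ∣ N) {G : ℍ → ℂ}
    (hG : G ∈ H648.goodRing N) :
    H708.qexpFun 1 (heckeProd ℓ G) = kronNorm ℓ (H708.qexpFun 1 G) := by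
  have h1 := infExp_of_hasQExp (H882.hasQExp_of_mem_goodRing hG)
  have h2 := infExp_heckeProd (ℓ := ℓ) h1
  exact (hasQExp_of_infExp (heckeProd_mem_goodRing hℓN hG).1 h2).qexpFun_eq

/-! ### The main theorem -/

section Main

variable (N : ℕ) [NeZero N] (p : ℕ) [NeZero p]

omit [NeZero p] in
theorem heckeProd_pow_fun (ℓ : ℕ) [Fact ℓ.Prime] (U : ℍ → ℂ) :
    heckeProd ℓ (fun τ => U τ ^ p) = fun τ => heckeProd ℓ U τ ^ p := by
  have := heckeProd_pow (p := ℓ) U p
  exact this

/-- **PIECE `K4-HECKE`**, from the norm identity `NormId N ℓ`. -/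
theorem isKum_hecke_of_normId (ℓ : Nat.Primes) (hℓ : ¬ (ℓ : ℕ) ∣ N * p)
    (hnorm : haveI : NeZero (ℓ : ℕ) := ⟨ℓ.2.ne_zero⟩; H222.NormId N (ℓ : ℕ))
    {c c' : G0 N → ZMod p} (hcc' : IsTransfer N (ℓ : ℕ) c c')
    {x : JZero N} (h : IsKum N p c x) : IsKum N p c' (heckeOperatorBar N ℓ x) := by
  haveI : NeZero (ℓ : ℕ) := ⟨ℓ.2.ne_zero⟩
  haveI : Fact (ℓ : ℕ).Prime := ⟨ℓ.2⟩
  have hℓN : ¬ (ℓ : ℕ) ∣ N := fun h' => hℓ (Dvd.dvd.mul_right h' p)
  obtain ⟨f, t, U, ht, hx, hU, hR⟩ := h
  obtain ⟨hα, hβ, hP, hfin, hFI, hN⟩ := heckeInputsAlong_bar N (ℓ : ℕ) ℓ.2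
  haveI := hP
  -- the new data
  set α := heckeAlphaBar (AlgebraicClosure ℚ) N (ℓ : ℕ) with hαdef
  set β := heckeBetaBar (AlgebraicClosure ℚ) N (ℓ : ℕ) with hβdef
  have hT : heckeOperatorBar N ℓ x = Pic0.correspondence β α hβ hα hFI hfin hN x := by
    rw [heckeOperatorBar_apply, heckeOperatorAlong_eq hα hβ hFI hfin hN]
    rfl
  have hx' := hx.correspondence β α hβ hα hFI hfin hN
  rw [← hT] at hx'
  have ht' : H455.normAlong α (β t) ≠ 0 :=
    H455.normAlong_ne_zero α hfin ((map_ne_zero β).mpr ht)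
  have hmul : H455.normAlong α (β f) * H455.normAlong α (β t) ^ p
      = H222.heckeNorm N (ℓ : ℕ) (f * t ^ p) := by
    rw [← H455.normAlong_pow, ← H455.normAlong_mul, ← map_pow, ← map_mul]
    rfl
  -- the analytic side
  have hgood : (fun τ => heckeProd (ℓ : ℕ) U τ ^ p) ∈ H648.goodRing N := by
    rw [← heckeProd_pow_fun]
    exact heckeProd_mem_goodRing hℓN hR.1
  have hq : H708.qexpFun 1 (fun τ => heckeProd (ℓ : ℕ) U τ ^ p)
      = coeffMap Deg457.iotaC
          ((((H455.normAlong α (β f) * H455.normAlong α (β t) ^ p : FF N)) : FF N) :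
            LaurentSeries Kbar) := by
    rw [← heckeProd_pow_fun, qexpFun_heckeProd hℓN hR.1, hR.2, ← coeffMap_kronNorm, hmul]
    exact congrArg _ (hnorm (f * t ^ p)).symm
  have hne : (H455.normAlong α (β f) * H455.normAlong α (β t) ^ p : FF N) ≠ 0 :=
    mul_ne_zero hx'.ne_zero (pow_ne_zero _ ht')
  refine ⟨H455.normAlong α (β f), H455.normAlong α (β t), heckeProd (ℓ : ℕ) U, ht', hx',
    ⟨mdiff_heckeProd hU.mdiff, ?_, hasChar_heckeProd N p hℓN hcc' hU.hasChar, hgood⟩,
    ⟨hgood, hq⟩⟩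
  -- non-vanishing
  by_contra hzero
  push Not at hzero
  have hp0 : p ≠ 0 := NeZero.ne p
  have h0 : (fun τ => heckeProd (ℓ : ℕ) U τ ^ p) = 0 := by
    funext τ
    rw [hzero τ]
    simp [hp0]
  have h1 := (H882.hasQExp_of_mem_goodRing hgood)
  have h2 : H708.qexpFun 1 (fun τ => heckeProd (ℓ : ℕ) U τ ^ p) = 0 :=
    h1.eq_zero_iff.mpr h0
  rw [hq] at h2
  have hinj : Function.Injective (coeffMap Deg457.iotaC) :=
    inf_coeffMap_injective Deg457.iotaC.injective
  have h3 : (((H455.normAlong α (β f) * H455.normAlong α (β t) ^ p : FF N)) :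
      LaurentSeries Kbar) = 0 := hinj (by rw [h2, map_zero])
  exact hne (by exact_mod_cast h3)

end Main

end Fermat.Agent.S29.H395

end

end
-- ===== PACK-END S29/H395/K4Hecke.lean

-- ===== PACK-BEGIN S37/H819/NormId.lean
section




/-!
# S37 / node NORMID (helper819)

`normId` : for a prime `ℓ ∤ M` and `f ∈ ℚ̄(X₀(M)) = modularFunctionFieldBar M`, the `q`-expansion of
the norm of `β f` over `α(F_M)` (Prelude algebra structure `algebraAlong (heckeAlphaBar ℚ̄ M ℓ)`)
is the formal Kronecker norm `H400.kronNorm ℓ f = V_ℓ f · det (secMat ℓ f)`.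
This is exactly `Board.NormIdStatement M ℓ` of `origin/helper37:Fermat/Agent/S37/Core/Skeleton3.lean`.
-/

set_option autoImplicit false

noncomputable section

open ModularCurve HahnSeries AlgebraicCurve

namespace Fermat.Agent.S37.H819

open Fermat.Agent.S24

/-- H400's section matrix is H340's Kronecker matrix. -/
theorem secMat_eq_kronMat {R : Type*} [CommRing R] (p : ℕ) [NeZero p] (f : LaurentSeries R) :
    Fermat.Agent.S37.H400.secMat p f = Fermat.Agent.S37.H340.kronMat p f := by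
  ext i j n
  rw [Fermat.Agent.S37.H400.secMat_apply', Fermat.Agent.S37.H340.kronMat_apply,
    Fermat.Agent.S37.H400.secL_coeff, Fermat.Agent.S37.H340.sect_coeff]

/-- H340's twist by an `ℓ`-th root of unity is the S24 twist. -/
theorem tw_eq_infTwist {R : Type*} [CommRing R] (ℓ : ℕ) [NeZero ℓ] (u : Rˣ)
    (hu : (u : R) ^ ℓ = 1) (f : LaurentSeries R) :
    Fermat.Agent.S37.H340.tw ℓ (u : R) f = infTwist u f := by
  ext n
  rw [Fermat.Agent.S37.H340.tw_coeff, infTwist_coeff, mul_comm]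
  congr 1
  have hℓ : (ℓ : ℤ) ≠ 0 := by exact_mod_cast NeZero.ne ℓ
  have hu' : u ^ ℓ = 1 := Units.ext (by rw [Units.val_pow_eq_pow_val, hu, Units.val_one])
  unfold Fermat.Agent.S37.H340.zpw
  have h1 : n = n % (ℓ : ℤ) + (ℓ : ℤ) * (n / (ℓ : ℤ)) := (Int.emod_add_mul_ediv n ℓ).symm
  have h0 : 0 ≤ n % (ℓ : ℤ) := Int.emod_nonneg n hℓ
  have h2 : ((n % (ℓ : ℤ)).toNat : ℤ) = n % (ℓ : ℤ) := Int.toNat_of_nonneg h0
  have h3 : u ^ n = u ^ (n % (ℓ : ℤ)).toNat := by
    conv_lhs => rw [h1, zpow_add, zpow_mul, zpow_natCast, hu', one_zpow, mul_one, ← h2,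
      zpow_natCast]
  rw [← Units.val_pow_eq_pow_val, ← h3]

/-- `V_ℓ (det (secMat ℓ f)) = ∏_{b<ℓ} f(ζ^b q)` -/
theorem qExpand_det_secMat {R : Type*} [CommRing R] [IsDomain R] (ℓ : ℕ) [NeZero ℓ] (ζ : Rˣ)
    (hζ : IsPrimitiveRoot (ζ : R) ℓ) (f : LaurentSeries R) :
    qExpand R ℓ (Fermat.Agent.S37.H400.secMat ℓ f).det
      = ∏ b ∈ Finset.range ℓ, infTwist (ζ ^ b) f := by
  have h := Fermat.Agent.S37.H340.kron_map_qExpand_eq_prod hζ f
  rw [Fermat.Agent.S37.H340.kron, ← secMat_eq_kronMat, ← Matrix.charpoly_map] at h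
  have hdet : qExpand R ℓ (Fermat.Agent.S37.H400.secMat ℓ f).det
      = ((Fermat.Agent.S37.H400.secMat ℓ f).map (qExpand R ℓ)).det := by
    rw [RingHom.map_det, RingHom.mapMatrix_apply]
  rw [hdet, Matrix.det_eq_sign_charpoly_coeff, h, Fintype.card_fin,
    Polynomial.coeff_zero_eq_eval_zero, Polynomial.eval_prod]
  simp only [Polynomial.eval_sub, Polynomial.eval_X, Polynomial.eval_C, zero_sub]
  rw [Finset.prod_neg, Finset.card_univ, Fintype.card_fin, ← mul_assoc, ← mul_pow]
  simp only [mul_neg, mul_one, neg_neg, one_pow, one_mul]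
  rw [← Fin.prod_univ_eq_prod_range (fun b : ℕ => infTwist (ζ ^ b) f) ℓ]
  refine Finset.prod_congr rfl fun b _ => ?_
  rw [← Units.val_pow_eq_pow_val, tw_eq_infTwist]
  rw [Units.val_pow_eq_pow_val, ← pow_mul, mul_comm, pow_mul, hζ.pow_eq_one, one_pow]

/-- **Node NORMID** (`Board.NormIdStatement M ℓ`, unfolded): for a prime `ℓ ∤ M` the
`q`-expansion of `Nm_{F_{Mℓ}/α F_M}(β f)` is the formal Kronecker norm `kronNorm ℓ f`. -/
theorem normId (M ℓ : ℕ) [NeZero M] [NeZero ℓ] (hℓ : ℓ.Prime) (hℓM : ¬ ℓ ∣ M) :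
    ∀ f : modularFunctionFieldBar M,
      (((letI := algebraAlong (heckeAlphaBar (AlgebraicClosure ℚ) M ℓ)
         Algebra.norm (modularFunctionFieldBar M) (heckeBetaBar (AlgebraicClosure ℚ) M ℓ f)) :
          modularFunctionFieldBar M) : LaurentSeries (AlgebraicClosure ℚ)) =
        Fermat.Agent.S37.H400.kronNorm ℓ (f : LaurentSeries (AlgebraicClosure ℚ)) := by
  intro f
  have : NeZero ((ℓ : ℕ) : AlgebraicClosure ℚ) := ⟨by exact_mod_cast NeZero.ne ℓ⟩
  obtain ⟨ζ₀, hζ₀⟩ := HasEnoughRootsOfUnity.exists_primitiveRoot (AlgebraicClosure ℚ) ℓ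
  obtain ⟨ζ, rfl⟩ := hζ₀.isUnit (NeZero.ne ℓ)
  apply qExpand_injective (R := AlgebraicClosure ℚ) (N := ℓ)
  have h := norm_heckeBeta M ℓ hℓ hℓM ζ hζ₀ f
  rw [Fermat.Agent.S37.H400.kronNorm, _root_.map_mul, qExpand_qExpand, qExpand_det_secMat ℓ ζ hζ₀]
  exact h

end Fermat.Agent.S37.H819

end
end
-- ===== PACK-END S37/H819/NormId.lean

-- ===== PACK-BEGIN S29/M4b/H395/Hecke.lean
section
/-
S29 row, LAYER M, SUB-LAYER M4b — PIECE `K4-HECKE` (helper395): DONE, unconditional.

`pieceHecke N p hp : M4b.PieceHecke N p` for every level `N` and every prime `p`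
(the exact `Prop` of `Fermat/Agent/S29/M4b/Top.lean`), and `isKum_hecke` (the exact statement
of helper822's sub-skeleton, with its hypotheses `hfac`, `hc`, which are not needed).

Proof: `Fermat.Agent.S29.H395.isKum_hecke_of_normId` (the Hecke product
`V(τ) = ∏ᵢ U(αᵢ τ)` over the `ℓ + 1` Hecke representatives is twisted of character the
transfer of `c`; its `p`-th power realises `heckeNorm (f · t ^ p)`; `T_ℓ` of a Kummer class is
the Kummer class of the norm), fed with the landed NORM-ID `Fermat.Agent.S37.H819.normId`.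
-/




set_option autoImplicit false

noncomputable section

open ModularCurve AlgebraicCurve CongruenceSubgroup UpperHalfPlane
open scoped MatrixGroups Manifold

namespace Fermat.Agent.S29.M4b.H395

open Fermat.Agent.S24 Fermat.Agent.S29 Fermat.Agent.S29.M4b

/-- The landed NORM-ID (`S37.H819.normId`) in the packaging of `H222.NormId`. -/
theorem normId_H222 (N ℓ : ℕ) [NeZero N] [NeZero ℓ] (hℓ : ℓ.Prime) (hℓN : ¬ ℓ ∣ N) :
    Fermat.Agent.S29.H222.NormId N ℓ :=
  fun y => Fermat.Agent.S37.H819.normId N ℓ hℓ hℓN y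

/-- **PIECE `K4-HECKE`**, exact statement of the sub-skeleton
(`origin/helper822:Fermat/Agent/S29/M4b/Skeleton.lean`, `isKum_hecke`). -/
theorem isKum_hecke (N : ℕ) [NeZero N] (p : ℕ) [NeZero p]
    (ℓ : Nat.Primes) (hℓ : ¬ (ℓ : ℕ) ∣ N * p)
    (_hfac : ∀ γ : G0 N, ∃ (π : Equiv.Perm (Option (Fin (ℓ : ℕ))))
      (δ : Option (Fin (ℓ : ℕ)) → G0 N), ∀ i, IsHeckeFactor (ℓ : ℕ) γ i (π i, δ i))
    {c c' : G0 N → ZMod p} (_hc : IsParHom c) (hcc' : IsTransfer N (ℓ : ℕ) c c')
    {x : JZero N} (h : IsKum N p c x) : IsKum N p c' (heckeOperatorBar N ℓ x) := by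
  have : NeZero (ℓ : ℕ) := ⟨ℓ.2.ne_zero⟩
  have hℓN : ¬ (ℓ : ℕ) ∣ N := fun hd => hℓ (Dvd.dvd.mul_right hd p)
  exact Fermat.Agent.S29.H395.isKum_hecke_of_normId N p ℓ hℓ
    (normId_H222 N (ℓ : ℕ) ℓ.2 hℓN) hcc' h

/-- **PIECE `K4-HECKE`** in the form of `M4b/Top.lean`. -/
theorem pieceHecke (N : ℕ) [NeZero N] (p : ℕ) (hp : p.Prime) : PieceHecke N p := by
  have : NeZero p := ⟨hp.ne_zero⟩
  intro ℓ hℓ hfac c c' hc hcc' x h
  exact isKum_hecke N p ℓ hℓ hfac hc hcc' h

end Fermat.Agent.S29.M4b.H395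

end
end
-- ===== PACK-END S29/M4b/H395/Hecke.lean

-- ===== PACK-BEGIN S29/H282/K2Ana.lean
section




/-!
# S29 / M4b-K2 (helper282) — analytic adapter: twisted functions lie in `holN N`

* `expGrowth_of_pow` : `f ^ p` of exponential growth (`p ≥ 1`) ⟹ `f` of exponential growth;
* `mem_holN_of_isTwisted` : a twisted function (M4b `IsTwisted`) of a parabolic character lies in
  the S24 ring `holN N`;
* `infExp_level_of_hasQExp` : a `q`-expansion (`H708.HasQExp 1`) gives the `q^{1/N}`-expansion.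
-/

set_option autoImplicit false

noncomputable section

open ModularCurve AlgebraicCurve CongruenceSubgroup UpperHalfPlane
open scoped MatrixGroups Manifold Real

namespace Fermat.Agent.S29.H282

open Fermat.Agent.S24 Fermat.Agent.S24.H997 Fermat.Agent.S24.H648 Fermat.Agent.S24.H708
open Fermat.Agent.S24.H624
open Fermat.Agent.S29 Fermat.Agent.S29.M4b Fermat.Agent.S29.H332

/-- root extraction for growth bounds -/
theorem expGrowth_of_pow {f : ℍ → ℂ} {p : ℕ} (hp : p ≠ 0)
    (h : ExpGrowth (fun τ => f τ ^ p)) : ExpGrowth f := by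
  obtain ⟨C, m, hb⟩ := h
  refine ⟨1 + |C|, m, fun τ hτ => ?_⟩
  have h1 := hb τ hτ
  rw [norm_pow] at h1
  have hexp : (1 : ℝ) ≤ Real.exp (2 * π * m * τ.im) := by
    apply Real.one_le_exp
    have := Real.pi_pos
    have := τ.im_pos
    positivity
  have hC : C * Real.exp (2 * π * m * τ.im) ≤ |C| * Real.exp (2 * π * m * τ.im) :=
    mul_le_mul_of_nonneg_right (le_abs_self C) (Real.exp_pos _).le
  rcases le_or_gt ‖f τ‖ 1 with h0 | h0
  · calc ‖f τ‖ ≤ 1 := h0
      _ ≤ Real.exp (2 * π * m * τ.im) := hexp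
      _ ≤ (1 + |C|) * Real.exp (2 * π * m * τ.im) := by
        have : 0 ≤ |C| * Real.exp (2 * π * m * τ.im) :=
          mul_nonneg (abs_nonneg C) (Real.exp_pos _).le
        linarith
  · have h2 : ‖f τ‖ ≤ ‖f τ‖ ^ p := le_self_pow₀ h0.le hp
    calc ‖f τ‖ ≤ ‖f τ‖ ^ p := h2
      _ ≤ C * Real.exp (2 * π * m * τ.im) := h1
      _ ≤ |C| * Real.exp (2 * π * m * τ.im) := hC
      _ ≤ (1 + |C|) * Real.exp (2 * π * m * τ.im) := by
        have : 0 ≤ Real.exp (2 * π * m * τ.im) := (Real.exp_pos _).le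
        linarith

theorem qh_one_eq_qh_pow (N : ℕ) [NeZero N] (τ : ℍ) : qh 1 τ = qh N τ ^ N := by
  have hN : (N : ℂ) ≠ 0 := by exact_mod_cast NeZero.ne N
  rw [qh_apply, qh_apply, Function.Periodic.qParam, Function.Periodic.qParam,
    ← Complex.exp_nat_mul]
  congr 1
  push_cast
  field_simp

/-- exponential growth gives a pole of finite order in the variable `q^{1/N}` -/
theorem isBounded_mul_qh_pow_level (N : ℕ) [NeZero N] {f : ℍ → ℂ} (hf : ExpGrowth f) :
    ∃ M : ℕ, IsBoundedAtImInfty (f * qh N ^ M) := by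
  obtain ⟨M, hM⟩ := Fermat.Agent.S29.H882.isBounded_mul_qh_pow_of_expGrowth hf
  refine ⟨N * M, ?_⟩
  have : f * qh N ^ (N * M) = f * qh 1 ^ M := by
    funext τ
    simp only [Pi.mul_apply, Pi.pow_apply]
    rw [qh_one_eq_qh_pow N τ, ← pow_mul]
  rw [this]
  exact hM

variable {N : ℕ} [NeZero N] {p : ℕ} [NeZero p]

/-- the multiplicative character of a twisted function -/
theorem hasCharacter_of_hasChar {c : G0 N → ZMod p} (hc : IsParHom c) {U : ℍ → ℂ}
    (hU : HasChar N p c U) : HasCharacter (isParAdd_of_isParHom hc).char U := by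
  intro γ τ
  rw [hU γ τ, IsParAdd.char_apply, zetaP_pow_val]

/-- **A twisted function of a parabolic character lies in `holN N`.** -/
theorem mem_holN_of_isTwisted {c : G0 N → ZMod p} (hc : IsParHom c) {U : ℍ → ℂ}
    (hU : IsTwisted N p c U) : U ∈ holN N := by
  have hc' : IsParAdd c := isParAdd_of_isParHom hc
  have hh : HasCharacter hc'.char U := hasCharacter_of_hasChar hc hU.hasChar
  have hχ : ParTrivial hc'.char := hc'.parTrivial
  refine ⟨hU.mdiff, fun g => ?_⟩
  have hhol : MDiff (compSL g U) := (precompSL g ⟨U, hU.mdiff⟩).2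
  have hper : Function.Periodic (compSL g U ∘ ofComplex) (N : ℝ) :=
    hh.periodic hχ g N (by simpa using conj_T_zpow_mem_Gamma0 N g 1)
  have hgr : ExpGrowth (compSL g U) :=
    expGrowth_of_pow (NeZero.ne p) (hU.pow_mem.2.2 g)
  have hmer : IsMerInf N (compSL g U) := ⟨hhol, hper, isBounded_mul_qh_pow_level N hgr⟩
  have hq := HasQExp.of_isMerInf hmer
  have hinf : InfExp N (compSL g U) (qexpFun N (compSL g U)) := fun τ => hq.hasSum τ
  exact hinf.mem_expRing

/-- from the `q`-expansion to the `q^{1/N}`-expansion -/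
theorem infExp_level_of_hasQExp {G : ℍ → ℂ} {φ : LaurentSeries ℂ} (h : HasQExp 1 G φ) :
    InfExp N G (qExpand ℂ N φ) := by
  have hN : (N : ℂ) ≠ 0 := by exact_mod_cast NeZero.ne N
  have h1 : InfExp 1 G φ := fun τ => h.hasSum τ
  have h2 := h1.subst (N := N) (fun τ => τ) 1 N (fun τ => by
    rw [infZ_def, infZ_def, Units.val_one, one_mul, ← Complex.exp_nat_mul]
    congr 1
    push_cast
    field_simp)
  rwa [infTwist_one] at h2

end Fermat.Agent.S29.H282

end
end
-- ===== PACK-END S29/H282/K2Ana.lean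

-- ===== PACK-BEGIN S29/H282/DegK.lean
section


/-!
# S29 / M4b-K2 (helper282) — the degree of the function field over `K`

For every field `K` with an embedding `ι : K →+* ℂ`:
`[FFK K N : K(j)] = [SL₂(ℤ) : Γ₀(N)]`.
Port of `Fermat/Agent/S24/Deg/H457_Main.lean` (upper bound) and `H997Core` (lower bound).
-/

set_option autoImplicit false

noncomputable section

open Polynomial ModularCurve IntermediateField

namespace Fermat.Agent.S29.H282

open Fermat.Agent.S24 Fermat.Agent.S24.H997 Fermat.Agent.S24.Deg457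

variable {K : Type*} [Field K] [Algebra ℚ K] (ι : K →+* ℂ)
variable (N : ℕ) [NeZero N]

theorem coe_jFK : ((jFK K N : FFK K N) : LaurentSeries K) = JK K := rfl

include ι in
/-- **Degree bound**: `[FFK K N : K(j)] ≤ [SL₂(ℤ) : Γ₀(N)]`. -/
theorem finiteDimensional_and_finrank_leK :
    FiniteDimensional ↥(IntermediateField.adjoin K {jFK K N}) (FFK K N) ∧
      Module.finrank ↥(IntermediateField.adjoin K {jFK K N}) (FFK K N) ≤ Nat.card (XX N) := by
  haveI : CharZero K := algebraRat.charZero K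
  refine finiteDimensional_and_finrank_le_of_forall_natDegree_minpoly_le _ fun x => ?_
  obtain ⟨Q, hQ0, hQn, hQ⟩ := algDeg_of_mem_field ι (hyp_complex_card N) x.2
  have hinc : Function.Injective (algebraMap (FFK K N) (LaurentSeries K)) :=
    (algebraMap (FFK K N) (LaurentSeries K)).injective
  refine isIntegral_and_natDegree_le_of_relation (K := K)
    (AdjoinSimple.gen K (jFK K N)) ?_ x Q hQ0 _ hQn ?_
  · intro t ht h0
    apply aeval_JK_ne_zero K ht
    have h1 := congrArg (algebraMap ↥(IntermediateField.adjoin K {jFK K N}) (FFK K N)) h0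
    rw [← aeval_algebraMap_apply, _root_.map_zero, AdjoinSimple.algebraMap_gen] at h1
    have h2 := congrArg (algebraMap (FFK K N) (LaurentSeries K)) h1
    rw [← aeval_algebraMap_apply, _root_.map_zero] at h2
    exact h2
  · apply hinc
    rw [_root_.map_zero, Polynomial.hom_eval₂, AdjoinSimple.algebraMap_gen]
    have hcomp : (algebraMap (FFK K N) (LaurentSeries K)).comp
        ((aeval (jFK K N) : K[X] →ₐ[K] FFK K N).toRingHom) = evJ (JK K) := by
      refine Polynomial.ringHom_ext ?_ ?_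
      · intro c
        simp [evJ, ← IsScalarTower.algebraMap_apply]
      · simp [evJ]
        rfl
    rw [hcomp]
    exact hQ

include ι in
theorem finiteDimensional_adjoin_jFK :
    FiniteDimensional ↥(IntermediateField.adjoin K {jFK K N}) (FFK K N) :=
  (finiteDimensional_and_finrank_leK ι N).1

include ι in
/-- **The degree**: `[FFK K N : K(j)] = [SL₂(ℤ) : Γ₀(N)]`. -/
theorem finrank_adjoin_jFK :
    Module.finrank ↥(IntermediateField.adjoin K {jFK K N}) (FFK K N) = Nat.card (XX N) := by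
  haveI := finiteDimensional_adjoin_jFK ι N
  exact le_antisymm (finiteDimensional_and_finrank_leK ι N).2
    (card_le_finrankK ι (analyticCore N))

end Fermat.Agent.S29.H282

end
end
-- ===== PACK-END S29/H282/DegK.lean

-- ===== PACK-BEGIN S29/H282/Rot.lean
section


/-!
# S29 / M4b-K2 (helper282) — iterating the rotation relation

For an expansion `X` with rotation data `R` for `ε` (a primitive `m`-th root of unity `ζ`):
if `H ∘ ε ^ e = H` then `m ∣ e * ord (E H)`.
-/

set_option autoImplicit false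

noncomputable section

open ModularCurve HahnSeries UpperHalfPlane
open scoped MatrixGroups

namespace Fermat.Agent.S29.H282

open Fermat.Agent.S24 Fermat.Agent.S24.H997

variable {N : ℕ} [NeZero N] (B : HolBase N) (X : Expansion B)

theorem compH_pow_succ (ε : SL(2, ℤ)) (i : ℕ) (H : B.Hol) :
    B.compH (ε ^ (i + 1)) H = B.compH ε (B.compH (ε ^ i) H) := by
  rw [pow_succ, HolBase.compH_mul]

/-- iterating the rotation relation -/
theorem rot_iterate (ε : SL(2, ℤ)) (R : RotData B X ε) (H : B.Hol) (i : ℕ) :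
    (X.E (B.compH (ε ^ i) H)).order = (X.E H).order ∧
      (X.E (B.compH (ε ^ i) H)).leadingCoeff
        = (R.ζ ^ (X.E H).order) ^ i * (X.E H).leadingCoeff := by
  induction i with
  | zero => simp [HolBase.compH_one]
  | succ n ih =>
    have h := R.rot (B.compH (ε ^ n) H)
    rw [compH_pow_succ]
    refine ⟨by rw [h.1, ih.1], ?_⟩
    rw [h.2, ih.1, ih.2, pow_succ]
    ring

/-- **Key divisibility.**  If `H` is invariant under `ε ^ e`, then the order `m` of the rotation
divides `e * ord (E H)`. -/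
theorem rot_dvd_of_compH_pow_eq (ε : SL(2, ℤ)) (R : RotData B X ε) (H : B.Hol) (e : ℕ)
    (hH : B.compH (ε ^ e) H = H) : (R.m : ℤ) ∣ (e : ℤ) * (X.E H).order := by
  by_cases h0 : X.E H = 0
  · rw [h0, order_zero, mul_zero]
    exact dvd_zero _
  · have hlc : (X.E H).leadingCoeff ≠ 0 := leadingCoeff_ne_zero.mpr h0
    have h := (rot_iterate B X ε R H e).2
    rw [hH] at h
    have h1 : (R.ζ ^ (X.E H).order) ^ e = 1 := by
      have : (R.ζ ^ (X.E H).order) ^ e * (X.E H).leadingCoeff = 1 * (X.E H).leadingCoeff := by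
        rw [one_mul]; exact h.symm
      exact mul_right_cancel₀ hlc this
    have h2 : R.ζ ^ ((X.E H).order * (e : ℤ)) = 1 := by
      rw [zpow_mul, zpow_natCast]
      exact h1
    have h3 := (R.hζ.zpow_eq_one_iff_dvd _).mp h2
    rwa [mul_comm] at h3

end Fermat.Agent.S29.H282

end
end
-- ===== PACK-END S29/H282/Rot.lean

-- ===== PACK-BEGIN S29/H282/Dict.lean
section





/-!
# S29 / M4b-K2 (helper282) — the places dictionary (DICT-hard)

`K` algebraically closed with an embedding `ι : K →+* ℂ` (main cases: `K = ℂ`, `K = ℚ̄`).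

* `exists_placeOf_eqK` : every place of `FFK K N / K` is induced by one of the embeddings
  `σ_x` of the local data `dataInfK` (cusps) or `dataFinK a` (points over `j = a`);
* `IsAvatar`           : `h : Hol` is an analytic avatar of `f : FFK K N`
  (`qexp h = ΦK ι N f`, i.e. the expansion of `h` at `i∞` is the Laurent series `f`);
* `IsAvatar.sigmaGK_eq`: then `σ_g f = E (h ∘ g⁻¹)` for every expansion;
* `dvd_ord_of_isAvatar_pow` (**DICT-hard**): if `f` has the avatar `h ^ M` and `h` is invariant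
  under the special elements (finite order or trace `2`) of `Γ₀(N)`, then `M ∣ w.ord f` for every
  place `w` of `FFK K N / K`.
-/

set_option autoImplicit false

noncomputable section

open ModularCurve HahnSeries UpperHalfPlane AlgebraicCurve IntermediateField
open scoped MatrixGroups

namespace Fermat.Agent.S29.H282

open Fermat.Agent.S24 Fermat.Agent.S24.H997 Fermat.Agent.S24.Deg457

/-! ### Generic: the orbit of `x` under `perm` has `ord_v t` elements -/

section Generic

variable {K F : Type*} [Field K] [Field F] [Algebra K F] [IsAlgClosed K] [CharZero K]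
variable {C : Type*} [Field C] [CharZero C] {X : Type*} [Finite X]
variable {t : F} (L : LocalData K F C X t)
variable (E : IntermediateField K F) (hE : E ≤ K⟮t⟯) [FiniteDimensional E F]
  (hrank : Module.finrank E F = Nat.card X)

include hE hrank in
/-- the cardinality of the `perm`-orbit of `x` is the ramification index `ord_v t` -/
theorem card_orbit_eq_ord_t (x : X) :
    (Nat.card (MulAction.orbit (Subgroup.zpowers L.perm) x) : ℤ) = (H117.placeOf L x).ord t := by
  classical
  haveI := H504.isAlgebraic_adjoin_of_le (t := t) E hE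
  have hfin : {v : Place K F | 0 < v.ord t}.Finite := H117.finite_places_over L E hE hrank
  have hs : ∀ v : Place K F, v ∈ hfin.toFinset ↔ 0 < v.ord t := fun v => by simp
  exact (H117.localThm L E hE hrank hfin.toFinset hs
    (H504.LocalData.card_le_sum_ord L hfin.toFinset hs)).2.1 x

include hE hrank in
/-- `perm ^ e` fixes `x`, where `e = ord_v t` is the ramification index of the place of `x` -/
theorem perm_pow_ord_t_apply (x : X) :
    (L.perm ^ ((H117.placeOf L x).ord t).toNat) x = x := by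
  classical
  have h := card_orbit_eq_ord_t L E hE hrank x
  haveI : Fintype (MulAction.orbit (Subgroup.zpowers L.perm) x) := Fintype.ofFinite _
  have h1 : Function.minimalPeriod (L.perm • ·) x
      = Nat.card (MulAction.orbit (Subgroup.zpowers L.perm) x) := by
    rw [MulAction.minimalPeriod_eq_card, Nat.card_eq_fintype_card]
  have h2 : ((H117.placeOf L x).ord t).toNat
      = Nat.card (MulAction.orbit (Subgroup.zpowers L.perm) x) := by
    rw [← h]; simp
  have h3 : (L.perm ^ ((H117.placeOf L x).ord t).toNat) • x = x := by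
    rw [MulAction.pow_smul_eq_iff_minimalPeriod_dvd, h1, h2]
  exact h3

end Generic

/-! ### Avatars -/

section Avatar

variable {K : Type*} [Field K] [Algebra ℚ K] (ι : K →+* ℂ)
variable {N : ℕ} [NeZero N] (B : HolBase N)

/-- `h : Hol` is an analytic avatar of `f : FFK K N`: the expansion of `h` at `i∞` (in the
variable `q^{1/N}`) is the Laurent series `f` (coefficients mapped by `ι`). -/
def IsAvatar (f : FFK K N) (h : B.Hol) : Prop := B.qexp h = ΦK ι N (f : LaurentSeries K)

variable {ι B}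

theorem isAvatar_inclRNK (r : RNK K N) : IsAvatar ι B (inclRNK K N r) (bridgeK ι B r) :=
  qexp_bridgeK ι B r

theorem IsAvatar.unique {f : FFK K N} {h h' : B.Hol} (hav : IsAvatar ι B f h)
    (hav' : IsAvatar ι B f h') : h = h' :=
  B.qexp_injective (hav.trans hav'.symm)

theorem IsAvatar.injective {f f' : FFK K N} {h : B.Hol} (hav : IsAvatar ι B f h)
    (hav' : IsAvatar ι B f' h) : f = f' :=
  Subtype.ext (ΦK_injective ι (hav.symm.trans hav'))

theorem isAvatar_zero : IsAvatar ι B (0 : FFK K N) 0 := by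
  show B.qexp 0 = ΦK ι N ((0 : FFK K N) : LaurentSeries K)
  simp

theorem isAvatar_one : IsAvatar ι B (1 : FFK K N) 1 := by
  show B.qexp 1 = ΦK ι N ((1 : FFK K N) : LaurentSeries K)
  simp

theorem IsAvatar.mul {f f' : FFK K N} {h h' : B.Hol} (hav : IsAvatar ι B f h)
    (hav' : IsAvatar ι B f' h') : IsAvatar ι B (f * f') (h * h') := by
  show B.qexp (h * h') = ΦK ι N ((f * f' : FFK K N) : LaurentSeries K)
  rw [_root_.map_mul, hav, hav', ← _root_.map_mul]
  rfl

theorem IsAvatar.add {f f' : FFK K N} {h h' : B.Hol} (hav : IsAvatar ι B f h)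
    (hav' : IsAvatar ι B f' h') : IsAvatar ι B (f + f') (h + h') := by
  show B.qexp (h + h') = ΦK ι N ((f + f' : FFK K N) : LaurentSeries K)
  rw [_root_.map_add, hav, hav', ← _root_.map_add]
  rfl

theorem IsAvatar.pow {f : FFK K N} {h : B.Hol} (hav : IsAvatar ι B f h) (n : ℕ) :
    IsAvatar ι B (f ^ n) (h ^ n) := by
  induction n with
  | zero => simpa using isAvatar_one
  | succ n ih => rw [pow_succ, pow_succ]; exact ih.mul hav

theorem IsAvatar.eq_zero_iff {f : FFK K N} {h : B.Hol} (hav : IsAvatar ι B f h) :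
    h = 0 ↔ f = 0 :=
  ⟨fun h0 => hav.injective (h0 ▸ isAvatar_zero), fun f0 => hav.unique (f0 ▸ isAvatar_zero)⟩

/-- clearing denominators: `h * e(t) = e(r)` when `f = r / t` -/
theorem IsAvatar.mul_bridgeK {f : FFK K N} {h : B.Hol} (hav : IsAvatar ι B f h)
    {r t : RNK K N} (ht : t ≠ 0) (hf : f = inclRNK K N r / inclRNK K N t) :
    h * bridgeK ι B t = bridgeK ι B r := by
  have ht' : inclRNK K N t ≠ 0 := fun h0 =>
    ht (inclRNK_injective K N (h0.trans (_root_.map_zero _).symm))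
  have h1 : f * inclRNK K N t = inclRNK K N r := by
    rw [hf, div_mul_cancel₀ _ ht']
  exact (hav.mul (isAvatar_inclRNK t)).unique (h1 ▸ isAvatar_inclRNK r)

/-- **The embeddings in terms of the avatar**: `σ_g f = E (h ∘ g⁻¹)`. -/
theorem IsAvatar.sigmaGK_eq {f : FFK K N} {h : B.Hol} (hav : IsAvatar ι B f h)
    (X : Expansion B) (g : SL(2, ℤ)) : sigmaGK ι B X g f = X.E (B.compH g⁻¹ h) := by
  obtain ⟨r, t, ht, hf⟩ := exists_div_inclRNK K N f
  have hmul := hav.mul_bridgeK ht hf
  have ht' : X.E (B.compH g⁻¹ (bridgeK ι B t)) ≠ 0 := by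
    intro h0
    apply ht
    apply sGK_injective ι B X g
    rw [sGK_apply, h0, _root_.map_zero]
  rw [hf, map_div₀, sigmaGK_inclRNK, sigmaGK_inclRNK, ← hmul, _root_.map_mul, _root_.map_mul,
    mul_div_assoc, div_self ht', mul_one]

theorem IsAvatar.sigmaXK_mk_eq {f : FFK K N} {h : B.Hol} (hav : IsAvatar ι B f h)
    (X : Expansion B) (g : SL(2, ℤ)) :
    sigmaXK ι B X (g : XX N) f = X.E (B.compH g⁻¹ h) := by
  rw [sigmaXK_mk]
  exact hav.sigmaGK_eq X g

end Avatar

/-! ### The dictionary -/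

section Dict

variable {K : Type*} [Field K] [Algebra ℚ K] (ι : K →+* ℂ)
variable {N : ℕ} [NeZero N]

omit [NeZero N] in
theorem permOf_pow_apply (γ : SL(2, ℤ)) (e : ℕ) (g : SL(2, ℤ)) :
    (permOf N γ ^ e) (g : XX N) = ((γ ^ e * g : SL(2, ℤ)) : XX N) := by
  induction e with
  | zero => simp
  | succ n ih =>
    rw [pow_succ', Equiv.Perm.mul_apply, ih, pow_succ', mul_assoc]
    rfl

omit [NeZero N] in
/-- if `perm_{ε⁻¹} ^ e` fixes the coset of `g` then `g⁻¹ ε ^ e g ∈ Γ₀(N)` -/
theorem conj_mem_of_permOf_pow_apply_eq {ε g : SL(2, ℤ)} {e : ℕ}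
    (h : (permOf N ε⁻¹ ^ e) (g : XX N) = (g : XX N)) :
    g⁻¹ * ε ^ e * g ∈ CongruenceSubgroup.Gamma0 N := by
  rw [permOf_pow_apply] at h
  have h1 := QuotientGroup.eq.mp h
  have h2 : ((ε⁻¹) ^ e * g)⁻¹ * g = g⁻¹ * ε ^ e * g := by
    rw [mul_inv_rev, inv_pow, inv_inv]
  rwa [h2] at h1

variable (B : HolBase N)

/-- `h` is invariant under the special elements of `Γ₀(N)` -/
def IsUnramified (h : B.Hol) : Prop :=
  ∀ γ : SL(2, ℤ), γ ∈ CongruenceSubgroup.Gamma0 N → IsSpecialElt γ → B.compH γ h = h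

variable {B}

theorem IsUnramified.compH_pow_eq {h : B.Hol} (hinv : IsUnramified B h) {ε g : SL(2, ℤ)} {e : ℕ}
    (hε : IsSpecialElt (ε ^ e)) (hmem : g⁻¹ * ε ^ e * g ∈ CongruenceSubgroup.Gamma0 N) :
    B.compH (ε ^ e) (B.compH g⁻¹ h) = B.compH g⁻¹ h := by
  have h1 := hinv _ hmem (hε.conj g)
  rw [← HolBase.compH_mul]
  have h2 : g⁻¹ * ε ^ e = (g⁻¹ * ε ^ e * g) * g⁻¹ := by group
  rw [h2, HolBase.compH_mul, h1]

variable [IsAlgClosed K]

/-- **DICT-hard, local form**: for local data constructed from an expansion with rotation data for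
`ε` (all of whose powers are special), the order at every place `placeOf x` of a function with
avatar `h ^ M`, `h` unramified, is divisible by `M`. -/
theorem dvd_ord_placeOf_mkLocalDataK (X : Expansion B) (ε : SL(2, ℤ)) (R : RotData B X ε)
    (t : FFK K N) (u : LaurentSeries ℂ) (ht : ∀ g : SL(2, ℤ), sigmaGK ι B X g t = u)
    (hu : u.order = (R.m : ℤ))
    (E : IntermediateField K (FFK K N)) (hE : E ≤ K⟮t⟯) [FiniteDimensional E (FFK K N)]
    (hrank : Module.finrank E (FFK K N) = Nat.card (XX N))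
    (hε : ∀ e : ℕ, IsSpecialElt (ε ^ e))
    {h : B.Hol} (hinv : IsUnramified B h) {f : FFK K N} {M : ℕ}
    (hav : IsAvatar ι B f (h ^ M)) (x : XX N) :
    (M : ℤ) ∣ (H117.placeOf (mkLocalDataK ι B X ε R t u ht hu) x).ord f := by
  haveI : CharZero K := algebraRat.charZero K
  set L := mkLocalDataK ι B X ε R t u ht hu with hL
  obtain ⟨g, rfl⟩ := QuotientGroup.mk_surjective x
  set w := H117.placeOf L (g : XX N) with hw
  set e : ℕ := (w.ord t).toNat with he
  have hpos : 0 < w.ord t := H117.ord_t_pos L _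
  have hecast : (e : ℤ) = w.ord t := Int.toNat_of_nonneg hpos.le
  have he0 : (e : ℤ) ≠ 0 := by rw [hecast]; exact hpos.ne'
  -- the orbit
  have hfix : (permOf N ε⁻¹ ^ e) (g : XX N) = (g : XX N) :=
    perm_pow_ord_t_apply L E hE hrank (g : XX N)
  have hmem := conj_mem_of_permOf_pow_apply_eq hfix
  -- the rotation
  set H : B.Hol := B.compH g⁻¹ h with hH
  have hHinv : B.compH (ε ^ e) H = H := hinv.compH_pow_eq (hε e) hmem
  have hdvd : (R.m : ℤ) ∣ (e : ℤ) * (X.E H).order := rot_dvd_of_compH_pow_eq B X ε R H e hHinv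
  -- the multiplicity
  have hmult : (H117.mult L (g : XX N) : ℤ) * w.ord t = (R.m : ℤ) := H117.mult_mul_ord_t L _
  have hk0 : (H117.mult L (g : XX N) : ℤ) ≠ 0 := by
    exact_mod_cast (H117.mult_pos L (g : XX N)).ne'
  have hdvd2 : (H117.mult L (g : XX N) : ℤ) ∣ (X.E H).order := by
    rw [← hmult, ← hecast, mul_comm] at hdvd
    exact (mul_dvd_mul_iff_left he0).mp hdvd
  obtain ⟨k, hk⟩ := hdvd2
  -- the order of `f`
  have hσ : L.σ (g : XX N) f = X.E H ^ M := by
    show sigmaXK ι B X (g : XX N) f = _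
    rw [hav.sigmaXK_mk_eq X g, map_pow, map_pow]
  have hord : (L.σ (g : XX N) f).order = (M : ℤ) * (X.E H).order := by
    rw [hσ, HahnSeries.order_pow, nsmul_eq_mul]
  have h1 := H117.order_eq L (g : XX N) f
  rw [hord, hk] at h1
  refine ⟨k, ?_⟩
  have h2 : (H117.mult L (g : XX N) : ℤ) * w.ord f = (H117.mult L (g : XX N) : ℤ) * (M * k) := by
    rw [← h1]; ring
  exact mul_left_cancel₀ hk0 h2

omit [IsAlgClosed K] in
theorem adjoin_jFK_le_sub (a : K) :
    K⟮jFK K N⟯ ≤ K⟮jFK K N - algebraMap K (FFK K N) a⟯ := by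
  rw [IntermediateField.adjoin_le_iff, Set.singleton_subset_iff]
  have h := _root_.AddMemClass.add_mem
    (IntermediateField.mem_adjoin_simple_self K (jFK K N - algebraMap K (FFK K N) a))
    (IntermediateField.algebraMap_mem K⟮jFK K N - algebraMap K (FFK K N) a⟯ a)
  rwa [sub_add_cancel] at h

omit [IsAlgClosed K] in
theorem adjoin_jFK_le_inv : K⟮jFK K N⟯ ≤ K⟮(jFK K N)⁻¹⟯ := by
  rw [IntermediateField.adjoin_le_iff, Set.singleton_subset_iff]
  have h := _root_.InvMemClass.inv_mem (IntermediateField.mem_adjoin_simple_self K (jFK K N)⁻¹)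
  rwa [inv_inv] at h

variable (A : AnalyticCore N)

/-- **Every place of `FFK K N / K` is analytic**: it is induced by an embedding `σ_x` of the local
data at `∞` or over a finite point `a`. -/
theorem exists_placeOf_eqK (w : Place K (FFK K N)) :
    (∃ x : XX N, H117.placeOf (dataInfK ι A) x = w) ∨
      ∃ (a : K) (x : XX N), H117.placeOf (dataFinK ι A a) x = w := by
  haveI : CharZero K := algebraRat.charZero K
  haveI := finiteDimensional_adjoin_jFK ι N
  have hrank := finrank_adjoin_jFK ι N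
  rcases sub_exists_point (jFK K N) w with h | ⟨a, ha⟩
  · left
    have h' : 0 < w.ord (jFK K N)⁻¹ := by
      rw [Place.ord_inv]; omega
    exact H117.exists_placeOf_eq (dataInfK ι A) K⟮jFK K N⟯ adjoin_jFK_le_inv hrank w h'
  · right
    exact ⟨a, H117.exists_placeOf_eq (dataFinK ι A a) K⟮jFK K N⟯ (adjoin_jFK_le_sub a) hrank w ha⟩

omit [Algebra ℚ K] [IsAlgClosed K] in
theorem isSpecialElt_epsAt_pow (a : K) (e : ℕ) : IsSpecialElt (epsAt ι a ^ e) := by
  classical
  unfold epsAt
  split_ifs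
  · exact isSpecialElt_ST_pow e
  · exact isSpecialElt_S_pow e
  · exact isSpecialElt_one_pow e

variable {ι A}

/-- **DICT-hard.**  Let `f` be an element of the function field of `X₀(N)` over `K` whose analytic
avatar is `h ^ M`, where `h : Hol` is invariant under all special elements (finite order or
trace `2`) of `Γ₀(N)`.  Then `M ∣ ord_w f` for every place `w` of the function field. -/
theorem dvd_ord_of_isAvatar_pow {h : A.Hol} (hinv : IsUnramified A.toHolBase h)
    {f : FFK K N} {M : ℕ} (hav : IsAvatar ι A.toHolBase f (h ^ M))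
    (w : Place K (FFK K N)) : (M : ℤ) ∣ w.ord f := by
  haveI := finiteDimensional_adjoin_jFK ι N
  have hrank := finrank_adjoin_jFK ι N
  rcases exists_placeOf_eqK ι A w with ⟨x, rfl⟩ | ⟨a, x, rfl⟩
  · exact dvd_ord_placeOf_mkLocalDataK ι A.toHolBase.qexpExpansion ModularGroup.T A.infRot
      (jFK K N)⁻¹ (A.qexp (A.toHolBase.JH 1 (one_dvd N)))⁻¹
      (fun g => by rw [map_inv₀, sigmaGK_jFK]; rfl)
      (by
        rw [RotRel.order_inv' A.toHolBase.qexp_J_one_ne_zero, A.toHolBase.order_qexp_J_one,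
          neg_neg]
        rfl)
      K⟮jFK K N⟯ adjoin_jFK_le_inv hrank isSpecialElt_T_pow hinv hav x
  · exact dvd_ord_placeOf_mkLocalDataK ι (pointAt ι A a).X (epsAt ι a) (pointAt ι A a).R
      (jFK K N - algebraMap K (FFK K N) a) _
      (fun g => sigmaGK_sub ι A (pointAt ι A a) g) (pointAt ι A a).order_J
      K⟮jFK K N⟯ (adjoin_jFK_le_sub a) hrank (isSpecialElt_epsAt_pow ι a) hinv hav x

end Dict

end Fermat.Agent.S29.H282

end
end
-- ===== PACK-END S29/H282/Dict.lean

-- ===== PACK-BEGIN S29/H282/K2.lean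
section




/-!
# S29 / M4b — PIECE `K2` (DICT), exact skeleton type (helper282)

`exists_isKummerClass_of_realised` : if `u ∈ FF N` is realised by `U ^ p`, `U` twisted of a
character `c` killing parabolic and elliptic elements, then `u` has a `p`-Kummer class in
`J₀(N)(ℚ̄)`: `p ∣ ord_v u` at every place (`dvd_ord_of_isAvatar_pow`) and `(1/p) div u` has
degree `0`.

Also `dvd_ord_of_realised` (the divisibility alone) and the same over `ℂ`.
-/

set_option autoImplicit false

noncomputable section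

open ModularCurve AlgebraicCurve CongruenceSubgroup UpperHalfPlane
open scoped MatrixGroups Manifold Real

namespace Fermat.Agent.S29.H282

open Fermat.Agent.S24 Fermat.Agent.S24.H997 Fermat.Agent.S24.H648 Fermat.Agent.S24.H708
open Fermat.Agent.S24.H624
open Fermat.Agent.S29 Fermat.Agent.S29.M4b Fermat.Agent.S29.H332

variable {N : ℕ} [NeZero N] {p : ℕ} [NeZero p]

/-- a twisted function as an element of `Hol` of the concrete analytic core -/
def twistedHol {c : G0 N → ZMod p} (hc : IsParHom c) {U : ℍ → ℂ} (hU : IsTwisted N p c U) :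
    (analyticCore N).Hol := ⟨U, mem_holN_of_isTwisted hc hU⟩

theorem coe_twistedHol {c : G0 N → ZMod p} (hc : IsParHom c) {U : ℍ → ℂ}
    (hU : IsTwisted N p c U) : ((twistedHol hc hU : (analyticCore N).Hol) : ℍ → ℂ) = U := rfl

/-- a character killing parabolic and elliptic elements is trivial on special elements -/
theorem isParHom_apply_of_isSpecialElt {c : G0 N → ZMod p} (hc : IsParHom c) (γ : G0 N)
    (hγ : IsSpecialElt (γ : SL(2, ℤ))) : c γ = 0 := by
  rcases hγ with ⟨n, hn, h⟩ | h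
  · exact hc.elliptic γ n hn (Subtype.ext (by simpa using h))
  · exact hc.parabolic γ (Or.inl h)

theorem isUnramified_twistedHol {c : G0 N → ZMod p} (hc : IsParHom c) {U : ℍ → ℂ}
    (hU : IsTwisted N p c U) :
    IsUnramified (analyticCore N).toHolBase (twistedHol hc hU) := by
  intro γ hγ hsp
  apply Subtype.ext
  funext τ
  show U (γ • τ) = U τ
  have h := hU.hasChar ⟨γ, hγ⟩ τ
  rw [isParHom_apply_of_isSpecialElt hc ⟨γ, hγ⟩ hsp] at h
  simpa using h

/-- the avatar relation over `ℚ̄` -/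
theorem isAvatar_of_realises {c : G0 N → ZMod p} (hc : IsParHom c) {U : ℍ → ℂ}
    {u : FF N} (hU : IsTwisted N p c U) (hu : Realises N u (fun τ => U τ ^ p)) :
    IsAvatar (K := Kbar) Deg457.iotaC (analyticCore N).toHolBase u (twistedHol hc hU ^ p) := by
  have hq : HasQExp 1 (fun τ => U τ ^ p) (qexpFun 1 (fun τ => U τ ^ p)) :=
    Fermat.Agent.S29.H882.hasQExp_of_mem_goodRing hu.1
  have hinf : InfExp N (fun τ => U τ ^ p)
      (qExpand ℂ N (coeffMap Deg457.iotaC ((u : FF N) : LaurentSeries Kbar))) := by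
    rw [← hu.2]
    exact infExp_level_of_hasQExp hq
  exact (expInf_spec (holToExp N (twistedHol hc hU ^ p))).unique hinf

/-- **DICT-hard over `ℚ̄`, M4b language**: `p ∣ ord_v u` at every place of `FF N`. -/
theorem dvd_ord_of_realised {c : G0 N → ZMod p} (hc : IsParHom c) {U : ℍ → ℂ}
    {u : FF N} (hU : IsTwisted N p c U) (hu : Realises N u (fun τ => U τ ^ p))
    (v : Place Kbar (FF N)) : (p : ℤ) ∣ v.ord u :=
  dvd_ord_of_isAvatar_pow (K := Kbar) (ι := Deg457.iotaC) (A := analyticCore N)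
    (isUnramified_twistedHol hc hU) (isAvatar_of_realises hc hU hu) v

theorem ne_zero_of_realised {c : G0 N → ZMod p} (hc : IsParHom c) {U : ℍ → ℂ}
    {u : FF N} (hU : IsTwisted N p c U) (hu : Realises N u (fun τ => U τ ^ p)) : u ≠ 0 := by
  intro h0
  have hav := isAvatar_of_realises hc hU hu
  have h1 : twistedHol hc hU ^ p = 0 := hav.eq_zero_iff.mpr h0
  have h2 : twistedHol hc hU = 0 := by
    apply (analyticCore N).toHolBase.qexp_injective
    have h3 := congrArg (analyticCore N).toHolBase.qexp h1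
    rw [map_pow, map_zero] at h3
    rw [map_zero]
    exact pow_eq_zero_iff (NeZero.ne p) |>.mp h3
  obtain ⟨τ, hτ⟩ := hU.ne_zero
  apply hτ
  have := congrArg (fun f : (analyticCore N).Hol => (f : ℍ → ℂ) τ) h2
  simpa [coe_twistedHol] using this

variable (N p)

/-- **PIECE `K2`** of the M4b skeleton (exact type). -/
theorem exists_isKummerClass_of_realised {c : G0 N → ZMod p} (hc : IsParHom c) {U : ℍ → ℂ}
    {u : FF N} (hU : IsTwisted N p c U) (hu : Realises N u (fun τ => U τ ^ p)) :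
    ∃ x : JZero N, H455.IsKummerClass (p : ℤ) u x := by
  have hf : u ≠ 0 := ne_zero_of_realised hc hU hu
  haveI := Fermat.Agent.Lib.RR.H864.hasPrincipalDivisors_modularFunctionFieldBar N
  obtain ⟨D₀, hD₀, hdeg₀⟩ :=
    HasPrincipalDivisors.exists_divisor (K := AlgebraicClosure ℚ) u hf
  obtain ⟨D, hdeg, hD⟩ := Fermat.Agent.S29.H389.exists_divisor_div p (NeZero.ne p) D₀
    (fun v => by
      rw [hD₀ v]
      exact dvd_ord_of_realised hc hU hu v)
    hdeg₀
  refine ⟨Pic0.mk ⟨D, hdeg⟩, hf, ⟨D, hdeg⟩, rfl, fun v => ?_⟩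
  rw [hD v, hD₀ v]

end Fermat.Agent.S29.H282

end
end
-- ===== PACK-END S29/H282/K2.lean

-- ===== PACK-BEGIN S29/H282/DictEasy.lean
section


/-!
# S29 / M4b-K2 (helper282) — the places dictionary, easy direction (DICT-easy)

For every `τ ∈ ℍ` with `j(τ) ∈ ι(K)` the Taylor expansion at `τ` of the avatar defines a place
`placeAtTau` of `FFK K N / K`, and `ord_τ (avatar of f) = k · ord_w f` with `k > 0`.
Hence: if `m ∣ ord_w f` for every place `w`, then `m ∣ ord_τ h` for the avatar `h` of `f`, at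
every such `τ` (for `K = ℂ`: at every `τ ∈ ℍ`).
-/

set_option autoImplicit false

noncomputable section

open ModularCurve HahnSeries UpperHalfPlane AlgebraicCurve IntermediateField
open scoped MatrixGroups Manifold

namespace Fermat.Agent.S29.H282

open Fermat.Agent.S24 Fermat.Agent.S24.H997 Fermat.Agent.S24.Deg457 Fermat.Agent.S24.H624

variable {K : Type*} [Field K] [Algebra ℚ K] (ι : K →+* ℂ)
variable {N : ℕ} [NeZero N] (B : HolBase N) (hB : B.IsHolo)

/-- the embedding "Taylor expansion at `τ` of the avatar" -/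
def sigmaTau (τ : ℍ) : FFK K N →+* LaurentSeries ℂ :=
  sigmaGK ι B (B.taylorExpansion hB τ) 1

variable {ι B}

theorem IsAvatar.sigmaTau_eq {f : FFK K N} {h : B.Hol} (hav : IsAvatar ι B f h) (τ : ℍ) :
    sigmaTau ι B hB τ f = (B.taylorExpansion hB τ).E h := by
  rw [sigmaTau, hav.sigmaGK_eq, inv_one, B.compH_one]

theorem order_taylorExpansion {h : B.Hol} (hh : h ≠ 0) (τ : ℍ) :
    ((B.taylorExpansion hB τ).E h).order = ((ordAt τ (h : ℍ → ℂ)).toNat : ℤ) := by
  have h0 : B.toHolo hB h ≠ 0 := fun h1 =>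
    hh (B.toHolo_injective hB (h1.trans (_root_.map_zero _).symm))
  rw [HolBase.taylorExpansion_E, order_laurentAt_algebraMap τ h0]
  rfl

theorem IsAvatar.order_sigmaTau {f : FFK K N} {h : B.Hol} (hav : IsAvatar ι B f h)
    (hh : h ≠ 0) (τ : ℍ) :
    (sigmaTau ι B hB τ f).order = ((ordAt τ (h : ℍ → ℂ)).toNat : ℤ) := by
  rw [hav.sigmaTau_eq hB τ, order_taylorExpansion hB hh τ]

variable (ι B)

theorem eord_sigmaTau_const (τ : ℍ) (c : K) :
    0 ≤ H117.eord (sigmaTau ι B hB τ) (algebraMap K (FFK K N) c) := by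
  show 0 ≤ (sigmaGK ι B (B.taylorExpansion hB τ) 1 (algebraMap K (FFK K N) c)).order
  rw [sigmaGK_algebraMap, HahnSeries.order_C]

theorem JH_one_sub_constH_ne_zero (c : ℂ) : B.JH 1 (one_dvd N) - B.constH c ≠ 0 := by
  intro h0
  have h1 : B.JH 1 (one_dvd N) = B.constH c := sub_eq_zero.mp h0
  have h2 := B.order_qexp_J_one
  rw [h1] at h2
  have h3 : (B.qexp (B.constH c)).order = 0 := by
    show (B.qexp ⟨_, B.const_mem c⟩).order = 0
    rw [B.qexp_const, HahnSeries.order_C]
  rw [h3] at h2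
  have hN : (0 : ℤ) < N := by exact_mod_cast Nat.pos_of_ne_zero (NeZero.ne N)
  omega

theorem sigmaTau_jFK_sub (τ : ℍ) (a : K) :
    sigmaTau ι B hB τ (jFK K N - algebraMap K (FFK K N) a)
      = (B.taylorExpansion hB τ).E (B.JH 1 (one_dvd N) - B.constH (ι a)) := by
  rw [sigmaTau, _root_.map_sub, sigmaGK_jFK, sigmaGK_algebraMap, _root_.map_sub, (B.taylorExpansion hB τ).const]

theorem exists_eord_sigmaTau_ne_zero (τ : ℍ) (a : K) (ha : ι a = B.J 1 τ) :
    ∃ t : FFK K N, H117.eord (sigmaTau ι B hB τ) t ≠ 0 := by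
  refine ⟨jFK K N - algebraMap K (FFK K N) a, ?_⟩
  show (sigmaTau ι B hB τ (jFK K N - algebraMap K (FFK K N) a)).order ≠ 0
  rw [sigmaTau_jFK_sub, order_taylorExpansion hB (JH_one_sub_constH_ne_zero B (ι a)) τ]
  have hne := JH_one_sub_constH_ne_zero B (ι a)
  set g : B.Hol := B.JH 1 (one_dvd N) - B.constH (ι a) with hg
  have hmd : MDiff (g : ℍ → ℂ) := hB.mdiff _ g.2
  have hg0 : (g : ℍ → ℂ) ≠ 0 := fun h => hne (Subtype.ext h)
  have htop : ordAt τ (g : ℍ → ℂ) ≠ ⊤ := ordAt_ne_top hmd hg0 τ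
  have hval : (g : ℍ → ℂ) τ = 0 := by
    show B.J 1 τ - ι a = 0
    rw [ha, sub_self]
  have hz : ordAt τ (g : ℍ → ℂ) ≠ 0 := fun h => (ordAt_eq_zero_iff hmd τ).mp h hval
  intro h0
  have h1 : (ordAt τ (g : ℍ → ℂ)).toNat = 0 := by exact_mod_cast h0
  rcases (ENat.toNat_eq_zero).mp h1 with h | h
  · exact hz h
  · exact htop h

/-- **The place of `FFK K N / K` at a point `τ ∈ ℍ`** with `j(τ) = ι a`. -/
def placeAtTau (τ : ℍ) (a : K) (ha : ι a = B.J 1 τ) : Place K (FFK K N) :=
  H117.placeOfEmb (sigmaTau ι B hB τ) (eord_sigmaTau_const ι B hB τ)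
    (exists_eord_sigmaTau_ne_zero ι B hB τ a ha)

theorem exists_mult_placeAtTau (τ : ℍ) (a : K) (ha : ι a = B.J 1 τ) :
    ∃ k : ℕ, 0 < k ∧ ∀ f : FFK K N,
      (sigmaTau ι B hB τ f).order = k * (placeAtTau ι B hB τ a ha).ord f :=
  H117.exists_mult (sigmaTau ι B hB τ) _ _

variable {ι B}

/-- `ord_τ h = k · ord_w f` for the avatar `h` of `f`. -/
theorem IsAvatar.exists_ordAt_eq {f : FFK K N} {h : B.Hol} (hav : IsAvatar ι B f h)
    (hh : h ≠ 0) (τ : ℍ) (a : K) (ha : ι a = B.J 1 τ) :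
    ∃ k : ℕ, 0 < k ∧
      ((ordAt τ (h : ℍ → ℂ)).toNat : ℤ) = k * (placeAtTau ι B hB τ a ha).ord f := by
  obtain ⟨k, hk, hkf⟩ := exists_mult_placeAtTau ι B hB τ a ha
  exact ⟨k, hk, by rw [← hkf f, hav.order_sigmaTau hB hh τ]⟩

include hB in
/-- **DICT-easy.**  If `m ∣ ord_w f` at every place `w` of `FFK K N / K`, then `m` divides the
order of vanishing of the avatar `h` of `f` at every `τ ∈ ℍ` with `j(τ) ∈ ι(K)`. -/
theorem IsAvatar.exists_ordAt_eq_mul {f : FFK K N} {h : B.Hol} (hav : IsAvatar ι B f h)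
    (hh : h ≠ 0) {m : ℕ} (hdvd : ∀ w : Place K (FFK K N), (m : ℤ) ∣ w.ord f)
    (τ : ℍ) (a : K) (ha : ι a = B.J 1 τ) :
    ∃ k : ℕ, ordAt τ (h : ℍ → ℂ) = ((m * k : ℕ) : ℕ∞) := by
  obtain ⟨k, -, hk⟩ := hav.exists_ordAt_eq hB hh τ a ha
  have hmd : MDiff (h : ℍ → ℂ) := hB.mdiff _ h.2
  have hh0 : (h : ℍ → ℂ) ≠ 0 := fun h0 => hh (Subtype.ext h0)
  have htop : ordAt τ (h : ℍ → ℂ) ≠ ⊤ := ordAt_ne_top hmd hh0 τ
  have h1 : (m : ℤ) ∣ ((ordAt τ (h : ℍ → ℂ)).toNat : ℤ) := by
    rw [hk]
    exact Dvd.dvd.mul_left (hdvd _) _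
  obtain ⟨l, hl⟩ := Int.natCast_dvd_natCast.mp h1
  refine ⟨l, ?_⟩
  rw [← hl, ENat.natCast_toNat htop]

end Fermat.Agent.S29.H282

end
end
-- ===== PACK-END S29/H282/DictEasy.lean

-- ===== PACK-BEGIN S29/H222/ESKAdapterNormId.lean
section
/-
S29 / helper222 — piece ESK, adapter: `NormIdFamily` is discharged from the landed NORM-ID
(helper819, `Fermat.Agent.S37.H819.normId`; independent copies: helper157 `node_normid`,
helper748 `norm_heckeBetaBar_eq_kronNorm`).  Hence the Eichler–Shimura input of layer M,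
`Fermat.Agent.S29.M.ESStatement`, follows from the two remaining external inputs

* `CoreFamily` : `S18.CoreStatement N A m` for `ℓ ∤ N`, `ℓ ∤ m`, `A` over `ℓ`      (row S18)
* `PGIFamily`  : Prelude `PrincipalGeneratedByIntegral A (residue A) N`             (M1-Gauss)
-/



set_option autoImplicit false
set_option linter.style.haveILetI false

noncomputable section

namespace Fermat.Agent.S29.H222

/-- Piece NKI (helper819) in family form. -/
theorem normIdFamily : NormIdFamily :=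
  fun N _ ℓ _ hℓ hℓN y => Fermat.Agent.S37.H819.normId N ℓ hℓ hℓN y

/-- **ES for layer M** from the two remaining external inputs (S18 core + PGI). -/
theorem esStatement_of_core_pgi (hcore : CoreFamily) (hpgi : PGIFamily) :
    Fermat.Agent.S29.M.ESStatement :=
  esStatement_of_core_pgi_normId hcore hpgi normIdFamily

end Fermat.Agent.S29.H222

end
end
-- ===== PACK-END S29/H222/ESKAdapterNormId.lean

-- ===== PACK-BEGIN S29/H222/ESKAdapterPGI.lean
section
/-
S29 / helper222 — piece ESK, adapter: `PGIFamily` is discharged from the landed piece GEN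
(helper98, `Fermat.Agent.S37.H98.gen`; independent copy: helper448).  Hence the Eichler–Shimura
input of layer M, `Fermat.Agent.S29.M.ESStatement`, follows from the S18 hub ALONE:

* `CoreFamily` : `S18.CoreStatement N A m` for `ℓ ∤ N`, `ℓ ∤ m`, `A` over `ℓ`      (row S18)
-/



set_option autoImplicit false
set_option linter.style.haveILetI false

noncomputable section

namespace Fermat.Agent.S29.H222

/-- Piece GEN (helper98) in family form. -/
theorem pgiFamily : PGIFamily :=
  fun N _ ℓ hℓ hℓN A hA => Fermat.Agent.S37.H98.gen N ℓ hℓ hℓN A hA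

/-- **ES for layer M** from the S18 hub alone. -/
theorem esStatement_of_core (hcore : CoreFamily) : Fermat.Agent.S29.M.ESStatement :=
  esStatement_of_core_pgi hcore pgiFamily

end Fermat.Agent.S29.H222

end
end
-- ===== PACK-END S29/H222/ESKAdapterPGI.lean

-- ===== PACK-BEGIN S30/H694/TorsionRelOfNodes.lean
section




/-!
# S30 / helper694 — input (T) of the adic module layer from the S18 hub

`Fermat.Agent.S30.H330.TorsionRelations N p` (inertia at `ℓ ∤ N p` acts trivially on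
`J₀(N)(ℚ̄)[p^∞]`; every Frobenius at `ℓ` satisfies `σ² - T_ℓ σ + ℓ = 0` there) is the input (T) of
`Fermat.Agent.S30.H990.result_of_inputs`.  On main it was available only from the interfaces of
row S37 (`H330/AdicTorsionRel.lean`, `H450/RawESPow.lean`: `RedData`, `PlaceRed`, `WeakRedData`).

Here: (T) from the S18 hub alone, through helper222's Kummer route ESK
(`S29.H222.esStatement_of_core`; PGI, HI, NORM-ID are discharged on main) and the bridge
prime `m` ⟹ all `m` (`S18.H694.coreFamily_of_prime`; the moduli needed here are `p ^ n`):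

* `torsionRelations_of_coreFamily` : from `S29.H222.CoreFamily` (hub for all `m` prime to `ℓ`);
* `torsionRelations_of_corePrime`  : from the hub at PRIME moduli (what row S18 proves);
* `torsionRelations_of_nodes`      : from the two open nodes `node_mod`, `node_alg` of the S18
  skeleton, in the exact shape of the hypothesis `hT` of `S30.H990.result_of_inputs`.
-/

set_option autoImplicit false

noncomputable section

namespace Fermat.Agent.S30.H694

open ModularCurve AlgebraicCurve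
open Fermat.Agent.S18 (Qb CoreStatement)

/-- (T) from the S18 hub family. -/
theorem torsionRelations_of_coreFamily (hcore : Fermat.Agent.S29.H222.CoreFamily)
    (N : ℕ) [NeZero N] (p : ℕ) : Fermat.Agent.S30.H330.TorsionRelations N p :=
  fun ℓ hℓ h A hA => Fermat.Agent.S29.H222.esStatement_of_core hcore N p ℓ hℓ h A hA

/-- (T) from the S18 hub at PRIME moduli. -/
theorem torsionRelations_of_corePrime
    (hcore : ∀ (N : ℕ) [NeZero N] (ℓ : ℕ), ℓ.Prime → ¬ ℓ ∣ N → ∀ q : ℕ, q.Prime → ¬ ℓ ∣ q →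
      ∀ A : ValuationSubring Qb, A.LiesOverPrime ℓ → CoreStatement N A q)
    (N : ℕ) [NeZero N] (p : ℕ) : Fermat.Agent.S30.H330.TorsionRelations N p :=
  torsionRelations_of_coreFamily (Fermat.Agent.S18.H694.coreFamily_of_prime hcore) N p

/-- **(T) from the two open nodes of the S18 skeleton**, in the exact shape of the hypothesis
`hT` of `Fermat.Agent.S30.H990.result_of_inputs`. -/
theorem torsionRelations_of_nodes
    (node_mod : ∀ (M : ℕ) [NeZero M] {ℓ : ℕ} [Fact ℓ.Prime], ¬ ℓ ∣ M →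
      ∀ A : ValuationSubring Qb, A.LiesOverPrime ℓ →
        Fermat.Agent.S18.Mod.GoodModelStatement M ℓ A)
    (node_alg : ∀ M : ℕ, Fermat.Agent.S18.Mod.AlgStatement M) :
    ∀ (N : ℕ) [NeZero N] (p : ℕ) [Fact p.Prime], Fermat.Agent.S30.H330.TorsionRelations N p :=
  fun N _ p _ =>
    torsionRelations_of_coreFamily
      (Fermat.Agent.S18.H694.coreFamily_of_nodes node_mod node_alg) N p

end Fermat.Agent.S30.H694

end
end
-- ===== PACK-END S30/H694/TorsionRelOfNodes.lean

-- ===== PACK-BEGIN S18/Mod/H216/NodeMod.lean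
section








/-!
# S18 / MOD-ASM (helper216): **node_mod** — `Mod.GoodModelStatement M ℓ A`, UNCONDITIONAL

`node_mod (M) [NeZero M] {ℓ} [Fact ℓ.Prime] (hℓM : ¬ ℓ ∣ M) (A) (hA : A.LiesOverPrime ℓ) :
  Mod.GoodModelStatement M ℓ A` — exact type of `Integ.node_mod` (Skeleton v4c).

Wiring of the six parts at the concrete objects of `Mod/Defs.lean`:

| part | source |
|---|---|
| G-R   | `H456.IsUnif`, `H456.field_residue_perfect`, `H602.isDiscreteValuationRing_RE` |
| G-FLD | `H456.field_*`, `H24.field_finite_j` |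
| G-V   | `H216.partVStatement_j` (coordinate `j`), `H24.gv_fields_of_isCoordinate` (`t₂, t₃`) |
| G-QEP | `H216.partQepStatement_j` |
| G-SEP | `H264.separable_jOm` |
| G-BR  | `H558.br_of_isCoordinate` |
| M3-T  | `H107.goodModel_of_isCoordinate107` (transfer `j ↦ t₂, t₃` for `ℓ = 3, 2`) |
-/

set_option autoImplicit false
set_option linter.unusedSectionVars false

noncomputable section

namespace Fermat.Agent.S18.Mod.H216

open ModularCurve AlgebraicCurve HahnSeries Fermat.Agent.S18 Fermat.Agent.S18.Mod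
open Fermat.Agent.S18.Alg

variable (M : ℕ) [NeZero M] {ℓ : ℕ} [Fact ℓ.Prime] (A : ValuationSubring Qb)

/-- **G-R** at the concrete objects. -/
theorem partRStatement (hA : A.LiesOverPrime ℓ) : PartRStatement M A := by
  intro E hE
  have := hE
  have hℓ : ℓ.Prime := Fact.out
  have : IsDiscreteValuationRing (H602.RE A E) :=
    H602.isDiscreteValuationRing_RE A E hℓ.ne_zero hA
  obtain ⟨w, hw⟩ := H456.exists_isUnif M A E
  exact ⟨w, H456.field_R_le M A E, H456.field_R_total M A E, hw.mem, hw.ne_zero, hw.inv_not_mem,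
    hw.gen, hw.discrete, H456.field_residue_perfect A E M hℓ hA hw⟩

/-- **G-FLD** for the coordinate `j`. -/
theorem partFldStatement_j : PartFldStatement M (jOm M) := by
  intro E _
  exact ⟨H456.field_E_le_L M E, H456.field_E_le_F M E, H456.field_L_algebraic M E,
    H456.field_L_algClosed M, H456.field_E_closed_in_F M E, H456.field_compositum M E,
    H456.mem_Fc_of_hasIntExp M E (H456.hasIntExp_jOm M),
    H456.transcendental_of_hasIntExp M (H456.hasIntExp_jOm M), H24.field_finite_j M E⟩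

/-- **G-SEP** for the coordinate `j`. -/
theorem partSepStatement_j (hℓM : ¬ ℓ ∣ M) (hA : A.LiesOverPrime ℓ) :
    PartSepStatement M A (jOm M) :=
  fun E _ w hw => ⟨H264.separable_jOm M hℓM A hA E (Vc M A E) (coe_Vc M A E) w hw.w_mem
    hw.w_ne_zero hw.w_gen⟩

/-- **G-BR** for every admissible coordinate. -/
theorem partBrStatement_of_isCoordinate (hA : A.LiesOverPrime ℓ) (x : Om M) (S : Finset (Om M))
    (hx : IsCoordinate M ℓ x S) : PartBrStatement M A x S := by
  intro E _
  obtain ⟨h1, h2, h3, h4⟩ := H558.br_of_isCoordinate M A hA E x S hx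
  exact ⟨h1, h2, h3, h4⟩

/-- The `j`-model without its branch fields, for every `ℓ ∤ M` (input of the transfer M3-T). -/
theorem baseModel_j (hℓM : ¬ ℓ ∣ M) (hA : A.LiesOverPrime ℓ) (E : IntermediateField ℚ Qb)
    (hE : FiniteDimensional ℚ E) {w : Om M} (hw : PartR (Ec M E) (Rc M A E) w) :
    H107.BaseModel107 (Lc M) (Ec M E) (Fc M E) (Rc M A E) (Vc M A E) w (jOm M) := by
  have hF := partFldStatement_j M E hE
  have hV := partVStatement_j A hℓM hA E hE w hw
  have hQ := partQepStatement_j A hℓM hA E hE w hw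
  have hS := partSepStatement_j M A hℓM hA E hE w hw
  exact
    { charZero := charZero_Om M
      R_le := hw.R_le
      R_total := hw.R_total
      w_mem := hw.w_mem
      w_ne_zero := hw.w_ne_zero
      w_inv_not_mem := hw.w_inv_not_mem
      w_gen := hw.w_gen
      w_discrete := hw.w_discrete
      residue_perfect := hw.residue_perfect
      E_le_L := hF.E_le_L
      E_le_F := hF.E_le_F
      L_algebraic := hF.L_algebraic
      L_algClosed := hF.L_algClosed
      E_closed_in_F := hF.E_closed_in_F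
      compositum := hF.compositum
      x_mem := hF.x_mem
      x_transcendental := hF.x_transcendental
      finite := hF.finite
      V_le := hV.V_le
      V_total := hV.V_total
      R_le_V := hV.R_le_V
      w_inv_not_mem_V := hV.w_inv_not_mem_V
      V_gen := hV.V_gen
      x_mem_V := hV.x_mem_V
      gauss := hV.gauss
      qep_fin := hQ.qep_fin
      qep_inf := hQ.qep_inf
      separable := hS.separable }

/-- **M3-T**: for `ℓ ∈ {2, 3}` every admissible coordinate is good. -/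
theorem goodAt_of_lt_five (hℓM : ¬ ℓ ∣ M) (hA : A.LiesOverPrime ℓ) (h5 : ¬ 5 ≤ ℓ) (x : Om M)
    (S : Finset (Om M)) (hx : IsCoordinate M ℓ x S) : GoodAt M A x S := by
  intro E hE
  obtain ⟨w, hw⟩ := partRStatement M A hA E hE
  obtain ⟨-, -, -, hxV, -, -, hgauss⟩ :=
    H24.gv_fields_of_isCoordinate (M := M) (A := A) (E := E) (Vc M A E) (coe_Vc M A E)
      hw.w_mem hw.w_ne_zero hw.w_inv_not_mem hw.w_gen hw.w_discrete hx
  exact ⟨Vc M A E, w, coe_Vc M A E,
    H107.goodModel_of_isCoordinate107 M A hA h5 hx E (baseModel_j M A hℓM hA E hE hw)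
      (H456.field_x_mem M E hx) hxV hgauss⟩

/-- **NODE MOD**: the concrete objects at level `M` form a good model
(exact type of `Integ.node_mod`, Skeleton v4c). -/
theorem node_mod (M : ℕ) [NeZero M] {ℓ : ℕ} [Fact ℓ.Prime] (hℓM : ¬ ℓ ∣ M)
    (A : ValuationSubring Qb) (hA : A.LiesOverPrime ℓ) : Mod.GoodModelStatement M ℓ A :=
  goodModelStatement_of_parts M ℓ A
    (fun _ => partRStatement M A hA)
    (fun _ => partFldStatement_j M)
    (fun _ => partVStatement_j A hℓM hA)
    (fun _ => partQepStatement_j A hℓM hA)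
    (fun _ => partSepStatement_j M A hℓM hA)
    (fun h5 S hS => partBrStatement_of_isCoordinate M A hA (jOm M) S (Or.inl ⟨h5, rfl, hS⟩))
    (fun h5 x S hx => goodAt_of_lt_five M A hℓM hA h5 x S hx)

end Fermat.Agent.S18.Mod.H216

end
end
-- ===== PACK-END S18/Mod/H216/NodeMod.lean

-- ===== PACK-BEGIN A3/H255/LocalClosed.lean
section




/-!
# A3 / LOCAL (helper255): the abstract LOCAL theorem, unconditionally

`localStatement : A3.H799.LocalStatement K F k Fk` for every `GoodRed` interface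
(`localStatement_of_det` of helper799 + the leaf DET of `A3/H255/Det.lean`), and the block
`AbsLocalStatement` of `S19/H979/LocalGlue.lean`.

So `S19.LocalStatement` is reduced to `GrStatement` (good reduction of `X₀(N)`) alone:
`localStatement_of_gr`.
-/

set_option autoImplicit false

namespace Fermat.Agent.A3.H255

universe u₁ u₂ u₃ u₄

variable {K : Type u₁} {F : Type u₂} {k : Type u₃} {Fk : Type u₄}
  [Field K] [Field F] [Algebra K F] [Field k] [Field Fk] [Algebra k Fk]

/-- **The abstract LOCAL theorem** (frozen `A3.H799.LocalStatement`), unconditionally. -/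
theorem localStatement [IsAlgClosed K] [IsAlgClosed k] [CharZero K] :
    Fermat.Agent.A3.H799.LocalStatement K F k Fk :=
  Fermat.Agent.A3.H799.localStatement_of_det Det.detStatement

/-- The block `AbsLocalStatement` of `S19/H979/LocalGlue.lean`. -/
theorem absLocalStatement : Fermat.Agent.S19.H979.AbsLocalStatement :=
  fun _ _ _ _ _ _ _ _ _ => localStatement

/-- `S19.LocalStatement` (node LOCAL of `S19/Spec.lean`) from good reduction of `X₀(N)` alone. -/
theorem localStatement_of_gr (hG : Fermat.Agent.S19.H979.GrStatement) :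
    Fermat.Agent.S19.LocalStatement :=
  Fermat.Agent.S19.H979.localStatement_of_abs_gr' absLocalStatement hG

end Fermat.Agent.A3.H255

end
-- ===== PACK-END A3/H255/LocalClosed.lean

-- ===== PACK-BEGIN S18/Mod/H216/GoodLevel.lean
section


/-!
# S18 / MOD (helper216): the good model over an ARBITRARY level `E` (for A2 / GOODRED)

`node_mod` quantifies over number fields `E`, but finiteness of `E / ℚ` is used ONLY to produce the
uniformiser (`PartR`).  Here the same wiring is stated for EVERY intermediate field `E ⊆ Q̄`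
(e.g. a good level `E ⊇ Q̄^{I}` of A2, infinite over `ℚ`), with `PartR` as the hypothesis:

* `partR_of_dvr`        : `PartR` from `[IsDiscreteValuationRing (H602.RE A E)]` + Frobenius
                          surjective on the residue field (`∀ r, ∃ s, r - s ^ ℓ ∈ 𝔪`);
* `partR_of_dvr_of_isAlgClosed` : the same when the residue field is algebraically closed;
* `baseModel_j_of_partR`: the `j`-model without branch fields, every `ℓ ∤ M` (also `ℓ = 2, 3`);
* `goodModel_of_partR`  : `Alg.GoodModel (Lc M) (Ec M E) (Fc M E) (Rc M A E) (Vc M A E) w x S`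
                          for every admissible coordinate (`x = j` if `ℓ ≥ 5`, Hauptmoduln else).
-/

set_option autoImplicit false
set_option linter.unusedSectionVars false

noncomputable section

namespace Fermat.Agent.S18.Mod.H216

open ModularCurve AlgebraicCurve HahnSeries Fermat.Agent.S18 Fermat.Agent.S18.Mod
open Fermat.Agent.S18.Alg

variable (M : ℕ) [NeZero M] {ℓ : ℕ} [Fact ℓ.Prime] (A : ValuationSubring Qb)
  (E : IntermediateField ℚ Qb)

/-- **G-R over an arbitrary level**: `PartR` from the DVR property of `R_E = A ∩ E` and the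
surjectivity of Frobenius on its residue field. -/
theorem partR_of_dvr [IsDiscreteValuationRing (H602.RE A E)] (hA : A.LiesOverPrime ℓ)
    (hperf : ∀ r : H602.RE A E,
      ∃ s : H602.RE A E, r - s ^ ℓ ∈ IsLocalRing.maximalIdeal (H602.RE A E)) :
    ∃ w : Om M, H456.IsUnif M A E w ∧ PartR (Ec M E) (Rc M A E) w := by
  have hℓ : ℓ.Prime := Fact.out
  obtain ⟨w, hw⟩ := H456.exists_isUnif M A E
  refine ⟨w, hw, H456.field_R_le M A E, H456.field_R_total M A E, hw.mem, hw.ne_zero,
    hw.inv_not_mem, hw.gen, hw.discrete, ℓ, hℓ, ?_, ?_⟩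
  · rw [← H456.cstR_natCast M A E, hw.mul_inv_mem_iff, IsLocalRing.mem_maximalIdeal,
      mem_nonunits_iff]
    exact H602.natCast_not_isUnit_RE A E hA
  · intro r hr
    obtain ⟨r₀, rfl⟩ := (H456.mem_Rc_iff_cstR M A E).1 hr
    obtain ⟨s, hs⟩ := hperf r₀
    refine ⟨H456.cstR M A E s, H456.cstR_mem_Rc M A E s, ?_⟩
    rw [← H456.cstR_pow, ← H456.cstR_sub, hw.mul_inv_mem_iff]
    exact hs

/-- Frobenius is surjective modulo the maximal ideal when the residue field is algebraically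
closed. -/
theorem exists_pow_sub_mem_of_isAlgClosed [IsDiscreteValuationRing (H602.RE A E)]
    [IsAlgClosed (IsLocalRing.ResidueField (H602.RE A E))] (r : H602.RE A E) :
    ∃ s : H602.RE A E, r - s ^ ℓ ∈ IsLocalRing.maximalIdeal (H602.RE A E) := by
  have hℓ : ℓ.Prime := Fact.out
  obtain ⟨y, hy⟩ := IsAlgClosed.exists_pow_nat_eq (IsLocalRing.residue (H602.RE A E) r) hℓ.pos
  obtain ⟨s, rfl⟩ := IsLocalRing.residue_surjective y
  refine ⟨s, ?_⟩
  rw [← IsLocalRing.residue_eq_zero_iff, _root_.map_sub, map_pow, sub_eq_zero]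
  exact hy.symm

/-- **G-R over a good level**: `R_E` a DVR with algebraically closed residue field. -/
theorem partR_of_dvr_of_isAlgClosed [IsDiscreteValuationRing (H602.RE A E)]
    [IsAlgClosed (IsLocalRing.ResidueField (H602.RE A E))] (hA : A.LiesOverPrime ℓ) :
    ∃ w : Om M, H456.IsUnif M A E w ∧ PartR (Ec M E) (Rc M A E) w :=
  partR_of_dvr M A E hA (exists_pow_sub_mem_of_isAlgClosed A E)

/-- **G-FLD** for the coordinate `j`, arbitrary level. -/
theorem partFld_j_any : PartFld (Lc M) (Ec M E) (Fc M E) (jOm M) :=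
  ⟨H456.field_E_le_L M E, H456.field_E_le_F M E, H456.field_L_algebraic M E,
    H456.field_L_algClosed M, H456.field_E_closed_in_F M E, H456.field_compositum M E,
    H456.mem_Fc_of_hasIntExp M E (H456.hasIntExp_jOm M),
    H456.transcendental_of_hasIntExp M (H456.hasIntExp_jOm M), H24.field_finite_j M E⟩

/-- **G-FLD** for every admissible coordinate, arbitrary level. -/
theorem partFld_of_isCoordinate {x : Om M} {S : Finset (Om M)} (hx : IsCoordinate M ℓ x S) :
    PartFld (Lc M) (Ec M E) (Fc M E) x :=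
  ⟨H456.field_E_le_L M E, H456.field_E_le_F M E, H456.field_L_algebraic M E,
    H456.field_L_algClosed M, H456.field_E_closed_in_F M E, H456.field_compositum M E,
    H456.field_x_mem M E hx, H456.field_x_transcendental M hx, H24.field_finite M E hx⟩

/-- The `j`-model without its branch fields over an arbitrary level, for every `ℓ ∤ M`
(including `ℓ = 2, 3`). -/
theorem baseModel_j_of_partR (hℓM : ¬ ℓ ∣ M) (hA : A.LiesOverPrime ℓ) {w : Om M}
    (hw : PartR (Ec M E) (Rc M A E) w) :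
    H107.BaseModel107 (Lc M) (Ec M E) (Fc M E) (Rc M A E) (Vc M A E) w (jOm M) := by
  have hF := partFld_j_any M E
  have hV := partV_j A E (coreData_residue A hℓM hA) hw
  have hQ := partQep_j A E (coreData_residue A hℓM hA) hw
  have hS : PartSep (Rc M A E) (Vc M A E) w (jOm M) :=
    ⟨H264.separable_jOm M hℓM A hA E (Vc M A E) (coe_Vc M A E) w hw.w_mem hw.w_ne_zero hw.w_gen⟩
  exact
    { charZero := charZero_Om M
      R_le := hw.R_le
      R_total := hw.R_total
      w_mem := hw.w_mem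
      w_ne_zero := hw.w_ne_zero
      w_inv_not_mem := hw.w_inv_not_mem
      w_gen := hw.w_gen
      w_discrete := hw.w_discrete
      residue_perfect := hw.residue_perfect
      E_le_L := hF.E_le_L
      E_le_F := hF.E_le_F
      L_algebraic := hF.L_algebraic
      L_algClosed := hF.L_algClosed
      E_closed_in_F := hF.E_closed_in_F
      compositum := hF.compositum
      x_mem := hF.x_mem
      x_transcendental := hF.x_transcendental
      finite := hF.finite
      V_le := hV.V_le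
      V_total := hV.V_total
      R_le_V := hV.R_le_V
      w_inv_not_mem_V := hV.w_inv_not_mem_V
      V_gen := hV.V_gen
      x_mem_V := hV.x_mem_V
      gauss := hV.gauss
      qep_fin := hQ.qep_fin
      qep_inf := hQ.qep_inf
      separable := hS.separable }

/-- **The good model over an arbitrary level `E`** (`R_E = A ∩ E` a DVR with uniformiser `w` and
perfect residue field, packaged as `PartR`), for every admissible coordinate. -/
theorem goodModel_of_partR (hℓM : ¬ ℓ ∣ M) (hA : A.LiesOverPrime ℓ) {w : Om M}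
    (hw : PartR (Ec M E) (Rc M A E) w) {x : Om M} {S : Finset (Om M)}
    (hx : IsCoordinate M ℓ x S) :
    GoodModel (Lc M) (Ec M E) (Fc M E) (Rc M A E) (Vc M A E) w x S := by
  by_cases h5 : 5 ≤ ℓ
  · obtain ⟨h1, h2, h3, h4⟩ := H558.br_of_isCoordinate M A hA E x S hx
    have hB : PartBr (Lc M) (Rc M A E) x S := ⟨h1, h2, h3, h4⟩
    rcases hx with ⟨-, rfl, -⟩ | ⟨h | h, -⟩
    · exact goodModel_of_parts (charZero_Om M) hw (partFld_j_any M E)
        (partV_j A E (coreData_residue A hℓM hA) hw)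
        (partQep_j A E (coreData_residue A hℓM hA) hw)
        ⟨H264.separable_jOm M hℓM A hA E (Vc M A E) (coe_Vc M A E) w hw.w_mem hw.w_ne_zero
          hw.w_gen⟩ hB
    · exact absurd h.1 (by omega)
    · exact absurd h.1 (by omega)
  · obtain ⟨-, -, -, hxV, -, -, hgauss⟩ :=
      H24.gv_fields_of_isCoordinate (M := M) (A := A) (E := E) (Vc M A E) (coe_Vc M A E)
        hw.w_mem hw.w_ne_zero hw.w_inv_not_mem hw.w_gen hw.w_discrete hx
    exact H107.goodModel_of_isCoordinate107 M A hA h5 hx E (baseModel_j_of_partR M A E hℓM hA hw)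
      (H456.field_x_mem M E hx) hxV hgauss

end Fermat.Agent.S18.Mod.H216

end
end
-- ===== PACK-END S18/Mod/H216/GoodLevel.lean

-- ===== PACK-BEGIN A2/Mod/H216/GoodRed.lean
section






/-!
# A2 / GOODRED (helper216): the level-`M` hypothesis `GoodRedAt` of MODASM, DISCHARGED

For `q ≥ 5` prime, `q ∤ M`, `P` over `q`, ANY intermediate field `E ⊆ Q̄` with `R_E = P ∩ E` a
discrete valuation ring, uniformiser `w`, Gauss valuation ring `VM` (`IsVinf`):

    goodRedAt_j     : GoodRedAt P E M w VM j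
    goodRedAt_j_inv : GoodRedAt P E M w VM j⁻¹
    goodRedHyp      : GoodRedHyp P E M                       (`A2/Mod/Asm.lean`)

Proof: `S18.Mod.H216.goodModel_of_partR` (good model of row S18 over the level `E`),
`normalAbs_chart` (normality of its special fibre; S37 `H383.exists_chart_lift`), and the
bridge `FE E M ≃ Fc M E` of `Bridge.lean`.

`goodRedAt_of_goodModel` is the general adapter (any coordinate `y`, any good model).
-/

set_option autoImplicit false
set_option linter.unusedSectionVars false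
set_option linter.style.haveILetI false
set_option synthInstance.maxHeartbeats 400000
set_option maxHeartbeats 1600000

noncomputable section

namespace Fermat.Agent.A2.Mod.H216

open ModularCurve Polynomial

variable (P : ValuationSubring _root_.Fermat.Agent.A2.Mod.Qb) (E : IntermediateField ℚ _root_.Fermat.Agent.A2.Mod.Qb) (M : ℕ)

/-! ### The chart as a subring -/

section ChartSub

variable {Ω : Type*} [Field Ω]

/-- `S18.Alg.chart Fc R x` is (the carrier of) a subring. -/
def chartSub (Fc : Subfield Ω) (R : Subring Ω) (x : Ω) : Subring Ω :=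
  Fc.toSubring ⊓ (integralClosure ↥(S18.Alg.polyRing R x) Ω).toSubring

theorem mem_chartSub {Fc : Subfield Ω} {R : Subring Ω} {x b : Ω} :
    b ∈ chartSub Fc R x ↔ b ∈ S18.Alg.chart Fc R x := Iff.rfl

/-- The monic polynomial `X ^ n + ∑ aᵢ X ^ i`. -/
def monicOf {n : ℕ} (a : Fin n → Ω) : Polynomial Ω :=
  X ^ n + ∑ i : Fin n, C (a i) * X ^ (i : ℕ)

theorem monicOf_monic {n : ℕ} (a : Fin n → Ω) : (monicOf a).Monic :=
  Polynomial.monic_X_pow_add (Polynomial.degree_sum_fin_lt a)

theorem monicOf_eval {n : ℕ} (a : Fin n → Ω) (z : Ω) :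
    (monicOf a).eval z = z ^ n + ∑ i : Fin n, a i * z ^ (i : ℕ) := by
  simp [monicOf, Polynomial.eval_finsetSum]

theorem monicOf_coeff_mem {n : ℕ} (a : Fin n → Ω) (T : Subring Ω) (ha : ∀ i, a i ∈ T) (k : ℕ) :
    (monicOf a).coeff k ∈ T := by
  rw [monicOf, Polynomial.coeff_add, Polynomial.coeff_X_pow, Polynomial.finsetSum_coeff]
  refine add_mem ?_ (sum_mem fun i _ => ?_)
  · split_ifs
    · exact one_mem T
    · exact zero_mem T
  · rw [Polynomial.coeff_C_mul_X_pow]
    split_ifs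
    · exact ha i
    · exact zero_mem T

end ChartSub

/-! ### The adapter -/

variable {P E M}

/-- **GOODRED adapter**: a good model of row S18 at the concrete objects over `E`, with
uniformiser `w` and coordinate `y`, gives `GoodRedAt` in the language of `A2/Mod/Spec.lean`. -/
theorem goodRedAt_of_goodModel {w : _root_.Fermat.Agent.A2.Mod.RE P E} {VM : ValuationSubring (_root_.Fermat.Agent.A2.Mod.FE E M)}
    (hV : IsVinf P E M VM) (y : _root_.Fermat.Agent.A2.Mod.FE E M) {x : S18.Mod.Om M} (hx : bridge E M y = x)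
    {S : Finset (S18.Mod.Om M)}
    (G : S18.Alg.GoodModel (S18.Mod.Lc M) (S18.Mod.Ec M E) (S18.Mod.Fc M E) (S18.Mod.Rc M P E)
      (S18.Mod.H216.Vc M P E) (bridge E M (cE P E M w)) x S) :
    GoodRedAt P E M w VM y := by
  subst hx
  have hinv : ∀ g : _root_.Fermat.Agent.A2.Mod.FE E M, bridge E M (g * (cE P E M w)⁻¹) =
      bridge E M g * (bridge E M (cE P E M w))⁻¹ := fun g => by
    rw [_root_.map_mul, map_inv₀]
  constructor
  · intro b hb hbw
    rw [bridge_mem_chart_iff] at hb ⊢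
    rw [hinv]
    refine G.qep_fin _ hb ?_
    rw [← hinv]
    exact (mem_iff_bridge_mem_Vc P hV _).1 hbw
  · rintro f hf ⟨n, c, hc, hcw⟩
    have hfV : bridge E M f ∈ S18.Mod.H216.Vc M P E := (mem_iff_bridge_mem_Vc P hV _).1 hf
    have hPc : ∀ i, (monicOf fun i => bridge E M (c i)).coeff i ∈
        S18.Alg.chart (S18.Mod.Fc M E) (S18.Mod.Rc M P E) (bridge E M y) := fun k =>
      mem_chartSub.1 (monicOf_coeff_mem _ (chartSub _ _ _)
        (fun i => mem_chartSub.2 ((bridge_mem_chart_iff P y (c i)).1 (hc i))) k)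
    have hPv : (monicOf fun i => bridge E M (c i)).eval (bridge E M f) *
        (bridge E M (cE P E M w))⁻¹ ∈ S18.Mod.H216.Vc M P E := by
      have h1 : (monicOf fun i => bridge E M (c i)).eval (bridge E M f) =
          bridge E M (f ^ n + ∑ i : Fin n, c i * f ^ (i : ℕ)) := by
        rw [monicOf_eval, _root_.map_add, _root_.map_pow, _root_.map_sum]
        simp only [_root_.map_mul, _root_.map_pow]
      rw [h1, ← hinv]
      exact (mem_iff_bridge_mem_Vc P hV _).1 hcw
    obtain ⟨b', hb', hbv⟩ := normalAbs_chart G (bridge E M f) hfV _ (monicOf_monic _) hPc hPv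
    obtain ⟨b, rfl⟩ := exists_bridge_eq hb'.1
    refine ⟨b, (bridge_mem_chart_iff P y b).2 hb', ?_⟩
    show (f - b) * (cE P E M w)⁻¹ ∈ VM
    rw [mem_iff_bridge_mem_Vc P hV, hinv, _root_.map_sub]
    exact hbv

/-- The same on the chart at infinity. -/
theorem goodRedAt_inv_of_goodModel {w : _root_.Fermat.Agent.A2.Mod.RE P E} {VM : ValuationSubring (_root_.Fermat.Agent.A2.Mod.FE E M)}
    (hV : IsVinf P E M VM) (y : _root_.Fermat.Agent.A2.Mod.FE E M) {x : S18.Mod.Om M} (hx : bridge E M y = x)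
    {S : Finset (S18.Mod.Om M)}
    (G : S18.Alg.GoodModel (S18.Mod.Lc M) (S18.Mod.Ec M E) (S18.Mod.Fc M E) (S18.Mod.Rc M P E)
      (S18.Mod.H216.Vc M P E) (bridge E M (cE P E M w)) x S) :
    GoodRedAt P E M w VM y⁻¹ := by
  classical
  exact goodRedAt_of_goodModel hV y⁻¹ (by rw [map_inv₀, hx])
    (Fermat.Agent.S18.H425.goodModel_inv G)

/-! ### `PartR` for a given uniformiser, over an arbitrary level -/

variable (P E M)

theorem isUnif_bridge_cE {w : _root_.Fermat.Agent.A2.Mod.RE P E} (hw : Irreducible w) :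
    S18.H456.IsUnif M P E (bridge E M (cE P E M w)) :=
  ⟨w, hw, bridge_algebraMap (w : E)⟩

/-- `PartR` of row S18 for the image of a given uniformiser `w` of `R_E` (`E` arbitrary). -/
theorem partR_bridge_cE {q : ℕ} (hq : q.Prime) (hP : P.LiesOverPrime q)
    [IsDiscreteValuationRing (_root_.Fermat.Agent.A2.Mod.RE P E)] {w : _root_.Fermat.Agent.A2.Mod.RE P E} (hw : Irreducible w) :
    S18.Mod.H216.PartR (S18.Mod.Ec M E) (S18.Mod.Rc M P E) (bridge E M (cE P E M w)) := by
  haveI : IsDiscreteValuationRing (S18.H602.RE P E) :=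
    (inferInstance : IsDiscreteValuationRing (_root_.Fermat.Agent.A2.Mod.RE P E))
  have hu := isUnif_bridge_cE P E M hw
  refine ⟨S18.H456.field_R_le M P E, S18.H456.field_R_total M P E, hu.mem, hu.ne_zero,
    hu.inv_not_mem, hu.gen, hu.discrete, q, hq, ?_, ?_⟩
  · rw [← S18.H456.cstR_natCast M P E, hu.mul_inv_mem_iff, IsLocalRing.mem_maximalIdeal,
      mem_nonunits_iff]
    exact S18.H602.natCast_not_isUnit_RE P E hP
  · have hperf : ∀ r : S18.H602.RE P E, ∃ s : S18.H602.RE P E,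
        r - s ^ q ∈ IsLocalRing.maximalIdeal (S18.H602.RE P E) := by
      intro r
      have key : ∀ r : _root_.Fermat.Agent.A2.Mod.RE P E, ∃ s : _root_.Fermat.Agent.A2.Mod.RE P E, r - s ^ q ∈ IsLocalRing.maximalIdeal (_root_.Fermat.Agent.A2.Mod.RE P E) := by
        intro r
        obtain ⟨c', hc'⟩ := H96.exists_pow_eq_residue P E hq hP
          (IsLocalRing.residue (_root_.Fermat.Agent.A2.Mod.RE P E) r)
        obtain ⟨s, rfl⟩ := IsLocalRing.residue_surjective c'
        refine ⟨s, ?_⟩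
        have h1 : IsLocalRing.residue (_root_.Fermat.Agent.A2.Mod.RE P E) (r - s ^ q) = 0 := by
          rw [_root_.map_sub, _root_.map_pow, hc', sub_self]
        exact (IsLocalRing.residue_eq_zero_iff _).1 h1
      exact key r
    intro r hr
    obtain ⟨r₀, rfl⟩ := (S18.H456.mem_Rc_iff_cstR M P E).1 hr
    obtain ⟨s, hs⟩ := hperf r₀
    refine ⟨S18.H456.cstR M P E s, S18.H456.cstR_mem_Rc M P E s, ?_⟩
    rw [← S18.H456.cstR_pow, ← S18.H456.cstR_sub, hu.mul_inv_mem_iff]
    exact hs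

/-! ### GOODRED for `q ≥ 5` -/

variable [NeZero M]

/-- The good model of row S18 with coordinate `j` over the level `E`, for the uniformiser `w`. -/
theorem goodModel_j {q : ℕ} (hq : q.Prime) (h5 : 5 ≤ q) (hqM : ¬ q ∣ M)
    (hP : P.LiesOverPrime q) [IsDiscreteValuationRing (_root_.Fermat.Agent.A2.Mod.RE P E)] {w : _root_.Fermat.Agent.A2.Mod.RE P E}
    (hw : Irreducible w) :
    ∃ S : Finset (S18.Mod.Om M),
      S18.Alg.GoodModel (S18.Mod.Lc M) (S18.Mod.Ec M E) (S18.Mod.Fc M E) (S18.Mod.Rc M P E)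
        (S18.Mod.H216.Vc M P E) (bridge E M (cE P E M w)) (S18.Mod.jOm M) S := by
  classical
  haveI : Fact q.Prime := ⟨hq⟩
  refine ⟨{0, 1728}, ?_⟩
  exact S18.Mod.H216.goodModel_of_partR M P E hqM hP (partR_bridge_cE P E M hq hP hw)
    (Or.inl ⟨h5, rfl, fun s => by simp⟩)

/-- **GOODRED**, chart of `j`. -/
theorem goodRedAt_j {q : ℕ} (hq : q.Prime) (h5 : 5 ≤ q) (hqM : ¬ q ∣ M)
    (hP : P.LiesOverPrime q) [IsDiscreteValuationRing (_root_.Fermat.Agent.A2.Mod.RE P E)] (w : _root_.Fermat.Agent.A2.Mod.RE P E)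
    (hw : Irreducible w) (VM : ValuationSubring (_root_.Fermat.Agent.A2.Mod.FE E M)) (hV : IsVinf P E M VM) :
    GoodRedAt P E M w VM (jE E M 1 (one_dvd _)) := by
  obtain ⟨S, G⟩ := goodModel_j P E M hq h5 hqM hP hw
  exact goodRedAt_of_goodModel hV _ (bridge_jE 1 (one_dvd M)) G

/-- **GOODRED**, chart of `j⁻¹`. -/
theorem goodRedAt_j_inv {q : ℕ} (hq : q.Prime) (h5 : 5 ≤ q) (hqM : ¬ q ∣ M)
    (hP : P.LiesOverPrime q) [IsDiscreteValuationRing (_root_.Fermat.Agent.A2.Mod.RE P E)] (w : _root_.Fermat.Agent.A2.Mod.RE P E)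
    (hw : Irreducible w) (VM : ValuationSubring (_root_.Fermat.Agent.A2.Mod.FE E M)) (hV : IsVinf P E M VM) :
    GoodRedAt P E M w VM (jE E M 1 (one_dvd _))⁻¹ := by
  obtain ⟨S, G⟩ := goodModel_j P E M hq h5 hqM hP hw
  exact goodRedAt_inv_of_goodModel hV _ (bridge_jE 1 (one_dvd M)) G

/-- **GOODRED**: the level-`M` hypothesis `GoodRedHyp` of MODASM (`A2/Mod/Asm.lean`), `q ≥ 5`. -/
theorem goodRedHyp {q : ℕ} (hq : q.Prime) (h5 : 5 ≤ q) (hqM : ¬ q ∣ M)
    (hP : P.LiesOverPrime q) (hdvr : IsDiscreteValuationRing (_root_.Fermat.Agent.A2.Mod.RE P E)) :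
    GoodRedHyp P E M :=
  fun w VM hw hV =>
    ⟨goodRedAt_j P E M hq h5 hqM hP w hw VM hV, goodRedAt_j_inv P E M hq h5 hqM hP w hw VM hV⟩

end Fermat.Agent.A2.Mod.H216

end
end
-- ===== PACK-END A2/Mod/H216/GoodRed.lean

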