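import Fermat.Agent.Pack.S33.E8L3
import Fermat.Agent.Pack.S33.E21L2
import Fermat.Agent.Pack.S33.E6L0
import Fermat.Agent.Pack.S33.E3L2
import Fermat.Agent.Pack.S33.E20L1
import Fermat.Agent.Pack.S33.E15L2
import Fermat.Agent.Pack.S33.E13L3
import Fermat.Agent.Pack.S33.E21L1
import Fermat.Agent.Pack.S33.E9L1
import Fermat.Agent.Pack.S33.E13L0
import Fermat.Agent.Pack.S33.E6L1
import Fermat.Agent.Pack.S33.E3L1
import Fermat.Agent.Pack.S33.E20L0
import Fermat.Agent.Pack.S33.E3L3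
import Fermat.Agent.Pack.S33.E19L3

-- ===== PACK-BEGIN Ribet/H912/KummerChi.lean
section



/-!
# Row 38, WALL-p, (S2): the Kummer dictionary for "`σ` acts through `χ`" (T0 of (S2))
(helper912; the analogue of `A2/H129/Kummer.lean` + `A2/T0/H669/T0.lean` for the wall at `p`)

`x = [D]`, `div f = m · D` (`f` a Kummer generator of `x`).  If `σ f = a · y ^ m · f ^ c`
(`a` a nonzero constant), then `σ x = c · x`.

* `smul_eq_nsmul_of_kummer`     : abstract form (`SemilinearAut K F`, `Pic0 K F`);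
* `jzero_smul_eq_nsmul_of_gen`  : for `JZero N`, `H884.IsKummerGen`, `σ ∈ G_ℚ`;
* `KummerChiFor`, `s2For_of_kummerChi` : the Kummer form of `H944.Wall.S2For` for an arbitrary
  subgroup `𝒮` and the implication `KummerChiFor → S2For`;
* `s2Statement_of_kummerChi`    : `H884.S2Statement` from the Kummer form for `𝒮 = splitPart`.
-/

set_option autoImplicit false

noncomputable section

namespace Fermat.Agent.Ribet.H912

open AlgebraicCurve ModularCurve
open Fermat.Agent.A2.H129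
open Fermat.Agent.S24
open Fermat.Agent.Ribet.Spec Fermat.Agent.Ribet.H944.Wall Fermat.Agent.Ribet.H884

section Abstract

variable {K F : Type*} [Field K] [Field F] [Algebra K F]

/-- **K1 for `χ`.**  If `g f = a · y ^ m · f ^ c` for a Kummer generator `f` of `x = [D]`
(`div f = m · D`), then `g • x = c • x`. -/
theorem smul_eq_nsmul_of_kummer (g : SemilinearAut K F) (m : ℕ) (hm : m ≠ 0) (c : ℕ)
    (D : Divisor.degZero (K := K) (F := F)) (f : F) (hf : f ≠ 0)
    (hfD : ∀ v : Place K F, v.ord f = (m : ℤ) * (D : Divisor K F) v)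
    (a : K) (ha : a ≠ 0) (y : F) (hy : y ≠ 0)
    (h : SemilinearAut.toRingAut g f = algebraMap K F a * y ^ m * f ^ c) :
    g • (Pic0.mk D) = c • (Pic0.mk D : Pic0 K F) := by
  set E : Divisor.degZero (K := K) (F := F) := SemilinearAut.degZeroSMulHom g D - c • D with hE
  have hgoal : g • (Pic0.mk D) - c • (Pic0.mk D : Pic0 K F) = Pic0.mk E := by
    rw [SemilinearAut.pic0_smul_mk]
    rfl
  rw [← sub_eq_zero, hgoal]
  refine (QuotientAddGroup.eq_zero_iff E).2 ?_
  rw [AddSubgroup.mem_addSubgroupOf]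
  refine ⟨y, hy, fun w => ?_⟩
  have hEw : (E : Divisor K F) w =
      (D : Divisor K F) (g⁻¹ • w) - (c : ℤ) * (D : Divisor K F) w := by
    simp only [hE, AddSubgroupClass.coe_sub, SemilinearAut.coe_degZeroSMulHom,
      Finsupp.sub_apply, SemilinearAut.divisor_smul_apply, AddSubmonoidClass.coe_nsmul,
      Finsupp.smul_apply, nsmul_eq_mul]
  have haF : algebraMap K F a ≠ 0 := by simpa using ha
  have hord : w.ord (SemilinearAut.toRingAut g f) =
      (m : ℤ) * w.ord y + (c : ℤ) * w.ord f := by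
    rw [h, w.ord_mul (mul_ne_zero haF (pow_ne_zero m hy)) (pow_ne_zero c hf),
      w.ord_mul haF (pow_ne_zero m hy), ord_algebraMap_eq_zero, zero_add, ord_pow, ord_pow]
  have hmE : (m : ℤ) * (E : Divisor K F) w = (m : ℤ) * w.ord y := by
    have h1 := ord_smul_eq g w f
    rw [hord, hfD, hfD] at h1
    rw [hEw]
    linear_combination -h1
  have hm' : (m : ℤ) ≠ 0 := by exact_mod_cast hm
  exact (mul_left_cancel₀ hm' hmE).symm ▸ rfl

end Abstract

section JZero

variable (N : ℕ) [NeZero N]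

/-- **T0 for `χ`**, one class: a Kummer generator `f` of `x ∈ J₀(N)` with
`σ f = a · y ^ p · f ^ c` gives `σ • x = c • x`. -/
theorem jzero_smul_eq_nsmul_of_gen (p : ℕ) (hp : p ≠ 0) (c : ℕ)
    (σ : AlgebraicClosure ℚ ≃ₐ[ℚ] AlgebraicClosure ℚ) (x : JZero N) (f : FF N)
    (hf : IsKummerGen N p f x) (a : Kbar) (ha : a ≠ 0) (y : FF N) (hy : y ≠ 0)
    (h : arithmeticRingAut (modularFunctionFieldFull N) σ f =
      algebraMap Kbar (FF N) a * y ^ p * f ^ c) :
    σ • x = c • x := by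
  obtain ⟨hf0, D, rfl, hfD⟩ := hf
  have h' : SemilinearAut.toRingAut (arithmeticGalois (modularFunctionFieldFull N) σ) f =
      algebraMap Kbar (FF N) a * y ^ p * f ^ c := by
    rw [toRingAut_arithmeticGalois]
    exact h
  exact smul_eq_nsmul_of_kummer (arithmeticGalois (modularFunctionFieldFull N) σ) p hp c D f hf0
    hfD a ha y hy h'

end JZero

section S2

variable (p M' : ℕ) [NeZero M'] [NeZero p] [NeZero (p * M')]

/-- **Kummer form of (S2)** for a subgroup `𝒮`: every new class of `𝒮` has, for every `σ ∈ I_A`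
with `σ ζ = ζ ^ c`, a Kummer generator `f` with `σ f = a · y ^ p · f ^ c`. -/
def KummerChiFor (A : ValuationSubring (AlgebraicClosure ℚ))
    (𝒮 : AddSubgroup (JZero (p * M'))) : Prop :=
  ∀ x ∈ 𝒮, IsNewTors p M' x →
    ∀ σ ∈ A.inertiaSubgroupIn ℚ, ∀ c : ℕ, CycloAt p σ c →
      ∃ (f y : FF (p * M')) (a : Kbar), IsKummerGen (p * M') p f x ∧ a ≠ 0 ∧ y ≠ 0 ∧
        arithmeticRingAut (modularFunctionFieldFull (p * M')) σ f =
          algebraMap Kbar (FF (p * M')) a * y ^ p * f ^ c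

/-- **T0 of (S2).** -/
theorem s2For_of_kummerChi (A : ValuationSubring (AlgebraicClosure ℚ))
    (𝒮 : AddSubgroup (JZero (p * M'))) (h : KummerChiFor p M' A 𝒮) : S2For p M' A 𝒮 := by
  intro x hx hnew σ hσ c hc
  obtain ⟨f, y, a, hf, ha, hy, hrel⟩ := h x hx hnew σ hσ c hc
  exact jzero_smul_eq_nsmul_of_gen (p * M') p (NeZero.ne p) c σ x f hf a ha y hy hrel

end S2

/-- `H884.S2Statement` from the Kummer form of (S2) for `𝒮 = splitPart`. -/
theorem s2Statement_of_kummerChi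
    (h : ∀ (p M' : ℕ) [NeZero M'] [NeZero p] [NeZero (p * M')], p.Prime → p ≠ 2 → ¬ p ∣ M' →
      ∀ A : ValuationSubring Kbar, A.LiesOverPrime p →
        KummerChiFor p M' A (splitPart p M' A)) :
    S2Statement := by
  intro p M' _ _ _ hp hp2 hpM A hA
  exact s2For_of_kummerChi p M' A _ (h p M' hp hp2 hpM A hA)

end Fermat.Agent.Ribet.H912

end

end
-- ===== PACK-END Ribet/H912/KummerChi.lean

-- ===== PACK-BEGIN Ribet/H220/S2Spec.lean
section



/-!
# Row 38, WALL-p, **(S2)**: the chain from `AlgP` to `H884.S2Statement` — frozen interface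
(chain architect helper220; C1 = `H912.KummerChi` is on main, C6 = `H495.AlgP.AlgPStatement`)

`N = p·M'`, `p ∤ M'`, `p ≥ 5`, `A` a valuation subring of `ℚ̄` over `p`, `F = FF N = ℚ̄(X₀(N))`,
`V∞ = H708.Vinf N A`, `V₀ = H708.Vzero N A = V∞ ∘ w_N` (the two Gauss valuation rings of `F`).
EVERYTHING in this file is stated at the level `ℚ̄` ("absolute" depths `r ∈ A`), so that no leaf
mentions a finite level; finite levels only occur INSIDE the leaf `DeepKummerStatement`
(sub-interface `S2Level.lean`).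

## Vocabulary
* `OneMod V r u`   : `u ∈ 1 + r·V`;
* `Deep V p r f`   : `f ∈ (Fˣ)^p · (1 + r·V)`;
* `DeepC K V p r f`: `f ∈ Kˣ · (Fˣ)^p · (1 + r·V)`.

## Leaves (each ONE `Prop`; prove `theorem foo : FooStatement` VERBATIM)
| leaf | Prop | content |
|---|---|---|
| SL  | `SplitLiftStatement`  | `SplitGen f` ⟹ `f ∈ ℚ̄ˣ·Fˣᵖ·(1 + ϖ V)` for `V = V∞` and `V = V₀`, some nonunits `ϖ ≠ 0` of `A` (depth-1 input; `r = sᵖ`, lift `s`) |
| NC  | `NormContrStatement`  | norm contraction: both norms `p`-th powers + depth `ϖ` (with constants) at both places ⟹ depth `ϖⁿ` (NO constants) at both places, all `n` (`H400.wnc_X0` / `H279.nc_X0` / `H232.pingpong` + bridges) |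
| DK  | `DeepKummerStatement` | `p ∣ div f`, `f ∈ Fˣᵖ(1 + p²V∞) ∩ Fˣᵖ(1 + p²V₀)` ⟹ `σ f = a·yᵖ·f^c` for `σ ∈ I_A`, `σ ζ = ζ^c` (level descent + MOD at `p` + weak approximation + `AlgPStatement`) |

## Glue (PROVED in `S2Glue.lean`)
`kummerChiFor_of_chain : SL → NC → DK → KummerChiFor p M' A (splitPart p M' A)` (`p ≥ 5`),
hence `s2Five_of_chain`, `wallTargets5_of_chain` and `S44` from the leaves.
-/

set_option autoImplicit false

noncomputable section

namespace Fermat.Agent.Ribet.H220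

open AlgebraicCurve ModularCurve
open Fermat.Agent.S24 Fermat.Agent.A2.H708 Fermat.Agent.A2.H528
open Fermat.Agent.S29.H395 Fermat.Agent.S29.H801
open Fermat.Agent.Ribet.Spec Fermat.Agent.Ribet.H944.Wall Fermat.Agent.Ribet.H884

/-! ## Vocabulary -/

section Vocabulary

variable {F : Type*} [Field F]

/-- `u ∈ 1 + r · V`. -/
def OneMod (V : ValuationSubring F) (r u : F) : Prop :=
  ∃ y ∈ V, u = 1 + r * y

/-- `f ∈ (Fˣ)^p · (1 + r · V)`. -/
def Deep (V : ValuationSubring F) (p : ℕ) (r f : F) : Prop :=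
  ∃ g u : F, g ≠ 0 ∧ f = g ^ p * u ∧ OneMod V r u

/-- `f ∈ Kˣ · (Fˣ)^p · (1 + r · V)`. -/
def DeepC (K : Type*) [Field K] [Algebra K F] (V : ValuationSubring F) (p : ℕ) (r f : F) :
    Prop :=
  ∃ (c : K) (g u : F), c ≠ 0 ∧ g ≠ 0 ∧ f = algebraMap K F c * g ^ p * u ∧ OneMod V r u

end Vocabulary

/-- The constant `r ∈ ℚ̄` as an element of `FF N`. -/
abbrev cF (N : ℕ) [NeZero N] (r : Kbar) : FF N := algebraMap Kbar (FF N) r

/-! ## Leaves -/

/-- **SL (split lift, depth-1 input).**  A Kummer generator with `p`-th power reductions on both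
components is, at `V∞` and at `V₀`, a constant times a `p`-th power times an element of
`1 + ϖ V` for some nonzero nonunit `ϖ` of `A`. -/
def SplitLiftStatement : Prop :=
  ∀ (p M' : ℕ) [NeZero M'] [NeZero p] [NeZero (p * M')] (hp : p.Prime), ¬ p ∣ M' →
    ∀ (A : ValuationSubring Kbar) (hA : A.LiesOverPrime p) (f : FF (p * M')),
      f ≠ 0 → SplitGen p M' A f →
      (∃ ϖ : Kbar, ϖ ≠ 0 ∧ ϖ ∈ A.nonunits ∧
        DeepC Kbar (Vinf (p * M') A hp.ne_zero hA) p (cF (p * M') ϖ) f) ∧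
      (∃ ϖ : Kbar, ϖ ≠ 0 ∧ ϖ ∈ A.nonunits ∧
        DeepC Kbar (Vzero (p * M') A hp.ne_zero hA) p (cF (p * M') ϖ) f)

/-- **NC (norm contraction, absolute form).**  If both norms of `f` to level `M'` are `p`-th
powers and `f` has depth `ϖ` (constants allowed) at `V∞` and at `V₀`, `ϖ ∣ p` a nonunit, then
`f` has depth `ϖⁿ` WITHOUT constants at `V∞` and at `V₀`, for every `n`. -/
def NormContrStatement : Prop :=
  ∀ (p M' : ℕ) [NeZero M'] [NeZero p] [NeZero (p * M')] (hp : p.Prime), p ≠ 2 → ¬ p ∣ M' →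
    ∀ (A : ValuationSubring Kbar) (hA : A.LiesOverPrime p) (f : FF (p * M')) (g₁ g₂ : FF M'),
      f ≠ 0 →
      normAlong (alphaTo Kbar M' p (p * M') (Nat.mul_comm M' p)) f = g₁ ^ p →
      normAlong (betaTo Kbar M' p (p * M') (Nat.mul_comm M' p)) f = g₂ ^ p →
      ∀ ϖ : Kbar, ϖ ≠ 0 → ϖ ∈ A.nonunits → (∃ e ∈ A, (p : Kbar) = ϖ * e) →
        DeepC Kbar (Vinf (p * M') A hp.ne_zero hA) p (cF (p * M') ϖ) f →
        DeepC Kbar (Vzero (p * M') A hp.ne_zero hA) p (cF (p * M') ϖ) f →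
        ∀ n : ℕ, Deep (Vinf (p * M') A hp.ne_zero hA) p (cF (p * M') ϖ ^ n) f ∧
          Deep (Vzero (p * M') A hp.ne_zero hA) p (cF (p * M') ϖ ^ n) f

/-- **DK (deep Kummer classes are `χ`-eigen).**  `p ≥ 5`, `p ∣ div f`, and `f` is a `p`-th power
times an element of `1 + p² V` at `V = V∞` and at `V = V₀`.  Then for `σ` in the inertia group
of `A` with `σ ζ = ζ ^ c` on `μ_p`: `σ f = a · y ^ p · f ^ c`. -/
def DeepKummerStatement : Prop :=
  ∀ (p M' : ℕ) [NeZero M'] [NeZero p] [NeZero (p * M')] (hp : p.Prime), 5 ≤ p → ¬ p ∣ M' →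
    ∀ (A : ValuationSubring Kbar) (hA : A.LiesOverPrime p),
    ∀ σ ∈ A.inertiaSubgroupIn ℚ, ∀ c : ℕ, CycloAt p σ c →
    ∀ f : FF (p * M'), f ≠ 0 → (∀ v : Place Kbar (FF (p * M')), (p : ℤ) ∣ v.ord f) →
      Deep (Vinf (p * M') A hp.ne_zero hA) p (cF (p * M') ((p : Kbar) ^ 2)) f →
      Deep (Vzero (p * M') A hp.ne_zero hA) p (cF (p * M') ((p : Kbar) ^ 2)) f →
      ∃ (y : FF (p * M')) (a : Kbar), a ≠ 0 ∧ y ≠ 0 ∧
        arithmeticRingAut (modularFunctionFieldFull (p * M')) σ f =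
          algebraMap Kbar (FF (p * M')) a * y ^ p * f ^ c

/-- **(S2) for `p ≥ 5`** (what `S44` consumes). -/
def S2FiveStatement : Prop :=
  ∀ (p M' : ℕ) [NeZero M'] [NeZero p] [NeZero (p * M')], p.Prime → 5 ≤ p → ¬ p ∣ M' →
    ∀ A : ValuationSubring Kbar, A.LiesOverPrime p → S2For p M' A (splitPart p M' A)

end Fermat.Agent.Ribet.H220

end

end
-- ===== PACK-END Ribet/H220/S2Spec.lean

-- ===== PACK-BEGIN Ribet/H884/SlopeS1.lean
section



/-!
# Row 38, WALL-p: **(S1)** for `𝒮 = splitPart`  (helper884)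

`s1 : S1Statement`: for `x ∈ J₀(pM')[p]` and `σ` in the inertia group of `A`, the class
`σ x - x` lies in `splitPart p M' A`.

Proof: `x ↔ f` (Kummer generator), `σ x - x ↔ σ f / f`.  In normal form `f · U₂ = c · U₁`
(`H708.exists_normal_form`); `σ` acts on the coefficients and trivially on the residue field, so
`(σ f / f) · (σU₂ · U₁) = (σc / c) · (σU₁ · U₂)` is a normal form whose reduction is `1`.
The same for `w_N f` (`w_N` commutes with `σ`).  The series `1` has divisor `0` and lies in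
`k((t^p))`.
-/

set_option autoImplicit false
set_option synthInstance.maxHeartbeats 400000
set_option maxHeartbeats 1000000
set_option linter.unusedSectionVars false

noncomputable section

namespace Fermat.Agent.Ribet.H884

open AlgebraicCurve ModularCurve HahnSeries
open Fermat.Agent.S24 Fermat.Agent.A2.H708 Fermat.Agent.A2.H528 Fermat.Agent.A2.H129
open Fermat.Agent.Ribet.Spec Fermat.Agent.Ribet.H944.Wall

section

variable {N : ℕ} [NeZero N]

/-- Every `p`-torsion class has a Kummer generator. -/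
theorem exists_isKummerGen (p : ℕ) (x : JZero N) (hx : p • x = 0) :
    ∃ f : FF N, IsKummerGen N p f x := by
  obtain ⟨D, rfl⟩ := Pic0.mk_surjective x
  have hprin : ((p • D : Divisor.degZero (K := Kbar) (F := FF N)) : Divisor Kbar (FF N)) ∈
      Divisor.principal (K := Kbar) (F := FF N) := by
    have h0 : Pic0.mk (p • D) = 0 := hx
    have := (QuotientAddGroup.eq_zero_iff (p • D)).1 h0
    simpa [AddSubgroup.mem_addSubgroupOf] using this
  obtain ⟨f, hf, hfD⟩ := hprin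
  refine ⟨f, hf, D, rfl, fun v => ?_⟩
  rw [← hfD v]
  simp [Finsupp.smul_apply]

/-- `σ f / f` is a Kummer generator of `σ x - x`. -/
theorem isKummerGen_galSubOne (p : ℕ) (σ : Kbar ≃ₐ[ℚ] Kbar) {f : FF N} {x : JZero N}
    (h : IsKummerGen N p f x) : IsKummerGen N p (gal N σ f * f⁻¹) (σ • x - x) := by
  obtain ⟨hf, D, rfl, hD⟩ := h
  set g : SemilinearAut Kbar (FF N) := arithmeticGalois (modularFunctionFieldFull N) σ with hg
  have hτf : gal N σ f ≠ 0 := by simpa using hf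
  refine ⟨mul_ne_zero hτf (inv_ne_zero hf), SemilinearAut.degZeroSMulHom g D - D, ?_, ?_⟩
  · show _ = g • Pic0.mk D - Pic0.mk D
    rw [SemilinearAut.pic0_smul_mk]
    rfl
  · intro v
    have h1 : v.ord (gal N σ f) = (g⁻¹ • v).ord f := ord_smul_eq g v f
    rw [ord_div v hτf hf, h1, hD, hD]
    simp only [AddSubgroupClass.coe_sub, SemilinearAut.coe_degZeroSMulHom, Finsupp.sub_apply,
      SemilinearAut.divisor_smul_apply]
    ring

variable {A : ValuationSubring Kbar} {p : ℕ}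

/-- **Key computation**: `σ f / f` has reduction `1` on the `∞`-component. -/
theorem isRedInf_galSubOne (hp0 : p ≠ 0) (hA : (p : Kbar) ∈ A.nonunits)
    {σ : Kbar ≃ₐ[ℚ] Kbar} (hσ : σ ∈ A.inertiaSubgroupIn ℚ) {f : FF N} (hf : f ≠ 0) :
    IsRedInf N A (gal N σ f * f⁻¹) 1 := by
  have hf' : (f : LaurentSeries Kbar) ≠ 0 := fun h => hf (Subtype.ext h)
  obtain ⟨c, U₁, U₂, hc, h₁, h₂, -, -, he⟩ :=
    exists_normal_form (A := A) (intGen_full N)
      (attainsMax_Qbar hp0 hA (modularFunctionFieldFull N)) f.2 hf'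
  set U₁' := coeffMap (resA hσ) U₁ with hU₁'
  set U₂' := coeffMap (resA hσ) U₂ with hU₂'
  have hτ : ((gal N σ f : FF N) : LaurentSeries Kbar) * incl A U₂' = cst (σ c) * incl A U₁' := by
    rw [hU₁', hU₂', incl_coeffMap_resA, incl_coeffMap_resA]
    show coeffMap (σ : Kbar →+* Kbar) (f : LaurentSeries Kbar) *
      coeffMap (σ : Kbar →+* Kbar) (incl A U₂) = _
    rw [← _root_.map_mul, he, _root_.map_mul]
    congr 1
    exact coeffMap_algebraMap (σ : Kbar →+* Kbar) c
  have hσc : σ c ≠ 0 := by simpa using hc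
  refine ⟨σ c / c, U₁' * U₂, U₂' * U₁, div_ne_zero hσc hc, ?_, ?_, ?_, ?_⟩
  · rw [_root_.map_mul, hU₁', red_coeffMap_resA]
    exact mul_ne_zero h₁ h₂
  · rw [_root_.map_mul, hU₂', red_coeffMap_resA]
    exact mul_ne_zero h₂ h₁
  · have hF : incl A U₁ = (f : LaurentSeries Kbar) * incl A U₂ * (cst c)⁻¹ := by
      rw [he, mul_comm (cst c), mul_assoc, mul_inv_cancel₀ (cst_ne_zero hc), mul_one]
    have hcoe : ((gal N σ f * f⁻¹ : FF N) : LaurentSeries Kbar) =
        ((gal N σ f : FF N) : LaurentSeries Kbar) * (f : LaurentSeries Kbar)⁻¹ := by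
      rw [IntermediateField.coe_mul, IntermediateField.coe_inv]
    have e1 : ((gal N σ f : FF N) : LaurentSeries Kbar) * (f : LaurentSeries Kbar)⁻¹ *
        (incl A U₂' * incl A U₁) =
        (((gal N σ f : FF N) : LaurentSeries Kbar) * incl A U₂') *
          ((f : LaurentSeries Kbar)⁻¹ * incl A U₁) := by ring
    have e2 : (f : LaurentSeries Kbar)⁻¹ * incl A U₁ = incl A U₂ * (cst c)⁻¹ := by
      rw [hF, ← mul_assoc, ← mul_assoc, inv_mul_cancel₀ hf', one_mul]
    have e3 : cst (σ c / c) = cst (σ c) * (cst c)⁻¹ := by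
      rw [cst, cst, cst, map_div₀, div_eq_mul_inv]
    rw [hcoe, _root_.map_mul (incl A), _root_.map_mul (incl A), e1, hτ, e2, e3]
    ring
  · rw [one_mul, _root_.map_mul, _root_.map_mul, hU₁', hU₂', red_coeffMap_resA, red_coeffMap_resA, mul_comm]

/-- The same on the `0`-component. -/
theorem isRedZero_galSubOne (hp0 : p ≠ 0) (hA : (p : Kbar) ∈ A.nonunits)
    {σ : Kbar ≃ₐ[ℚ] Kbar} (hσ : σ ∈ A.inertiaSubgroupIn ℚ) {f : FF N} (hf : f ≠ 0) :
    IsRedZero N A (gal N σ f * f⁻¹) 1 := by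
  have hw : wF N f ≠ 0 := fun h => hf ((map_eq_zero_iff _ (wF N).injective).mp h)
  have e : wF N (gal N σ f * f⁻¹) = gal N σ (wF N f) * (wF N f)⁻¹ := by
    rw [_root_.map_mul, map_inv₀, wF_gal]
  unfold IsRedZero
  rw [e]
  exact isRedInf_galSubOne hp0 hA hσ hw

end

/-- The series `1` has all orders divisible by `p`. -/
theorem pDivSeries_one (p M' : ℕ) {k : Type} [Field k] :
    PDivSeries p M' (1 : LaurentSeries k) := by
  refine ⟨1, rfl, one_ne_zero, fun Q => ?_⟩
  have h := ord_algebraMap_eq_zero Q (1 : k)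
  rw [_root_.map_one] at h
  rw [h]
  exact dvd_zero _

/-- The series `1` lies in `k((t^p))`. -/
theorem splitSeries_one (p : ℕ) {k : Type} [Field k] :
    SplitSeries p (1 : LaurentSeries k) := by
  intro n hn
  rw [HahnSeries.coeff_one]
  have : n ≠ 0 := by
    rintro rfl
    exact hn (dvd_zero _)
  simp [this]

/-- **(S1)**: inertia acts trivially on `J₀(pM')[p] / 𝒮`. -/
theorem s1 : S1Statement := by
  intro p M' _ _ _ hp hpM A hA x hpx σ hσ
  obtain ⟨f, hf⟩ := exists_isKummerGen (N := p * M') p x hpx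
  apply AddSubgroup.subset_closure
  exact ⟨gal (p * M') σ f * f⁻¹, isKummerGen_galSubOne p σ hf, 1, 1,
    isRedInf_galSubOne hp.ne_zero hA hσ hf.1, isRedZero_galSubOne hp.ne_zero hA hσ hf.1,
    pDivSeries_one p M', pDivSeries_one p M', splitSeries_one p, splitSeries_one p⟩

end Fermat.Agent.Ribet.H884

end

end
-- ===== PACK-END Ribet/H884/SlopeS1.lean

-- ===== PACK-BEGIN Ribet/H884/SlopeClosed.lean
section


/-!
# Row 38, WALL-p: **CLOSED** — `finSet` and `splitSet` are subgroups  (helper884)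

* calculus of Kummer generators: `isKummerGen_one`, `IsKummerGen.mul`, `IsKummerGen.inv`;
* calculus of reductions: `isRedInf_one`, `IsRedInf.mul`, `IsRedInf.inv` (same for `IsRedZero`);
* `PDivSeries.mul`, `PDivSeries.inv`;
* `splitSeries_iff` : `SplitSeries p r ↔ r ∈ range (t ↦ t^p)`; `SplitSeries.mul`, `SplitSeries.inv`;
* `finClosed : FinClosedStatement`, `splitClosed : SplitClosedStatement`.
-/

set_option autoImplicit false
set_option synthInstance.maxHeartbeats 400000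
set_option maxHeartbeats 1000000
set_option linter.unusedSectionVars false

noncomputable section

namespace Fermat.Agent.Ribet.H884

open AlgebraicCurve ModularCurve HahnSeries
open Fermat.Agent.S24 Fermat.Agent.A2.H708 Fermat.Agent.A2.H528 Fermat.Agent.A2.H129
open Fermat.Agent.Ribet.Spec Fermat.Agent.Ribet.H944.Wall

/-! ## Kummer generators -/

section Kummer

variable {N : ℕ} [NeZero N] {p : ℕ}

theorem isKummerGen_one : IsKummerGen N p (1 : FF N) 0 := by
  refine ⟨one_ne_zero, 0, rfl, fun v => ?_⟩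
  rw [Place.ord_one]
  simp

theorem IsKummerGen.mul {f f' : FF N} {x x' : JZero N} (h : IsKummerGen N p f x)
    (h' : IsKummerGen N p f' x') : IsKummerGen N p (f * f') (x + x') := by
  obtain ⟨hf, D, rfl, hD⟩ := h
  obtain ⟨hf', D', rfl, hD'⟩ := h'
  refine ⟨mul_ne_zero hf hf', D + D', rfl, fun v => ?_⟩
  rw [Place.ord_mul v hf hf', hD, hD']
  simp only [AddSubgroup.coe_add, Finsupp.add_apply]
  ring

theorem IsKummerGen.inv {f : FF N} {x : JZero N} (h : IsKummerGen N p f x) :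
    IsKummerGen N p f⁻¹ (-x) := by
  obtain ⟨hf, D, rfl, hD⟩ := h
  refine ⟨inv_ne_zero hf, -D, rfl, fun v => ?_⟩
  rw [Place.ord_inv, hD]
  simp only [AddSubgroup.coe_neg, Finsupp.neg_apply]
  ring

end Kummer

/-! ## Reductions -/

section Red

variable {N : ℕ} [NeZero N] {A : ValuationSubring Kbar}

theorem isRedInf_one : IsRedInf N A (1 : FF N) 1 := by
  refine ⟨1, 1, 1, one_ne_zero, ?_, ?_, ?_, ?_⟩
  · rw [_root_.map_one]; exact one_ne_zero
  · rw [_root_.map_one]; exact one_ne_zero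
  · rw [_root_.map_one, cst_one, mul_one, mul_one]
    rfl
  · rw [_root_.map_one, mul_one]

theorem IsRedInf.ne_zero {f : FF N} {r : LaurentSeries (kA A)} (h : IsRedInf N A f r) :
    r ≠ 0 := by
  obtain ⟨c, U₁, U₂, hc, h₁, h₂, he, hr⟩ := h
  rintro rfl
  rw [zero_mul] at hr
  exact h₁ hr.symm

theorem IsRedInf.fun_ne_zero {f : FF N} {r : LaurentSeries (kA A)} (h : IsRedInf N A f r) :
    (f : LaurentSeries Kbar) ≠ 0 := by
  obtain ⟨c, U₁, U₂, hc, h₁, h₂, he, hr⟩ := h
  intro h0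
  rw [h0, zero_mul] at he
  rcases mul_eq_zero.mp he.symm with h' | h'
  · exact cst_ne_zero hc h'
  · exact incl_ne_zero A (ne_zero_of_red_ne_zero A h₁) h'

theorem IsRedInf.mul {f f' : FF N} {r r' : LaurentSeries (kA A)} (h : IsRedInf N A f r)
    (h' : IsRedInf N A f' r') : IsRedInf N A (f * f') (r * r') := by
  obtain ⟨c, U₁, U₂, hc, h₁, h₂, he, hr⟩ := h
  obtain ⟨c', U₁', U₂', hc', h₁', h₂', he', hr'⟩ := h'
  refine ⟨c * c', U₁ * U₁', U₂ * U₂', mul_ne_zero hc hc', ?_, ?_, ?_, ?_⟩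
  · rw [_root_.map_mul]; exact mul_ne_zero h₁ h₁'
  · rw [_root_.map_mul]; exact mul_ne_zero h₂ h₂'
  · have hcoe : ((f * f' : FF N) : LaurentSeries Kbar) =
        (f : LaurentSeries Kbar) * (f' : LaurentSeries Kbar) := rfl
    rw [hcoe, _root_.map_mul (incl A), _root_.map_mul (incl A), cst_mul]
    calc (f : LaurentSeries Kbar) * (f' : LaurentSeries Kbar) * (incl A U₂ * incl A U₂')
        = ((f : LaurentSeries Kbar) * incl A U₂) * ((f' : LaurentSeries Kbar) * incl A U₂') := by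
          ring
      _ = (cst c * incl A U₁) * (cst c' * incl A U₁') := by rw [he, he']
      _ = cst c * cst c' * (incl A U₁ * incl A U₁') := by ring
  · rw [_root_.map_mul, _root_.map_mul, ← hr, ← hr']
    ring

theorem IsRedInf.inv {f : FF N} {r : LaurentSeries (kA A)} (h : IsRedInf N A f r) :
    IsRedInf N A f⁻¹ r⁻¹ := by
  have hr0 := h.ne_zero
  have hf0 := h.fun_ne_zero
  obtain ⟨c, U₁, U₂, hc, h₁, h₂, he, hr⟩ := h
  refine ⟨c⁻¹, U₂, U₁, inv_ne_zero hc, h₂, h₁, ?_, ?_⟩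
  · have hcoe : ((f⁻¹ : FF N) : LaurentSeries Kbar) = (f : LaurentSeries Kbar)⁻¹ := by
      rw [IntermediateField.coe_inv]
    rw [hcoe]
    exact normal_form_inv hf0 hc he
  · rw [← hr, ← mul_assoc, inv_mul_cancel₀ hr0, one_mul]

theorem isRedZero_one : IsRedZero N A (1 : FF N) 1 := by
  unfold IsRedZero
  rw [_root_.map_one]
  exact isRedInf_one

theorem IsRedZero.mul {f f' : FF N} {r r' : LaurentSeries (kA A)} (h : IsRedZero N A f r)
    (h' : IsRedZero N A f' r') : IsRedZero N A (f * f') (r * r') := by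
  unfold IsRedZero at h h' ⊢
  rw [_root_.map_mul]
  exact h.mul h'

theorem IsRedZero.inv {f : FF N} {r : LaurentSeries (kA A)} (h : IsRedZero N A f r) :
    IsRedZero N A f⁻¹ r⁻¹ := by
  unfold IsRedZero at h ⊢
  rw [map_inv₀]
  exact h.inv

end Red

/-! ## `PDivSeries` -/

section PDiv

variable {p M' : ℕ} {k : Type} [Field k]

theorem PDivSeries.mul {r r' : LaurentSeries k} (h : PDivSeries p M' r)
    (h' : PDivSeries p M' r') : PDivSeries p M' (r * r') := by
  obtain ⟨a, rfl, ha, hdiv⟩ := h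
  obtain ⟨a', rfl, ha', hdiv'⟩ := h'
  refine ⟨a * a', rfl, mul_ne_zero ha ha', fun Q => ?_⟩
  rw [Place.ord_mul Q ha ha']
  exact dvd_add (hdiv Q) (hdiv' Q)

theorem PDivSeries.inv {r : LaurentSeries k} (h : PDivSeries p M' r) :
    PDivSeries p M' r⁻¹ := by
  obtain ⟨a, rfl, ha, hdiv⟩ := h
  refine ⟨a⁻¹, by rw [IntermediateField.coe_inv], inv_ne_zero ha, fun Q => ?_⟩
  rw [Place.ord_inv]
  exact (dvd_neg).mpr (hdiv Q)

end PDiv

/-! ## `SplitSeries` -/

section Split

variable {p : ℕ} [NeZero p] {k : Type} [Field k]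

/-- `r ∈ k((t^p))` iff `r` is in the image of `t ↦ t^p`. -/
theorem splitSeries_iff (r : LaurentSeries k) :
    SplitSeries p r ↔ ∃ s : LaurentSeries k, qExpand k p s = r := by
  constructor
  · intro h
    have hp0 : (0 : ℤ) < (p : ℤ) := by exact_mod_cast Nat.pos_of_ne_zero (NeZero.ne p)
    -- the coefficient function of `s`
    have hbdd : BddBelow (Function.support fun n : ℤ => r.coeff ((p : ℤ) * n)) := by
      set b : ℤ := r.order with hb
      refine ⟨min b 0, fun n hn => ?_⟩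
      have hn' : r.coeff ((p : ℤ) * n) ≠ 0 := hn
      have h1 : b ≤ (p : ℤ) * n := HahnSeries.order_le_of_coeff_ne_zero hn'
      by_contra hlt
      rw [not_le] at hlt
      have hn0 : n < 0 := lt_of_lt_of_le hlt (min_le_right _ _)
      have hnb : n < b := lt_of_lt_of_le hlt (min_le_left _ _)
      have h2 : (p : ℤ) * n ≤ n := by nlinarith
      omega
    refine ⟨HahnSeries.ofSuppBddBelow _ hbdd, ?_⟩
    ext n
    by_cases hn : (p : ℤ) ∣ n
    · obtain ⟨m, rfl⟩ := hn
      rw [qExpand_coeff_mul]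
      rfl
    · rw [h n hn]
      apply HahnSeries.embDomain_of_notMem_range
      rintro ⟨m, hm⟩
      exact hn ⟨m, hm.symm⟩
  · rintro ⟨s, rfl⟩ n hn
    apply HahnSeries.embDomain_of_notMem_range
    rintro ⟨m, hm⟩
    exact hn ⟨m, hm.symm⟩

theorem SplitSeries.mul {r r' : LaurentSeries k} (h : SplitSeries p r)
    (h' : SplitSeries p r') : SplitSeries p (r * r') := by
  obtain ⟨s, rfl⟩ := (splitSeries_iff r).mp h
  obtain ⟨s', rfl⟩ := (splitSeries_iff r').mp h'
  exact (splitSeries_iff _).mpr ⟨s * s', _root_.map_mul _ _ _⟩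

theorem SplitSeries.inv {r : LaurentSeries k} (h : SplitSeries p r) :
    SplitSeries p r⁻¹ := by
  obtain ⟨s, rfl⟩ := (splitSeries_iff r).mp h
  exact (splitSeries_iff _).mpr ⟨s⁻¹, map_inv₀ _ _⟩

end Split

/-! ## The two sets are subgroups -/

section Closed

variable {p M' : ℕ} [NeZero p] [NeZero (p * M')] {A : ValuationSubring Kbar}

theorem finGen_one : FinGen p M' A (1 : FF (p * M')) :=
  ⟨1, 1, isRedInf_one, isRedZero_one, pDivSeries_one p M', pDivSeries_one p M'⟩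

theorem FinGen.mul {f f' : FF (p * M')} (h : FinGen p M' A f) (h' : FinGen p M' A f') :
    FinGen p M' A (f * f') := by
  obtain ⟨r₁, r₂, h1, h2, h3, h4⟩ := h
  obtain ⟨r₁', r₂', h1', h2', h3', h4'⟩ := h'
  exact ⟨r₁ * r₁', r₂ * r₂', h1.mul h1', h2.mul h2', h3.mul h3', h4.mul h4'⟩

theorem FinGen.inv {f : FF (p * M')} (h : FinGen p M' A f) : FinGen p M' A f⁻¹ := by
  obtain ⟨r₁, r₂, h1, h2, h3, h4⟩ := h
  exact ⟨r₁⁻¹, r₂⁻¹, h1.inv, h2.inv, h3.inv, h4.inv⟩

theorem splitGen_one : SplitGen p M' A (1 : FF (p * M')) :=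
  ⟨1, 1, isRedInf_one, isRedZero_one, pDivSeries_one p M', pDivSeries_one p M',
    splitSeries_one p, splitSeries_one p⟩

theorem SplitGen.mul {f f' : FF (p * M')} (h : SplitGen p M' A f) (h' : SplitGen p M' A f') :
    SplitGen p M' A (f * f') := by
  obtain ⟨r₁, r₂, h1, h2, h3, h4, h5, h6⟩ := h
  obtain ⟨r₁', r₂', h1', h2', h3', h4', h5', h6'⟩ := h'
  exact ⟨r₁ * r₁', r₂ * r₂', h1.mul h1', h2.mul h2', h3.mul h3', h4.mul h4', h5.mul h5',
    h6.mul h6'⟩

theorem SplitGen.inv {f : FF (p * M')} (h : SplitGen p M' A f) : SplitGen p M' A f⁻¹ := by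
  obtain ⟨r₁, r₂, h1, h2, h3, h4, h5, h6⟩ := h
  exact ⟨r₁⁻¹, r₂⁻¹, h1.inv, h2.inv, h3.inv, h4.inv, h5.inv, h6.inv⟩

/-- `finSet` is closed under the group operations. -/
theorem mem_finSet_of_mem_finPart {x : JZero (p * M')} (hx : x ∈ finPart p M' A) :
    x ∈ finSet p M' A := by
  unfold finPart at hx
  induction hx using AddSubgroup.closure_induction with
  | mem x hx => exact hx
  | zero => exact ⟨1, isKummerGen_one, finGen_one⟩
  | add x y _ _ hx hy =>
    obtain ⟨f, hf, hF⟩ := hx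
    obtain ⟨f', hf', hF'⟩ := hy
    exact ⟨f * f', hf.mul hf', hF.mul hF'⟩
  | neg x _ hx =>
    obtain ⟨f, hf, hF⟩ := hx
    exact ⟨f⁻¹, hf.inv, hF.inv⟩

/-- `splitSet` is closed under the group operations. -/
theorem mem_splitSet_of_mem_splitPart {x : JZero (p * M')} (hx : x ∈ splitPart p M' A) :
    x ∈ splitSet p M' A := by
  unfold splitPart at hx
  induction hx using AddSubgroup.closure_induction with
  | mem x hx => exact hx
  | zero => exact ⟨1, isKummerGen_one, splitGen_one⟩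
  | add x y _ _ hx hy =>
    obtain ⟨f, hf, hF⟩ := hx
    obtain ⟨f', hf', hF'⟩ := hy
    exact ⟨f * f', hf.mul hf', hF.mul hF'⟩
  | neg x _ hx =>
    obtain ⟨f, hf, hF⟩ := hx
    exact ⟨f⁻¹, hf.inv, hF.inv⟩

end Closed

/-- **CLOSED (𝓕)**. -/
theorem finClosed : FinClosedStatement := by
  intro p M' _ _ _ _ _ A _ x hx
  exact mem_finSet_of_mem_finPart hx

/-- **CLOSED (𝒮)**. -/
theorem splitClosed : SplitClosedStatement := by
  intro p M' _ _ _ _ _ A _ x hx
  exact mem_splitSet_of_mem_splitPart hx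

end Fermat.Agent.Ribet.H884

end

end
-- ===== PACK-END Ribet/H884/SlopeClosed.lean

-- ===== PACK-BEGIN Ribet/H220/S2Glue.lean
section




/-!
# Row 38, WALL-p, **(S2)**: the chain glue (chain architect helper220) — PROVED

* `kummerChiFor_of_chain : SplitLift → NormContr → DeepKummer →
     KummerChiFor p M' A (splitPart p M' A)`  (`p ≥ 5`);
* `s2Five_of_chain       : SplitLift → NormContr → DeepKummer → S2FiveStatement`;
* `wallTargets5_of_five  : S1 → S2Five → ResField → DlogOut → R3P → EisSlope →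
     H944.Wall.WallTargets5Statement` (the `p ≥ 5` form of `H884.wallTargets5_of`);
* `wallTargets5_of_chain`: the same from the three leaves of `S2Spec.lean`.

Plugged in from main: CLOSED (`H884.splitClosed`), the Kummer form of the new part
(`H801.alphaL_mk_eq_zero_iff`, `betaL_mk_eq_zero_iff`), the Kummer dictionary for `χ`
(`H912.s2For_of_kummerChi`), rank one of `A` (`A3.H675.harch`).
-/

set_option autoImplicit false
set_option synthInstance.maxHeartbeats 400000
set_option maxHeartbeats 1000000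

noncomputable section

namespace Fermat.Agent.Ribet.H220

open AlgebraicCurve ModularCurve
open Fermat.Agent.S24 Fermat.Agent.A2.H708 Fermat.Agent.A2.H528
open Fermat.Agent.S29.H395 Fermat.Agent.S29.H801
open Fermat.Agent.Ribet.Spec Fermat.Agent.Ribet.H944.Wall Fermat.Agent.Ribet.H884
open Fermat.Agent.Ribet.H801 Fermat.Agent.Ribet.H912

/-! ## Monotonicity of depths -/

section Mono

variable {F : Type*} [Field F]

theorem OneMod.mono {V : ValuationSubring F} {r r' a u : F} (ha : a ∈ V) (hr : r = r' * a)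
    (h : OneMod V r u) : OneMod V r' u := by
  obtain ⟨y, hy, rfl⟩ := h
  exact ⟨a * y, mul_mem ha hy, by rw [hr]; ring⟩

theorem Deep.mono {V : ValuationSubring F} {p : ℕ} {r r' a f : F} (ha : a ∈ V)
    (hr : r = r' * a) (h : Deep V p r f) : Deep V p r' f := by
  obtain ⟨g, u, hg, hf, hu⟩ := h
  exact ⟨g, u, hg, hf, hu.mono ha hr⟩

theorem DeepC.mono {K : Type*} [Field K] [Algebra K F] {V : ValuationSubring F} {p : ℕ}
    {r r' a f : F} (ha : a ∈ V) (hr : r = r' * a) (h : DeepC K V p r f) :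
    DeepC K V p r' f := by
  obtain ⟨c, g, u, hc, hg, hf, hu⟩ := h
  exact ⟨c, g, u, hc, hg, hf, hu.mono ha hr⟩

/-- In a valuation ring two nonzero nonunits have a common nonunit divisor. -/
theorem exists_common_divisor (A : ValuationSubring F) {a b : F} (ha0 : a ≠ 0) (hb0 : b ≠ 0)
    (ha : a ∈ A.nonunits) (hb : b ∈ A.nonunits) :
    ∃ d : F, d ≠ 0 ∧ d ∈ A.nonunits ∧ (∃ x ∈ A, a = d * x) ∧ (∃ y ∈ A, b = d * y) := by
  rcases A.mem_or_inv_mem (a / b) with h | h
  · exact ⟨b, hb0, hb, ⟨a / b, h, by field_simp⟩, ⟨1, one_mem _, by ring⟩⟩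
  · refine ⟨a, ha0, ha, ⟨1, one_mem _, by ring⟩, ⟨b / a, ?_, by field_simp⟩⟩
    rwa [inv_div] at h

end Mono

/-! ## Constants in the two Gauss rings -/

section Const

variable (N : ℕ) [NeZero N] (A : ValuationSubring Kbar) {ℓ : ℕ} (hℓ : ℓ ≠ 0)
  (hA : (ℓ : Kbar) ∈ A.nonunits)

theorem cF_mem_Vinf {a : Kbar} (ha : a ∈ A) : cF N a ∈ Vinf N A hℓ hA :=
  (algebraMap_mem_gaussInf_iff (intGen_full N)
    (attainsMax_Qbar hℓ hA (modularFunctionFieldFull N)) a).2 ha

theorem cF_mem_Vzero {a : Kbar} (ha : a ∈ A) : cF N a ∈ Vzero N A hℓ hA := by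
  show wF N (cF N a) ∈ Vinf N A hℓ hA
  rw [cF, AlgEquiv.commutes]
  exact cF_mem_Vinf N A hℓ hA ha

end Const

theorem isAlgebraic_int_Kbar (x : Kbar) : IsAlgebraic ℤ x :=
  (IsFractionRing.isAlgebraic_iff ℤ ℚ Kbar).mpr
    ((AlgebraicClosure.isAlgebraic ℚ).isAlgebraic x)

/-! ## The chain -/

/-- **The chain.**  SL + NC + DK give the Kummer form of (S2) for `𝒮 = splitPart`, `p ≥ 5`. -/
theorem kummerChiFor_of_chain (hSL : SplitLiftStatement) (hNC : NormContrStatement)
    (hDK : DeepKummerStatement)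
    (p M' : ℕ) [NeZero M'] [NeZero p] [NeZero (p * M')] (hp : p.Prime) (hp5 : 5 ≤ p)
    (hpM : ¬ p ∣ M') (A : ValuationSubring Kbar) (hA : A.LiesOverPrime p) :
    KummerChiFor p M' A (splitPart p M' A) := by
  intro x hx hnew σ hσ c hc
  have hp2 : p ≠ 2 := by omega
  -- a Kummer generator with split reductions
  obtain ⟨f, hfK, hfS⟩ := splitClosed p M' hp hpM A hA x hx
  obtain ⟨hf0, D, hDx, hord⟩ := id hfK
  obtain ⟨-, hα, hβ⟩ := hnew
  rw [← hDx] at hα hβ
  -- both norms are `p`-th powers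
  obtain ⟨g₁, -, h₁⟩ :=
    (alphaL_mk_eq_zero_iff p M' hp.ne_zero D hf0 (fun w => (hord w).symm)).1 hα
  obtain ⟨g₂, -, h₂⟩ :=
    (betaL_mk_eq_zero_iff p M' hp.ne_zero D hf0 (fun w => (hord w).symm)).1 hβ
  -- depth one, with constants
  obtain ⟨⟨ϖ₁, hϖ₁0, hϖ₁, hd₁⟩, ⟨ϖ₂, hϖ₂0, hϖ₂, hd₂⟩⟩ := hSL p M' hp hpM A hA f hf0 hfS
  -- a common depth dividing `p`
  have hpA : (p : Kbar) ∈ A.nonunits := hA
  have hp0 : (p : Kbar) ≠ 0 := by exact_mod_cast hp.ne_zero
  obtain ⟨d, hd0, hd, ⟨x₁, hx₁, e₁⟩, ⟨x₂, hx₂, e₂⟩⟩ :=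
    exists_common_divisor A hϖ₁0 hϖ₂0 hϖ₁ hϖ₂
  obtain ⟨ϖ, hϖ0, hϖ, ⟨y₁, hy₁, e₃⟩, ⟨e, he, hpe⟩⟩ :=
    exists_common_divisor A hd0 hp0 hd hpA
  have hI : DeepC Kbar (Vinf (p * M') A hp.ne_zero hA) p (cF (p * M') ϖ) f := by
    refine hd₁.mono (a := cF (p * M') (y₁ * x₁))
      (cF_mem_Vinf (p * M') A hp.ne_zero hA (mul_mem hy₁ hx₁)) ?_
    rw [cF, cF, cF, ← map_mul, e₁, e₃]
    congr 1
    ring
  have hZ : DeepC Kbar (Vzero (p * M') A hp.ne_zero hA) p (cF (p * M') ϖ) f := by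
    refine hd₂.mono (a := cF (p * M') (y₁ * x₂))
      (cF_mem_Vzero (p * M') A hp.ne_zero hA (mul_mem hy₁ hx₂)) ?_
    rw [cF, cF, cF, ← map_mul, e₂, e₃]
    congr 1
    ring
  -- norm contraction
  have hnc := hNC p M' hp hp2 hpM A hA f g₁ g₂ hf0 h₁ h₂ ϖ hϖ0 hϖ ⟨e, he, hpe⟩ hI hZ
  -- rank one: `ϖ ^ n ∈ p² A`
  have hp20 : (p : Kbar) ^ 2 ≠ 0 := pow_ne_zero 2 hp0
  obtain ⟨n, hn⟩ := Fermat.Agent.A3.H675.harch A isAlgebraic_int_Kbar hp hpA ϖ
    ((p : Kbar) ^ 2) hϖ hp20
  have hpow : cF (p * M') ϖ ^ n =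
      cF (p * M') ((p : Kbar) ^ 2) * cF (p * M') (ϖ ^ n / (p : Kbar) ^ 2) := by
    rw [cF, cF, cF, ← map_pow, ← map_mul]
    congr 1
    field_simp
  obtain ⟨hnI, hnZ⟩ := hnc n
  have hI' := hnI.mono (cF_mem_Vinf (p * M') A hp.ne_zero hA hn) hpow
  have hZ' := hnZ.mono (cF_mem_Vzero (p * M') A hp.ne_zero hA hn) hpow
  -- deep Kummer classes are `χ`-eigen
  obtain ⟨y, a, ha0, hy0, hrel⟩ := hDK p M' hp hp5 hpM A hA σ hσ c hc f hf0
    (fun v => ⟨(D : Divisor Kbar (FF (p * M'))) v, hord v⟩) hI' hZ'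
  exact ⟨f, y, a, hfK, ha0, hy0, hrel⟩

/-- **(S2) for `p ≥ 5`** from the three leaves. -/
theorem s2Five_of_chain (hSL : SplitLiftStatement) (hNC : NormContrStatement)
    (hDK : DeepKummerStatement) : S2FiveStatement := by
  intro p M' _ _ _ hp hp5 hpM A hA
  exact s2For_of_kummerChi p M' A _ (kummerChiFor_of_chain hSL hNC hDK p M' hp hp5 hpM A hA)

/-- The four targets for `p ≥ 5` with (S2) only for `p ≥ 5` (`H884.wallTargets5_of` asks for
(S2) at all odd primes). -/
theorem wallTargets5_of_five (h1 : S1Statement) (h2 : S2FiveStatement)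
    (hR : ResFieldStatement) (hD : DlogOutStatement) (h3 : H764.I3.R3PStatement)
    (hE : EisSlopeStatement) : WallTargets5Statement := by
  intro p M' _ _ _ hp hp5 hpM A hA
  have hp2 : p ≠ 2 := by omega
  exact ⟨finPart p M' A, splitPart p M' A, h1 p M' hp hpM A hA, h2 p M' hp hp5 hpM A hA,
    s3For_of hR hD h3 p M' hp hp2 hpM A hA, s4For_of hE p M' hp hp5 hpM A hA⟩

/-- **The four targets for `p ≥ 5`** from the (S2)-chain leaves and the other leaves of
`H884/SlopeSpec.lean` (`(S1)` = `H884.s1`). -/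
theorem wallTargets5_of_chain (hSL : SplitLiftStatement) (hNC : NormContrStatement)
    (hDK : DeepKummerStatement) (hR : ResFieldStatement) (hD : DlogOutStatement)
    (h3 : H764.I3.R3PStatement) (hE : EisSlopeStatement) : WallTargets5Statement :=
  wallTargets5_of_five s1 (s2Five_of_chain hSL hNC hDK) hR hD h3 hE

end Fermat.Agent.Ribet.H220

end

end
-- ===== PACK-END Ribet/H220/S2Glue.lean

-- ===== PACK-BEGIN S33/H862/SplitAdapter.lean
section




/-!
# S33 / RIBET wall-`p` — the adapter `splitMin ≤ splitPart` (helper862)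

`S33.H855.splitMin A hp hA N` (valuation form: classes with a Kummer generator which is
`constant × (1 + 𝔪)` at both Gauss rings `VinfModular`, `VzeroModular` of `A2/H553`) is contained in
`Ribet.H884.splitPart p M' A` (`t`-expansion form: classes with a Kummer generator whose two
reductions are `PDivSeries` and `SplitSeries`), `N = p * M'`.

Proof: a function `f = c · (1 + m)`, `v∞(m) < 1`, has the reduction `1` on `C∞`
(`isRedInf_one_of_constOne`: normal form `f · U₂ = c · U₁` with `Ū₁ = Ū₂`), the same for `w_N f`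
on `C₀`; the constant series `1` is `PDivSeries` and `SplitSeries`.

Consequence: every statement of the form `∀ x ∈ splitPart, …` (e.g. `Ribet.H884.S2Statement`,
`Wall.S2For`) restricts to `splitMin`, for which (S1⁺) is `S33.H855.aug_le_splitMin`.
-/

set_option autoImplicit false
set_option linter.unusedSectionVars false
set_option linter.style.haveILetI false
set_option synthInstance.maxHeartbeats 400000
set_option maxHeartbeats 1000000

noncomputable section

namespace Fermat.Agent.S33.H862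

open AlgebraicCurve ModularCurve HahnSeries
open Fermat.Agent.S24 Fermat.Agent.A2.H708 Fermat.Agent.A2.H528 Fermat.Agent.A2.H129
open Fermat.Agent.Ribet.H884

section Red

variable {N : ℕ} [NeZero N] (A : ValuationSubring Kbar) {p : ℕ} (hp : p ≠ 0)
  (hA : A.LiesOverPrime p)

/-- The Gauss valuation ring of `A2/H553` is the one of `A2/H708`. -/
theorem vinfModular_eq_gaussInf :
    Fermat.Agent.A2.H553.VinfModular A hp hA N =
      gaussInf A (modularFunctionFieldFull N) (intGen_full N)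
        (attainsMax_Qbar hp hA (modularFunctionFieldFull N)) :=
  Fermat.Agent.A2.H553.Vinf_eq_gaussInf _ _ _

/-- A function in `1 + 𝔪_{V∞}` has a normal form `g · U₂ = U₁` with `Ū₁ = Ū₂ ≠ 0`. -/
theorem exists_normal_form_of_oneAddNonunits {g : FF N}
    (hg : OneAddNonunits (Fermat.Agent.A2.H553.VinfModular A hp hA N) g) :
    ∃ U₁ U₂ : LaurentSeries A, red A U₁ ≠ 0 ∧ red A U₂ ≠ 0 ∧
      (g : LaurentSeries Kbar) * incl A U₂ = incl A U₁ ∧ red A U₂ = red A U₁ := by
  rw [vinfModular_eq_gaussInf A hp hA] at hg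
  have hgen := intGen_full N
  have hmax := attainsMax_Qbar (A := A) hp hA (modularFunctionFieldFull N)
  have hg1 : (gaussInf A (modularFunctionFieldFull N) hgen hmax).valuation (g - 1) < 1 := hg
  -- `v(g) = 1`
  have hvg : (gaussInf A (modularFunctionFieldFull N) hgen hmax).valuation g = 1 := by
    have h := Valuation.map_add_eq_of_lt_left
      (gaussInf A (modularFunctionFieldFull N) hgen hmax).valuation
      (show (gaussInf A (modularFunctionFieldFull N) hgen hmax).valuation (g - 1) <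
        (gaussInf A (modularFunctionFieldFull N) hgen hmax).valuation (1 : FF N) by
          rw [_root_.map_one]; exact hg1)
    rw [_root_.map_one] at h
    have e : (1 : FF N) + (g - 1) = g := by ring
    rw [e] at h
    exact h
  have hg0 : g ≠ 0 := by
    rintro rfl
    rw [_root_.map_zero] at hvg
    exact zero_ne_one hvg
  have hg0' : (g : LaurentSeries Kbar) ≠ 0 := fun h => hg0 (Subtype.ext h)
  obtain ⟨c, U₁, U₂, hc, h₁, h₂, hm₁, hm₂, he⟩ :=
    exists_normal_form (A := A) hgen hmax g.2 hg0'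
  have hle : A.valuation c ≤ 1 :=
    (valuation_le_one_iff_of_normal_form hgen hmax h₁ h₂ hm₂ he).mp (le_of_eq hvg)
  have hnlt : ¬ A.valuation c < 1 := fun hlt =>
    absurd ((valuation_lt_one_iff_of_normal_form hgen hmax hc h₁ h₂ hm₁ he).mpr hlt)
      (by rw [hvg]; exact lt_irrefl _)
  have hcA : c ∈ A := (A.valuation_le_one_iff c).mp hle
  have hres : IsLocalRing.residue A (⟨c, hcA⟩ : A) ≠ 0 := by
    intro h0
    rw [IsLocalRing.residue_eq_zero_iff] at h0
    exact hnlt ((A.valuation_lt_one_iff _).mp h0)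
  -- absorb the unit constant into `U₁`
  have he' : (g : LaurentSeries Kbar) * incl A U₂ = incl A (cstA A ⟨c, hcA⟩ * U₁) := by
    rw [_root_.map_mul, incl_cstA]
    exact he
  have h₁' : red A (cstA A ⟨c, hcA⟩ * U₁) ≠ 0 := by
    rw [_root_.map_mul, red_cstA]
    refine mul_ne_zero ?_ h₁
    exact HahnSeries.single_ne_zero hres
  refine ⟨cstA A ⟨c, hcA⟩ * U₁, U₂, h₁', h₂, he', ?_⟩
  -- the difference has reduction `0`
  by_contra hne
  have hD0 : red A (cstA A ⟨c, hcA⟩ * U₁ - U₂) ≠ 0 := by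
    rw [_root_.map_sub]
    intro h0
    exact hne (sub_eq_zero.mp h0).symm
  have hcoe : (((g - 1 : FF N)) : LaurentSeries Kbar) = (g : LaurentSeries Kbar) - 1 := rfl
  have heD : (((g - 1 : FF N)) : LaurentSeries Kbar) * incl A U₂ =
      cst (1 : Kbar) * incl A (cstA A ⟨c, hcA⟩ * U₁ - U₂) := by
    rw [hcoe, cst_one, one_mul, _root_.map_sub, ← he']
    ring
  have hmD : incl A (cstA A ⟨c, hcA⟩ * U₁ - U₂) ∈
      laurentBaseChange Kbar (modularFunctionFieldFull N) := by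
    have h1 : incl A (cstA A ⟨c, hcA⟩ * U₁ - U₂) =
        (((g - 1 : FF N)) : LaurentSeries Kbar) * incl A U₂ := by
      rw [heD, cst_one, one_mul]
    rw [h1]
    exact mul_mem (g - 1).2 hm₂
  have hlt1 := (valuation_lt_one_iff_of_normal_form hgen hmax one_ne_zero hD0 h₂ hmD heD).mp hg1
  rw [_root_.map_one] at hlt1
  exact lt_irrefl _ hlt1

/-- **Reduction `1` on `C∞`**: a function which is `constant × (1 + 𝔪)` at `V∞` has the
reduction `1`. -/
theorem isRedInf_one_of_constOne {f : FF N}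
    (hf : Fermat.Agent.S33.H855.ConstOne
      (Fermat.Agent.A2.H553.constField (modularFunctionFieldFull N))
      (Fermat.Agent.A2.H553.VinfModular A hp hA N) f) :
    IsRedInf N A f 1 := by
  obtain ⟨c, ⟨c₀, rfl⟩, hc, hone⟩ := hf
  have hc₀ : c₀ ≠ 0 := by
    rintro rfl
    exact hc (_root_.map_zero _)
  obtain ⟨U₁, U₂, h₁, h₂, he, hr⟩ := exists_normal_form_of_oneAddNonunits A hp hA hone
  refine ⟨c₀, U₁, U₂, hc₀, h₁, h₂, ?_, by rw [one_mul]; exact hr⟩
  have hcoe : ((f * (algebraMap Kbar (FF N) c₀)⁻¹ : FF N) : LaurentSeries Kbar) =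
      (f : LaurentSeries Kbar) * (cst c₀)⁻¹ := by
    rw [IntermediateField.coe_mul, IntermediateField.coe_inv]
    rfl
  have he2 : (f : LaurentSeries Kbar) * (cst c₀)⁻¹ * incl A U₂ = incl A U₁ := by
    rw [← hcoe]
    exact he
  calc (f : LaurentSeries Kbar) * incl A U₂
      = cst c₀ * ((f : LaurentSeries Kbar) * (cst c₀)⁻¹ * incl A U₂) := by
        have hne := cst_ne_zero hc₀
        field_simp
    _ = cst c₀ * incl A U₁ := by rw [he2]

/-- `constant × (1 + 𝔪)` at `V₀` for `f` is `constant × (1 + 𝔪)` at `V∞` for `w_N f`. -/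
theorem constOne_wF_of_constOne_Vzero {f : FF N}
    (hf : Fermat.Agent.S33.H855.ConstOne
      (Fermat.Agent.A2.H553.constField (modularFunctionFieldFull N))
      (Fermat.Agent.A2.H553.VzeroModular A hp hA N) f) :
    Fermat.Agent.S33.H855.ConstOne
      (Fermat.Agent.A2.H553.constField (modularFunctionFieldFull N))
      (Fermat.Agent.A2.H553.VinfModular A hp hA N) (wF N f) := by
  obtain ⟨c, hcK, hc, hone⟩ := hf
  refine ⟨c, hcK, hc, ?_⟩
  have h1 : (Fermat.Agent.A2.H553.VzeroModular A hp hA N).valuation (f * c⁻¹ - 1) < 1 := hone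
  rw [Fermat.Agent.A2.H553.VzeroModular_eq_comapAut,
    Fermat.Agent.A2.H553.valuation_comapAut_lt_one_iff] at h1
  have h2 : (wF N).toRingEquiv (f * c⁻¹ - 1) = wF N f * c⁻¹ - 1 := by
    show wF N (f * c⁻¹ - 1) = wF N f * c⁻¹ - 1
    rw [_root_.map_sub, _root_.map_mul, map_inv₀, _root_.map_one, Fermat.Agent.A2.H553.wF_const N hcK]
  rw [h2] at h1
  exact h1

/-- **Reduction `1` on `C₀`.** -/
theorem isRedZero_one_of_constOne {f : FF N}
    (hf : Fermat.Agent.S33.H855.ConstOne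
      (Fermat.Agent.A2.H553.constField (modularFunctionFieldFull N))
      (Fermat.Agent.A2.H553.VzeroModular A hp hA N) f) :
    IsRedZero N A f 1 :=
  isRedInf_one_of_constOne A hp hA (constOne_wF_of_constOne_Vzero A hp hA hf)

end Red

section Series

/-- The constant series `1` has all orders divisible by `p`. -/
theorem pDivSeries_one (p M' : ℕ) (k : Type) [Field k] :
    PDivSeries p M' (1 : LaurentSeries k) :=
  ⟨1, rfl, one_ne_zero, fun Q => by rw [Place.ord_one]; exact dvd_zero _⟩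

/-- The constant series `1` lies in `k((t^p))`. -/
theorem splitSeries_one (p : ℕ) (k : Type) [Field k] :
    SplitSeries p (1 : LaurentSeries k) := by
  intro n hn
  have hn0 : n ≠ 0 := by
    rintro rfl
    exact hn (dvd_zero _)
  rw [HahnSeries.coeff_one, if_neg hn0]

end Series

section Main

variable (p M' : ℕ) [NeZero (p * M')] (A : ValuationSubring Kbar) (hp : p ≠ 0)
  (hA : A.LiesOverPrime p)

/-- A function with constant reductions on both components is `SplitGen`. -/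
theorem splitGen_of_constRed {f : FF (p * M')}
    (hf : f ∈ Fermat.Agent.S33.H855.constRed A hp hA (p * M')) : SplitGen p M' A f :=
  ⟨1, 1, isRedInf_one_of_constOne A hp hA hf.1, isRedZero_one_of_constOne A hp hA hf.2,
    _root_.Fermat.Agent.S33.H862.pDivSeries_one p M' _, _root_.Fermat.Agent.S33.H862.pDivSeries_one p M' _, _root_.Fermat.Agent.S33.H862.splitSeries_one p _, _root_.Fermat.Agent.S33.H862.splitSeries_one p _⟩

/-- `splitMin ⊆ splitSet`. -/
theorem mem_splitSet_of_mem_splitMin {y : JZero (p * M')}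
    (hy : y ∈ Fermat.Agent.S33.H855.splitMin A hp hA (p * M')) : y ∈ splitSet p M' A := by
  obtain ⟨D, h, hh0, hhC, hD, hord⟩ := hy
  exact ⟨h, ⟨hh0, D, hD, hord⟩, splitGen_of_constRed p M' A hp hA hhC⟩

/-- **The adapter**: `splitMin ≤ splitPart`. -/
theorem splitMin_le_splitPart :
    Fermat.Agent.S33.H855.splitMin A hp hA (p * M') ≤ splitPart p M' A :=
  fun _ hy => AddSubgroup.subset_closure (mem_splitSet_of_mem_splitMin p M' A hp hA hy)

/-- `splitMin ≤ finPart`. -/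
theorem splitMin_le_finPart :
    Fermat.Agent.S33.H855.splitMin A hp hA (p * M') ≤ finPart p M' A :=
  (splitMin_le_splitPart p M' A hp hA).trans (splitPart_le_finPart p M' A)

end Main

end Fermat.Agent.S33.H862

end

end
-- ===== PACK-END S33/H862/SplitAdapter.lean

-- ===== PACK-BEGIN S33/H862/OrdFil.lean
section




/-!
# S33, leaf NEW — `OrdFilStatement` from the RIBET leaf (S2) (helper862)

`ordFil_of_s2 : Ribet.H884.S2Statement → S33.OrdFilStatement` (VERBATIM `S33/Spec2.lean`):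

* `α, β` := `Ribet.H801.alphaL`, `betaL` (W-DEG, on main);
* `𝒮` := `S33.H855.splitMin` (classes with a Kummer generator with constant reductions);
* (S1⁺) = `S33.H855.aug_le_splitMin` (on main, unconditional);
* (S2) for `splitMin` = restriction of (S2) for `splitPart` along the adapter
  `S33.H862.splitMin_le_splitPart`.

So S33 needs from the wall at `p` EXACTLY `Ribet.H884.S2Statement`, with no change of its shape.
Also `ordFil_of_s2For` for any family of subgroups `𝒮 ⊇ splitMin` satisfying `Wall.S2For`.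
-/

set_option autoImplicit false
set_option linter.unusedSectionVars false
set_option linter.style.haveILetI false
set_option synthInstance.maxHeartbeats 400000
set_option maxHeartbeats 1000000

noncomputable section

namespace Fermat.Agent.S33.H862

open ModularCurve
open Fermat.Agent.Ribet.H884 Fermat.Agent.Ribet.H944.Wall Fermat.Agent.Ribet.H801

/-- (S1⁺) for `splitMin`, in the shape of `S33.OrdFilStatement`. -/
theorem mem_splitMin_of_inSPlus {p : ℕ} (hp : p.Prime) (N : ℕ) [NeZero N]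
    (A : ValuationSubring (AlgebraicClosure ℚ)) (hA : A.LiesOverPrime p) (x : JZero N)
    (hx : Fermat.Agent.S33.InSPlus (A.inertiaSubgroupIn ℚ) p x) :
    x ∈ Fermat.Agent.S33.H855.splitMin A hp.ne_zero hA N := by
  obtain ⟨hpx, n, hn⟩ := hx
  refine Fermat.Agent.S33.H855.aug_le_splitMin A hp.ne_zero hA N hp n x ?_ hpx
  refine AddSubgroup.closure_mono ?_ hn
  rintro z ⟨σ, hσ, y, hy, rfl⟩
  refine ⟨σ, hσ, y, ?_, rfl⟩
  have hy' : p ^ n • y = 0 := hy
  rw [pow_succ, mul_nsmul, hy', nsmul_zero]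

/-- **NEW** from (S2) for any subgroups containing `splitMin`. -/
theorem ordFil_of_s2For
    (𝒮 : ∀ (p M' : ℕ) [NeZero (p * M')] (_ : ValuationSubring (AlgebraicClosure ℚ)),
      AddSubgroup (JZero (p * M')))
    (hle : ∀ (p M' : ℕ) [NeZero (p * M')] (hp : p.Prime)
      (A : ValuationSubring (AlgebraicClosure ℚ)) (hA : A.LiesOverPrime p),
      Fermat.Agent.S33.H855.splitMin A hp.ne_zero hA (p * M') ≤ 𝒮 p M' A)
    (h2 : ∀ (p M' : ℕ) [NeZero M'] [NeZero p] [NeZero (p * M')], p.Prime → p ≠ 2 → ¬ p ∣ M' →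
      ∀ A : ValuationSubring (AlgebraicClosure ℚ), A.LiesOverPrime p →
        S2For p M' A (𝒮 p M' A)) :
    Fermat.Agent.S33.OrdFilStatement := by
  intro p M' _ _ hp hp2 hpM
  haveI : NeZero p := ⟨hp.ne_zero⟩
  refine ⟨alphaL p M', betaL p M', alphaL_smul p M', betaL_smul p M', fun A hA => ?_⟩
  refine ⟨(Fermat.Agent.S33.H855.splitMin A hp.ne_zero hA (p * M') : Set (JZero (p * M'))),
    fun x hx => mem_splitMin_of_inSPlus hp (p * M') A hA x hx, ?_⟩
  intro x hx hpx hα hβ σ hσ c hc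
  exact h2 p M' hp hp2 hpM A hA x (hle p M' hp A hA hx) ⟨hpx, hα, hβ⟩ σ hσ c hc

/-- **NEW** (`S33.OrdFilStatement`) from the RIBET leaf (S2) (`Ribet.H884.S2Statement`). -/
theorem ordFil_of_s2 (h2 : S2Statement) : Fermat.Agent.S33.OrdFilStatement :=
  ordFil_of_s2For (fun p M' _ A => splitPart p M' A)
    (fun p M' _ hp A hA => splitMin_le_splitPart p M' A hp.ne_zero hA)
    (fun p M' _ _ _ hp hp2 hpM A hA => h2 p M' hp hp2 hpM A hA)

end Fermat.Agent.S33.H862

end

end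
-- ===== PACK-END S33/H862/OrdFil.lean

-- ===== PACK-BEGIN S33/H92/ReadyChain.lean
section



/-!
# S33 — the chain from the wall at READY levels (helper92)

`Ribet.H884.S2Statement` cannot be produced by the wall at the levels `3 M'` with `M'` odd
(no semistable model `A2.ModSSData` at `q = 3` there).  This file states the READY form of (S2)
and wires it to (K):

* `S2ReadyStatement`        : `Ribet.H884.S2Statement` with the extra hypothesis `p = 3 → 2 ∣ M'`;
* `s2Ready_of_s2`           : the full statement implies the READY one;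
* `ordFilReady_of_s2Ready`  : `S2ReadyStatement → OrdFilReadyStatement`
                              (the proof of `S33.H862.ordFil_of_s2`, level by level);
* `keyStatement_of_s2Ready` : `S2ReadyStatement → OldAugStatement → KeyStatement`.
-/

set_option autoImplicit false
set_option linter.unusedSectionVars false
set_option linter.style.haveILetI false
set_option synthInstance.maxHeartbeats 400000
set_option maxHeartbeats 1000000

noncomputable section

namespace Fermat.Agent.S33.H92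

open ModularCurve
open Fermat.Agent.Ribet.H884 Fermat.Agent.Ribet.H944.Wall Fermat.Agent.Ribet.H801

/-- **(S2) at READY levels**: `Ribet.H884.S2Statement` with the extra hypothesis
`p = 3 → 2 ∣ M'`. -/
def S2ReadyStatement : Prop :=
  ∀ (p M' : ℕ) [NeZero M'] [NeZero p] [NeZero (p * M')], p.Prime → p ≠ 2 → ¬ p ∣ M' →
    (p = 3 → 2 ∣ M') →
    ∀ A : ValuationSubring (AlgebraicClosure ℚ), A.LiesOverPrime p →
      S2For p M' A (splitPart p M' A)

/-- The full (S2) implies the READY one. -/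
theorem s2Ready_of_s2 (h : S2Statement) : S2ReadyStatement :=
  fun p M' _ _ _ hp hp2 hpM _ A hA => h p M' hp hp2 hpM A hA

/-- **NEW at READY levels** from (S2) at READY levels. -/
theorem ordFilReady_of_s2Ready (h2 : S2ReadyStatement) : OrdFilReadyStatement := by
  intro p M' _ _ hp hp2 hpM hr
  haveI : NeZero p := ⟨hp.ne_zero⟩
  refine ⟨alphaL p M', betaL p M', alphaL_smul p M', betaL_smul p M', fun A hA => ?_⟩
  refine ⟨(Fermat.Agent.S33.H855.splitMin A hp.ne_zero hA (p * M') : Set (JZero (p * M'))),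
    fun x hx => Fermat.Agent.S33.H862.mem_splitMin_of_inSPlus hp (p * M') A hA x hx, ?_⟩
  intro x hx hpx hα hβ σ hσ c hc
  exact h2 p M' hp hp2 hpM hr A hA x
    (Fermat.Agent.S33.H862.splitMin_le_splitPart p M' A hp.ne_zero hA hx) ⟨hpx, hα, hβ⟩ σ hσ c hc

/-- **KEY from (S2) at READY levels.** -/
theorem keyStatement_of_s2Ready (h2 : S2ReadyStatement)
    (hOLD : Fermat.Agent.S33.OldAugStatement) : Fermat.Agent.S33.KeyStatement :=
  keyStatement_of_ready (ordFilReady_of_s2Ready h2) hOLD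

end Fermat.Agent.S33.H92

end

end
-- ===== PACK-END S33/H92/ReadyChain.lean

-- ===== PACK-BEGIN S33/H849/S2Ready.lean
section



/-!
# S33 — the wall at `p` at READY levels (helper849): glue between the (S2)-chain of row 38 and
the level bridge of S33

Situation on main:

* `Ribet.H220.s2Five_of_chain : SL → NC → DK → S2FiveStatement` delivers (S2) only for `p ≥ 5`
  (the leaf `DeepKummerStatement` carries `5 ≤ p`);
* `S33.H862.ordFil_of_s2` asks for the FULL `Ribet.H884.S2Statement` (all odd `p`, all `M'`),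
  which the wall cannot deliver at `p = 3`, `M'` odd (no semistable model at `q = 3` unless
  `2 ∣ M'`);
* `S33.H92.keyStatement_of_ready` only needs `OrdFilReadyStatement`
  (`OrdFilStatement` at the levels with `p = 3 → 2 ∣ M'`).

* `S33.H92.keyStatement_of_s2Ready` (`S33/H92/ReadyChain.lean`) reduces S33 to
  `S33.H92.S2ReadyStatement` ((S2) at READY levels) and OLD.

This file closes the remaining gap, on the side of the (S2)-chain:

* `DeepKummerReadyStatement` : the leaf DK of `Ribet/H220/S2Spec.lean` with the hypothesis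
  `5 ≤ p` replaced by `p ≠ 2` and `p = 3 → 2 ∣ M'` (everything else VERBATIM);
* `kummerChiFor_of_chain_ready`,
  `s2Ready_of_chain : SL → NC → DKReady → S33.H92.S2ReadyStatement`;
* `keyStatement_of_chain    : SL → NC → DKReady → OldAugStatement → KeyStatement`;
* comparison lemmas `deepKummer_of_ready`, `s2Five_of_s2Ready`, `s2Ready_of_five_of_three`.
-/

set_option autoImplicit false
set_option linter.style.haveILetI false
set_option synthInstance.maxHeartbeats 400000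
set_option maxHeartbeats 1000000

noncomputable section

namespace Fermat.Agent.S33.H849

open AlgebraicCurve ModularCurve
open Fermat.Agent.S24 Fermat.Agent.A2.H708 Fermat.Agent.A2.H528
open Fermat.Agent.S29.H395 Fermat.Agent.S29.H801
open Fermat.Agent.Ribet.Spec Fermat.Agent.Ribet.H944.Wall Fermat.Agent.Ribet.H884
open Fermat.Agent.Ribet.H801 Fermat.Agent.Ribet.H912 Fermat.Agent.Ribet.H220
open Fermat.Agent.S33.H92 (S2ReadyStatement)

/-! ## The READY forms -/

/-- **DK at READY levels.**  The leaf `Ribet.H220.DeepKummerStatement` with `5 ≤ p` replaced by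
`p ≠ 2` and `p = 3 → 2 ∣ M'` (the levels at which the semistable model at `q = p` exists). -/
def DeepKummerReadyStatement : Prop :=
  ∀ (p M' : ℕ) [NeZero M'] [NeZero p] [NeZero (p * M')] (hp : p.Prime), p ≠ 2 →
    (p = 3 → 2 ∣ M') → ¬ p ∣ M' →
    ∀ (A : ValuationSubring Kbar) (hA : A.LiesOverPrime p),
    ∀ σ ∈ A.inertiaSubgroupIn ℚ, ∀ c : ℕ, CycloAt p σ c →
    ∀ f : FF (p * M'), f ≠ 0 → (∀ v : Place Kbar (FF (p * M')), (p : ℤ) ∣ v.ord f) →
      Deep (Vinf (p * M') A hp.ne_zero hA) p (cF (p * M') ((p : Kbar) ^ 2)) f →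
      Deep (Vzero (p * M') A hp.ne_zero hA) p (cF (p * M') ((p : Kbar) ^ 2)) f →
      ∃ (y : FF (p * M')) (a : Kbar), a ≠ 0 ∧ y ≠ 0 ∧
        arithmeticRingAut (modularFunctionFieldFull (p * M')) σ f =
          algebraMap Kbar (FF (p * M')) a * y ^ p * f ^ c

/-! ## Comparison with the forms on main -/

/-- The READY form of DK implies the `p ≥ 5` form of `Ribet/H220/S2Spec.lean`. -/
theorem deepKummer_of_ready (h : DeepKummerReadyStatement) : DeepKummerStatement := by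
  intro p M' _ _ _ hp hp5 hpM A hA σ hσ c hc f hf0 hord hI hZ
  exact h p M' hp (by omega) (by omega) hpM A hA σ hσ c hc f hf0 hord hI hZ

/-- The READY form implies the `p ≥ 5` form. -/
theorem s2Five_of_s2Ready (h : S2ReadyStatement) : S2FiveStatement :=
  fun p M' _ _ _ hp hp5 hpM A hA => h p M' hp (by omega) hpM (by omega) A hA

/-- The READY form from the `p ≥ 5` form and the case `p = 3`, `2 ∣ M'`. -/
theorem s2Ready_of_five_of_three (h5 : S2FiveStatement)
    (h3 : ∀ (M' : ℕ) [NeZero M'] [NeZero 3] [NeZero (3 * M')], ¬ 3 ∣ M' → 2 ∣ M' →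
      ∀ A : ValuationSubring Kbar, A.LiesOverPrime 3 → S2For 3 M' A (splitPart 3 M' A)) :
    S2ReadyStatement := by
  intro p M' _ _ _ hp hp2 hpM hr A hA
  by_cases hp3 : p = 3
  · subst hp3
    exact h3 M' hpM (hr rfl) A hA
  · have hp5 : 5 ≤ p := by
      rcases Nat.lt_or_ge p 5 with h | h
      · exfalso
        have h2 := hp.two_le
        interval_cases p
        · exact hp2 rfl
        · exact hp3 rfl
        · exact absurd hp (by decide)
      · exact h
    exact h5 p M' hp hp5 hpM A hA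

/-! ## The chain at READY levels -/

/-- **The chain at READY levels.**  SL + NC + DK(READY) give the Kummer form of (S2) for
`𝒮 = splitPart` at every odd `p`, with `2 ∣ M'` if `p = 3`.  (The proof of
`Ribet.H220.kummerChiFor_of_chain`; only DK sees the prime.) -/
theorem kummerChiFor_of_chain_ready (hSL : SplitLiftStatement) (hNC : NormContrStatement)
    (hDK : DeepKummerReadyStatement)
    (p M' : ℕ) [NeZero M'] [NeZero p] [NeZero (p * M')] (hp : p.Prime) (hp2 : p ≠ 2)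
    (hr : p = 3 → 2 ∣ M')
    (hpM : ¬ p ∣ M') (A : ValuationSubring Kbar) (hA : A.LiesOverPrime p) :
    KummerChiFor p M' A (splitPart p M' A) := by
  intro x hx hnew σ hσ c hc
  -- a Kummer generator with split reductions
  obtain ⟨f, hfK, hfS⟩ := splitClosed p M' hp hpM A hA x hx
  obtain ⟨hf0, D, hDx, hord⟩ := id hfK
  obtain ⟨-, hα, hβ⟩ := hnew
  rw [← hDx] at hα hβ
  -- both norms are `p`-th powers
  obtain ⟨g₁, -, h₁⟩ :=
    (alphaL_mk_eq_zero_iff p M' hp.ne_zero D hf0 (fun w => (hord w).symm)).1 hα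
  obtain ⟨g₂, -, h₂⟩ :=
    (betaL_mk_eq_zero_iff p M' hp.ne_zero D hf0 (fun w => (hord w).symm)).1 hβ
  -- depth one, with constants
  obtain ⟨⟨ϖ₁, hϖ₁0, hϖ₁, hd₁⟩, ⟨ϖ₂, hϖ₂0, hϖ₂, hd₂⟩⟩ := hSL p M' hp hpM A hA f hf0 hfS
  -- a common depth dividing `p`
  have hpA : (p : Kbar) ∈ A.nonunits := hA
  have hp0 : (p : Kbar) ≠ 0 := by exact_mod_cast hp.ne_zero
  obtain ⟨d, hd0, hd, ⟨x₁, hx₁, e₁⟩, ⟨x₂, hx₂, e₂⟩⟩ :=
    exists_common_divisor A hϖ₁0 hϖ₂0 hϖ₁ hϖ₂
  obtain ⟨ϖ, hϖ0, hϖ, ⟨y₁, hy₁, e₃⟩, ⟨e, he, hpe⟩⟩ :=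
    exists_common_divisor A hd0 hp0 hd hpA
  have hI : DeepC Kbar (Vinf (p * M') A hp.ne_zero hA) p (cF (p * M') ϖ) f := by
    refine hd₁.mono (a := cF (p * M') (y₁ * x₁))
      (cF_mem_Vinf (p * M') A hp.ne_zero hA (mul_mem hy₁ hx₁)) ?_
    rw [cF, cF, cF, ← map_mul, e₁, e₃]
    congr 1
    ring
  have hZ : DeepC Kbar (Vzero (p * M') A hp.ne_zero hA) p (cF (p * M') ϖ) f := by
    refine hd₂.mono (a := cF (p * M') (y₁ * x₂))
      (cF_mem_Vzero (p * M') A hp.ne_zero hA (mul_mem hy₁ hx₂)) ?_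
    rw [cF, cF, cF, ← map_mul, e₂, e₃]
    congr 1
    ring
  -- norm contraction
  have hnc := hNC p M' hp hp2 hpM A hA f g₁ g₂ hf0 h₁ h₂ ϖ hϖ0 hϖ ⟨e, he, hpe⟩ hI hZ
  -- rank one: `ϖ ^ n ∈ p² A`
  have hp20 : (p : Kbar) ^ 2 ≠ 0 := pow_ne_zero 2 hp0
  obtain ⟨n, hn⟩ := Fermat.Agent.A3.H675.harch A isAlgebraic_int_Kbar hp hpA ϖ
    ((p : Kbar) ^ 2) hϖ hp20
  have hpow : cF (p * M') ϖ ^ n =
      cF (p * M') ((p : Kbar) ^ 2) * cF (p * M') (ϖ ^ n / (p : Kbar) ^ 2) := by
    rw [cF, cF, cF, ← map_pow, ← map_mul]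
    congr 1
    field_simp
  obtain ⟨hnI, hnZ⟩ := hnc n
  have hI' := hnI.mono (cF_mem_Vinf (p * M') A hp.ne_zero hA hn) hpow
  have hZ' := hnZ.mono (cF_mem_Vzero (p * M') A hp.ne_zero hA hn) hpow
  -- deep Kummer classes are `χ`-eigen
  obtain ⟨y, a, ha0, hy0, hrel⟩ := hDK p M' hp hp2 hr hpM A hA σ hσ c hc f hf0
    (fun v => ⟨(D : Divisor Kbar (FF (p * M'))) v, hord v⟩) hI' hZ'
  exact ⟨f, y, a, hfK, ha0, hy0, hrel⟩

/-- **(S2) at READY levels** from the three leaves (DK in its READY form). -/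
theorem s2Ready_of_chain (hSL : SplitLiftStatement) (hNC : NormContrStatement)
    (hDK : DeepKummerReadyStatement) : S2ReadyStatement := by
  intro p M' _ _ _ hp hp2 hpM hr A hA
  exact s2For_of_kummerChi p M' A _
    (kummerChiFor_of_chain_ready hSL hNC hDK p M' hp hp2 hr hpM A hA)

/-! ## S33: the wall at READY levels -/

/-- **KEY of S33** from the three leaves of the (S2)-chain (DK in its READY form) and OLD. -/
theorem keyStatement_of_chain (hSL : SplitLiftStatement) (hNC : NormContrStatement)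
    (hDK : DeepKummerReadyStatement) (hOLD : Fermat.Agent.S33.OldAugStatement) :
    Fermat.Agent.S33.KeyStatement :=
  Fermat.Agent.S33.H92.keyStatement_of_s2Ready (s2Ready_of_chain hSL hNC hDK) hOLD

end Fermat.Agent.S33.H849

end

end
-- ===== PACK-END S33/H849/S2Ready.lean

-- ===== PACK-BEGIN Ribet/H220/S2Level.lean
section






/-!
# Row 38, WALL-p, **(S2)**: sub-interface of the leaf DK (`H220.DeepKummerStatement`)
(chain architect helper220; FROZEN Props, glue in `S2LevelGlue.lean` / `S2Descent.lean`)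

DK is proved at a good level `E ⊆ ℚ̄` (`A2.GoodField P E`) containing a primitive `p`-th root of
unity and the coefficients of the data, exactly as A2's `T1`:

    DK  ⟸  LevelStatement + GaussDescentStatement            (descent glue, `S2Descent.lean`)
    LevelStatement  ⟸  H495.AlgP.AlgPStatement + MergeStatement + CutLocStatement
                        + A2's MOD at `q = p` (S1, Sτ, L1, L4, L6, L8 from main; S2, S3, GOODRED)
                                                             (level glue, `S2LevelGlue.lean`)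

Vocabulary of `A2/Mod/Spec.lean`, `A2/Mod/Asm.lean` (level `N = M * p`, `V` with `Mod.IsVinf`,
`W` with `Mod.IsFricke`, `V₀ = V.comap W`, charts `Mod.chartAlg`, cuts `Mod.IsCut`) and of
`S2Spec.lean` (`OneMod`, `Deep`).

| leaf | Prop | content |
|---|---|---|
| LEVEL | `LevelStatement` | at a good level `E ∋ ζ_p`: `p ∣ div y`, `y ∈ Fˣᵖ(1 + p²V) ∩ Fˣᵖ(1 + p²V₀)` ⟹ `τ y = hᵖ·y^c` |
| GD    | `GaussDescentStatement` | `y ∈ F_E`, `ι y ∈ H708.Vinf` (Gauss ring over `P ⊆ ℚ̄`) ⟹ `y ∈ V∞(E)` (normal form over `R_E`) |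
| MERGE | `MergeStatement` | Mathlib + `H48.IsUnif`: two distinct discrete valuation rings, `f ∈ Fˣᵖ(1 + rV₁) ∩ Fˣᵖ(1 + rV₂)` ⟹ `f = hᵖ·u`, `u ∈ (1 + rV₁) ∩ (1 + rV₂)` (weak approximation) |
| CUTLOC| `CutLocStatement` | `V∞ = B_{p₁}`, `V₀ = B_{p₂}` for the charts `B` of the coordinates `x`, `x⁻¹` and the cuts `p₁ = B ∩ wV∞`, `p₂ = B ∩ wV₀` |
-/

set_option autoImplicit false
set_option synthInstance.maxHeartbeats 400000
set_option maxHeartbeats 1600000

noncomputable section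

namespace Fermat.Agent.Ribet.H220

open AlgebraicCurve ModularCurve
open Fermat.Agent.A2

/-- **LEVEL.**  `E` a good level for `P` (over `p ≥ 5`, `p ∤ M`) containing a primitive `p`-th
root of unity `ζ`; `N = M * p`; `V = V∞`, `W` the Fricke involution of `F_{N,E}`; `τ` in the
inertia group of `P` with `τ ζ = ζ ^ c`.  If `p ∣ div y` and `y` is a `p`-th power times an element
of `1 + p² V` at `V = V∞` and at `V = V₀ = V∞ ∘ W`, then `τ y = h ^ p · y ^ c`. -/
def LevelStatement : Prop :=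
  ∀ (P : ValuationSubring Qb) (E : IntermediateField ℚ Qb) (M p N : ℕ) [NeZero M] [NeZero p]
    [NeZero N], M * p = N → p.Prime → 5 ≤ p → ¬ p ∣ M → P.LiesOverPrime p →
    ∀ (hE : GoodField P E) (ζ : E), IsPrimitiveRoot ζ p →
    ∀ (V : ValuationSubring (FE E N)) (W : FE E N ≃ₐ[E] FE E N),
      Mod.IsVinf P E N V → Mod.IsFricke E N W →
    ∀ (τ : Qb ≃ₐ[ℚ] Qb) (hτ : τ ∈ P.inertiaSubgroupIn ℚ) (c : ℕ), hE.res τ hτ ζ = ζ ^ c →
    ∀ y : FE E N, y ≠ 0 → DivisibleDiv E p y →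
      Deep V p (algebraMap E (FE E N) ((p : E) ^ 2)) y →
      Deep (V.comap (W : FE E N →+* FE E N)) p (algebraMap E (FE E N) ((p : E) ^ 2)) y →
      ∃ h : FE E N, h ≠ 0 ∧
        arithmeticRingAut (modularFunctionFieldFull N) (hE.res τ hτ) y = h ^ p * y ^ c

/-- **GD (Gauss descent).**  If `R_E = P ∩ E` is a discrete valuation ring, a function of level
`E` whose image in `ℚ̄(X₀(N))` lies in the Gauss ring `H708.Vinf` (over `P`) lies in the Gauss
ring `V∞` of level `E`. -/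
def GaussDescentStatement : Prop :=
  ∀ (P : ValuationSubring Qb) (E : IntermediateField ℚ Qb) (N : ℕ) [NeZero N] {ℓ : ℕ}
    (hℓ : ℓ ≠ 0) (hP : (ℓ : Qb) ∈ P.nonunits), IsDiscreteValuationRing (RE P E) →
    ∀ V : ValuationSubring (FE E N), Mod.IsVinf P E N V →
    ∀ y : FE E N,
      T1.H669.iota E (modularFunctionFieldFull N) y ∈ H708.Vinf N P hℓ hP → y ∈ V

/-- **MERGE (weak approximation for two discrete valuation rings).**  `V₁ ≠ V₂` valuation
subrings of `F` with common uniformiser `π`, both archimedean; `r ∈ π V₁ ∩ π V₂`, `r ≠ 0`.  If `f`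
is a `p`-th power times an element of `1 + r V_i` for `i = 1` and for `i = 2`, then `f = h ^ p · u`
with ONE `h` and `u ∈ (1 + r V₁) ∩ (1 + r V₂)`. -/
def MergeStatement : Prop :=
  ∀ {F : Type} [Field F] (V₁ V₂ : ValuationSubring F) (π : F),
    H48.IsUnif V₁ π → H48.IsUnif V₂ π → V₁ ≠ V₂ →
    (∀ x : F, ∃ n : ℕ, π ^ n * x ∈ V₁) → (∀ x : F, ∃ n : ℕ, π ^ n * x ∈ V₂) →
    ∀ (p : ℕ) (r f : F), r ≠ 0 → r * π⁻¹ ∈ V₁ → r * π⁻¹ ∈ V₂ →
      Deep V₁ p r f → Deep V₂ p r f →
      ∃ h u : F, h ≠ 0 ∧ f = h ^ p * u ∧ OneMod V₁ r u ∧ OneMod V₂ r u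

/-- **CUTLOC.**  In the setting of A2's MOD (`Mod.Setting`, level `M * q`), for the chart `B` of
a coordinate `y ∈ {x, x⁻¹}` and the two cuts `p₁ = B ∩ w V∞`, `p₂ = B ∩ w V₀`: every element of
`V∞` is a fraction `a / b` with `a, b ∈ B`, `b ∉ p₁`, and every element of `V₀` is a fraction
`a / b` with `b ∉ p₂`  (`V∞ = B_{p₁}`, `V₀ = B_{p₂}`). -/
def CutLocStatement : Prop :=
  ∀ (P : ValuationSubring Qb) (E : IntermediateField ℚ Qb) (M q : ℕ) [NeZero M] [NeZero q]
    (w : RE P E), Mod.Setting P E M q w →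
    ∀ (V : ValuationSubring (FE E (M * q))) (W : FE E (M * q) ≃ₐ[E] FE E (M * q)),
      Mod.IsVinf P E (M * q) V → Mod.IsFricke E (M * q) W →
    ∀ y : FE E (M * q), Mod.IsCoord E M q y →
    ∀ p₁ p₂ : Ideal (Mod.chartAlg P E (M * q) y),
      Mod.IsCut P E (M * q) w V (Mod.chartAlg P E (M * q) y) p₁ →
      Mod.IsCut P E (M * q) w (V.comap (W : FE E (M * q) →+* FE E (M * q)))
        (Mod.chartAlg P E (M * q) y) p₂ →
      (∀ f ∈ V, ∃ a b : Mod.chartAlg P E (M * q) y, b ∉ p₁ ∧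
        f * (b : FE E (M * q)) = (a : FE E (M * q))) ∧
      (∀ f ∈ V.comap (W : FE E (M * q) →+* FE E (M * q)),
        ∃ a b : Mod.chartAlg P E (M * q) y, b ∉ p₂ ∧
          f * (b : FE E (M * q)) = (a : FE E (M * q)))

end Fermat.Agent.Ribet.H220

end

end
-- ===== PACK-END Ribet/H220/S2Level.lean

-- ===== PACK-BEGIN Ribet/H216/GaussDescent.lean
section



/-!
# Row 38 / S33, WALL-p, (S2), leaf **GD** (`H220.GaussDescentStatement`) — helper216

`gaussDescent : H220.GaussDescentStatement` (VERBATIM): if `R_E = P ∩ E` is a discrete valuation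
ring and `y ∈ F_{N,E}` has image `ι y ∈ ℚ̄(X₀(N))` in the Gauss ring `H708.Vinf` over `P`, then
`y` lies in the Gauss ring `V∞` of level `E`.

Proof: normal form `y · U₂ = c · U₁` over `R_E` (`H708.exists_normal_form`, `R_E` noetherian);
pushing the coefficients to `P` keeps `U₁, U₂` primitive, so `ι y · U₂' = c · U₁'` is a normal
form over `P` and `H708.isGaussInt_iff_of_normal_form` gives `c ∈ P`, i.e. `c ∈ R_E`; the same
lemma over `R_E` gives `y ∈ V∞`.
-/

set_option autoImplicit false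
set_option synthInstance.maxHeartbeats 400000
set_option maxHeartbeats 1600000

noncomputable section

namespace Fermat.Agent.Ribet.H216

open AlgebraicCurve ModularCurve HahnSeries
open Fermat.Agent.A2

/-- The inclusion `R_E → P` of valuation rings. -/
def reToP (P : ValuationSubring Qb) (E : IntermediateField ℚ Qb) : RE P E →+* P where
  toFun r := ⟨algebraMap E Qb (r : E), r.2⟩
  map_one' := Subtype.ext (_root_.map_one _)
  map_mul' _ _ := Subtype.ext (_root_.map_mul _ _ _)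
  map_zero' := Subtype.ext (_root_.map_zero _)
  map_add' _ _ := Subtype.ext (_root_.map_add _ _ _)

theorem coe_reToP (P : ValuationSubring Qb) (E : IntermediateField ℚ Qb) (r : RE P E) :
    ((reToP P E r : P) : Qb) = algebraMap E Qb (r : E) := rfl

/-- Pushing `R_E`-integral series to `P`-integral series commutes with the inclusions. -/
theorem incl_coeffMap_reToP (P : ValuationSubring Qb) (E : IntermediateField ℚ Qb)
    (U : LaurentSeries (RE P E)) :
    H708.incl P (coeffMap (reToP P E) U) = coeffMap (algebraMap E Qb) (H708.incl (RE P E) U) := by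
  rw [H708.incl, H708.incl, coeffMap_coeffMap, coeffMap_coeffMap]
  exact coeffMap_congr (RingHom.ext fun _ => rfl) U

/-- A unit of `R_E` is a unit of `P` (valuation form). -/
theorem valuation_reToP_eq_one (P : ValuationSubring Qb) (E : IntermediateField ℚ Qb)
    {e : E} (h : (RE P E).valuation e = 1) : P.valuation (algebraMap E Qb e) = 1 := by
  have he0 : e ≠ 0 := by
    rintro rfl
    rw [_root_.map_zero] at h
    exact zero_ne_one h
  have he0' : algebraMap E Qb e ≠ 0 :=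
    fun h0 => he0 ((map_eq_zero_iff _ (algebraMap E Qb).injective).mp h0)
  obtain ⟨h1, h2⟩ := (H708.valuation_eq_one_iff_mem (RE P E) he0).mp h
  refine (H708.valuation_eq_one_iff_mem P he0').mpr ⟨h1, ?_⟩
  have : algebraMap E Qb e⁻¹ ∈ P := h2
  rwa [map_inv₀] at this

/-- Primitive over `R_E` ⟹ primitive over `P`. -/
theorem red_coeffMap_reToP_ne_zero (P : ValuationSubring Qb) (E : IntermediateField ℚ Qb)
    {U : LaurentSeries (RE P E)} (h : H708.red (RE P E) U ≠ 0) :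
    H708.red P (coeffMap (reToP P E) U) ≠ 0 := by
  rw [H708.red_ne_zero_iff] at h ⊢
  obtain ⟨n, hn⟩ := h
  exact ⟨n, valuation_reToP_eq_one P E hn⟩

/-- **GD (Gauss descent)** — `H220.GaussDescentStatement`, verbatim. -/
theorem gaussDescent : H220.GaussDescentStatement := by
  intro P E N _ ℓ hℓ hP hdvr V hV y hy
  by_cases hy0 : y = 0
  · rw [hy0]; exact V.zero_mem
  have := hdvr
  have hy0' : ((y : FE E N) : LaurentSeries E) ≠ 0 := fun h => hy0 (Subtype.ext h)
  obtain ⟨c, U₁, U₂, hc, h₁, h₂, hm₁, hm₂, he⟩ :=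
    H708.exists_normal_form (A := RE P E) (H708.intGen_full N)
      (H708.attainsMax_of_isNoetherianRing (RE P E) (modularFunctionFieldFull N)) y.2 hy0'
  rw [hV y]
  rw [H708.isGaussInt_iff_of_normal_form h₁ h₂ hm₂ he]
  -- the normal form over `P`
  have h₁' := red_coeffMap_reToP_ne_zero P E h₁
  have h₂' := red_coeffMap_reToP_ne_zero P E h₂
  have hm₂' : H708.incl P (coeffMap (reToP P E) U₂) ∈
      laurentBaseChange Qb (modularFunctionFieldFull N) := by
    rw [incl_coeffMap_reToP]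
    exact Fermat.Agent.S18.H602.coeffMap_mem_laurentBaseChange _ _ hm₂
  have he' : ((T1.H669.iota E (modularFunctionFieldFull N) y :
        ↥(laurentBaseChange Qb (modularFunctionFieldFull N))) : LaurentSeries Qb) *
      H708.incl P (coeffMap (reToP P E) U₂) =
      H708.cst (algebraMap E Qb c) * H708.incl P (coeffMap (reToP P E) U₁) := by
    rw [incl_coeffMap_reToP, incl_coeffMap_reToP, T1.H669.coe_iota, ← _root_.map_mul, he, _root_.map_mul]
    congr 1
    exact Fermat.Agent.S18.H602.coeffMap_algebraMap' (algebraMap E Qb) c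
  have hG : H708.IsGaussInt P (modularFunctionFieldFull N)
      ((T1.H669.iota E (modularFunctionFieldFull N) y :
        ↥(laurentBaseChange Qb (modularFunctionFieldFull N))) : LaurentSeries Qb) := hy
  exact (H708.isGaussInt_iff_of_normal_form h₁' h₂' hm₂' he').mp hG

end Fermat.Agent.Ribet.H216

end

end
-- ===== PACK-END Ribet/H216/GaussDescent.lean

-- ===== PACK-BEGIN Ribet/H939/ResField.lean
section
/-
Row 38, WALL-p, leaf **RES** of `Ribet/H884/SlopeSpec.lean` (helper939):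
the residue field of a valuation subring of `ℚ̄` over `p` is algebraically closed of
characteristic `p`.

`resField : H884.ResFieldStatement`.
-/



set_option autoImplicit false

namespace Fermat.Agent.Ribet.H939

open Fermat.Agent.Ribet.H884

/-- Leaf **RES**. -/
theorem resField : ResFieldStatement := by
  intro p hp A hA
  refine ⟨Fermat.Agent.S18.H905.isAlgClosed_residueField A, ?_⟩
  rw [CharP.charP_iff_prime_eq_zero hp]
  exact Fermat.Agent.S18.H905.natCast_residue_eq_zero A hA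

end Fermat.Agent.Ribet.H939

end
-- ===== PACK-END Ribet/H939/ResField.lean

-- ===== PACK-BEGIN Ribet/H573/SplitLift.lean
section





/-!
# Row 38, WALL-p, bridge SPLIT-LIFT (helper573): from `H884.SplitGen` to `p`-th powers

Language of the hub `Ribet/H884/SlopeSpec.lean`.  `N = p * M'`, `p ∤ M'`, `A` over `p`,
`k = kA A`, `V∞ = H553.VinfModular A _ hA N`, `red∞ = H553.redInf`.

* `isRedInf_iff`        : `IsRedInf N A f r ↔ ∃ c ≠ 0, f / c ∈ V∞ ∧ red∞ (f / c) = r ∧ r ≠ 0`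
                          (dictionary series form ↔ valuation form);
* `exists_lift_full`    : every `s ∈ F_k = modularFunctionFieldFullC k M`, `M ∣ N`, is the
                          reduction of an element of `V∞` (level `N`);
* `exists_isRedInf_full`: for `s ≠ 0` in `F_k`: `∃ g, IsRedInf N A g s`;
* **`splitLift_inf`**, **`splitLift_zero`** : if `f` has a reduction `r ∈ F_k ∩ k((t^p))` on `C∞`
  (resp. `C₀`) then `f = g ^ p · u` with `IsRedInf N A u 1` (resp. `IsRedZero`), i.e.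
  `f ∈ ℚ̄ˣ · (F_Nˣ)^p · (1 + 𝔪_{V∞})` (resp. `V₀`);
* `splitGen_lift`       : both, for `H884.SplitGen f`;
* `oneAddNonunits_of_isRedInf_one` : `IsRedInf N A u 1 → ∃ c ≠ 0, u / c ∈ 1 + 𝔪_{V∞}`
  (`H129.OneAddNonunits`, the depth-1 input of norm contraction).
-/

set_option autoImplicit false
set_option linter.unusedSectionVars false
set_option linter.style.haveILetI false
set_option synthInstance.maxHeartbeats 400000
set_option maxHeartbeats 1000000

noncomputable section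

namespace Fermat.Agent.Ribet.H573

open AlgebraicCurve ModularCurve HahnSeries IntermediateField
open Fermat.Agent.S24 Fermat.Agent.S28.H86
open Fermat.Agent.A2.H129 Fermat.Agent.A2.H553 Fermat.Agent.A2.H528
open Fermat.Agent.Ribet.H884

section Dict

variable {p : ℕ} (hp : p ≠ 0) {A : ValuationSubring Kbar} (hA : A.LiesOverPrime p) (N : ℕ)

/-- the coercion of a quotient by a constant -/
theorem coe_mul_cst_inv (f : FF N) (c : Kbar) :
    ((f * (algebraMap Kbar (FF N) c)⁻¹ : FF N) : LaurentSeries Kbar) =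
      (f : LaurentSeries Kbar) * (Fermat.Agent.A2.H708.cst c)⁻¹ := rfl

/-- **Dictionary, series form ⟹ valuation form.** -/
theorem exists_mem_of_isRedInf [NeZero N] {f : FF N} {r : LaurentSeries (kA A)}
    (h : IsRedInf N A f r) :
    ∃ c : Kbar, c ≠ 0 ∧ ∃ hm : f * (algebraMap Kbar (FF N) c)⁻¹ ∈ VInf p A hA N hp,
      redV p A hA N hp ⟨_, hm⟩ = r := by
  obtain ⟨c, U₁, U₂, hc, hU₁, hU₂, hrel, hr⟩ := h
  have hC : Fermat.Agent.A2.H708.cst c ≠ 0 := Fermat.Agent.A2.H708.cst_ne_zero hc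
  have hrel' : ((f * (algebraMap Kbar (FF N) c)⁻¹ : FF N) : LaurentSeries Kbar) *
      inclL A.toSubring U₂ = inclL A.toSubring U₁ := by
    rw [coe_mul_cst_inv]
    have e : (f : LaurentSeries Kbar) * (Fermat.Agent.A2.H708.cst c)⁻¹ * inclL A.toSubring U₂ =
        (Fermat.Agent.A2.H708.cst c)⁻¹ * ((f : LaurentSeries Kbar) * inclL A.toSubring U₂) := by
      ring
    rw [e]
    have hrel2 : (f : LaurentSeries Kbar) * inclL A.toSubring U₂ =
        Fermat.Agent.A2.H708.cst c * inclL A.toSubring U₁ := hrel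
    rw [hrel2, ← mul_assoc, inv_mul_cancel₀ hC, one_mul]
  have hb : redL (resA A) U₂ ≠ 0 := hU₂
  have hm : f * (algebraMap Kbar (FF N) c)⁻¹ ∈ VInf p A hA N hp := ⟨U₁, U₂, hb, hrel'⟩
  refine ⟨c, hc, hm, ?_⟩
  have hred : redV p A hA N hp ⟨_, hm⟩ = redL (resA A) U₁ / redL (resA A) U₂ :=
    redInf_eq (gaussInput_modular A hp hA N) ⟨_, hm⟩ U₁ U₂ hb hrel'
  rw [hred, div_eq_iff hb]
  exact hr.symm

/-- **Dictionary, valuation form ⟹ series form.** -/
theorem isRedInf_of_mem [NeZero N] {f : FF N} {c : Kbar} (hc : c ≠ 0)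
    (hm : f * (algebraMap Kbar (FF N) c)⁻¹ ∈ VInf p A hA N hp)
    {r : LaurentSeries (kA A)} (hr : redV p A hA N hp ⟨_, hm⟩ = r)
    (hr0 : r ≠ 0) : IsRedInf N A f r := by
  obtain ⟨a, b, hb, hab⟩ := hm
  have hred : redV p A hA N hp ⟨f * (algebraMap Kbar (FF N) c)⁻¹, ⟨a, b, hb, hab⟩⟩ =
      redL (resA A) a / redL (resA A) b :=
    redInf_eq (gaussInput_modular A hp hA N)
      ⟨f * (algebraMap Kbar (FF N) c)⁻¹, ⟨a, b, hb, hab⟩⟩ a b hb hab
  rw [hr] at hred
  have hra : r * redL (resA A) b = redL (resA A) a := by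
    rw [hred, div_mul_cancel₀ _ hb]
  have ha : redL (resA A) a ≠ 0 := by
    rw [← hra]
    exact mul_ne_zero hr0 hb
  have hC : Fermat.Agent.A2.H708.cst c ≠ 0 := Fermat.Agent.A2.H708.cst_ne_zero hc
  refine ⟨c, a, b, hc, ha, hb, ?_, hra⟩
  have hab' : (f : LaurentSeries Kbar) * (Fermat.Agent.A2.H708.cst c)⁻¹ * inclL A.toSubring b =
      inclL A.toSubring a := hab
  show (f : LaurentSeries Kbar) * inclL A.toSubring b =
    Fermat.Agent.A2.H708.cst c * inclL A.toSubring a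
  rw [← hab']
  field_simp

end Dict

/-! ## Lifting `F_k` to `V∞` -/

section LiftFull

variable {p : ℕ} (hp : p ≠ 0) {A : ValuationSubring Kbar} (hA : A.LiesOverPrime p)

/-- the reduction of a constant of `A` -/
theorem redInf_algebraMap (N : ℕ) (a : A)
    (hm : algebraMap Kbar (FF N) (a : Kbar) ∈ VInf p A hA N hp) :
    redV p A hA N hp ⟨_, hm⟩ =
      algebraMap (kA A) (LaurentSeries (kA A)) (IsLocalRing.residue A a) := by
  have hcoe : ((algebraMap Kbar (FF N) (a : Kbar) : FF N) : LaurentSeries Kbar) =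
      inclL A.toSubring (HahnSeries.C a) := by
    rw [inclL_C]
    show algebraMap Kbar (LaurentSeries Kbar) (a : Kbar) = _
    rw [algebraMap_laurentSeries_eq_single]
    rfl
  have h1 : redV p A hA N hp ⟨_, hm⟩ =
      redA A ⟨inclL A.toSubring (HahnSeries.C a), inclL_mem_gaussRing (resA A) _⟩ := by
    show redA A _ = redA A _
    congr 1
    exact Subtype.ext hcoe
  rw [h1, redA_inclL, redL_C, algebraMap_laurentSeries_eq_single]
  rfl

/-- the reduction of `j(t^d)` -/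
theorem redInf_jFd (N : ℕ) [NeZero N] (d : ℕ) [NeZero d] (hd : d ∣ N)
    (hm : jFd N d hd ∈ VInf p A hA N hp) :
    redV p A hA N hp ⟨_, hm⟩ = qExpand (kA A) d (jqModC (kA A)) := by
  have hcoe : ((jFd N d hd : FF N) : LaurentSeries Kbar) =
      inclL A.toSubring (coeffMap (Int.castRingHom ↥A.toSubring) (jZ d)) := by
    rw [coe_jFd_int, intEmb_eq_inclL A]
  have h1 : redV p A hA N hp ⟨_, hm⟩ =
      redA A ⟨inclL A.toSubring (coeffMap (Int.castRingHom ↥A.toSubring) (jZ d)),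
        inclL_mem_gaussRing (resA A) _⟩ := by
    show redA A _ = redA A _
    congr 1
    exact Subtype.ext hcoe
  rw [h1, redA_inclL]
  show coeffMap (resA A) (coeffMap (Int.castRingHom ↥A.toSubring) (jZ d)) = _
  rw [coeffMap_coeffMap, jZ, coeffMap_qExpand, coeffMap_jqModC]

/-- **Lifting.**  Every element of `F_k = k(X₀(M))`, `M ∣ N`, is the reduction of an element of
`V∞` of level `N`. -/
theorem exists_lift_full (M N : ℕ) [NeZero N] (hMN : M ∣ N) (s : LaurentSeries (kA A))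
    (hs : s ∈ modularFunctionFieldFullC (kA A) M) :
    ∃ (g : FF N) (hg : g ∈ VInf p A hA N hp),
      redV p A hA N hp ⟨g, hg⟩ = s := by
  induction hs using IntermediateField.adjoin_induction with
  | mem x hx =>
      obtain ⟨d, hne, hd, rfl⟩ := hx
      haveI := hne
      have hm : jFd N d (hd.trans hMN) ∈ VInf p A hA N hp :=
        mem_Vinf_of_intEmb A hp hA N (coe_jFd_int N d (hd.trans hMN))
      exact ⟨_, hm, redInf_jFd hp hA N d (hd.trans hMN) hm⟩
  | algebraMap c =>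
      obtain ⟨a, rfl⟩ := IsLocalRing.residue_surjective (R := A) c
      have hm : algebraMap Kbar (FF N) (a : Kbar) ∈ VInf p A hA N hp :=
        (algebraMap_mem_Vinf_iff (gaussInput_modular A hp hA N)).mpr a.2
      exact ⟨_, hm, redInf_algebraMap hp hA N a hm⟩
  | add x y _ _ ihx ihy =>
      obtain ⟨g, hg, rfl⟩ := ihx
      obtain ⟨g', hg', rfl⟩ := ihy
      refine ⟨g + g', _root_.AddMemClass.add_mem hg hg', ?_⟩
      rw [← _root_.map_add]
      rfl
  | mul x y _ _ ihx ihy =>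
      obtain ⟨g, hg, rfl⟩ := ihx
      obtain ⟨g', hg', rfl⟩ := ihy
      refine ⟨g * g', _root_.MulMemClass.mul_mem hg hg', ?_⟩
      rw [← _root_.map_mul]
      rfl
  | inv x _ ihx =>
      obtain ⟨g, hg, rfl⟩ := ihx
      by_cases h0 : redV p A hA N hp ⟨g, hg⟩ = 0
      · refine ⟨0, _root_.ZeroMemClass.zero_mem _, ?_⟩
        rw [h0, inv_zero]
        exact _root_.map_zero _
      · have hlt : ¬ (VInf p A hA N hp).valuation g < 1 := fun hlt =>
          h0 ((redInf_eq_zero_iff (gaussInput_modular A hp hA N) ⟨g, hg⟩).mpr hlt)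
        have hinv : g⁻¹ ∈ VInf p A hA N hp := by
          rw [valuation_lt_one_iff_mem] at hlt
          by_contra hcon
          exact hlt ⟨hg, Or.inr hcon⟩
        have hg0 : g ≠ 0 := by
          rintro rfl
          exact h0 (_root_.map_zero _)
        refine ⟨g⁻¹, hinv, ?_⟩
        have hprod : (⟨g⁻¹, hinv⟩ : ↥(VInf p A hA N hp)) * ⟨g, hg⟩ = 1 :=
          Subtype.ext (inv_mul_cancel₀ hg0)
        have h2 : redV p A hA N hp ⟨g⁻¹, hinv⟩ *
            redV p A hA N hp ⟨g, hg⟩ = 1 := by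
          rw [← _root_.map_mul, hprod, _root_.map_one]
        exact eq_inv_of_mul_eq_one_left h2

include hp hA in
/-- For `s ≠ 0` in `F_k`: `s` is a reduction (in the sense of `H884.IsRedInf`) of a function. -/
theorem exists_isRedInf_full (M N : ℕ) [NeZero N] (hMN : M ∣ N) (s : LaurentSeries (kA A))
    (hs : s ∈ modularFunctionFieldFullC (kA A) M) (hs0 : s ≠ 0) :
    ∃ g : FF N, g ≠ 0 ∧ IsRedInf N A g s := by
  obtain ⟨g, hg, hred⟩ := exists_lift_full hp hA M N hMN s hs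
  have hg0 : g ≠ 0 := by
    rintro rfl
    apply hs0
    rw [← hred]
    exact _root_.map_zero _
  refine ⟨g, hg0, ?_⟩
  have e : g * (algebraMap Kbar (FF N) 1)⁻¹ = g := by rw [_root_.map_one, inv_one, mul_one]
  have hm : g * (algebraMap Kbar (FF N) 1)⁻¹ ∈ VInf p A hA N hp := by rw [e]; exact hg
  refine isRedInf_of_mem hp hA N one_ne_zero hm ?_ hs0
  rw [← hred]
  congr 1
  exact Subtype.ext e

end LiftFull

/-! ## SPLIT-LIFT -/

section Main

variable {p M' : ℕ} [NeZero (p * M')] {A : ValuationSubring Kbar}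

theorem isRedInf_pow {N : ℕ} [NeZero N] {f : FF N} {r : LaurentSeries (kA A)}
    (h : IsRedInf N A f r) (n : ℕ) : IsRedInf N A (f ^ n) (r ^ n) := by
  induction n with
  | zero => rw [pow_zero, pow_zero]; exact isRedInf_one
  | succ n ih => rw [pow_succ, pow_succ]; exact IsRedInf.mul ih h

/-- **SPLIT-LIFT on `C∞`.**  If `f` has a reduction `r ∈ k(X₀(M')) ∩ k((t^p))` on `C∞`, then
`f = g ^ p · u` where `u` has reduction `1` on `C∞`. -/
theorem splitLift_inf (hpp : p.Prime) (hpM : ¬ p ∣ M') (hA : A.LiesOverPrime p)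
    {f : FF (p * M')} {r : LaurentSeries (kA A)} (hred : IsRedInf (p * M') A f r)
    (hr : r ∈ modularFunctionFieldFullC (kA A) M') (hsplit : SplitSeries p r) :
    ∃ g : FF (p * M'), g ≠ 0 ∧ IsRedInf (p * M') A (f * (g ^ p)⁻¹) 1 := by
  obtain ⟨hac, hch⟩ := Fermat.Agent.Ribet.H939.resField p hpp A hA
  haveI := hac
  haveI := hch
  haveI : Fact p.Prime := ⟨hpp⟩
  have hM' : M' ≠ 0 := by
    rintro rfl
    exact hpM (dvd_zero p)
  obtain ⟨s, hs, hsr⟩ := exists_root_in_full p M' hM' hpM r hr hsplit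
  have hr0 : r ≠ 0 := IsRedInf.ne_zero hred
  have hs0 : s ≠ 0 := by
    rintro rfl
    rw [zero_pow hpp.ne_zero] at hsr
    exact hr0 hsr.symm
  obtain ⟨g, hg0, hg⟩ := exists_isRedInf_full hpp.ne_zero hA M' (p * M')
    (dvd_mul_left M' p) s hs hs0
  refine ⟨g, hg0, ?_⟩
  have h1 : IsRedInf (p * M') A (f * (g ^ p)⁻¹) (r * (s ^ p)⁻¹) :=
    IsRedInf.mul hred (IsRedInf.inv (isRedInf_pow hg p))
  rw [hsr, mul_inv_cancel₀ hr0] at h1
  exact h1

/-- **SPLIT-LIFT on `C₀`.** -/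
theorem splitLift_zero (hpp : p.Prime) (hpM : ¬ p ∣ M') (hA : A.LiesOverPrime p)
    {f : FF (p * M')} {r : LaurentSeries (kA A)} (hred : IsRedZero (p * M') A f r)
    (hr : r ∈ modularFunctionFieldFullC (kA A) M') (hsplit : SplitSeries p r) :
    ∃ g : FF (p * M'), g ≠ 0 ∧ IsRedZero (p * M') A (f * (g ^ p)⁻¹) 1 := by
  obtain ⟨g, hg0, hg⟩ := splitLift_inf hpp hpM hA (f := wF (p * M') f) hred hr hsplit
  refine ⟨wF (p * M') g, by simpa using hg0, ?_⟩
  show IsRedInf (p * M') A (wF (p * M') (f * (wF (p * M') g ^ p)⁻¹)) 1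
  rw [_root_.map_mul, map_inv₀, map_pow, wF_wF]
  exact hg

/-- **SPLIT-LIFT** for a split Kummer generator: on both components `f` is a `p`-th power times
a function with reduction `1`. -/
theorem splitGen_lift (hpp : p.Prime) (hpM : ¬ p ∣ M') (hA : A.LiesOverPrime p)
    {f : FF (p * M')} (h : SplitGen p M' A f) :
    (∃ g : FF (p * M'), g ≠ 0 ∧ IsRedInf (p * M') A (f * (g ^ p)⁻¹) 1) ∧
    (∃ g : FF (p * M'), g ≠ 0 ∧ IsRedZero (p * M') A (f * (g ^ p)⁻¹) 1) := by
  obtain ⟨r₁, r₂, h1, h2, ⟨k₁, hk₁, -, -⟩, ⟨k₂, hk₂, -, -⟩, hs1, hs2⟩ := h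
  exact ⟨splitLift_inf hpp hpM hA h1 (hk₁ ▸ k₁.2) hs1,
    splitLift_zero hpp hpM hA h2 (hk₂ ▸ k₂.2) hs2⟩

/-- Reduction `1` in valuation form: `u / c ∈ 1 + 𝔪_{V∞}` for a constant `c ≠ 0`. -/
theorem oneAddNonunits_of_isRedInf_one (hp : p ≠ 0) (hA : A.LiesOverPrime p) {N : ℕ} [NeZero N]
    {u : FF N} (h : IsRedInf N A u 1) :
    ∃ c : Kbar, c ≠ 0 ∧
      OneAddNonunits (VInf p A hA N hp) (u * (algebraMap Kbar (FF N) c)⁻¹) := by
  obtain ⟨c, hc, hm, hred⟩ := exists_mem_of_isRedInf hp hA N h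
  refine ⟨c, hc, ?_⟩
  have hone : (1 : FF N) ∈ VInf p A hA N hp := _root_.OneMemClass.one_mem _
  have hsub : u * (algebraMap Kbar (FF N) c)⁻¹ - 1 ∈ VInf p A hA N hp := _root_.sub_mem hm hone
  have h0 : redV p A hA N hp ⟨_, hsub⟩ = 0 := by
    have e : (⟨u * (algebraMap Kbar (FF N) c)⁻¹ - 1, hsub⟩ : ↥(VInf p A hA N hp)) =
        ⟨u * (algebraMap Kbar (FF N) c)⁻¹, hm⟩ - 1 := rfl
    rw [e, _root_.map_sub, _root_.map_one, hred, sub_self]
  exact (redInf_eq_zero_iff (gaussInput_modular A hp hA N) ⟨_, hsub⟩).mp h0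

/-- **SPLIT-LIFT, valuation form** (`H573.RedPow`): a split Kummer generator lies in
`ℚ̄ˣ · (F_Nˣ)^p · (1 + 𝔪_{V∞})`, and so does `w_N f`. -/
theorem splitGen_redPow (hpp : p.Prime) (hpM : ¬ p ∣ M') (hA : A.LiesOverPrime p)
    {f : FF (p * M')} (h : SplitGen p M' A f) :
    RedPow p A hA (p * M') hpp.ne_zero f ∧
      RedPow p A hA (p * M') hpp.ne_zero (wF (p * M') f) := by
  obtain ⟨⟨g, hg0, hg⟩, ⟨g', hg0', hg'⟩⟩ := splitGen_lift hpp hpM hA h
  constructor
  · obtain ⟨c, hc, hu⟩ := oneAddNonunits_of_isRedInf_one hpp.ne_zero hA hg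
    refine ⟨c, hc, g, hg0, ?_⟩
    have e : f * (cst (p * M') c)⁻¹ * (g ^ p)⁻¹ =
        f * (g ^ p)⁻¹ * (algebraMap Kbar (FF (p * M')) c)⁻¹ := by
      rw [cst]; ring
    rw [e]
    exact hu
  · have hg'' : IsRedInf (p * M') A (wF (p * M') (f * (g' ^ p)⁻¹)) 1 := hg'
    obtain ⟨c, hc, hu⟩ := oneAddNonunits_of_isRedInf_one hpp.ne_zero hA hg''
    refine ⟨c, hc, wF (p * M') g', by simpa using hg0', ?_⟩
    have e : wF (p * M') f * (cst (p * M') c)⁻¹ * (wF (p * M') g' ^ p)⁻¹ =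
        wF (p * M') (f * (g' ^ p)⁻¹) * (algebraMap Kbar (FF (p * M')) c)⁻¹ := by
      rw [cst, _root_.map_mul, map_inv₀, map_pow]; ring
    rw [e]
    exact hu

end Main

end Fermat.Agent.Ribet.H573

end
end
-- ===== PACK-END Ribet/H573/SplitLift.lean

-- ===== PACK-BEGIN Ribet/H573/WeakApprox.lean
section






/-!
# Row 38, WALL-p, (S2): DICT piece WEAK-APPROX and the leaf SL (helper573)

`N = p · M'`, `A` a valuation subring of `ℚ̄` over `p`, `V∞ = H708.Vinf N A`, `V₀ = H708.Vzero N A`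
(the two Gauss valuation rings of `FF N = ℚ̄(X₀(N))`), vocabulary `OneMod`, `Deep`, `DeepC` of
`Ribet/H220/S2Spec.lean`.

* `gaussLike_Vinf`, `gaussLike_Vzero` : `V∞`, `V₀` are Gauss-like over `A` (`WACore.lean`);
* `rankOne`                : `A` has rank one;
* `exists_idem_gauss`      : approximate idempotents: `1 - e ∈ d₁ V∞`, `e ∈ d₂ V₀` for all
                             constants `d₁, d₂ ≠ 0`;
* `exists_approx_gauss`    : `a ∈ g₁ (1 + r V∞) ∩ g₂ (1 + r V₀)`;
* **`deep_common`**        : WEAK-APPROX: `Deep V∞ p ϖ f`, `Deep V₀ p ϖ f` ⟹ ONE `g` with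
                             `f = g ^ p · u`, `u ∈ (1 + ϖ V∞) ∩ (1 + ϖ V₀)`;
* `deep_of_deepC`          : constants are `p`-th powers in `ℚ̄`;
* **`splitLift`**          : the leaf `H220.SplitLiftStatement` (VERBATIM);
* **`splitGen_common`**    : a split Kummer generator is `g ^ p · u` with ONE `g` and
                             `u ∈ (1 + ϖ V∞) ∩ (1 + ϖ V₀)`, `ϖ ≠ 0` a nonunit of `A`;
* `splitGen_common_oneAdd` : the same in the form `H129.OneAddNonunits` at `V∞` for `u` and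
                             `w_N u` (rings `H708.Vinf` and `H553.VinfModular`).
-/

set_option autoImplicit false
set_option linter.unusedSectionVars false
set_option linter.style.haveILetI false
set_option synthInstance.maxHeartbeats 400000
set_option maxHeartbeats 1000000

noncomputable section

namespace Fermat.Agent.Ribet.H573

open AlgebraicCurve ModularCurve HahnSeries
open Fermat.Agent.S24 Fermat.Agent.A2.H708 Fermat.Agent.A2.H528 Fermat.Agent.A2.H129
open Fermat.Agent.Ribet.H884 Fermat.Agent.Ribet.H220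

section Gauss

variable (N : ℕ) [NeZero N] (A : ValuationSubring Kbar) {ℓ : ℕ} (hℓ : ℓ ≠ 0)
  (hA : (ℓ : Kbar) ∈ A.nonunits)

/-- `V∞` is Gauss-like over `A`. -/
theorem gaussLike_Vinf : WA.GaussLike A (Vinf N A hℓ hA) :=
  ⟨fun c => algebraMap_mem_gaussInf_iff (intGen_full N)
      (attainsMax_Qbar hℓ hA (modularFunctionFieldFull N)) c,
    fun _ hf => exists_const_mul_unit (intGen_full N)
      (attainsMax_Qbar hℓ hA (modularFunctionFieldFull N)) hf⟩

/-- `V₀` is Gauss-like over `A`. -/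
theorem gaussLike_Vzero : WA.GaussLike A (Vzero N A hℓ hA) := by
  refine ⟨fun c => ?_, fun f hf => ?_⟩
  · rw [← (gaussLike_Vinf N A hℓ hA).1 c]
    show wF N (algebraMap Kbar (FF N) c) ∈ Vinf N A hℓ hA ↔ _
    rw [AlgEquiv.commutes]
  · have hf' : wF N f ≠ 0 := fun h => hf ((map_eq_zero_iff _ (wF N).injective).mp h)
    obtain ⟨c, hc, hu⟩ := (gaussLike_Vinf N A hℓ hA).2 (wF N f) hf'
    refine ⟨c, hc, ?_⟩
    have h1 : IsUnitOf (Vinf N A hℓ hA) (wF N (f * (algebraMap Kbar (FF N) c)⁻¹)) := by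
      rw [_root_.map_mul, map_inv₀, AlgEquiv.commutes]
      exact hu
    exact (isUnitOf_Vzero_iff hℓ hA).2 h1

end Gauss

/-- every element of `ℚ̄` is algebraic over `ℤ` -/
theorem isAlgebraic_int_Qbar (x : Kbar) : IsAlgebraic ℤ x :=
  (IsFractionRing.isAlgebraic_iff ℤ ℚ Kbar).mpr
    ((AlgebraicClosure.isAlgebraic ℚ).isAlgebraic x)

/-- **Rank one** of a valuation subring of `ℚ̄` over a prime. -/
theorem rankOne (A : ValuationSubring Kbar) {ℓ : ℕ} (hℓ : ℓ.Prime)
    (hA : (ℓ : Kbar) ∈ A.nonunits) :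
    ∀ a b : Kbar, a ∈ A.nonunits → b ≠ 0 → ∃ n : ℕ, a ^ n / b ∈ A :=
  Fermat.Agent.A3.H675.harch A isAlgebraic_int_Qbar hℓ hA

section Approx

variable (N : ℕ) [NeZero N] (A : ValuationSubring Kbar) {ℓ : ℕ} (hℓ : ℓ.Prime)
  (hA : (ℓ : Kbar) ∈ A.nonunits) (hN : ℓ ∣ N)

include hN in
theorem vinf_ne_vzero : Vinf N A hℓ.ne_zero hA ≠ Vzero N A hℓ.ne_zero hA := by
  haveI : Fact ℓ.Prime := ⟨hℓ⟩
  exact fun h => Vzero_ne_Vinf hℓ.ne_zero hA hN h.symm

include hN in
/-- **Approximate idempotents** for `(V∞, V₀)`: `1 - e ∈ d₁ V∞` and `e ∈ d₂ V₀`. -/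
theorem exists_idem_gauss {d₁ d₂ : Kbar} (hd₁ : d₁ ≠ 0) (hd₂ : d₂ ≠ 0) :
    ∃ e : FF N, (1 - e) * (cF N d₁)⁻¹ ∈ Vinf N A hℓ.ne_zero hA ∧
      e * (cF N d₂)⁻¹ ∈ Vzero N A hℓ.ne_zero hA :=
  WA.exists_idem (rankOne A hℓ hA) (gaussLike_Vinf N A hℓ.ne_zero hA)
    (gaussLike_Vzero N A hℓ.ne_zero hA) (vinf_ne_vzero N A hℓ hA hN) hd₁ hd₂

include hN in
/-- **Weak approximation** for `(V∞, V₀)`: `a ∈ g₁ (1 + r V∞) ∩ g₂ (1 + r V₀)`. -/
theorem exists_approx_gauss {g₁ g₂ : FF N} (hg₁ : g₁ ≠ 0) (hg₂ : g₂ ≠ 0) {r : Kbar}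
    (hr : r ≠ 0) :
    ∃ a : FF N, OneMod (Vinf N A hℓ.ne_zero hA) (cF N r) (a * g₁⁻¹) ∧
      OneMod (Vzero N A hℓ.ne_zero hA) (cF N r) (a * g₂⁻¹) :=
  WA.exists_approx_two (rankOne A hℓ hA) (gaussLike_Vinf N A hℓ.ne_zero hA)
    (gaussLike_Vzero N A hℓ.ne_zero hA) (vinf_ne_vzero N A hℓ hA hN) hg₁ hg₂ hr

include hN in
/-- **WEAK-APPROX (one `g` for both components).**  If `f ∈ (Fˣ)^p (1 + ϖ V∞)` and
`f ∈ (Fˣ)^p (1 + ϖ V₀)`, `ϖ ≠ 0` a nonunit of `A`, then `f = g ^ p · u` with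
`u ∈ (1 + ϖ V∞) ∩ (1 + ϖ V₀)`. -/
theorem deep_common (p : ℕ) {ϖ : Kbar} (hϖ0 : ϖ ≠ 0) (hϖ : ϖ ∈ A.nonunits) {f : FF N}
    (h₁ : Deep (Vinf N A hℓ.ne_zero hA) p (cF N ϖ) f)
    (h₂ : Deep (Vzero N A hℓ.ne_zero hA) p (cF N ϖ) f) :
    ∃ g u : FF N, g ≠ 0 ∧ f = g ^ p * u ∧ OneMod (Vinf N A hℓ.ne_zero hA) (cF N ϖ) u ∧
      OneMod (Vzero N A hℓ.ne_zero hA) (cF N ϖ) u := by
  obtain ⟨g₁, u₁, hg₁, hf₁, hu₁⟩ := h₁
  obtain ⟨g₂, u₂, hg₂, hf₂, hu₂⟩ := h₂
  exact WA.exists_common_root (rankOne A hℓ hA) (gaussLike_Vinf N A hℓ.ne_zero hA)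
    (gaussLike_Vzero N A hℓ.ne_zero hA) (vinf_ne_vzero N A hℓ hA hN) p hϖ0 hϖ hg₁ hg₂ hf₁ hf₂
    hu₁ hu₂

end Approx

section Const

variable {N : ℕ} [NeZero N]

/-- Constants are `p`-th powers in `ℚ̄`: `DeepC` implies `Deep`. -/
theorem deep_of_deepC {V : ValuationSubring (FF N)} {p : ℕ} (hp : 0 < p) {r f : FF N}
    (h : DeepC Kbar V p r f) : Deep V p r f := by
  obtain ⟨c, g, u, hc, hg, hf, hu⟩ := h
  obtain ⟨γ, hγ⟩ := IsAlgClosed.exists_pow_nat_eq c hp
  have hγ0 : γ ≠ 0 := by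
    rintro rfl
    rw [zero_pow hp.ne'] at hγ
    exact hc hγ.symm
  refine ⟨algebraMap Kbar (FF N) γ * g,
    u, mul_ne_zero (by rwa [Ne, map_eq_zero_iff _ (algebraMap Kbar (FF N)).injective]) hg, ?_, hu⟩
  rw [hf, mul_pow, ← map_pow, hγ]

theorem deepC_of_deep {V : ValuationSubring (FF N)} {p : ℕ} {r f : FF N}
    (h : Deep V p r f) : DeepC Kbar V p r f := by
  obtain ⟨g, u, hg, hf, hu⟩ := h
  exact ⟨1, g, u, one_ne_zero, hg, by rw [_root_.map_one, one_mul]; exact hf, hu⟩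

end Const

section SL

variable {p M' : ℕ} [NeZero (p * M')] {A : ValuationSubring Kbar}

/-- the ring `V∞` of `A2/H553` is the ring `V∞` of `A2/H708` -/
theorem vInf_eq_Vinf (hp : p ≠ 0) (hA : A.LiesOverPrime p) (N : ℕ) [NeZero N] :
    VInf p A hA N hp = Vinf N A hp hA :=
  Fermat.Agent.A2.H553.Vinf_eq_gaussInf (Fermat.Agent.A2.H553.gaussInput_modular A hp hA N)
    (intGen_full N) (attainsMax_Qbar hp hA (modularFunctionFieldFull N))

/-- reduction `1` on `C∞` ⟹ depth one with a constant at `V∞` -/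
theorem deepC_of_isRedInf_one (hpp : p.Prime) (hA : A.LiesOverPrime p) {N : ℕ} [NeZero N]
    {f g : FF N} (hg : g ≠ 0) (h : IsRedInf N A (f * (g ^ p)⁻¹) 1) :
    ∃ ϖ : Kbar, ϖ ≠ 0 ∧ ϖ ∈ A.nonunits ∧ DeepC Kbar (Vinf N A hpp.ne_zero hA) p (cF N ϖ) f := by
  obtain ⟨c, hc, hu⟩ := oneAddNonunits_of_isRedInf_one hpp.ne_zero hA h
  rw [vInf_eq_Vinf hpp.ne_zero hA N] at hu
  have hp0 : (p : Kbar) ≠ 0 := by exact_mod_cast hpp.ne_zero
  obtain ⟨ϖ, hϖ0, hϖ, hx⟩ :=
    (gaussLike_Vinf N A hpp.ne_zero hA).exists_depth hu hp0 hA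
  refine ⟨ϖ, hϖ0, hϖ, c, g, _, hc, hg, ?_, hx⟩
  have hc' : algebraMap Kbar (FF N) c ≠ 0 := by
    rwa [Ne, map_eq_zero_iff _ (algebraMap Kbar (FF N)).injective]
  have hgp : g ^ p ≠ 0 := pow_ne_zero p hg
  field_simp

/-- membership in `V₀` -/
theorem mem_Vzero_iff (hp0 : p ≠ 0) (hA : A.LiesOverPrime p) {N : ℕ} [NeZero N] {y : FF N} :
    y ∈ Vzero N A hp0 hA ↔ wF N y ∈ Vinf N A hp0 hA := Iff.rfl

/-- transport of `1 + ϖ V` along `w_N` -/
theorem oneMod_Vzero_wF (hp0 : p ≠ 0) (hA : A.LiesOverPrime p) {N : ℕ} [NeZero N]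
    {ϖ : Kbar} {u : FF N} (h : OneMod (Vinf N A hp0 hA) (cF N ϖ) u) :
    OneMod (Vzero N A hp0 hA) (cF N ϖ) (wF N u) := by
  obtain ⟨y, hy, hu⟩ := h
  have hy' : wF N y ∈ Vzero N A hp0 hA := by
    rw [mem_Vzero_iff, wF_wF]
    exact hy
  refine ⟨wF N y, hy', ?_⟩
  rw [hu, _root_.map_add, _root_.map_one, _root_.map_mul]
  congr 2
  exact AlgEquiv.commutes (wF N) ϖ

/-- transport of `DeepC` along `w_N` -/
theorem deepC_Vzero_of_wF (hp0 : p ≠ 0) (hA : A.LiesOverPrime p) {N : ℕ} [NeZero N]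
    {q : ℕ} {ϖ : Kbar} {f : FF N} (h : DeepC Kbar (Vinf N A hp0 hA) q (cF N ϖ) (wF N f)) :
    DeepC Kbar (Vzero N A hp0 hA) q (cF N ϖ) f := by
  obtain ⟨c, g₁, u, hc, hg₁, hf, hu⟩ := h
  have hg₁' : wF N g₁ ≠ 0 := fun h0 => hg₁ ((map_eq_zero_iff _ (wF N).injective).mp h0)
  have hc' : wF N (algebraMap Kbar (FF N) c) = algebraMap Kbar (FF N) c :=
    AlgEquiv.commutes (wF N) c
  have e : f = algebraMap Kbar (FF N) c * wF N g₁ ^ q * wF N u := by
    calc f = wF N (wF N f) := (wF_wF N f).symm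
      _ = wF N (algebraMap Kbar (FF N) c * g₁ ^ q * u) := by rw [hf]
      _ = wF N (algebraMap Kbar (FF N) c) * wF N g₁ ^ q * wF N u := by
          rw [_root_.map_mul, _root_.map_mul, map_pow]
      _ = algebraMap Kbar (FF N) c * wF N g₁ ^ q * wF N u := by rw [hc']
  exact ⟨c, wF N g₁, wF N u, hc, hg₁', e, oneMod_Vzero_wF hp0 hA hu⟩

/-- reduction `1` on `C₀` ⟹ depth one with a constant at `V₀` -/
theorem deepC_of_isRedZero_one (hpp : p.Prime) (hA : A.LiesOverPrime p) {N : ℕ} [NeZero N]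
    {f g : FF N} (hg : g ≠ 0) (h : IsRedZero N A (f * (g ^ p)⁻¹) 1) :
    ∃ ϖ : Kbar, ϖ ≠ 0 ∧ ϖ ∈ A.nonunits ∧
      DeepC Kbar (Vzero N A hpp.ne_zero hA) p (cF N ϖ) f := by
  have h0 : IsRedInf N A (wF N (f * (g ^ p)⁻¹)) 1 := h
  have e : wF N (f * (g ^ p)⁻¹) = wF N f * ((wF N g) ^ p)⁻¹ := by
    rw [_root_.map_mul, map_inv₀, map_pow]
  rw [e] at h0
  have hg' : wF N g ≠ 0 := fun h1 => hg ((map_eq_zero_iff _ (wF N).injective).mp h1)
  obtain ⟨ϖ, hϖ0, hϖ, hd⟩ := deepC_of_isRedInf_one hpp hA hg' h0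
  exact ⟨ϖ, hϖ0, hϖ, deepC_Vzero_of_wF hpp.ne_zero hA hd⟩

/-- **SL** (`Ribet/H220/S2Spec.lean`): the split-lift leaf of the (S2) chain. -/
theorem splitLift : SplitLiftStatement := by
  intro p M' _ _ _ hp hpM A hA f _ hfS
  obtain ⟨⟨g, hg0, hg⟩, ⟨g', hg0', hg'⟩⟩ := splitGen_lift hp hpM hA hfS
  exact ⟨deepC_of_isRedInf_one hp hA hg0 hg, deepC_of_isRedZero_one hp hA hg0' hg'⟩

/-- **WEAK-APPROX for split Kummer generators**: `f = g ^ p · u` with ONE `g` and
`u ∈ (1 + ϖ V∞) ∩ (1 + ϖ V₀)` for a nonzero nonunit `ϖ` of `A`. -/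
theorem splitGen_common [NeZero M'] [NeZero p] (hpp : p.Prime) (hpM : ¬ p ∣ M')
    (hA : A.LiesOverPrime p) {f : FF (p * M')} (h : SplitGen p M' A f) :
    ∃ (ϖ : Kbar) (g u : FF (p * M')), ϖ ≠ 0 ∧ ϖ ∈ A.nonunits ∧ g ≠ 0 ∧ f = g ^ p * u ∧
      OneMod (Vinf (p * M') A hpp.ne_zero hA) (cF (p * M') ϖ) u ∧
      OneMod (Vzero (p * M') A hpp.ne_zero hA) (cF (p * M') ϖ) u := by
  obtain ⟨⟨g₁, hg₁0, hg₁⟩, ⟨g₂, hg₂0, hg₂⟩⟩ := splitGen_lift hpp hpM hA h
  obtain ⟨ϖ₁, hϖ₁0, hϖ₁, hd₁⟩ := deepC_of_isRedInf_one hpp hA hg₁0 hg₁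
  obtain ⟨ϖ₂, hϖ₂0, hϖ₂, hd₂⟩ := deepC_of_isRedZero_one hpp hA hg₂0 hg₂
  obtain ⟨ϖ, hϖ0, hϖ, ⟨x₁, hx₁, e₁⟩, ⟨x₂, hx₂, e₂⟩⟩ :=
    WA.exists_common_div A hϖ₁0 hϖ₂0 hϖ₁ hϖ₂
  have hI : Deep (Vinf (p * M') A hpp.ne_zero hA) p (cF (p * M') ϖ) f := by
    obtain ⟨a, b, u, ha, hb, hf, hu⟩ := deep_of_deepC hpp.pos hd₁ |> fun h => deepC_of_deep h
    refine deep_of_deepC hpp.pos ⟨a, b, u, ha, hb, hf, ?_⟩
    refine WA.OneModV.mono (a := cF (p * M') x₁)
      ((gaussLike_Vinf (p * M') A hpp.ne_zero hA).1 x₁ |>.2 hx₁) ?_ hu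
    rw [cF, cF, cF, ← _root_.map_mul, e₁]
  have hZ : Deep (Vzero (p * M') A hpp.ne_zero hA) p (cF (p * M') ϖ) f := by
    obtain ⟨a, b, u, ha, hb, hf, hu⟩ := deep_of_deepC hpp.pos hd₂ |> fun h => deepC_of_deep h
    refine deep_of_deepC hpp.pos ⟨a, b, u, ha, hb, hf, ?_⟩
    refine WA.OneModV.mono (a := cF (p * M') x₂)
      ((gaussLike_Vzero (p * M') A hpp.ne_zero hA).1 x₂ |>.2 hx₂) ?_ hu
    rw [cF, cF, cF, ← _root_.map_mul, e₂]
  obtain ⟨g, u, hg, hf, hu₁, hu₂⟩ :=
    deep_common (p * M') A hpp hA (dvd_mul_right p M') p hϖ0 hϖ hI hZ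
  exact ⟨ϖ, g, u, hϖ0, hϖ, hg, hf, hu₁, hu₂⟩

/-- an element of `1 + ϖ V`, `ϖ ∈ 𝔪`, lies in `1 + 𝔪_V` -/
theorem oneAddNonunits_of_oneMod {F : Type*} [Field F] {V : ValuationSubring F} {r u : F}
    (hr : r ∈ V.nonunits) (h : OneMod V r u) : OneAddNonunits V u := by
  obtain ⟨y, hy, rfl⟩ := h
  show V.valuation (1 + r * y - 1) < 1
  rw [add_sub_cancel_left, _root_.map_mul]
  calc V.valuation r * V.valuation y ≤ V.valuation r * 1 :=
        mul_le_mul' le_rfl ((V.valuation_le_one_iff y).2 hy)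
    _ = V.valuation r := mul_one _
    _ < 1 := V.mem_nonunits_iff.1 hr

/-- **WEAK-APPROX for split Kummer generators**, form `1 + 𝔪`: ONE `g ≠ 0` such that
`u = f / g ^ p` and `w_N u` lie in `1 + 𝔪_{V∞}` (`V∞ = H708.Vinf = H553.VinfModular`). -/
theorem splitGen_common_oneAdd [NeZero M'] [NeZero p] (hpp : p.Prime) (hpM : ¬ p ∣ M')
    (hA : A.LiesOverPrime p) {f : FF (p * M')} (h : SplitGen p M' A f) :
    ∃ g : FF (p * M'), g ≠ 0 ∧
      OneAddNonunits (Vinf (p * M') A hpp.ne_zero hA) (f * (g ^ p)⁻¹) ∧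
      OneAddNonunits (Vinf (p * M') A hpp.ne_zero hA) (wF (p * M') (f * (g ^ p)⁻¹)) ∧
      OneAddNonunits (VInf p A hA (p * M') hpp.ne_zero) (f * (g ^ p)⁻¹) ∧
      OneAddNonunits (VInf p A hA (p * M') hpp.ne_zero) (wF (p * M') (f * (g ^ p)⁻¹)) := by
  obtain ⟨ϖ, g, u, hϖ0, hϖ, hg, hf, hu₁, hu₂⟩ := splitGen_common hpp hpM hA h
  have hgp : g ^ p ≠ 0 := pow_ne_zero p hg
  have e : f * (g ^ p)⁻¹ = u := by
    rw [hf]
    field_simp
  have hϖV : cF (p * M') ϖ ∈ (Vinf (p * M') A hpp.ne_zero hA).nonunits :=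
    (Vinf (p * M') A hpp.ne_zero hA).mem_nonunits_iff.2
      (((gaussLike_Vinf (p * M') A hpp.ne_zero hA).valuation_lt_one_iff ϖ).2
        (A.mem_nonunits_iff.1 hϖ))
  have hϖV' : cF (p * M') ϖ ∈ (Vzero (p * M') A hpp.ne_zero hA).nonunits :=
    (Vzero (p * M') A hpp.ne_zero hA).mem_nonunits_iff.2
      (((gaussLike_Vzero (p * M') A hpp.ne_zero hA).valuation_lt_one_iff ϖ).2
        (A.mem_nonunits_iff.1 hϖ))
  have h1 : OneAddNonunits (Vinf (p * M') A hpp.ne_zero hA) u :=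
    oneAddNonunits_of_oneMod hϖV hu₁
  have h2 : OneAddNonunits (Vinf (p * M') A hpp.ne_zero hA) (wF (p * M') u) :=
    (oneAddNonunits_Vzero_iff hpp.ne_zero hA).1 (oneAddNonunits_of_oneMod hϖV' hu₂)
  refine ⟨g, hg, ?_, ?_, ?_, ?_⟩
  · rw [e]
    exact h1
  · rw [e]
    exact h2
  · rw [e, vInf_eq_Vinf hpp.ne_zero hA (p * M')]
    exact h1
  · rw [e, vInf_eq_Vinf hpp.ne_zero hA (p * M')]
    exact h2

end SL

end Fermat.Agent.Ribet.H573

end

end
-- ===== PACK-END Ribet/H573/WeakApprox.lean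

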