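import Fermat.Agent.Pack.S33.E21L3
import Fermat.Agent.Pack.S33.E19L1
import Fermat.Agent.Pack.S33.E19L2
import Fermat.Agent.Pack.S33.E21L1
import Fermat.Agent.Pack.S33.E16L2
import Fermat.Agent.Pack.S33.E20L3
import Fermat.Agent.Pack.S33.E19L0
import Fermat.Agent.Pack.S33.E20L0
import Fermat.Agent.Pack.S33.E18L1
import Fermat.Agent.Pack.S33.E13L0
import Fermat.Agent.Pack.S33.E11L0
import Fermat.Agent.Pack.S33.E21L2
import Fermat.Agent.Pack.S33.E13L3
import Fermat.Agent.Pack.S33.E6L0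

-- ===== PACK-BEGIN A2/Mod/H216/GoodRedAll.lean
section




/-!
# A2 / GOODRED (helper216): `Top.H994.GoodRedStatement` — CLOSED (all primes `q`)

    goodRedStatement : Top.H994.GoodRedStatement

i.e. for every prime `q ∤ M` (with `2 ∣ M` if `q = 3`, `3 ∣ M` if `q = 2`), `P` over `q` and every
good level `E`: `Mod.GoodRedHyp P E M` (good reduction at level `M` in the charts of `j`, `1/j`).

* `q ≥ 5` : `goodRedHyp` (`GoodRed.lean`), coordinate `j` of row S18;
* `q = 3` : the good model of row S18 in the coordinate `t₂` (`S18.Mod.H216.goodModel_of_partR`),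
  the adapter `goodRedAt_of_goodModel`, and helper189's chart change `H189.goodRedHyp_of_t2`;
* `q = 2` : the same with `t₃`, `H189.goodRedHyp_of_t3`.

Only `GoodField.dvr` is used (no henselian / algebraically closed residue field hypothesis).
-/

set_option autoImplicit false
set_option linter.unusedSectionVars false
set_option linter.style.haveILetI false
set_option synthInstance.maxHeartbeats 400000
set_option maxHeartbeats 1600000

noncomputable section

namespace Fermat.Agent.A2.Mod.H216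

open ModularCurve Polynomial

variable (P : ValuationSubring _root_.Fermat.Agent.A2.Mod.Qb) (E : IntermediateField ℚ _root_.Fermat.Agent.A2.Mod.Qb) (M : ℕ)

theorem bridge_t2E (hM : 2 ∣ M) :
    bridge E M (H189.t2E E M hM) = S18.H333.t2Om M hM := by
  apply Subtype.ext
  rw [coe_bridge]
  exact S18.H602.coeffMap_coeffEmb' (algebraMap E _root_.Fermat.Agent.A2.Mod.Qb) _

theorem bridge_t3E (hM : 3 ∣ M) :
    bridge E M (H189.t3E E M hM) = S18.H333.t3Om M hM := by
  apply Subtype.ext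
  rw [coe_bridge]
  exact S18.H602.coeffMap_coeffEmb' (algebraMap E _root_.Fermat.Agent.A2.Mod.Qb) _

theorem isCoordinate_t2Om (hM : 2 ∣ M) :
    ∃ S : Finset (S18.Mod.Om M), S18.Mod.IsCoordinate M 3 (S18.H333.t2Om M hM) S := by
  classical
  refine ⟨{0, -64}, Or.inr ⟨Or.inl ⟨rfl, S18.H333.t2Om_rel M hM, ?_⟩, ?_⟩⟩
  · intro s; simp
  · exact ⟨S18.H333.t2Z, S18.H333.t2Z_coeff_neg_one, fun k hk => S18.H333.t2Z_coeff_of_lt hk,
      S18.H333.omOf_coe M S18.H333.t2Z _, S18.H333.t2Q_mem M hM⟩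

theorem isCoordinate_t3Om (hM : 3 ∣ M) :
    ∃ S : Finset (S18.Mod.Om M), S18.Mod.IsCoordinate M 2 (S18.H333.t3Om M hM) S := by
  classical
  refine ⟨{0, -27}, Or.inr ⟨Or.inr ⟨rfl, S18.H333.t3Om_rel M hM, ?_⟩, ?_⟩⟩
  · intro s; simp
  · exact ⟨S18.H333.t3Z, S18.H333.t3Z_coeff_neg_one, fun k hk => S18.H333.t3Z_coeff_of_lt hk,
      S18.H333.omOf_coe M S18.H333.t3Z _, S18.H333.t3Q_mem M hM⟩

variable [NeZero M]

/-- **GOODRED for `q = 3`** (`2 ∣ M`). -/
theorem goodRedHyp_three (hqM : ¬ 3 ∣ M) (hM : 2 ∣ M) (hP : P.LiesOverPrime 3)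
    (hdvr : IsDiscreteValuationRing (_root_.Fermat.Agent.A2.Mod.RE P E)) : GoodRedHyp P E M := by
  haveI := hdvr
  haveI : Fact (Nat.Prime 3) := ⟨Nat.prime_three⟩
  refine H189.goodRedHyp_of_t2 P E M hP (NeZero.ne M) hM hdvr fun w VM hw hV => ?_
  obtain ⟨S, hS⟩ := isCoordinate_t2Om M hM
  have G := S18.Mod.H216.goodModel_of_partR M P E hqM hP
    (partR_bridge_cE P E M Nat.prime_three hP hw) hS
  exact ⟨goodRedAt_of_goodModel hV _ (bridge_t2E E M hM) G,
    goodRedAt_inv_of_goodModel hV _ (bridge_t2E E M hM) G⟩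

/-- **GOODRED for `q = 2`** (`3 ∣ M`). -/
theorem goodRedHyp_two (hqM : ¬ 2 ∣ M) (hM : 3 ∣ M) (hP : P.LiesOverPrime 2)
    (hdvr : IsDiscreteValuationRing (_root_.Fermat.Agent.A2.Mod.RE P E)) : GoodRedHyp P E M := by
  haveI := hdvr
  haveI : Fact (Nat.Prime 2) := ⟨Nat.prime_two⟩
  refine H189.goodRedHyp_of_t3 P E M hP (NeZero.ne M) hM hdvr fun w VM hw hV => ?_
  obtain ⟨S, hS⟩ := isCoordinate_t3Om M hM
  have G := S18.Mod.H216.goodModel_of_partR M P E hqM hP
    (partR_bridge_cE P E M Nat.prime_two hP hw) hS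
  exact ⟨goodRedAt_of_goodModel hV _ (bridge_t3E E M hM) G,
    goodRedAt_inv_of_goodModel hV _ (bridge_t3E E M hM) G⟩

/-- **GOODRED, all primes**: any level `E` with `R_E` a discrete valuation ring. -/
theorem goodRedHyp_of_dvr {q : ℕ} (hq : q.Prime) (hqM : ¬ q ∣ M) (h3 : q = 3 → 2 ∣ M)
    (h2 : q = 2 → 3 ∣ M) (hP : P.LiesOverPrime q) (hdvr : IsDiscreteValuationRing (_root_.Fermat.Agent.A2.Mod.RE P E)) :
    GoodRedHyp P E M := by
  by_cases h5 : 5 ≤ q
  · exact goodRedHyp P E M hq h5 hqM hP hdvr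
  · have hq2 := hq.two_le
    have hcases : q = 2 ∨ q = 3 := by
      by_contra hne
      have : q = 4 := by omega
      subst this
      exact absurd hq (by norm_num)
    rcases hcases with rfl | rfl
    · exact goodRedHyp_two P E M hqM (h2 rfl) hP hdvr
    · exact goodRedHyp_three P E M hqM (h3 rfl) hP hdvr

end Fermat.Agent.A2.Mod.H216

namespace Fermat.Agent.A2.Top.H216

open Fermat.Agent.A2

/-- **`Top.H994.GoodRedStatement`** (exact target of the GOODRED owners, `Top/H994/ModTop.lean`). -/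
theorem goodRedStatement : Top.H994.GoodRedStatement :=
  fun P E M q _ _ hq hqM h3 h2 hP hE =>
    Mod.H216.goodRedHyp_of_dvr P E M hq hqM h3 h2 hP hE.dvr

end Fermat.Agent.A2.Top.H216

end
end
-- ===== PACK-END A2/Mod/H216/GoodRedAll.lean

-- ===== PACK-BEGIN S35/G/H862/Model.lean
section












/-!
# S35, piece (G') — leaf MODEL (helper862)

* `s1`, `s3` : the sub-assemblies S1, S3 of `A2/Mod/Asm.lean`, UNCONDITIONAL (wiring of the leaves
  on main: L4/L5 `H751`, L6 `H553`, L7 `H900`, L8 `H31`, L9/L10 `H753`, L11 `H378`, L12 `H96`,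
  S2 `H142`, `H13.s1`, `H372.s3_of_leaves`).
* `ModelNoSepStatement` : `G.ModelStatement` WITHOUT its two `SepCoord` conjuncts;
  `modelNoSep : ModelNoSepStatement A E M q w` UNCONDITIONAL.
* `model_of : S4Statement A E M q w → G.ModelStatement A E M q w`;
* `model : G.ModelStatement A E M q w` (VERBATIM `S35/G/SpecLevel.lean`), UNCONDITIONAL
  (S4 = `H732.s4`).
-/

set_option autoImplicit false
set_option linter.style.haveILetI false
set_option linter.unusedSectionVars false
set_option synthInstance.maxHeartbeats 400000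
set_option maxHeartbeats 1600000

noncomputable section

namespace Fermat.Agent.S35.G.H862

open ModularCurve Fermat.Agent.A2.Mod

variable (A : ValuationSubring _root_.Fermat.Agent.S35.G.Qb) (E : IntermediateField ℚ _root_.Fermat.Agent.S35.G.Qb) (M q : ℕ) [NeZero M] [NeZero q]
  (w : RE A E)

/-- **S1** (two components), unconditional. -/
theorem s1 : S1Statement A E M q w :=
  H13.s1 (H553.vzeroNe A E M q w) (H31.deg E M q) (H753.indInf A E M q w)
    (H753.indZero A E M q w)

/-- **S3** (ordinary double points), unconditional. -/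
theorem s3 : S3Statement A E M q w :=
  H372.s3_of_leaves A E M q w (H751.frickeExists E) (H751.frickeCompat E M q)
    (H900.frickeStable A E M q w) (H31.deg E M q) (H378.resInf A E M q w)
    (H96.kron A E M q w) (H142.s2 A E M q w)

/-- **MODEL without `SepCoord`**: `G.ModelStatement` minus its two `SepCoord` conjuncts. -/
def ModelNoSepStatement : Prop :=
  Setting A E M q w → A2.GoodField A E → HasAux M q →
    ∃ (V : ValuationSubring (FE E (M * q)))
      (W : FE E (M * q) ≃ₐ[E] FE E (M * q))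
      (VM : ValuationSubring (FE E M)),
      IsVinf A E (M * q) V ∧ IsFricke E (M * q) W ∧ IsVinf A E M VM ∧
      GoodRedAt A E M w VM (jE E M 1 (one_dvd _)) ∧
      GoodRedAt A E M w VM (jE E M 1 (one_dvd _))⁻¹ ∧
      A2.Mod.DegStatement E M q ∧
      ∃ (cf : A2.SSChart w (chartAlg A E (M * q) (xE E M q)))
        (ci : A2.SSChart w (chartAlg A E (M * q) (xE E M q)⁻¹)),
        CutBy w (chartAlg A E (M * q) (xE E M q)) cf V
          (V.comap (W : FE E (M * q) →+* FE E (M * q))) ∧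
        CutBy w (chartAlg A E (M * q) (xE E M q)⁻¹) ci V
          (V.comap (W : FE E (M * q) →+* FE E (M * q)))

/-- **MODEL without `SepCoord`**, unconditional. -/
theorem modelNoSep : ModelNoSepStatement A E M q w := by
  intro hS _ hAux
  have hN : M * q ≠ 0 := mul_ne_zero hS.M_ne_zero hS.q_prime.ne_zero
  obtain ⟨V, hV⟩ := H553.vinfExists A E (M * q) hN hS.dvr
  obtain ⟨VM, hVM⟩ := H553.vinfExists A E M hS.M_ne_zero hS.dvr
  obtain ⟨W, hW⟩ := H751.frickeExists E (M * q) hN
  obtain ⟨hg₁, hg₂⟩ := H216.goodRedHyp_of_dvr A E M hS.q_prime hS.q_not_dvd hAux.1 hAux.2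
    hS.lies_over hS.dvr w VM hS.unif hVM
  obtain ⟨cf, hcf⟩ := exists_chart_cutBy hS (s1 A E M q w) (H142.s2 A E M q w) (s3 A E M q w)
    VM V W hVM hV hW _ _ (Or.inl ⟨rfl, rfl⟩) hg₁
  obtain ⟨ci, hci⟩ := exists_chart_cutBy hS (s1 A E M q w) (H142.s2 A E M q w) (s3 A E M q w)
    VM V W hVM hV hW _ _ (Or.inr ⟨rfl, rfl⟩) hg₂
  exact ⟨V, W, VM, hV, hW, hVM, hg₁, hg₂, H31.deg E M q, cf, ci, hcf, hci⟩

/-- **MODEL** (`G.ModelStatement`, VERBATIM), from S4 (`SepCoord`). -/
theorem model_of (hS4 : S4Statement A E M q w) : ModelStatement A E M q w := by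
  intro hS _ hAux
  have hN : M * q ≠ 0 := mul_ne_zero hS.M_ne_zero hS.q_prime.ne_zero
  obtain ⟨V, hV⟩ := H553.vinfExists A E (M * q) hN hS.dvr
  obtain ⟨VM, hVM⟩ := H553.vinfExists A E M hS.M_ne_zero hS.dvr
  obtain ⟨W, hW⟩ := H751.frickeExists E (M * q) hN
  obtain ⟨hg₁, hg₂⟩ := H216.goodRedHyp_of_dvr A E M hS.q_prime hS.q_not_dvd hAux.1 hAux.2
    hS.lies_over hS.dvr w VM hS.unif hVM
  obtain ⟨hsf, hsi⟩ := hS4 hS VM hVM hg₁ hg₂
  obtain ⟨cf, hcf⟩ := exists_chart_cutBy hS (s1 A E M q w) (H142.s2 A E M q w) (s3 A E M q w)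
    VM V W hVM hV hW _ _ (Or.inl ⟨rfl, rfl⟩) hg₁
  obtain ⟨ci, hci⟩ := exists_chart_cutBy hS (s1 A E M q w) (H142.s2 A E M q w) (s3 A E M q w)
    VM V W hVM hV hW _ _ (Or.inr ⟨rfl, rfl⟩) hg₂
  exact ⟨V, W, VM, hV, hW, hVM, hg₁, hg₂, H31.deg E M q, hsf, hsi, cf, ci, hcf, hci⟩

/-- **MODEL** (`G.ModelStatement`, VERBATIM), UNCONDITIONAL. -/
theorem model : ModelStatement A E M q w :=
  model_of A E M q w (H732.s4 A E M q w)

end Fermat.Agent.S35.G.H862

end

end
-- ===== PACK-END S35/G/H862/Model.lean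

-- ===== PACK-BEGIN Ribet/H103/S2Spec.lean
section





/-!
# RIBET, wall at `p`, target S2 (I4 + I5) — concrete interface and assembly (helper103)

Target (frozen by helper944, `Ribet/H944/WallTargets.lean`):

    S2For p M' A 𝒮 : ∀ x ∈ 𝒮, IsNewTors p M' x → ∀ σ ∈ I_A, ∀ c, CycloAt p σ c → σ • x = c • x

This file:

* `IsKummerFn N p x f`     : `f ≠ 0`, `div f = p · D`, `[D] = x`   (`f ∈ ℚ̄(X₀(N))`);
* `DeepPureClass p M' A x` : `x` has a Kummer function `ι y`, `y ∈ F_{N,E}` for a GOOD LEVEL `E ∋ ζ_p`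
  (`A2.GoodField`), which on a semistable model `D : A2.ModSSData A E (p * M')` is
    - DEEPLY SPLIT: `y ≡ 1 mod (ζ-1)^p w` on both components of both charts
      (`AlgP.IsDeepSplit`), and
    - PURE at every closed point of the special fibre of both charts (`A2.Alg.PureAt`);
* `smul_eq_nsmul_of_kummer` (T, PROVED) : `σ f = h ^ p · f ^ c ⟹ σ • x = c • x`;
* `s2core` (PROVED) : `AlgPStatement → DeepPureClass p M' A x → (σ • x = c • x for σ ∈ I_A, χ(σ) = c)`;
* `SplitRedClass p M' A x`  : the same with "deeply split" replaced by "the reductions on both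
  components are constants times `p`-th powers", on the STANDARD model (coordinate `j · j_p`);
* leaf `DictFor p M' A 𝒮`  : `x ∈ 𝒮`, `p x = 0` ⟹ `SplitRedClass`   (owner of the definition of `𝒮`);
* leaf `NCFor p M' A`      : `x` new + `SplitRedClass` ⟹ `DeepPureClass`   (NORM CONTRACTION I4);
* `s2For_of_leaves` (PROVED) : `AlgPStatement → DictFor → NCFor → S2For p M' A 𝒮`
  (also `ncx_of`, `s2For_of` with the combined leaf `NCXStatement`).
Board with the sub-leaves of NC: `origin/helper103:coord/RIBET-S2-helper103.md`.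
-/

set_option autoImplicit false
set_option linter.style.haveILetI false
set_option synthInstance.maxHeartbeats 400000
set_option maxHeartbeats 1600000

noncomputable section

namespace Fermat.Agent.Ribet.H103.S2

open AlgebraicCurve ModularCurve
open Fermat.Agent.A2 Fermat.Agent.A2.Alg Fermat.Agent.A2.T1.H669
open Fermat.Agent.Ribet.H103.AlgP

/-! ## T: the Kummer dictionary for a scalar action -/

section Dict

variable {K F : Type*} [Field K] [Field F] [Algebra K F]

/-- **T.**  If `div f = m · D` and `g f = y ^ m · f ^ k`, then `g • [D] = k • [D]`. -/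
theorem smul_eq_nsmul_of_kummer (g : SemilinearAut K F) (m k : ℕ) (hm : m ≠ 0)
    (D : Divisor.degZero (K := K) (F := F)) (f : F) (hf : f ≠ 0)
    (hfD : ∀ v : Place K F, v.ord f = (m : ℤ) * (D : Divisor K F) v)
    (y : F) (hy : y ≠ 0) (h : SemilinearAut.toRingAut g f = y ^ m * f ^ k) :
    g • Pic0.mk D = k • Pic0.mk D := by
  set E : Divisor.degZero (K := K) (F := F) := SemilinearAut.degZeroSMulHom g D - k • D with hE
  have hgoal : g • Pic0.mk D - k • Pic0.mk D = Pic0.mk E := by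
    rw [SemilinearAut.pic0_smul_mk]
    rfl
  rw [← sub_eq_zero, hgoal]
  refine (QuotientAddGroup.eq_zero_iff E).2 ?_
  rw [AddSubgroup.mem_addSubgroupOf]
  refine ⟨y, hy, fun w => ?_⟩
  have hEw : (E : Divisor K F) w = (D : Divisor K F) (g⁻¹ • w) - k * (D : Divisor K F) w := by
    simp only [hE, AddSubgroupClass.coe_sub, SemilinearAut.coe_degZeroSMulHom,
      Finsupp.sub_apply, SemilinearAut.divisor_smul_apply, AddSubgroupClass.coe_nsmul,
      Finsupp.smul_apply, nsmul_eq_mul]
  have h1 : w.ord (SemilinearAut.toRingAut g f) = (g⁻¹ • w).ord f :=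
    Fermat.Agent.A2.H129.ord_smul_eq g w f
  have h2 : w.ord (y ^ m * f ^ k) = (m : ℤ) * w.ord y + k * w.ord f := by
    rw [w.ord_mul (pow_ne_zero m hy) (pow_ne_zero k hf), Fermat.Agent.A2.H129.ord_pow,
      Fermat.Agent.A2.H129.ord_pow]
  have hmE : (m : ℤ) * (E : Divisor K F) w = (m : ℤ) * w.ord y := by
    have h3 : (g⁻¹ • w).ord f = (m : ℤ) * w.ord y + k * w.ord f := by
      rw [← h1, h, h2]
    rw [hfD, hfD] at h3
    rw [hEw]
    linear_combination h3
  have hm' : (m : ℤ) ≠ 0 := by exact_mod_cast hm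
  exact mul_left_cancel₀ hm' hmE

end Dict

/-! ## Definitions at the modular level -/

/-- `f` is a Kummer function of the class `x` of order dividing `p`:
`f ≠ 0` and `div f = p · D` with `[D] = x`. -/
def IsKummerFn (N p : ℕ) (x : JZero N) (f : modularFunctionFieldBar N) : Prop :=
  f ≠ 0 ∧ ∃ D : Divisor.degZero (K := AlgebraicClosure ℚ) (F := modularFunctionFieldBar N),
    Pic0.mk D = x ∧ ∀ v : Place (AlgebraicClosure ℚ) (modularFunctionFieldBar N),
      v.ord f = (p : ℤ) * (D : Divisor (AlgebraicClosure ℚ) (modularFunctionFieldBar N)) v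

/-- **Deeply split and pure classes.**  `x ∈ J₀(N)`, `N = p * M'`, has a Kummer function defined
over a good level `E ∋ ζ_p` which, on a semistable model `D` over `R_E`, is `≡ 1` modulo
`(ζ - 1) ^ p · w` on both components of both charts and pure at every closed point of the special
fibre of both charts. -/
def DeepPureClass (p M' : ℕ) (A : ValuationSubring (AlgebraicClosure ℚ)) (x : JZero (p * M')) : Prop :=
  ∃ (E : IntermediateField ℚ (AlgebraicClosure ℚ)) (_ : GoodField A E) (D : ModSSData A E (p * M'))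
    (ζ w : RE A E) (y : FE E (p * M')) (cf : SSChart w D.Bf) (ci : SSChart w D.Bi),
    IsPrimitiveRoot ζ p ∧ Irreducible w ∧
    IsKummerFn (p * M') p x (iota E (modularFunctionFieldFull (p * M')) y) ∧
    IsDeepSplit D.Bf cf ((ζ - 1) ^ p * w) y ∧ IsDeepSplit D.Bi ci ((ζ - 1) ^ p * w) y ∧
    (∀ n : Ideal D.Bf, n.IsMaximal → algebraMap (RE A E) D.Bf w ∈ n → PureAt D.Bf cf p y n) ∧
    (∀ n : Ideal D.Bi, n.IsMaximal → algebraMap (RE A E) D.Bi w ∈ n → PureAt D.Bi ci p y n)

/-- The standard coordinate `x = j · j_p` of level `N` (`p ∣ N`): equal to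
`A2.Mod.jE E N 1 _ * A2.Mod.jE E N p _`, i.e. to `A2.Mod.xE E M p` for `N = M * p`
(`A2/Mod/Spec.lean`; definitions unfolded to keep the imports small). -/
def stdCoord (E : IntermediateField ℚ (AlgebraicClosure ℚ)) (N p : ℕ) [NeZero p]
    (hpN : p ∣ N) : FE E N :=
  (⟨coeffEmb E (qExpand ℚ 1 jq), coeffEmb_mem_laurentBaseChange E (jqd_mem_full N (one_dvd N))⟩ :
      FE E N) *
    ⟨coeffEmb E (qExpand ℚ p jq), coeffEmb_mem_laurentBaseChange E (jqd_mem_full N hpN)⟩

/-- The reduction of `y` on the component `𝔭` is a constant times a `p`-th power: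
`y · g ^ p ∈ Rˣ · (1 + 𝔭 B_𝔭)` for some `g`. -/
def RedPowAt {R F : Type*} [CommRing R] [Field F] [Algebra R F] (B : Subalgebra R F)
    (𝔭 : Ideal B) (p : ℕ) (y : F) : Prop :=
  ∃ g : F, g ≠ 0 ∧ ConstAt B 𝔭 (y * g ^ p)

/-- **Split-reduction classes** (the INPUT of norm contraction; this is what membership in the
split part `𝒮` has to provide).  `x` has a Kummer function `ι y`, `y ∈ F_{N,E}`, `E` a good level,
which on the STANDARD semistable model (coordinate `j · j_p`) over `R_E` has reductions on both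
components of both charts which are constants times `p`-th powers, and is pure at every closed
point of the special fibre of both charts. -/
def SplitRedClass (p M' : ℕ) [NeZero p] (A : ValuationSubring (AlgebraicClosure ℚ))
    (x : JZero (p * M')) : Prop :=
  ∃ (E : IntermediateField ℚ (AlgebraicClosure ℚ)) (_ : GoodField A E)
    (D : ModSSData A E (p * M'))
    (w : RE A E) (y : FE E (p * M')) (cf : SSChart w D.Bf) (ci : SSChart w D.Bi),
    D.x = stdCoord E (p * M') p (dvd_mul_right p M') ∧ Irreducible w ∧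
    IsKummerFn (p * M') p x (iota E (modularFunctionFieldFull (p * M')) y) ∧
    RedPowAt D.Bf cf.p₁ p y ∧ RedPowAt D.Bf cf.p₂ p y ∧
    RedPowAt D.Bi ci.p₁ p y ∧ RedPowAt D.Bi ci.p₂ p y ∧
    (∀ n : Ideal D.Bf, n.IsMaximal → algebraMap (RE A E) D.Bf w ∈ n → PureAt D.Bf cf p y n) ∧
    (∀ n : Ideal D.Bi, n.IsMaximal → algebraMap (RE A E) D.Bi w ∈ n → PureAt D.Bi ci p y n)

/-- **Leaf DICT** (owner of the definition of `𝒮`): the classes of the split part are
split-reduction classes. -/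
def DictFor (p M' : ℕ) [NeZero p] (A : ValuationSubring (AlgebraicClosure ℚ))
    (𝒮 : AddSubgroup (JZero (p * M'))) : Prop :=
  ∀ x ∈ 𝒮, p • x = 0 → SplitRedClass p M' A x

/-- **Leaf NC** (norm contraction, I4): a NEW split-reduction class is deeply split (over a
possibly larger good level containing `ζ_p`) and stays pure. -/
def NCFor (p M' : ℕ) [NeZero M'] [NeZero p] [NeZero (p * M')]
    (A : ValuationSubring (AlgebraicClosure ℚ)) : Prop :=
  ∀ x : JZero (p * M'), Fermat.Agent.Ribet.H944.Wall.IsNewTors p M' x →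
    SplitRedClass p M' A x → DeepPureClass p M' A x

/-- **Leaf NCX** (dictionary for `𝒮` + norm contraction): a new class of the split part is
deeply split and pure. -/
def NCXStatement (p M' : ℕ) [NeZero M'] [NeZero p] [NeZero (p * M')]
    (A : ValuationSubring (AlgebraicClosure ℚ)) (𝒮 : AddSubgroup (JZero (p * M'))) : Prop :=
  ∀ x ∈ 𝒮, Fermat.Agent.Ribet.H944.Wall.IsNewTors p M' x → DeepPureClass p M' A x

/-- NCX from DICT and NC. -/
theorem ncx_of (p M' : ℕ) [NeZero M'] [NeZero p] [NeZero (p * M')]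
    (A : ValuationSubring (AlgebraicClosure ℚ)) (𝒮 : AddSubgroup (JZero (p * M')))
    (hD : DictFor p M' A 𝒮) (hNC : NCFor p M' A) : NCXStatement p M' A 𝒮 :=
  fun x hx hnew => hNC x hnew (hD x hx hnew.1)

/-! ## The core: ALG-p on a deeply split pure class -/

/-- **S2, core.**  On a deeply split pure class inertia acts through the cyclotomic character. -/
theorem s2core (hALG : AlgPStatement) (p M' : ℕ) (hp : p.Prime)
    (A : ValuationSubring (AlgebraicClosure ℚ)) (hA : A.LiesOverPrime p) (x : JZero (p * M'))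
    (hx : DeepPureClass p M' A x) :
    ∀ σ ∈ A.inertiaSubgroupIn ℚ, ∀ c : ℕ, Fermat.Agent.Ribet.H944.Wall.CycloAt p σ c →
      σ • x = c • x := by
  intro σ hσ c hc
  obtain ⟨E, hE, D, ζ, w, y, cf, ci, hζ, hw, ⟨hf0, Dv, hDx, hord⟩, hdf, hdi, hpf, hpi⟩ := hx
  haveI : IsDiscreteValuationRing ↥(RE A E) := hE.dvr
  haveI : HenselianLocalRing ↥(RE A E) := hE.henselian
  haveI : IsAlgClosed (IsLocalRing.ResidueField ↥(RE A E)) := hE.algClosed
  set F₀ := modularFunctionFieldFull (p * M') with hF₀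
  have hy0 : y ≠ 0 := by
    rintro rfl
    exact hf0 (map_zero _)
  have hdiv : DivisibleDiv E p y :=
    divisibleDiv_of_ord E F₀ p y hy0 (fun v => ⟨_, hord v⟩)
  -- the cyclotomic character on `ζ`
  have hk : resR hE σ hσ ζ = ζ ^ c := by
    apply Subtype.ext
    apply Subtype.ext
    show σ (((ζ : ↥(RE A E)) : E) : AlgebraicClosure ℚ) = (((ζ ^ c : ↥(RE A E)) : E) : AlgebraicClosure ℚ)
    have h1 : ((((ζ : ↥(RE A E)) : E) : AlgebraicClosure ℚ)) ^ p = 1 := by
      have := congrArg (fun z : ↥(RE A E) => (((z : E)) : AlgebraicClosure ℚ)) hζ.pow_eq_one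
      simpa using this
    rw [hc _ h1]
    simp
  obtain ⟨h, hh0, hh⟩ := hALG (R := ↥(RE A E)) (E := E) (F := ↥(FE E (p * M'))) p hp
    (natCast_mem_maximalIdeal_RE E hA) ζ hζ w hw D.x D.hx D.hfin D.hconst D.Bf D.Bi D.hBf D.hBi
    cf ci
    (arithmeticRingAut F₀ (hE.res σ hσ))
    (hE.res σ hσ).toRingEquiv (resR hE σ hσ)
    (fun e => arithmeticRingAut_algebraMap F₀ (hE.res σ hσ) e)
    (fun r => rfl)
    (D.hτf hE σ hσ w hw) (D.hτi hE σ hσ w hw)
    c hk y hy0 hdiv hdf hdi hpf hpi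
  -- push to `F̄`
  have h1 := congrArg (iota E F₀) hh
  rw [map_mul, map_pow, map_pow, iota_arithmeticRingAut E F₀ σ (hE.res σ hσ) (fun e => rfl)]
    at h1
  rw [← hDx]
  exact smul_eq_nsmul_of_kummer (arithmeticGalois F₀ σ) p c hp.ne_zero Dv (iota E F₀ y) hf0 hord
    (iota E F₀ h) (iota_ne_zero E F₀ hh0) h1

/-- **S2 from ALG-p, DICT and NC.** -/
theorem s2For_of_leaves (hALG : AlgPStatement) (p M' : ℕ) [NeZero M'] [NeZero p]
    [NeZero (p * M')] (hp : p.Prime) (A : ValuationSubring (AlgebraicClosure ℚ))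
    (hA : A.LiesOverPrime p) (𝒮 : AddSubgroup (JZero (p * M')))
    (hD : DictFor p M' A 𝒮) (hNC : NCFor p M' A) :
    Fermat.Agent.Ribet.H944.Wall.S2For p M' A 𝒮 := by
  intro x hx hnew σ hσ c hc
  exact s2core hALG p M' hp A hA x (hNC x hnew (hD x hx hnew.1)) σ hσ c hc

/-- **S2 from ALG-p and NCX.** -/
theorem s2For_of (hALG : AlgPStatement) (p M' : ℕ) [NeZero M'] [NeZero p] [NeZero (p * M')]
    (hp : p.Prime) (A : ValuationSubring (AlgebraicClosure ℚ)) (hA : A.LiesOverPrime p)
    (𝒮 : AddSubgroup (JZero (p * M'))) (hNCX : NCXStatement p M' A 𝒮) :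
    Fermat.Agent.Ribet.H944.Wall.S2For p M' A 𝒮 := by
  intro x hx hnew σ hσ c hc
  exact s2core hALG p M' hp A hA x (hNCX x hx hnew) σ hσ c hc

end Fermat.Agent.Ribet.H103.S2

end

end
-- ===== PACK-END Ribet/H103/S2Spec.lean

-- ===== PACK-BEGIN Ribet/H862/StdModel.lean
section




/-!
# RIBET, wall at `p` — the STANDARD semistable model with its cut data (helper862)

Shared input of the leaves DICT, NC, DK of the (S2) chain (`Ribet/H103/S2Spec.lean`):
`SplitRedClass` / `DeepPureClass` speak about a semistable model `D : A2.ModSSData A E N` with the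
standard coordinate `D.x = stdCoord = j · j_q` and ARBITRARY semistable charts `cf`, `ci`.

* `swapChart`, `components_unique` (abstract, `A2.SSChart` only): the two components of a
  semistable chart are determined by `(w, B)` up to order;
* `cutBy_congr`, `cutBy_swap` : transport of `S35.G.CutBy` along equal components;
* `cutBy_of_isCoordPair` : for EVERY subalgebra `B` which is the integral closure of `R_E[y]`,
  `y ∈ {x, x⁻¹}`, and EVERY semistable chart `c` of `B`: the components of `c` are cut out by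
  `V∞`, `V₀ = V∞ ∘ W` in one of the two orders (`B ⊆ V∞, V₀`; `p = B ∩ w V`);
* `stdCoord_eq_xE` : `stdCoord E (M * q) q _ = A2.Mod.xE E M q`;
* `stdModel` : UNCONDITIONAL existence of `D : A2.ModSSData A E N` with `D.x = stdCoord E N q _`
  at every level `N` with `q ‖ N` carrying the auxiliary prime (`q = 3 → 2 ∣ N`, `q = 2 → 3 ∣ N`),
  over every good level `E`, TOGETHER with `V∞`, the Fricke involution `W`, and charts `cf`, `ci`
  with cut data, for every uniformiser `w`;
* `cutBy_of_std` : for ANY `D : A2.ModSSData A E N` with `D.x = stdCoord E N q _`, any `V∞`, `W`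
  and ANY charts `c` of `D.Bf`, `D.Bi`: cut data in one of the two orders.
-/

set_option autoImplicit false
set_option linter.style.haveILetI false
set_option linter.unusedSectionVars false
set_option synthInstance.maxHeartbeats 400000
set_option maxHeartbeats 1600000

noncomputable section

namespace Fermat.Agent.Ribet.H862

open ModularCurve Fermat.Agent.A2.Mod
open Fermat.Agent.S35.G (CutBy)

/-! ## Abstract: the components of a semistable chart -/

section Abstract

variable {R F : Type*} [CommRing R] [Field F] [Algebra R F] {w : R} {B : Subalgebra R F}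

/-- The semistable chart with its two components exchanged. -/
def swapChart (c : A2.SSChart w B) : A2.SSChart w B where
  p₁ := c.p₂
  p₂ := c.p₁
  prime₁ := c.prime₂
  prime₂ := c.prime₁
  ne := fun h => c.ne h.symm
  not_le₁₂ := c.not_le₂₁
  not_le₂₁ := c.not_le₁₂
  inf_eq := by rw [inf_comm]; exact c.inf_eq
  normal₁ := c.normal₂
  normal₂ := c.normal₁
  transversal := by rw [sup_comm]; exact c.transversal

@[simp] theorem swapChart_p₁ (c : A2.SSChart w B) : (swapChart c).p₁ = c.p₂ := rfl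

@[simp] theorem swapChart_p₂ (c : A2.SSChart w B) : (swapChart c).p₂ = c.p₁ := rfl

/-- **The components of a semistable chart are unique up to order.** -/
theorem components_unique (c c' : A2.SSChart w B) :
    (c.p₁ = c'.p₁ ∧ c.p₂ = c'.p₂) ∨ (c.p₁ = c'.p₂ ∧ c.p₂ = c'.p₁) := by
  have hinf : c.p₁ ⊓ c.p₂ = c'.p₁ ⊓ c'.p₂ := c.inf_eq.trans c'.inf_eq.symm
  have h1 : c.p₁ ≤ c'.p₁ ∨ c.p₂ ≤ c'.p₁ :=
    (Ideal.IsPrime.inf_le c'.prime₁).1 (hinf ▸ inf_le_left)
  have h2 : c.p₁ ≤ c'.p₂ ∨ c.p₂ ≤ c'.p₂ :=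
    (Ideal.IsPrime.inf_le c'.prime₂).1 (hinf ▸ inf_le_right)
  have h3 : c'.p₁ ≤ c.p₁ ∨ c'.p₂ ≤ c.p₁ :=
    (Ideal.IsPrime.inf_le c.prime₁).1 (hinf.symm ▸ inf_le_left)
  have h4 : c'.p₁ ≤ c.p₂ ∨ c'.p₂ ≤ c.p₂ :=
    (Ideal.IsPrime.inf_le c.prime₂).1 (hinf.symm ▸ inf_le_right)
  rcases h1 with h1 | h1
  · -- `p₁ ≤ p₁'`
    have e1 : c.p₁ = c'.p₁ := by
      rcases h3 with h3 | h3
      · exact le_antisymm h1 h3
      · exact absurd (h3.trans h1) c'.not_le₂₁
    have e2 : c.p₂ = c'.p₂ := by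
      rcases h2 with h2 | h2
      · exact absurd (e1 ▸ h2) c'.not_le₁₂
      · rcases h4 with h4 | h4
        · exact absurd (e1 ▸ h4) c.not_le₁₂
        · exact le_antisymm h2 h4
    exact Or.inl ⟨e1, e2⟩
  · -- `p₂ ≤ p₁'`
    have e2 : c.p₂ = c'.p₁ := by
      rcases h4 with h4 | h4
      · exact le_antisymm h1 h4
      · exact absurd (h4.trans h1) c'.not_le₂₁
    have e1 : c.p₁ = c'.p₂ := by
      rcases h2 with h2 | h2
      · rcases h3 with h3 | h3
        · exact absurd (e2 ▸ h3) c.not_le₂₁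
        · exact le_antisymm h2 h3
      · exact absurd (e2 ▸ h2) c'.not_le₁₂
    exact Or.inr ⟨e1, e2⟩

/-- `CutBy` depends only on the two components. -/
theorem cutBy_congr {c c' : A2.SSChart w B} {V₁ V₂ : ValuationSubring F}
    (h : CutBy w B c V₁ V₂) (h₁ : c'.p₁ = c.p₁) (h₂ : c'.p₂ = c.p₂) : CutBy w B c' V₁ V₂ where
  le₁ := h.le₁
  le₂ := h.le₂
  cut₁ := fun b => by rw [h₁]; exact h.cut₁ b
  cut₂ := fun b => by rw [h₂]; exact h.cut₂ b

/-- `CutBy` with the components exchanged. -/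
theorem cutBy_swap {c c' : A2.SSChart w B} {V₁ V₂ : ValuationSubring F}
    (h : CutBy w B c V₁ V₂) (h₁ : c'.p₁ = c.p₂) (h₂ : c'.p₂ = c.p₁) : CutBy w B c' V₂ V₁ where
  le₁ := h.le₂
  le₂ := h.le₁
  cut₁ := fun b => by rw [h₁]; exact h.cut₂ b
  cut₂ := fun b => by rw [h₂]; exact h.cut₁ b

/-- Cut data for one semistable chart gives cut data, in one of the two orders, for every
semistable chart of the same `(w, B)`. -/
theorem cutBy_or_of_cutBy {c : A2.SSChart w B} {V₁ V₂ : ValuationSubring F}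
    (h : CutBy w B c V₁ V₂) (c' : A2.SSChart w B) :
    CutBy w B c' V₁ V₂ ∨ CutBy w B c' V₂ V₁ := by
  rcases components_unique c' c with ⟨h₁, h₂⟩ | ⟨h₁, h₂⟩
  · exact Or.inl (cutBy_congr h h₁ h₂)
  · exact Or.inr (cutBy_swap h h₁ h₂)

end Abstract

/-! ## The charts of the standard coordinate -/

section Charts

variable {A : ValuationSubring _root_.Fermat.Agent.A2.Mod.Qb} {E : IntermediateField ℚ _root_.Fermat.Agent.A2.Mod.Qb} {M q : ℕ} [NeZero M] [NeZero q]
  {w : RE A E}

/-- The chart (integral closure of `R_E[y]`, `y ∈ {x, x⁻¹}`) with ANY semistable structure has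
its components cut out by `V∞` and `V₀ = V∞ ∘ W`, in one of the two orders. -/
theorem cutBy_of_isCoordPair (hS : Setting A E M q w) (h3 : q = 3 → 2 ∣ M) (h2 : q = 2 → 3 ∣ M)
    (V : ValuationSubring (FE E (M * q))) (W : FE E (M * q) ≃ₐ[E] FE E (M * q))
    (hV : IsVinf A E (M * q) V) (hW : IsFricke E (M * q) W)
    (yM : FE E M) (y : FE E (M * q)) (hy : IsCoordPair E M q yM y)
    (B : Subalgebra (RE A E) (FE E (M * q)))
    (hB : ∀ f : FE E (M * q), f ∈ B ↔
      IsIntegral (Algebra.adjoin (RE A E) ({y} : Set (FE E (M * q)))) f)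
    (c : A2.SSChart w B) :
    CutBy w B c V (V.comap (W : FE E (M * q) →+* FE E (M * q))) ∨
      CutBy w B c (V.comap (W : FE E (M * q) →+* FE E (M * q))) V := by
  have hBe : B = chartAlg A E (M * q) y := by
    ext f
    rw [hB f]
    exact Iff.rfl
  subst hBe
  obtain ⟨VM, hVM⟩ := H553.vinfExists A E M hS.M_ne_zero hS.dvr
  obtain ⟨hg₁, hg₂⟩ := H216.goodRedHyp_of_dvr A E M hS.q_prime hS.q_not_dvd h3 h2
    hS.lies_over hS.dvr w VM hS.unif hVM
  have hg : GoodRedAt A E M w VM yM := by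
    rcases hy with ⟨h, -⟩ | ⟨h, -⟩
    · rw [h]; exact hg₁
    · rw [h]; exact hg₂
  obtain ⟨c₀, hc₀⟩ := Fermat.Agent.S35.G.H862.exists_chart_cutBy hS
    (Fermat.Agent.S35.G.H862.s1 A E M q w) (H142.s2 A E M q w)
    (Fermat.Agent.S35.G.H862.s3 A E M q w) VM V W hVM hV hW yM y hy hg
  exact cutBy_or_of_cutBy hc₀ c

end Charts

/-! ## The standard model -/

section Std

open Fermat.Agent.Ribet.H103.S2 (stdCoord)

/-- The standard coordinate of `H103.S2Spec` is the coordinate `x = j · j_q` of `A2/Mod`. -/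
theorem stdCoord_eq_xE (E : IntermediateField ℚ _root_.Fermat.Agent.A2.Mod.Qb) (M q : ℕ) [NeZero M] [NeZero q]
    (h : q ∣ M * q) : stdCoord E (M * q) q h = xE E M q := rfl

/-- The `Setting` of `A2/Mod` at a good level. -/
theorem setting_of_goodField {A : ValuationSubring _root_.Fermat.Agent.A2.Mod.Qb} {E : IntermediateField ℚ _root_.Fermat.Agent.A2.Mod.Qb} {M q : ℕ}
    (hq : q.Prime) (hqM : ¬ q ∣ M) (hM : M ≠ 0) (hA : A.LiesOverPrime q)
    (hE : A2.GoodField A E) {w : RE A E} (hw : Irreducible w) : Setting A E M q w :=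
  { q_prime := hq
    q_not_dvd := hqM
    M_ne_zero := hM
    lies_over := hA
    dvr := hE.dvr
    unif := hw }

/-- **Cut data for ANY standard model** at level `M * q`. -/
theorem cutBy_of_std_mul (A : ValuationSubring _root_.Fermat.Agent.A2.Mod.Qb) (E : IntermediateField ℚ _root_.Fermat.Agent.A2.Mod.Qb) (M q : ℕ)
    [NeZero M] [NeZero q] (hq : q.Prime) (hqM : ¬ q ∣ M) (h3 : q = 3 → 2 ∣ M)
    (h2 : q = 2 → 3 ∣ M) (hA : A.LiesOverPrime q) (hE : A2.GoodField A E)
    (D : A2.ModSSData A E (M * q)) (hD : D.x = xE E M q)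
    (V : ValuationSubring (FE E (M * q))) (W : FE E (M * q) ≃ₐ[E] FE E (M * q))
    (hV : IsVinf A E (M * q) V) (hW : IsFricke E (M * q) W)
    (w : RE A E) (hw : Irreducible w) :
    (∀ c : A2.SSChart w D.Bf,
      CutBy w D.Bf c V (V.comap (W : FE E (M * q) →+* FE E (M * q))) ∨
        CutBy w D.Bf c (V.comap (W : FE E (M * q) →+* FE E (M * q))) V) ∧
    (∀ c : A2.SSChart w D.Bi,
      CutBy w D.Bi c V (V.comap (W : FE E (M * q) →+* FE E (M * q))) ∨
        CutBy w D.Bi c (V.comap (W : FE E (M * q) →+* FE E (M * q))) V) := by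
  have hS := setting_of_goodField hq hqM (NeZero.ne M) hA hE hw
  refine ⟨fun c => ?_, fun c => ?_⟩
  · exact cutBy_of_isCoordPair hS h3 h2 V W hV hW _ _ (Or.inl ⟨rfl, rfl⟩) D.Bf
      (fun f => by rw [D.hBf f, hD]) c
  · exact cutBy_of_isCoordPair hS h3 h2 V W hV hW _ _ (Or.inr ⟨rfl, rfl⟩) D.Bi
      (fun f => by rw [D.hBi f, hD]) c

/-- **The standard model** at level `M * q`, with its cut data. -/
theorem stdModel_mul (A : ValuationSubring _root_.Fermat.Agent.A2.Mod.Qb) (E : IntermediateField ℚ _root_.Fermat.Agent.A2.Mod.Qb) (M q : ℕ)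
    [NeZero M] [NeZero q] (hq : q.Prime) (hqM : ¬ q ∣ M) (h3 : q = 3 → 2 ∣ M)
    (h2 : q = 2 → 3 ∣ M) (hA : A.LiesOverPrime q) (hE : A2.GoodField A E) :
    ∃ (D : A2.ModSSData A E (M * q)) (V : ValuationSubring (FE E (M * q)))
      (W : FE E (M * q) ≃ₐ[E] FE E (M * q)),
      D.x = xE E M q ∧ IsVinf A E (M * q) V ∧ IsFricke E (M * q) W ∧
      ∀ w : RE A E, Irreducible w →
        ∃ (cf : A2.SSChart w D.Bf) (ci : A2.SSChart w D.Bi),
          CutBy w D.Bf cf V (V.comap (W : FE E (M * q) →+* FE E (M * q))) ∧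
          CutBy w D.Bi ci V (V.comap (W : FE E (M * q) →+* FE E (M * q))) := by
  have hN : M * q ≠ 0 := mul_ne_zero (NeZero.ne M) hq.ne_zero
  obtain ⟨V, hV⟩ := H553.vinfExists A E (M * q) hN hE.dvr
  obtain ⟨VM, hVM⟩ := H553.vinfExists A E M (NeZero.ne M) hE.dvr
  obtain ⟨W, hW⟩ := H751.frickeExists E (M * q) hN
  have hgood : GoodRedHyp A E M := H216.goodRedHyp_of_dvr A E M hq hqM h3 h2 hA hE.dvr
  have hS : ∀ w : RE A E, Irreducible w → Setting A E M q w := fun w hw =>
    setting_of_goodField hq hqM (NeZero.ne M) hA hE hw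
  have hs1 : ∀ w : RE A E, S1Statement A E M q w := fun w =>
    Fermat.Agent.S35.G.H862.s1 A E M q w
  have hs3 : ∀ w : RE A E, S3Statement A E M q w := fun w =>
    Fermat.Agent.S35.G.H862.s3 A E M q w
  obtain ⟨hx, hfr, hconst⟩ := H31.deg E M q hq hqM
  haveI : IsDiscreteValuationRing ↥(RE A E) := hE.dvr
  obtain ⟨w₀, hw₀⟩ := IsDiscreteValuationRing.exists_irreducible (RE A E)
  have hpos : 0 < Module.finrank (IntermediateField.adjoin E ({xE E M q} : Set (FE E (M * q))))
      (FE E (M * q)) := by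
    rw [hfr]
    have h1 := dedekindPsi_pos_of_ne_zero M (NeZero.ne M)
    positivity
  have hfin : FiniteDimensional (IntermediateField.adjoin E ({xE E M q} : Set (FE E (M * q))))
      (FE E (M * q)) := Module.finite_of_finrank_pos hpos
  have hg₀ := hgood w₀ VM hw₀ hVM
  have hsep := H732.s4 A E M q w₀ (hS w₀ hw₀) VM hVM hg₀.1 hg₀.2
  have hSτ : ∀ w : RE A E, StauStatement A E M q w := fun w =>
    H751.stau_of_s1 A E M q w (hs1 w)
  have hchart : ∀ (w : RE A E) (hw : Irreducible w) (yM : FE E M) (y : FE E (M * q)),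
      IsCoordPair E M q yM y → GoodRedAt A E M w VM yM →
      ∃ c : A2.SSChart w (chartAlg A E (M * q) y),
        CutBy w (chartAlg A E (M * q) y) c V (V.comap (W : FE E (M * q) →+* FE E (M * q))) :=
    fun w hw yM y hy hg =>
      Fermat.Agent.S35.G.H862.exists_chart_cutBy (hS w hw) (hs1 w) (H142.s2 A E M q w) (hs3 w)
        VM V W hVM hV hW yM y hy hg
  refine ⟨{ x := xE E M q
            hx := hx
            hfin := hfin
            hconst := hconst
            Bf := chartAlg A E (M * q) (xE E M q)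
            Bi := chartAlg A E (M * q) (xE E M q)⁻¹
            hBf := fun _ => Iff.rfl
            hBi := fun _ => Iff.rfl
            cf := fun w hw =>
              (hchart w hw _ _ (Or.inl ⟨rfl, rfl⟩) (hgood w VM hw hVM).1).elim
                fun c _ => ⟨c⟩
            ci := fun w hw =>
              (hchart w hw _ _ (Or.inr ⟨rfl, rfl⟩) (hgood w VM hw hVM).2).elim
                fun c _ => ⟨c⟩
            sf := hsep.1
            si := hsep.2
            hτx := fun hE' τ hτ => ((hSτ w₀) (hS w₀ hw₀) τ (hE'.res τ hτ) hτ (fun _ => rfl)).1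
            hτf := fun hE' τ hτ w hw b hb =>
              ((hSτ w) (hS w hw) τ (hE'.res τ hτ) hτ (fun _ => rfl)).2 _ (Or.inl rfl) b hb
            hτi := fun hE' τ hτ w hw b hb =>
              ((hSτ w) (hS w hw) τ (hE'.res τ hτ) hτ (fun _ => rfl)).2 _ (Or.inr rfl) b hb },
    V, W, rfl, hV, hW, fun w hw => ?_⟩
  obtain ⟨cf, hcf⟩ := hchart w hw _ _ (Or.inl ⟨rfl, rfl⟩) (hgood w VM hw hVM).1
  obtain ⟨ci, hci⟩ := hchart w hw _ _ (Or.inr ⟨rfl, rfl⟩) (hgood w VM hw hVM).2
  exact ⟨cf, ci, hcf, hci⟩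

/-- **STD-MODEL.**  At every level `N` with `q ‖ N` carrying the auxiliary prime, over every good
level `E`: a semistable model with the standard coordinate `j · j_q`, the Gauss valuation ring
`V∞`, the Fricke involution `W`, and for every uniformiser `w` charts `cf`, `ci` whose components
are cut out by `V∞` (first) and `V₀ = V∞ ∘ W` (second). -/
theorem stdModel (A : ValuationSubring _root_.Fermat.Agent.A2.Mod.Qb) (E : IntermediateField ℚ _root_.Fermat.Agent.A2.Mod.Qb) (N q : ℕ) [NeZero q]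
    (hq : q.Prime) (hqN : q ∣ N) (hq2 : ¬ q ^ 2 ∣ N) (hN : N ≠ 0)
    (h3 : q = 3 → 2 ∣ N) (h2 : q = 2 → 3 ∣ N) (hA : A.LiesOverPrime q)
    (hE : A2.GoodField A E) :
    ∃ (D : A2.ModSSData A E N) (V : ValuationSubring (FE E N)) (W : FE E N ≃ₐ[E] FE E N),
      D.x = stdCoord E N q hqN ∧ IsVinf A E N V ∧ IsFricke E N W ∧
      ∀ w : RE A E, Irreducible w →
        ∃ (cf : A2.SSChart w D.Bf) (ci : A2.SSChart w D.Bi),
          CutBy w D.Bf cf V (V.comap (W : FE E N →+* FE E N)) ∧
          CutBy w D.Bi ci V (V.comap (W : FE E N →+* FE E N)) := by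
  obtain ⟨M, hM⟩ := id hqN
  have hNM : N = M * q := by rw [hM, mul_comm]
  subst hNM
  have hM0 : M ≠ 0 := fun h => hN (by rw [h, zero_mul])
  haveI : NeZero M := ⟨hM0⟩
  have hqM : ¬ q ∣ M := by
    rintro ⟨c, hc⟩
    exact hq2 ⟨c, by rw [hc]; ring⟩
  have h3' : q = 3 → 2 ∣ M := by
    intro h
    have h2N := h3 h
    subst h
    exact (Nat.Coprime.dvd_mul_right (by norm_num : Nat.Coprime 2 3)).1 h2N
  have h2' : q = 2 → 3 ∣ M := by
    intro h
    have h3N := h2 h
    subst h
    exact (Nat.Coprime.dvd_mul_right (by norm_num : Nat.Coprime 3 2)).1 h3N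
  exact stdModel_mul A E M q hq hqM h3' h2' hA hE

/-- **Cut data for ANY standard model.**  For any `D : A2.ModSSData A E N` with the standard
coordinate, any Gauss valuation ring `V∞`, Fricke involution `W`, uniformiser `w` and ANY
semistable charts of `D.Bf`, `D.Bi`: the two components are cut out by `V∞`, `V₀ = V∞ ∘ W` in one
of the two orders. -/
theorem cutBy_of_std (A : ValuationSubring _root_.Fermat.Agent.A2.Mod.Qb) (E : IntermediateField ℚ _root_.Fermat.Agent.A2.Mod.Qb) (N q : ℕ) [NeZero q]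
    (hq : q.Prime) (hqN : q ∣ N) (hq2 : ¬ q ^ 2 ∣ N) (hN : N ≠ 0)
    (h3 : q = 3 → 2 ∣ N) (h2 : q = 2 → 3 ∣ N) (hA : A.LiesOverPrime q)
    (hE : A2.GoodField A E)
    (D : A2.ModSSData A E N) (hD : D.x = stdCoord E N q hqN)
    (V : ValuationSubring (FE E N)) (W : FE E N ≃ₐ[E] FE E N)
    (hV : IsVinf A E N V) (hW : IsFricke E N W) (w : RE A E) (hw : Irreducible w) :
    (∀ c : A2.SSChart w D.Bf,
      CutBy w D.Bf c V (V.comap (W : FE E N →+* FE E N)) ∨
        CutBy w D.Bf c (V.comap (W : FE E N →+* FE E N)) V) ∧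
    (∀ c : A2.SSChart w D.Bi,
      CutBy w D.Bi c V (V.comap (W : FE E N →+* FE E N)) ∨
        CutBy w D.Bi c (V.comap (W : FE E N →+* FE E N)) V) := by
  obtain ⟨M, hM⟩ := id hqN
  have hNM : N = M * q := by rw [hM, mul_comm]
  subst hNM
  have hM0 : M ≠ 0 := fun h => hN (by rw [h, zero_mul])
  haveI : NeZero M := ⟨hM0⟩
  have hqM : ¬ q ∣ M := by
    rintro ⟨c, hc⟩
    exact hq2 ⟨c, by rw [hc]; ring⟩
  have h3' : q = 3 → 2 ∣ M := by
    intro h
    have h2N := h3 h
    subst h
    exact (Nat.Coprime.dvd_mul_right (by norm_num : Nat.Coprime 2 3)).1 h2N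
  have h2' : q = 2 → 3 ∣ M := by
    intro h
    have h3N := h2 h
    subst h
    exact (Nat.Coprime.dvd_mul_right (by norm_num : Nat.Coprime 3 2)).1 h3N
  exact cutBy_of_std_mul A E M q hq hqM h3' h2' hA hE D hD V W hV hW w hw

end Std

end Fermat.Agent.Ribet.H862

end

end
-- ===== PACK-END Ribet/H862/StdModel.lean

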