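import Fermat.Agent.Pack.S33.E20L2
import Fermat.Agent.Pack.S33.E21L3
import Fermat.Agent.Pack.S33.E15L0
import Fermat.Agent.Pack.S33.E21L0
import Fermat.Agent.Pack.S33.E7L0
import Fermat.Agent.Pack.S33.E19L3
import Fermat.Agent.Pack.S33.E20L3
import Fermat.Agent.Pack.S33.E20L1
import Fermat.Agent.Pack.S33.E21L2
import Fermat.Agent.Pack.S33.E21L1

-- ===== PACK-BEGIN S29/M4b/K3/DTo.lean
section
/-
S29 row, LAYER M, SUB-LAYER M4b, PIECE K3, sub-piece `K3-DTO` (helper42).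
Namespace `Fermat.Agent.S29.M4b.K3`.

`dto` : for a twisted function `U` of a parabolic character, the `q`-expansion `f = qexp (U ^ p)`
(an element of `F_ℂ = laurentBaseChange ℂ (modularFunctionFieldFull N)`) satisfies
`p ∣ ord_w f` at EVERY place `w` of `F_ℂ / ℂ`.

This is the landed generic-`K` dictionary `H282.dvd_ord_of_isAvatar_pow` at `K = ℂ`, `ι = id`.
-/



set_option autoImplicit false

noncomputable section

open ModularCurve AlgebraicCurve CongruenceSubgroup UpperHalfPlane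
open scoped MatrixGroups Manifold

namespace Fermat.Agent.S29.M4b.K3

open Fermat.Agent.S24 Fermat.Agent.S24.H997 Fermat.Agent.S24.H648 Fermat.Agent.S24.H708
open Fermat.Agent.S24.H624
open Fermat.Agent.S29 Fermat.Agent.S29.M4b Fermat.Agent.S29.H282

variable {N : ℕ} [NeZero N] {p : ℕ} [NeZero p]

/-- the avatar relation over `ℂ` -/
theorem isAvatar_of_qexp {c : G0 N → ZMod p} (hc : IsParHom c) {U : ℍ → ℂ}
    (hU : IsTwisted N p c U) {f : FFK ℂ N}
    (hf : (f : LaurentSeries ℂ) = qexpFun 1 (fun τ => U τ ^ p)) :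
    IsAvatar (K := ℂ) (RingHom.id ℂ) (analyticCore N).toHolBase f (twistedHol hc hU ^ p) := by
  have hq : HasQExp 1 (fun τ => U τ ^ p) (qexpFun 1 (fun τ => U τ ^ p)) :=
    Fermat.Agent.S29.H882.hasQExp_of_mem_goodRing hU.pow_mem
  have hinf : InfExp N (fun τ => U τ ^ p)
      (qExpand ℂ N (coeffMap (RingHom.id ℂ) ((f : FFK ℂ N) : LaurentSeries ℂ))) := by
    rw [coeffMap_id, hf]
    exact infExp_level_of_hasQExp hq
  exact (expInf_spec (holToExp N (twistedHol hc hU ^ p))).unique hinf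

/-- **K3-DTO.**  `p ∣ ord_w (qexp (U ^ p))` at every place `w` of `F_ℂ`. -/
theorem dto {c : G0 N → ZMod p} (hc : IsParHom c) {U : ℍ → ℂ}
    (hU : IsTwisted N p c U) {f : FC N}
    (hf : (f : LaurentSeries ℂ) = qexpFun 1 (fun τ => U τ ^ p))
    (w : Place ℂ (FC N)) : (p : ℤ) ∣ w.ord f :=
  dvd_ord_of_isAvatar_pow (K := ℂ) (ι := RingHom.id ℂ) (A := analyticCore N)
    (isUnramified_twistedHol hc hU) (isAvatar_of_qexp hc hU hf) w

end Fermat.Agent.S29.M4b.K3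

end
end
-- ===== PACK-END S29/M4b/K3/DTo.lean

-- ===== PACK-BEGIN S29/M4b/K3/Fin.lean
section
/-
S29 row, LAYER M, SUB-LAYER M4b, PIECE K3, sub-piece `K3-FIN` (helper42).
Namespace `Fermat.Agent.S29.M4b.K3`.

`finStatement_of_dfrom : DFromStatement N p → FinStatement N p`.

`FinStatement` (= hypothesis `horb` of `H152.desc_main` for `f = qexp (U ^ p)`) is proved from
the single remaining analytic input `DFromStatement N p` ("DICT-easy + ROOT over `ℂ`"):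
every `x ∈ F_ℂˣ` whose divisor is divisible by `p` is, up to a `p`-th power of `F_ℂˣ`, the
`q`-expansion of the `p`-th power of a holomorphic function `V` on `ℍ` with `V ^ p` good.

Steps (`f = qexp (U ^ p)`):
* `dto` (file `DTo.lean`): `p ∣ ord_w f` at every place `w` of `F_ℂ`;
* transport: `σ ∈ Aut(ℂ/ℚ̄)` acts semilinearly on `F_ℂ` (Prelude `arithmeticGalois`) and permutes
  the places (`SemilinearAut.ord_smul`), so `p ∣ ord_w (σ f)` for all `w`;
* `DFromStatement` gives `V_σ` with `qexp (V_σ ^ p) = σ f * s_σ ^ p`;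
* `V_σ` has a character `κ_σ : Γ₀(N) →* ℂˣ`, `κ_σ ^ p = 1` (`H942.exists_kummerChar`);
* there are finitely many such characters (`Γ₀(N)` is finitely generated): `finite_pChar`;
* equal characters give equal classes modulo `p`-th powers: `exists_pow_mul_eq_of_sameChar`.
-/




set_option autoImplicit false
set_option linter.style.haveILetI false

noncomputable section

open ModularCurve AlgebraicCurve CongruenceSubgroup UpperHalfPlane
open scoped MatrixGroups Manifold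

namespace Fermat.Agent.S29.M4b.K3

open Fermat.Agent.S24 Fermat.Agent.S24.H648 Fermat.Agent.S24.H708 Fermat.Agent.S24.Deg457
open Fermat.Agent.S29 Fermat.Agent.S29.M4b

/-- SUB-PIECE `K3-DFROM` ("DICT-easy + ROOT over `ℂ`"): an element `f ≠ 0` of `F_ℂ` all of whose
orders are divisible by `p` is, up to the `p`-th power of a nonzero element `s` of `F_ℂ`, the
`q`-expansion of `V ^ p` for a holomorphic `V : ℍ → ℂ` with `V ^ p` good. -/
def DFromStatement (N p : ℕ) : Prop :=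
  ∀ f : FC N, f ≠ 0 → (∀ w : Place ℂ (FC N), (p : ℤ) ∣ w.ord f) →
    ∃ s : LaurentSeries ℂ, s ∈ FC N ∧ s ≠ 0 ∧ ∃ V : ℍ → ℂ, MDifferentiable 𝓘(ℂ) 𝓘(ℂ) V ∧
      (fun τ => V τ ^ p) ∈ goodRing N ∧
      qexpFun 1 (fun τ => V τ ^ p) = (f : LaurentSeries ℂ) * s ^ p

variable {N : ℕ} [NeZero N] {p : ℕ} [NeZero p]

/-- There are finitely many characters `Γ₀(N) →* ℂˣ` of exponent `p`. -/
theorem finite_pChar (N : ℕ) [NeZero N] (p : ℕ) [NeZero p] :
    Finite {κ : Gamma0 N →* ℂˣ // ∀ γ, κ γ ^ p = 1} := by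
  classical
  haveI : Group.FG SL(2, ℤ) := Group.fg_iff.mpr ⟨{ModularGroup.S, ModularGroup.T},
    SpecialLinearGroup.SL2Z_generators, by simp⟩
  haveI : Group.FG (Gamma0 N) := inferInstance
  obtain ⟨S, hS, hSfin⟩ := Group.fg_iff.mp (inferInstance : Group.FG (Gamma0 N))
  haveI : Finite S := hSfin
  let Φ : {κ : Gamma0 N →* ℂˣ // ∀ γ, κ γ ^ p = 1} → (S → rootsOfUnity p ℂ) :=
    fun κ s => ⟨κ.1 s, (mem_rootsOfUnity p _).mpr (κ.2 s)⟩
  refine Finite.of_injective Φ ?_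
  intro κ₁ κ₂ h
  apply Subtype.ext
  apply MonoidHom.eq_of_eqOn_dense hS
  intro x hx
  have := congrFun h ⟨x, hx⟩
  exact congrArg Subtype.val this

/-- Two holomorphic functions with good `p`-th powers and the SAME character have `p`-th powers
whose `q`-expansions differ by a `p`-th power of `F_ℂ`. -/
theorem exists_pow_mul_eq_of_sameChar {V₁ V₂ : ℍ → ℂ} (κ : Gamma0 N →* ℂˣ)
    (hκ : ∀ γ, κ γ ^ p = 1)
    (h1m : MDifferentiable 𝓘(ℂ) 𝓘(ℂ) V₁) (h2m : MDifferentiable 𝓘(ℂ) 𝓘(ℂ) V₂)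
    (h1 : ∀ (γ : Gamma0 N) (τ : ℍ), V₁ ((γ : SL(2, ℤ)) • τ) = ((κ γ : ℂˣ) : ℂ) * V₁ τ)
    (h2 : ∀ (γ : Gamma0 N) (τ : ℍ), V₂ ((γ : SL(2, ℤ)) • τ) = ((κ γ : ℂˣ) : ℂ) * V₂ τ)
    (h1g : (fun τ => V₁ τ ^ p) ∈ goodRing N) (h2g : (fun τ => V₂ τ ^ p) ∈ goodRing N)
    (h1ne : qexpFun 1 (fun τ => V₁ τ ^ p) ≠ 0) (h2ne : qexpFun 1 (fun τ => V₂ τ ^ p) ≠ 0) :
    ∃ g : LaurentSeries ℂ, g ∈ FC N ∧ g ≠ 0 ∧
      qexpFun 1 (fun τ => V₁ τ ^ p) = g ^ p * qexpFun 1 (fun τ => V₂ τ ^ p) := by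
  have hp : p ≠ 0 := NeZero.ne p
  have hp1 : p - 1 + 1 = p := Nat.sub_add_cancel (Nat.one_le_iff_ne_zero.mpr hp)
  set W : ℍ → ℂ := fun τ => V₁ τ * V₂ τ ^ (p - 1) with hWdef
  have hfun : (fun τ => W τ ^ p) = (fun τ => V₁ τ ^ p) * (fun τ => V₂ τ ^ p) ^ (p - 1) := by
    funext τ
    simp only [hWdef, Pi.mul_apply, Pi.pow_apply]
    rw [mul_pow, ← pow_mul, ← pow_mul, mul_comm (p - 1) p]
  have hWinv : ∀ γ ∈ Gamma0 N, ∀ τ : ℍ, W (γ • τ) = W τ := by
    intro γ hγ τ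
    have e1 := h1 ⟨γ, hγ⟩ τ
    have e2 := h2 ⟨γ, hγ⟩ τ
    simp only at e1 e2
    simp only [hWdef]
    rw [e1, e2, mul_pow]
    have hk : ((κ ⟨γ, hγ⟩ : ℂˣ) : ℂ) * ((κ ⟨γ, hγ⟩ : ℂˣ) : ℂ) ^ (p - 1) = 1 := by
      rw [← pow_succ', hp1]
      have h3 := congrArg (fun u : ℂˣ => (u : ℂ)) (hκ ⟨γ, hγ⟩)
      simpa using h3
    calc ((κ ⟨γ, hγ⟩ : ℂˣ) : ℂ) * V₁ τ * (((κ ⟨γ, hγ⟩ : ℂˣ) : ℂ) ^ (p - 1) * V₂ τ ^ (p - 1))
        = (((κ ⟨γ, hγ⟩ : ℂˣ) : ℂ) * ((κ ⟨γ, hγ⟩ : ℂˣ) : ℂ) ^ (p - 1)) *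
            (V₁ τ * V₂ τ ^ (p - 1)) := by ring
      _ = V₁ τ * V₂ τ ^ (p - 1) := by rw [hk, one_mul]
  have hW : W ∈ goodRing N := by
    refine H942.mem_goodRing_of_pow_mem N hp (h1m.mul (h2m.pow (p - 1))) hWinv ?_
    rw [hfun]
    exact (goodRing N).mul_mem h1g ((goodRing N).pow_mem h2g _)
  have hWm := H882.isMerInf_of_mem_goodRing hW
  have h1M := H882.isMerInf_of_mem_goodRing h1g
  have h2M := H882.isMerInf_of_mem_goodRing h2g
  set w := qexpFun 1 W with hw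
  set a := qexpFun 1 (fun τ => V₁ τ ^ p) with ha
  set b := qexpFun 1 (fun τ => V₂ τ ^ p) with hb
  have hwFC : w ∈ FC N := H882.qexpFun_mem_FC hW
  have hbFC : b ∈ FC N := H882.qexpFun_mem_FC h2g
  have hwp : w ^ p = a * b ^ (p - 1) := by
    have hfun' : W ^ p = (fun τ => V₁ τ ^ p) * (fun τ => V₂ τ ^ p) ^ (p - 1) := hfun
    rw [hw, ← H942.qexpFun_pow' hWm p, hfun', qexpFun_mul h1M (h2M.pow (p - 1)),
      H942.qexpFun_pow' h2M (p - 1)]
  refine ⟨w * b⁻¹, mul_mem hwFC (inv_mem hbFC), ?_, ?_⟩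
  · refine mul_ne_zero ?_ (inv_ne_zero h2ne)
    intro h0
    rw [h0, zero_pow hp] at hwp
    exact mul_ne_zero h1ne (pow_ne_zero _ h2ne) hwp.symm
  · rw [mul_pow, hwp, inv_pow]
    have hbp : b ^ p = b ^ (p - 1) * b := by rw [← pow_succ, hp1]
    rw [hbp, mul_inv]
    field_simp

/-- Representatives of the fibres of a map to a finite type. -/
theorem exists_finset_fibre_rep {G X : Type*} [Finite X] (χ : G → X) :
    ∃ s : Finset G, ∀ g : G, ∃ h ∈ s, χ g = χ h := by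
  classical
  haveI : Fintype (Set.range χ) := Fintype.ofFinite _
  let r : Set.range χ → G := fun x => x.2.choose
  have hr : ∀ x : Set.range χ, χ (r x) = x := fun x => x.2.choose_spec
  refine ⟨Finset.univ.image r, fun g => ⟨r ⟨χ g, g, rfl⟩, ?_, ?_⟩⟩
  · exact Finset.mem_image_of_mem _ (Finset.mem_univ _)
  · exact (hr ⟨χ g, g, rfl⟩).symm

/-- **K3-FIN from K3-DFROM.** -/
theorem finStatement_of_dfrom (N : ℕ) [NeZero N] (p : ℕ) [NeZero p]
    (hd : DFromStatement N p) : FinStatement N p := by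
  letI := algKC
  intro c hc U hU
  classical
  have hp : p ≠ 0 := NeZero.ne p
  set a : LaurentSeries ℂ := qexpFun 1 (fun τ => U τ ^ p) with ha
  have haFC : a ∈ FC N := H882.qexpFun_mem_FC hU.pow_mem
  have ha0 : a ≠ 0 := H942.qexpFun_pow_ne_zero_of_isTwisted N p hU
  set f₀ : FC N := ⟨a, haFC⟩ with hf₀def
  have hf₀ : f₀ ≠ 0 := fun h => ha0 (congrArg Subtype.val h)
  have hdvd : ∀ w : Place ℂ (FC N), (p : ℤ) ∣ w.ord f₀ := fun w => dto hc hU rfl w
  -- the data attached to each `σ`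
  have key : ∀ σ : ℂ ≃ₐ[Kbar] ℂ, ∃ (s : LaurentSeries ℂ) (V : ℍ → ℂ)
      (κ : {κ : Gamma0 N →* ℂˣ // ∀ γ, κ γ ^ p = 1}), s ∈ FC N ∧ s ≠ 0 ∧
      MDifferentiable 𝓘(ℂ) 𝓘(ℂ) V ∧ (fun τ => V τ ^ p) ∈ goodRing N ∧
      (∀ (γ : Gamma0 N) (τ : ℍ), V ((γ : SL(2, ℤ)) • τ) = ((κ.1 γ : ℂˣ) : ℂ) * V τ) ∧
      qexpFun 1 (fun τ => V τ ^ p) ≠ 0 ∧
      qexpFun 1 (fun τ => V τ ^ p) = coeffMap (σ : ℂ →+* ℂ) a * s ^ p := by
    intro σ
    set g : SemilinearAut ℂ (FC N) :=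
      arithmeticGalois (modularFunctionFieldFull N) (σ.toRingEquiv.toRatAlgEquiv) with hg
    have hcoe : ((g • f₀ : FC N) : LaurentSeries ℂ) = coeffMap (σ : ℂ →+* ℂ) a := rfl
    have hne : g • f₀ ≠ 0 := (smul_ne_zero_iff_ne g).mpr hf₀
    have hdvd' : ∀ w : Place ℂ (FC N), (p : ℤ) ∣ w.ord (g • f₀) := by
      intro w
      have h := SemilinearAut.ord_smul g (g⁻¹ • w) f₀
      rw [smul_inv_smul] at h
      rw [h]
      exact hdvd _
    obtain ⟨s, hs, hs0, V, hVm, hVg, hq⟩ := hd (g • f₀) hne hdvd'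
    rw [hcoe] at hq
    have hqne : qexpFun 1 (fun τ => V τ ^ p) ≠ 0 := by
      rw [hq]
      refine mul_ne_zero ?_ (pow_ne_zero _ hs0)
      rw [← hcoe]
      exact fun h => hne (Subtype.ext h)
    have hV0 : V ≠ 0 := by
      intro h0
      apply hqne
      have : (fun τ => V τ ^ p) = 0 := by
        funext τ
        rw [h0]
        simp [hp]
      rw [this]
      exact (qexpFun_eq_zero_iff (H882.isMerInf_of_mem_goodRing
        (by rw [← this]; exact hVg))).mpr rfl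
    obtain ⟨κ, hκ, hVκ⟩ := H942.exists_kummerChar (Gamma0 N) hVm hV0 hp
      (fun γ hγ z => hVg.2.1 γ hγ z)
    exact ⟨s, V, ⟨κ, hκ⟩, hs, hs0, hVm, hVg, hVκ, hqne, hq⟩
  choose s V κ hs hs0 hVm hVg hVκ hqne hq using key
  haveI := finite_pChar N p
  obtain ⟨R, hR⟩ := exists_finset_fibre_rep κ
  refine ⟨(fun σ : ℂ ≃ₐ[Kbar] ℂ => coeffMap (σ : ℂ →+* ℂ) a) '' (R : Set (ℂ ≃ₐ[Kbar] ℂ)),
    R.finite_toSet.image _, fun σ => ?_⟩
  obtain ⟨h, hhR, hκeq⟩ := hR σ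
  refine ⟨coeffMap (h : ℂ →+* ℂ) a, ⟨h, hhR, rfl⟩, ?_⟩
  have h2 := hVκ h
  rw [← hκeq] at h2
  obtain ⟨g, hg, hg0, hgeq⟩ := exists_pow_mul_eq_of_sameChar (κ σ).1 (κ σ).2 (hVm σ) (hVm h)
    (hVκ σ) h2 (hVg σ) (hVg h) (hqne σ) (hqne h)
  rw [hq σ, hq h] at hgeq
  refine ⟨g * s h * (s σ)⁻¹, mul_mem (mul_mem hg (hs h)) (inv_mem (hs σ)),
    mul_ne_zero (mul_ne_zero hg0 (hs0 h)) (inv_ne_zero (hs0 σ)), ?_⟩
  have hsp : s σ ^ p ≠ 0 := pow_ne_zero _ (hs0 σ)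
  rw [mul_pow, mul_pow, inv_pow]
  field_simp
  rw [hgeq]
  ring

end Fermat.Agent.S29.M4b.K3

end
end
-- ===== PACK-END S29/M4b/K3/Fin.lean

-- ===== PACK-BEGIN S29/M4b/K3/Final.lean
section
/-
S29 row, M4b, piece K3 — `PieceK3 N p` from the single remaining sub-piece `K3-DFROM` (helper42).
-/



set_option autoImplicit false

noncomputable section

open ModularCurve AlgebraicCurve CongruenceSubgroup UpperHalfPlane
open scoped MatrixGroups Manifold

namespace Fermat.Agent.S29.M4b.K3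

open Fermat.Agent.S24 Fermat.Agent.S29 Fermat.Agent.S29.M4b

/-- **PIECE K3** in the `Prop` form of `M4b/Top.lean`, from `K3-DFROM`. -/
theorem pieceK3_of_dfrom (N : ℕ) [NeZero N] (p : ℕ) [NeZero p] (hd : DFromStatement N p) :
    PieceK3 N p :=
  pieceK3_of_fin N p (finStatement_of_dfrom N p hd)

end Fermat.Agent.S29.M4b.K3

end
end
-- ===== PACK-END S29/M4b/K3/Final.lean

-- ===== PACK-BEGIN S29/H282/DictC.lean
section




/-!
# S29 / M4b / K3 (helper282) — the dictionary over `ℂ` (and any alg. closed `K ⊆ ℂ`), K3 language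

Sub-pieces (F1) and (F4) of helper42's K3 sub-skeleton (`coord/S29-K3.md`):

* `mem_holN_of_mem_goodRing`       : a good function lies in the S24 ring `holN N`;
* `isAvatar_of_hasQExp`            : `G ∈ holN N` with `q`-expansion `coeffMap ι f` is an avatar of `f`;
* `dvd_ord_of_isTwisted` (**F1**, generic `K`) and `dvd_ord_of_isTwisted_complex` (**F1**, `K = ℂ`):
  `U` twisted of a parabolic+elliptic-trivial character, `f = qexp (U ^ p) ∈ F_K`
  ⟹ `p ∣ ord_w f` at EVERY place `w` of `F_K / K`;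
* `exists_ordAt_eq_mul_of_forall_dvd_ord` (**DICT-easy**, `K = ℂ`) and
  `exists_pow_eq_of_forall_dvd_ord` (**F4** = DICT-easy + ROOT): `G` good, `G ≢ 0`,
  `m ∣ ord_w (qexp G)` at every place `w` of `F_ℂ / ℂ` ⟹ `G = V ^ m`, `V` holomorphic on `ℍ`.
-/

set_option autoImplicit false

noncomputable section

open ModularCurve AlgebraicCurve CongruenceSubgroup UpperHalfPlane
open scoped MatrixGroups Manifold Real

namespace Fermat.Agent.S29.H282

open Fermat.Agent.S24 Fermat.Agent.S24.H997 Fermat.Agent.S24.H648 Fermat.Agent.S24.H708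
open Fermat.Agent.S24.H624
open Fermat.Agent.S29 Fermat.Agent.S29.M4b Fermat.Agent.S29.H332

variable {N : ℕ} [NeZero N]

/-- the translates of a `Γ₀(N)`-invariant function are `N`-periodic -/
theorem periodic_compSL_of_invariant {G : ℍ → ℂ}
    (hinv : ∀ γ ∈ Gamma0 N, ∀ τ : ℍ, G (γ • τ) = G τ) (g : SL(2, ℤ)) :
    Function.Periodic (compSL g G ∘ ofComplex) (N : ℝ) := by
  have hh : HasCharacter (1 : CongruenceSubgroup.Gamma0 N →* ℂˣ) G := by
    intro γ τ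
    rw [hinv γ γ.2 τ]
    simp
  have hχ : ParTrivial (1 : CongruenceSubgroup.Gamma0 N →* ℂˣ) := fun _ _ => rfl
  exact hh.periodic hχ g N (by simpa using conj_T_zpow_mem_Gamma0 N g 1)

/-- **A good function lies in `holN N`.** -/
theorem mem_holN_of_mem_goodRing {G : ℍ → ℂ} (hG : G ∈ goodRing N) : G ∈ holN N := by
  obtain ⟨hmd, hinv, hgr⟩ := hG
  refine ⟨hmd, fun g => ?_⟩
  have hhol : MDiff (compSL g G) := (precompSL g ⟨G, hmd⟩).2
  have hmer : IsMerInf N (compSL g G) :=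
    ⟨hhol, periodic_compSL_of_invariant hinv g, isBounded_mul_qh_pow_level N (hgr g)⟩
  have hq := HasQExp.of_isMerInf hmer
  have hinf : InfExp N (compSL g G) (qexpFun N (compSL g G)) := fun τ => hq.hasSum τ
  exact hinf.mem_expRing

section Generic

variable {K : Type*} [Field K] [Algebra ℚ K] (ι : K →+* ℂ)

/-- a function of `holN N` whose `q`-expansion is `coeffMap ι f` is an avatar of `f` -/
theorem isAvatar_of_hasQExp {G : ℍ → ℂ} (hG : G ∈ holN N) {f : FFK K N}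
    (hq : HasQExp 1 G (coeffMap ι (f : LaurentSeries K))) :
    IsAvatar ι (analyticCore N).toHolBase f (⟨G, hG⟩ : (analyticCore N).Hol) := by
  have hinf : InfExp N G (qExpand ℂ N (coeffMap ι (f : LaurentSeries K))) :=
    infExp_level_of_hasQExp hq
  exact (expInf_spec (holToExp N (⟨G, hG⟩ : holN N))).unique hinf

theorem isAvatar_of_mem_goodRing {G : ℍ → ℂ} (hG : G ∈ goodRing N) {f : FFK K N}
    (hq : qexpFun 1 G = coeffMap ι (f : LaurentSeries K)) :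
    IsAvatar ι (analyticCore N).toHolBase f
      (⟨G, mem_holN_of_mem_goodRing hG⟩ : (analyticCore N).Hol) :=
  isAvatar_of_hasQExp ι _ (hq ▸ Fermat.Agent.S29.H882.hasQExp_of_mem_goodRing hG)

variable {p : ℕ} [NeZero p]

/-- **(F1), generic `K`**: DICT-hard for twisted functions. -/
theorem dvd_ord_of_isTwisted [IsAlgClosed K] {c : G0 N → ZMod p} (hc : IsParHom c)
    {U : ℍ → ℂ} (hU : IsTwisted N p c U) {f : FFK K N}
    (hq : qexpFun 1 (fun τ => U τ ^ p) = coeffMap ι (f : LaurentSeries K))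
    (w : Place K (FFK K N)) : (p : ℤ) ∣ w.ord f := by
  have hav : IsAvatar ι (analyticCore N).toHolBase f
      ((⟨U, mem_holN_of_isTwisted hc hU⟩ : (analyticCore N).Hol) ^ p) :=
    isAvatar_of_hasQExp ι (G := fun τ => U τ ^ p)
      (pow_mem (mem_holN_of_isTwisted hc hU) p)
      (hq ▸ Fermat.Agent.S29.H882.hasQExp_of_mem_goodRing hU.pow_mem)
  have hinv : IsUnramified (analyticCore N).toHolBase
      (⟨U, mem_holN_of_isTwisted hc hU⟩ : (analyticCore N).Hol) := by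
    intro γ hγ hsp
    apply Subtype.ext
    funext τ
    show U (γ • τ) = U τ
    have h := hU.hasChar ⟨γ, hγ⟩ τ
    have h0 : c ⟨γ, hγ⟩ = 0 := by
      rcases hsp with ⟨n, hn, h⟩ | h
      · exact hc.elliptic ⟨γ, hγ⟩ n hn (Subtype.ext (by simpa using h))
      · exact hc.parabolic ⟨γ, hγ⟩ (Or.inl h)
    rw [h0] at h
    simpa using h
  exact dvd_ord_of_isAvatar_pow hinv hav w

/-- **DICT-easy, generic `K`**, for good functions: at every `τ` with `j(τ) ∈ ι(K)`. -/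
theorem exists_ordAt_eq_mul_of_forall_dvd_ord_at {G : ℍ → ℂ} (hG : G ∈ goodRing N)
    (hG0 : G ≠ 0) {f : FFK K N} (hq : qexpFun 1 G = coeffMap ι (f : LaurentSeries K))
    {m : ℕ} (hdvd : ∀ w : Place K (FFK K N), (m : ℤ) ∣ w.ord f)
    (τ : ℍ) (a : K) (ha : ι a = JFun.jFun τ) :
    ∃ k : ℕ, analyticOrderAt (G ∘ ofComplex) (τ : ℂ) = ((m * k : ℕ) : ℕ∞) := by
  have hav := isAvatar_of_mem_goodRing ι hG hq
  have hh : (⟨G, mem_holN_of_mem_goodRing hG⟩ : (analyticCore N).Hol) ≠ 0 := fun h0 =>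
    hG0 (congrArg Subtype.val h0)
  have ha' : ι a = (analyticCore N).toHolBase.J 1 τ := by
    rw [ha]
    show JFun.jFun τ = Jd 1 τ
    rw [Jd_one]
    rfl
  exact hav.exists_ordAt_eq_mul (holBase_isHolo N) hh hdvd τ a ha'

end Generic

/-! ### `K = ℂ` -/

section Complex

variable {p : ℕ} [NeZero p]

/-- **(F1)**: DICT-hard over `ℂ`.  `f = qexp (U ^ p)` as an element of `F_ℂ`. -/
theorem dvd_ord_of_isTwisted_complex {c : G0 N → ZMod p} (hc : IsParHom c)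
    {U : ℍ → ℂ} (hU : IsTwisted N p c U)
    (hf : qexpFun 1 (fun τ => U τ ^ p) ∈ laurentBaseChange ℂ (modularFunctionFieldFull N))
    (w : Place ℂ ↥(laurentBaseChange ℂ (modularFunctionFieldFull N))) :
    (p : ℤ) ∣ w.ord ⟨qexpFun 1 (fun τ => U τ ^ p), hf⟩ :=
  dvd_ord_of_isTwisted (K := ℂ) (RingHom.id ℂ) hc hU
    (f := ⟨qexpFun 1 (fun τ => U τ ^ p), hf⟩) (coeffMap_id _).symm w

/-- **DICT-easy over `ℂ`**: `G` good, `m ∣ ord_w (qexp G)` at every place of `F_ℂ/ℂ` ⟹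
`m ∣ ord_τ G` at every `τ ∈ ℍ` (the exact hypothesis of `H751.exists_pow_eq_UHP`). -/
theorem exists_ordAt_eq_mul_of_forall_dvd_ord {G : ℍ → ℂ} (hG : G ∈ goodRing N) (hG0 : G ≠ 0)
    (hf : qexpFun 1 G ∈ laurentBaseChange ℂ (modularFunctionFieldFull N)) {m : ℕ}
    (hdvd : ∀ w : Place ℂ ↥(laurentBaseChange ℂ (modularFunctionFieldFull N)),
      (m : ℤ) ∣ w.ord ⟨qexpFun 1 G, hf⟩) (τ : ℍ) :
    ∃ k : ℕ, analyticOrderAt (G ∘ ofComplex) (τ : ℂ) = ((m * k : ℕ) : ℕ∞) :=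
  exists_ordAt_eq_mul_of_forall_dvd_ord_at (K := ℂ) (RingHom.id ℂ) hG hG0
    (f := ⟨qexpFun 1 G, hf⟩) (coeffMap_id _).symm hdvd τ (JFun.jFun τ) rfl

/-- **(F4)** = DICT-easy + ROOT: a good function all of whose orders at the places of `F_ℂ/ℂ`
are divisible by `m` is the `m`-th power of a holomorphic function on `ℍ`. -/
theorem exists_pow_eq_of_forall_dvd_ord {G : ℍ → ℂ} (hG : G ∈ goodRing N) (hG0 : G ≠ 0)
    (hf : qexpFun 1 G ∈ laurentBaseChange ℂ (modularFunctionFieldFull N)) {m : ℕ} (hm : m ≠ 0)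
    (hdvd : ∀ w : Place ℂ ↥(laurentBaseChange ℂ (modularFunctionFieldFull N)),
      (m : ℤ) ∣ w.ord ⟨qexpFun 1 G, hf⟩) :
    ∃ V : ℍ → ℂ, MDifferentiable 𝓘(ℂ) 𝓘(ℂ) V ∧ ∀ τ : ℍ, V τ ^ m = G τ :=
  Fermat.Agent.S29.H751.exists_pow_eq_UHP hG.1 m hm
    (fun τ => exists_ordAt_eq_mul_of_forall_dvd_ord hG hG0 hf hdvd τ)

end Complex

end Fermat.Agent.S29.H282

end
end
-- ===== PACK-END S29/H282/DictC.lean

-- ===== PACK-BEGIN S29/H282/DFrom.lean
section



/-!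
# S29 / M4b / K3-DFROM (helper282)

`exists_root_of_forall_dvd_ord` : let `f ≠ 0` be an element of the function field `F_ℂ` of `X₀(N)`
over `ℂ` such that `p ∣ ord_w f` at EVERY place `w` of `F_ℂ/ℂ`.  Then there are `s ∈ F_ℂ`, `s ≠ 0`,
and a holomorphic `V : ℍ → ℂ`, `V ≢ 0`, with `V ^ p` good and `qexp (V ^ p) = f * s ^ p`; moreover
`V` transforms under `Γ₀(N)` by a character `χ` with `χ ^ p = 1`, i.e. `V` is twisted
(`M4b.IsTwisted`) of an additive character `c : Γ₀(N) → ℤ/p`.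
-/

set_option autoImplicit false

noncomputable section

open ModularCurve AlgebraicCurve CongruenceSubgroup UpperHalfPlane
open scoped MatrixGroups Manifold Real

namespace Fermat.Agent.S29.H282

open Fermat.Agent.S24 Fermat.Agent.S24.H997 Fermat.Agent.S24.H648 Fermat.Agent.S24.H708
open Fermat.Agent.S24.H624 Fermat.Agent.S24.Deg457
open Fermat.Agent.S29 Fermat.Agent.S29.M4b Fermat.Agent.S29.H332

variable {N : ℕ} [NeZero N]

/-! ### The character of a `p`-th root of an invariant function -/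

/-- If `V` is holomorphic, `V ≢ 0` and `V ^ p` is `Γ₀(N)`-invariant, then for every `γ ∈ Γ₀(N)`
there is a `p`-th root of unity `z` with `V (γ τ) = z V(τ)`. -/
theorem exists_root_of_unity_of_pow_invariant {p : ℕ} (hp : p ≠ 0) {V : ℍ → ℂ}
    (hV : MDifferentiable 𝓘(ℂ) 𝓘(ℂ) V) {τ₁ : ℍ} (hτ₁ : V τ₁ ≠ 0)
    (hinv : ∀ γ ∈ Gamma0 N, ∀ τ : ℍ, V (γ • τ) ^ p = V τ ^ p) (γ : SL(2, ℤ))
    (hγ : γ ∈ Gamma0 N) :
    ∃ z : ℂ, z ^ p = 1 ∧ ∀ τ : ℍ, V (γ • τ) = z * V τ := by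
  have hA1 : V (γ • τ₁) ≠ 0 := by
    intro h0
    have := hinv γ hγ τ₁
    rw [h0, zero_pow hp] at this
    exact pow_ne_zero p hτ₁ this.symm
  set z : ℂ := V (γ • τ₁) / V τ₁ with hz
  have hzp : z ^ p = 1 := by
    rw [hz, div_pow, hinv γ hγ τ₁, div_self (pow_ne_zero p hτ₁)]
  refine ⟨z, hzp, fun τ => ?_⟩
  have hAd : MDifferentiable 𝓘(ℂ) 𝓘(ℂ) (fun τ : ℍ => V (γ • τ)) :=
    H648.mdifferentiable_comp_smul hV γ
  have hBd : MDifferentiable 𝓘(ℂ) 𝓘(ℂ) (fun τ : ℍ => z * V τ) :=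
    (mdifferentiable_const (c := z)).mul hV
  have := Fermat.Agent.S29.H751.eq_of_pow_eq_UHP hAd hBd hp (fun τ => by
    show V (γ • τ) ^ p = (z * V τ) ^ p
    rw [hinv γ hγ τ, mul_pow, hzp, one_mul]) (τ₀ := τ₁)
    (by
      show V (γ • τ₁) = z * V τ₁
      rw [hz, div_mul_cancel₀ _ hτ₁]) hA1
  exact congrFun this τ

theorem isPrimitiveRoot_zetaP (p : ℕ) [NeZero p] : IsPrimitiveRoot (zetaP p) p := by
  unfold zetaP
  exact Complex.isPrimitiveRoot_exp p (NeZero.ne p)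

/-- the additive character of a `p`-th root of an invariant function -/
theorem exists_hasChar_of_pow_invariant {p : ℕ} [NeZero p] {V : ℍ → ℂ}
    (hV : MDifferentiable 𝓘(ℂ) 𝓘(ℂ) V) (hV0 : ∃ τ, V τ ≠ 0)
    (hinv : ∀ γ ∈ Gamma0 N, ∀ τ : ℍ, V (γ • τ) ^ p = V τ ^ p) :
    ∃ c : G0 N → ZMod p, (∀ γ γ' : G0 N, c (γ * γ') = c γ + c γ') ∧ HasChar N p c V := by
  classical
  obtain ⟨τ₁, hτ₁⟩ := hV0
  have hprim := isPrimitiveRoot_zetaP p
  have key : ∀ γ : G0 N, ∃ k : ZMod p, ∀ τ : ℍ,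
      V ((γ : SL(2, ℤ)) • τ) = zetaP p ^ k.val * V τ := by
    intro γ
    obtain ⟨z, hzp, hz⟩ := exists_root_of_unity_of_pow_invariant (NeZero.ne p) hV hτ₁ hinv γ γ.2
    obtain ⟨i, hi, rfl⟩ := hprim.eq_pow_of_pow_eq_one hzp
    refine ⟨(i : ZMod p), fun τ => ?_⟩
    rw [hz τ, ZMod.val_natCast, Nat.mod_eq_of_lt hi]
  choose c hc using key
  refine ⟨c, fun γ γ' => ?_, hc⟩
  -- additivity
  have h1 := hc (γ * γ') τ₁
  have h2 := hc γ ((γ' : SL(2, ℤ)) • τ₁)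
  have h3 := hc γ' τ₁
  have hsm : ((γ * γ' : G0 N) : SL(2, ℤ)) • τ₁
      = (γ : SL(2, ℤ)) • ((γ' : SL(2, ℤ)) • τ₁) := by
    rw [Subgroup.coe_mul, mul_smul]
  rw [hsm, h2, h3, ← mul_assoc, ← pow_add] at h1
  have h4 : zetaP p ^ ((c γ).val + (c γ').val) = zetaP p ^ (c (γ * γ')).val :=
    mul_right_cancel₀ hτ₁ h1
  have hfin : IsOfFinOrder (zetaP p) :=
    isOfFinOrder_iff_pow_eq_one.mpr ⟨p, Nat.pos_of_ne_zero (NeZero.ne p), hprim.pow_eq_one⟩
  have h5 : ((c γ).val + (c γ').val) ≡ (c (γ * γ')).val [MOD p] := by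
    have := hfin.pow_eq_pow_iff_modEq.mp h4
    rwa [← hprim.eq_orderOf] at this
  have h6 : (((c γ).val + (c γ').val : ℕ) : ZMod p) = ((c (γ * γ')).val : ZMod p) :=
    (ZMod.natCast_eq_natCast_iff _ _ _).mpr h5
  rw [Nat.cast_add, ZMod.natCast_zmod_val, ZMod.natCast_zmod_val, ZMod.natCast_zmod_val] at h6
  exact h6.symm

/-! ### DFROM -/

/-- **K3-DFROM.** -/
theorem exists_root_of_forall_dvd_ord (N : ℕ) [NeZero N] (p : ℕ) [NeZero p]
    {f : LaurentSeries ℂ} (hf : f ∈ laurentBaseChange ℂ (modularFunctionFieldFull N))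
    (hf0 : f ≠ 0)
    (hdvd : ∀ w : Place ℂ ↥(laurentBaseChange ℂ (modularFunctionFieldFull N)),
      (p : ℤ) ∣ w.ord ⟨f, hf⟩) :
    ∃ s : LaurentSeries ℂ, s ∈ laurentBaseChange ℂ (modularFunctionFieldFull N) ∧ s ≠ 0 ∧
      ∃ V : ℍ → ℂ, MDifferentiable 𝓘(ℂ) 𝓘(ℂ) V ∧ (∃ τ, V τ ≠ 0) ∧
        (fun τ => V τ ^ p) ∈ goodRing N ∧ qexpFun 1 (fun τ => V τ ^ p) = f * s ^ p ∧
        ∃ c : G0 N → ZMod p, (∀ γ γ' : G0 N, c (γ * γ') = c γ + c γ') ∧
          IsTwisted N p c V := by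
  have hp : p ≠ 0 := NeZero.ne p
  -- write `f = r / t` with `r, t` polynomials in the `j(q^d)`
  obtain ⟨r, t, ht, hfrt⟩ := exists_div_inclRNK ℂ N ⟨f, hf⟩
  have ht' : inclRNK ℂ N t ≠ 0 := fun h0 =>
    ht (inclRNK_injective ℂ N (h0.trans (map_zero _).symm))
  have hts : ((t : RNK ℂ N) : LaurentSeries ℂ) ≠ 0 := fun h0 => ht (Subtype.ext h0)
  have hfF : (⟨f, hf⟩ : FFK ℂ N) ≠ 0 := fun h0 => hf0 (congrArg Subtype.val h0)
  -- the good function with `q`-expansion `r * t ^ (p - 1) = f * t ^ p`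
  have hmem : ((r * t ^ (p - 1) : RNK ℂ N) : LaurentSeries ℂ) ∈ AK ℂ N := (r * t ^ (p - 1)).2
  obtain ⟨G, hG, hGq⟩ := Fermat.Agent.S29.H882.AK_le_goodQ N hmem
  have hgF : (⟨f, hf⟩ : FFK ℂ N) * inclRNK ℂ N t ^ p = inclRNK ℂ N (r * t ^ (p - 1)) := by
    rw [hfrt, map_mul, map_pow]
    have : p = (p - 1) + 1 := (Nat.succ_pred_eq_of_ne_zero hp).symm
    conv_lhs => rw [this, pow_succ]
    field_simp
  have hgL : f * ((t : RNK ℂ N) : LaurentSeries ℂ) ^ p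
      = ((r * t ^ (p - 1) : RNK ℂ N) : LaurentSeries ℂ) := by
    have := congrArg (fun x : FFK ℂ N => (x : LaurentSeries ℂ)) hgF
    simpa using this
  have hqG : qexpFun 1 G = f * ((t : RNK ℂ N) : LaurentSeries ℂ) ^ p := by
    rw [hGq.qexpFun_eq, hgL]
  have hfs : qexpFun 1 G ∈ laurentBaseChange ℂ (modularFunctionFieldFull N) :=
    Fermat.Agent.S29.H882.qexpFun_mem_FC hG
  have hGF : (⟨qexpFun 1 G, hfs⟩ : FFK ℂ N) = ⟨f, hf⟩ * inclRNK ℂ N t ^ p := by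
    apply Subtype.ext
    show qexpFun 1 G = ((⟨f, hf⟩ * inclRNK ℂ N t ^ p : FFK ℂ N) : LaurentSeries ℂ)
    rw [hqG]
    simp
  have hG0 : G ≠ 0 := by
    intro h0
    have h1 : qexpFun 1 G = 0 := (qexpFun_eq_zero_iff hGq.isMerInf).mpr h0
    rw [hqG] at h1
    rcases mul_eq_zero.mp h1 with h | h
    · exact hf0 h
    · exact hts (pow_eq_zero_iff hp |>.mp h)
  -- divisibility of the orders of `f * t ^ p`
  have hdvd' : ∀ w : Place ℂ ↥(laurentBaseChange ℂ (modularFunctionFieldFull N)),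
      (p : ℤ) ∣ w.ord ⟨qexpFun 1 G, hfs⟩ := by
    intro w
    rw [hGF, w.ord_mul hfF (pow_ne_zero p ht'), H117.ord_pow]
    exact dvd_add (hdvd w) (dvd_mul_right _ _)
  -- the root
  obtain ⟨V, hVmd, hVp⟩ := exists_pow_eq_of_forall_dvd_ord hG hG0 hfs hp hdvd'
  have hVG : (fun τ => V τ ^ p) = G := funext hVp
  have hV0 : ∃ τ, V τ ≠ 0 := by
    by_contra hcon
    push Not at hcon
    apply hG0
    funext τ
    rw [← hVp τ, hcon τ, zero_pow hp]
    rfl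
  have hVinv : ∀ γ ∈ Gamma0 N, ∀ τ : ℍ, V (γ • τ) ^ p = V τ ^ p := by
    intro γ hγ τ
    rw [hVp, hVp]
    exact hG.2.1 γ hγ τ
  obtain ⟨c, hcadd, hchar⟩ := exists_hasChar_of_pow_invariant hVmd hV0 hVinv
  refine ⟨((t : RNK ℂ N) : LaurentSeries ℂ), (inclRNK ℂ N t).2, hts, V, hVmd, hV0,
    hVG ▸ hG, ?_, c, hcadd, ⟨hVmd, hV0, hchar, hVG ▸ hG⟩⟩
  rw [hVG, hqG]

end Fermat.Agent.S29.H282

end
end
-- ===== PACK-END S29/H282/DFrom.lean

-- ===== PACK-BEGIN S30/Chain/Package.lean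
section
/-
S30 — squad-lead chain (helper49): the Kummer packages `H450.KumPackage N m` at EVERY modulus
`m ≠ 0`, UNCONDITIONALLY, from the landed pieces of S29 sub-layer M4b:

* `ex`    : K1 (`H509.exists_isTwisted`) + K3 (`M4b.K3.pieceK3_of_dfrom` on `H282` DFROM)
            + K2 (`H389.exists_isKummerClass_of_realised`);
* `uniq`, `inj`, `add` : `M4b.H822.pieceUniq / pieceInj / pieceAdd`;
* `hecke` : `M4b.H395.isKum_hecke`.

Together with ONTO (`H810.exists_isKum_of_torsion`) this discharges inputs (K') and (F) of the adic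
module layer, so that the frozen S30 follows from input (T) alone (`Chain/FromT.lean`).
-/








set_option autoImplicit false

noncomputable section

open ModularCurve AlgebraicCurve CongruenceSubgroup UpperHalfPlane
open scoped MatrixGroups Manifold

namespace Fermat.Agent.S30.Chain

open Fermat.Agent.S24 Fermat.Agent.S29 Fermat.Agent.S29.M4b

/-- K3-DFROM in the `Prop` form of `M4b/K3/Fin.lean` (from helper282's `DFrom`). -/
theorem dfromStatement (N : ℕ) [NeZero N] (p : ℕ) [NeZero p] : K3.DFromStatement N p := by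
  intro f hf0 hdvd
  have hf0' : (f : LaurentSeries ℂ) ≠ 0 := fun h => hf0 (Subtype.ext h)
  obtain ⟨s, hs, hs0, V, hV, -, hVg, hq, -⟩ :=
    Fermat.Agent.S29.H282.exists_root_of_forall_dvd_ord N p f.2 hf0' hdvd
  exact ⟨s, hs, hs0, V, hV, hVg, hq⟩

/-- PIECE K3 at every modulus `p ≠ 0`, unconditionally. -/
theorem pieceK3 (N : ℕ) [NeZero N] (p : ℕ) [NeZero p] : PieceK3 N p :=
  K3.pieceK3_of_dfrom N p (dfromStatement N p)

/-- Existence of the Kummer class of a parabolic character, at every modulus `p ≠ 0`. -/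
theorem isKum_exists (N : ℕ) [NeZero N] (p : ℕ) [NeZero p] {c : G0 N → ZMod p}
    (hc : IsParHom c) : ∃ x : JZero N, IsKum N p c x := by
  obtain ⟨U, hU⟩ := Fermat.Agent.S29.H509.exists_isTwisted N p hc
  obtain ⟨U', u, hU', hu⟩ := pieceK3 N p hc hU
  obtain ⟨x, hx⟩ := Fermat.Agent.S29.H389.exists_isKummerClass_of_realised N p hc hU' hu
  refine ⟨x, u, 1, U', one_ne_zero, hx, hU', ?_⟩
  simpa using hu

/-- **The Kummer package at every modulus `m ≠ 0`**, unconditionally. -/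
theorem kumPackage (N : ℕ) [NeZero N] (m : ℕ) [NeZero m] : Fermat.Agent.S30.H450.KumPackage N m :=
  Fermat.Agent.S30.H450.KumPackage.of_skeleton
    (fun hc => isKum_exists N m hc)
    (fun h h' => Fermat.Agent.S29.M4b.H822.pieceUniq N m (NeZero.ne m) h h')
    (fun h => Fermat.Agent.S29.M4b.H822.pieceInj N m (NeZero.ne m) h)
    (fun h h' => Fermat.Agent.S29.M4b.H822.pieceAdd N m (NeZero.ne m) h h')
    (fun ℓ hℓ hfac _ _ hc htr _ hx =>
      Fermat.Agent.S29.M4b.H395.isKum_hecke N m ℓ hℓ hfac hc htr hx)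

end Fermat.Agent.S30.Chain

end
end
-- ===== PACK-END S30/Chain/Package.lean

-- ===== PACK-BEGIN S30/Chain/FromT.lean
section
/-
S30 — squad-lead chain (helper49): the frozen statement S30 from input (T) ALONE.

`result_of_T : (∀ N p, H330.TorsionRelations N p) → <frozen S30 statement>`

All other inputs of the adic module layer are discharged from `main`:
* (K') the Kummer tower: `Chain.kumPackage` (K1 H509, K3 helper42/H282, K2 H389, UNIQ/INJ/ADD H822,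
  HECKE H395, tower compatibility H450);
* (F)  finiteness of `J₀(N)[p]`: ONTO `H810.exists_isKum_of_torsion` + `Fin.finite_torsion_of`;
* (P)  `H709.exists_parEigen`;  (Sm) S29 M3;  (GH) H571;  top glue H990; adic layer H330.

(T) = `H330.TorsionRelations N p`: inertia at `ℓ ∤ N p` acts trivially on `J₀(N)(ℚ̄)[p^∞]` and every
Frobenius at `ℓ` satisfies `σ² - T_ℓ σ + ℓ = 0` there.  It follows from each of the interfaces of
rows S37/S18, see `H330/AdicTorsionRel.lean` (`torsionRelations_of_redData`, `_of_pieces`,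
`_of_weakRedData`).  The final `Fermat/Agent/S30.lean` is `Chain.result_of_T hT`.
-/




set_option autoImplicit false
set_option linter.overlappingInstances false

noncomputable section

namespace Fermat.Agent.S30.Chain

open Fermat.Agent.S29 Fermat.Agent.S29.M4b ModularCurve Polynomial

/-- **S30 from (T) alone.** -/
theorem result_of_T
    (hT : ∀ (N : ℕ) [NeZero N] (p : ℕ) [Fact p.Prime],
      Fermat.Agent.S30.H330.TorsionRelations N p) :
    ∀ (p : ℕ) [Fact p.Prime] (N : ℕ) [NeZero N] (S : Finset ℕ)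
      (_hpS : p ∈ S) (_hNS : ∀ q : ℕ, q.Prime → q ∣ N → q ∈ S)
      (𝒪' : Type) [CommRing 𝒪'] [IsDomain 𝒪'] [IsDiscreteValuationRing 𝒪']
      [IsAdicComplete (IsLocalRing.maximalIdeal 𝒪') 𝒪'] [Finite (IsLocalRing.ResidueField 𝒪')]
      [CharZero 𝒪'] (_hp𝒪' : (p : 𝒪') ∈ IsLocalRing.maximalIdeal 𝒪')
      (χ : CuspForm.heckeAlgebra N 2 (↑S : Set ℕ) →+* 𝒪'),
      ∃ (𝒪'' : Type) (_ : CommRing 𝒪'') (_ : IsDomain 𝒪'') (_ : IsDiscreteValuationRing 𝒪'')
        (_ : IsAdicComplete (IsLocalRing.maximalIdeal 𝒪'') 𝒪'')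
        (_ : Finite (IsLocalRing.ResidueField 𝒪'')) (_ : CharZero 𝒪'')
        (_ : Algebra 𝒪' 𝒪'') (_ : Module.Finite 𝒪' 𝒪'') (_ : IsLocalHom (algebraMap 𝒪' 𝒪'')),
      Function.Injective (algebraMap 𝒪' 𝒪'') ∧
      ∃ ρ : GaloisRepAdic 𝒪'',
        (∀ (ℓ : ℕ) (hℓ : ℓ.Prime) (hℓN : ¬ ℓ ∣ N) (hℓS : ℓ ∉ (↑S : Set ℕ)),
          ∀ A : ValuationSubring (AlgebraicClosure ℚ), A.LiesOverPrime ℓ →
            ∀ σ : AlgebraicClosure ℚ ≃ₐ[ℚ] AlgebraicClosure ℚ, A.IsFrobeniusAt σ ℓ →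
              LinearMap.charpoly (ρ.ρ σ) =
                X ^ 2 - C (algebraMap 𝒪' 𝒪'' (χ (CuspForm.heckeAlgebra.T hℓ hℓN hℓS))) * X
                  + C ((ℓ : 𝒪''))) ∧
        (∀ q : ℕ, q.Prime → ¬ q ∣ N → q ≠ p → ρ.IsUnramifiedAt q) :=
  Fermat.Agent.S30.H330.result_of_packages
    (fun N _ p hp n =>
      haveI : NeZero (p ^ n) := ⟨pow_ne_zero n hp.out.ne_zero⟩
      kumPackage N (p ^ n))
    (fun N _ p hp x hx =>
      haveI : NeZero p := ⟨hp.out.ne_zero⟩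
      Fermat.Agent.S30.H810.exists_isKum_of_torsion N p hx)
    hT

end Fermat.Agent.S30.Chain

end
end
-- ===== PACK-END S30/Chain/FromT.lean

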