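import Fermat.Prelude.Def_ModularCurve_HeckeModule
import Fermat.Agent.Pack.S33.E21L3
import Fermat.Agent.Pack.S33.E18L2
import Fermat.Agent.Pack.S33.E20L0
import Fermat.Agent.Pack.S33.E21L2
import Fermat.Agent.Pack.S33.E21L0
import Fermat.Agent.Pack.S33.E21L1
import Fermat.Agent.Pack.S33.E14L1
import Fermat.Agent.Pack.S33.E9L2
import Fermat.Agent.Pack.S33.E19L3
import Fermat.Agent.Pack.S33.E15L0
import Fermat.Agent.Pack.S33.E14L2
import Fermat.Agent.Pack.S33.E7L3
import Fermat.Agent.Pack.S33.E20L2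
import Fermat.Agent.Pack.S33.E20L1
import Fermat.Agent.Pack.S33.E17L0
import Fermat.Agent.Pack.S33.E18L0

-- ===== PACK-BEGIN S30/H330/AdicChain.lean
section
/-
S30 -- the frozen statement S30 from the TWO remaining open inputs (helper330).

Everything else of the chain is on main and is wired here:
  K1 (helper332), K2 (helper150), K4-UNIQ/INJ/ADD (helper822), K4-HECKE (helper395),
  K3 from K3-FIN (helper42), FIN (helper810), (P) (helper709), (Sm) (helper126), (GH) (helper571),
  adic module layer (helper330), top glue (helper990), CHEB Tier 1.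

* `kumPackage_of_k3fin` : `K3.FinStatement N m` ⟹ `H450.KumPackage N m` (any modulus `m ≠ 0`);
* `result_of_k3fin` : S30 from `K3-FIN` at the moduli `p ^ n` and the torsion relations (T);
* `result_of_k3fin_rawESAll` : S30 from `K3-FIN` and the raw Eichler–Shimura statement on all
  prime-to-`ℓ` torsion (`RawESAll`, see `AdicTorsionRel.lean` for its derivation from each of the
  interfaces of the S37 row).
-/









set_option autoImplicit false
set_option linter.overlappingInstances false

noncomputable section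

namespace Fermat.Agent.S30.H330

open Fermat.Agent.S29 Fermat.Agent.S29.M4b ModularCurve Fermat.Agent.S30.H450 Polynomial

/-- The Kummer package at the modulus `m ≠ 0` from the single open sub-piece `K3-FIN`. -/
theorem kumPackage_of_k3fin (N : ℕ) [NeZero N] (m : ℕ) [NeZero m]
    (hfin : Fermat.Agent.S29.M4b.K3.FinStatement N m) : KumPackage N m :=
  KumPackage.of_skeleton
    (fun hc => top_isKum_exists (fun hc' => Fermat.Agent.S29.H332.exists_isTwisted N m hc')
      (Fermat.Agent.S29.M4b.K3.pieceK3_of_fin N m hfin) (Fermat.Agent.S29.H150.pieceK2 N m) hc)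
    (fun h h' => Fermat.Agent.S29.M4b.H822.pieceUniq N m (NeZero.ne m) h h')
    (fun h => Fermat.Agent.S29.M4b.H822.pieceInj N m (NeZero.ne m) h)
    (fun h h' => Fermat.Agent.S29.M4b.H822.pieceAdd N m (NeZero.ne m) h h')
    (fun ℓ hℓ hfac _ _ hc hcc' _ h =>
      Fermat.Agent.S29.M4b.H395.isKum_hecke N m ℓ hℓ hfac hc hcc' h)

/-- Input (F) holds (helper810, unconditional). -/
theorem finStatement (N : ℕ) [NeZero N] (p : ℕ) [NeZero p] : FinStatement N p :=
  Fermat.Agent.S30.H810.torsion_finite N p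

/-- Input (K') from `K3-FIN` at the moduli `p ^ n`. -/
theorem kummerInjStatement_of_k3fin (N : ℕ) [NeZero N] (p : ℕ) [NeZero p]
    (hfin : ∀ n : ℕ, Fermat.Agent.S29.M4b.K3.FinStatement N (p ^ n)) :
    KummerInjStatement N p :=
  kummerInjStatement_of_packages (fun n => kumPackage_of_k3fin N (p ^ n) (hfin n))

/-- **S30 from `K3-FIN` and (T).** -/
theorem result_of_k3fin
    (hfin : ∀ (N : ℕ) [NeZero N] (p : ℕ) [Fact p.Prime] (n : ℕ),
      Fermat.Agent.S29.M4b.K3.FinStatement N (p ^ n))
    (hT : ∀ (N : ℕ) [NeZero N] (p : ℕ) [Fact p.Prime], TorsionRelations N p) :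
    ∀ (p : ℕ) [Fact p.Prime] (N : ℕ) [NeZero N] (S : Finset ℕ)
      (_hpS : p ∈ S) (_hNS : ∀ q : ℕ, q.Prime → q ∣ N → q ∈ S)
      (𝒪' : Type) [CommRing 𝒪'] [IsDomain 𝒪'] [IsDiscreteValuationRing 𝒪']
      [IsAdicComplete (IsLocalRing.maximalIdeal 𝒪') 𝒪'] [Finite (IsLocalRing.ResidueField 𝒪')]
      [CharZero 𝒪'] (_hp𝒪' : (p : 𝒪') ∈ IsLocalRing.maximalIdeal 𝒪')
      (χ : CuspForm.heckeAlgebra N 2 (↑S : Set ℕ) →+* 𝒪'),
      ∃ (𝒪'' : Type) (_ : CommRing 𝒪'') (_ : IsDomain 𝒪'') (_ : IsDiscreteValuationRing 𝒪'')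
        (_ : IsAdicComplete (IsLocalRing.maximalIdeal 𝒪'') 𝒪'')
        (_ : Finite (IsLocalRing.ResidueField 𝒪'')) (_ : CharZero 𝒪'')
        (_ : Algebra 𝒪' 𝒪'') (_ : Module.Finite 𝒪' 𝒪'') (_ : IsLocalHom (algebraMap 𝒪' 𝒪'')),
      Function.Injective (algebraMap 𝒪' 𝒪'') ∧
      ∃ ρ : GaloisRepAdic 𝒪'',
        (∀ (ℓ : ℕ) (hℓ : ℓ.Prime) (hℓN : ¬ ℓ ∣ N) (hℓS : ℓ ∉ (↑S : Set ℕ)),
          ∀ A : ValuationSubring (AlgebraicClosure ℚ), A.LiesOverPrime ℓ →
            ∀ σ : AlgebraicClosure ℚ ≃ₐ[ℚ] AlgebraicClosure ℚ, A.IsFrobeniusAt σ ℓ →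
              LinearMap.charpoly (ρ.ρ σ) =
                X ^ 2 - C (algebraMap 𝒪' 𝒪'' (χ (CuspForm.heckeAlgebra.T hℓ hℓN hℓS))) * X
                  + C ((ℓ : 𝒪''))) ∧
        (∀ q : ℕ, q.Prime → ¬ q ∣ N → q ≠ p → ρ.IsUnramifiedAt q) :=
  result_of_inj
    (fun N _ p hp =>
      haveI : NeZero p := ⟨hp.out.ne_zero⟩
      kummerInjStatement_of_k3fin N p (fun n => hfin N p n))
    (fun N _ p hp =>
      haveI : NeZero p := ⟨hp.out.ne_zero⟩
      finStatement N p)
    hT

/-- **S30 from `K3-FIN` and the raw Eichler–Shimura statement.** -/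
theorem result_of_k3fin_rawESAll
    (hfin : ∀ (N : ℕ) [NeZero N] (p : ℕ) [Fact p.Prime] (n : ℕ),
      Fermat.Agent.S29.M4b.K3.FinStatement N (p ^ n))
    (hES : ∀ (N : ℕ) [NeZero N], RawESAll N) :
    ∀ (p : ℕ) [Fact p.Prime] (N : ℕ) [NeZero N] (S : Finset ℕ)
      (_hpS : p ∈ S) (_hNS : ∀ q : ℕ, q.Prime → q ∣ N → q ∈ S)
      (𝒪' : Type) [CommRing 𝒪'] [IsDomain 𝒪'] [IsDiscreteValuationRing 𝒪']
      [IsAdicComplete (IsLocalRing.maximalIdeal 𝒪') 𝒪'] [Finite (IsLocalRing.ResidueField 𝒪')]
      [CharZero 𝒪'] (_hp𝒪' : (p : 𝒪') ∈ IsLocalRing.maximalIdeal 𝒪')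
      (χ : CuspForm.heckeAlgebra N 2 (↑S : Set ℕ) →+* 𝒪'),
      ∃ (𝒪'' : Type) (_ : CommRing 𝒪'') (_ : IsDomain 𝒪'') (_ : IsDiscreteValuationRing 𝒪'')
        (_ : IsAdicComplete (IsLocalRing.maximalIdeal 𝒪'') 𝒪'')
        (_ : Finite (IsLocalRing.ResidueField 𝒪'')) (_ : CharZero 𝒪'')
        (_ : Algebra 𝒪' 𝒪'') (_ : Module.Finite 𝒪' 𝒪'') (_ : IsLocalHom (algebraMap 𝒪' 𝒪'')),
      Function.Injective (algebraMap 𝒪' 𝒪'') ∧
      ∃ ρ : GaloisRepAdic 𝒪'',
        (∀ (ℓ : ℕ) (hℓ : ℓ.Prime) (hℓN : ¬ ℓ ∣ N) (hℓS : ℓ ∉ (↑S : Set ℕ)),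
          ∀ A : ValuationSubring (AlgebraicClosure ℚ), A.LiesOverPrime ℓ →
            ∀ σ : AlgebraicClosure ℚ ≃ₐ[ℚ] AlgebraicClosure ℚ, A.IsFrobeniusAt σ ℓ →
              LinearMap.charpoly (ρ.ρ σ) =
                X ^ 2 - C (algebraMap 𝒪' 𝒪'' (χ (CuspForm.heckeAlgebra.T hℓ hℓN hℓS))) * X
                  + C ((ℓ : 𝒪''))) ∧
        (∀ q : ℕ, q.Prime → ¬ q ∣ N → q ≠ p → ρ.IsUnramifiedAt q) :=
  result_of_k3fin hfin (fun N _ p _ => torsionRelations_of_rawAll p (hES N))

end Fermat.Agent.S30.H330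

end
end
-- ===== PACK-END S30/H330/AdicChain.lean

-- ===== PACK-BEGIN S33/EigB.lean
section
/-
Row S33 — piece EIG-B (helper409): `geoEigenStatement_of_key : KeyStatement → GeoEigenStatement`.

The adic eigenmodule of row S30 (Tate eigenmodule `M` of `X = Hom_ℤ(𝒪, J)`, `J = J₀(N)(ℚ̄)`,
`S30/H529/HomTate.lean`) satisfies GEO at `I = I_P` as soon as (K) holds for `(G_ℚ, I, J)`:

if `p ^ c M ≤ A := augSpan`, evaluate the `c`-th component at representatives `o_i` of
`𝒪 / p ^ (c + 1)`: `e : M → Fin r → J`, equivariant, with kernel `p ^ (c + 1) M`.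
`Y := e (p ^ c M)` is `G_ℚ`-stable with coordinates in `𝒮⁺`, so `Y = I_aug Y` (`keyAt_pi`);
hence `p ^ c m - p ^ c a' ∈ p ^ (c + 1) M` with `a' ∈ A`, i.e. `m ∈ A + p M`.

Template: `Fermat/Agent/S32/EigChain.lean` (helper32).
-/





set_option autoImplicit false
set_option linter.style.haveILetI false

noncomputable section

namespace Fermat.Agent.S33

open IsLocalRing Fermat.Agent.S30 Fermat.Agent.S31

/-! ### Representatives modulo a nonzero element of a DVR with finite residue field -/

section Reps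

variable {O : Type} [CommRing O] [IsDomain O] [IsDiscreteValuationRing O]
  [Finite (ResidueField O)]

theorem exists_reps_mod_s33 {x : O} (hx : x ≠ 0) :
    ∃ (r : ℕ) (o : Fin r → O), ∀ b : O, ∃ i : Fin r, ∃ d : O, b = o i + x * d := by
  obtain ⟨n, hn⟩ := H529.exists_pow_maximalIdeal_le_span hx
  have h1 : Finite (O ⧸ maximalIdeal O ^ n) := by
    have : Finite (O ⧸ maximalIdeal O) := (inferInstance : Finite (ResidueField O))
    exact Ideal.finite_quotient_pow (IsNoetherian.noetherian _) n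
  have h2 : Finite (O ⧸ Ideal.span {x}) :=
    Finite.of_surjective (Ideal.Quotient.factor hn) (Ideal.Quotient.factor_surjective hn)
  let e := Finite.equivFin (O ⧸ Ideal.span {x})
  refine ⟨Nat.card (O ⧸ Ideal.span {x}),
    fun i => Function.surjInv Ideal.Quotient.mk_surjective (e.symm i), fun b => ?_⟩
  refine ⟨e (Ideal.Quotient.mk _ b), ?_⟩
  have h3 : Ideal.Quotient.mk (Ideal.span {x})
      (Function.surjInv Ideal.Quotient.mk_surjective (e.symm (e (Ideal.Quotient.mk _ b)))) =
      Ideal.Quotient.mk _ b :=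
    (Function.surjInv_eq Ideal.Quotient.mk_surjective _).trans (e.symm_apply_apply _)
  have h4 : b - Function.surjInv Ideal.Quotient.mk_surjective
      (e.symm (e (Ideal.Quotient.mk (Ideal.span {x}) b))) ∈ Ideal.span {x} := by
    rw [← Ideal.Quotient.eq_zero_iff_mem, map_sub, h3, sub_self]
  obtain ⟨d, hd⟩ := Ideal.mem_span_singleton'.mp h4
  exact ⟨d, by rw [mul_comm, hd]; ring⟩

end Reps

/-! ### GEO for the Tate eigenmodule of `Hom_ℤ(𝒪, J)` -/

section GeoHom

variable (p : ℕ)
variable (O : Type) [CommRing O] [IsDomain O] [IsDiscreteValuationRing O]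
  [Finite (ResidueField O)] [CharZero O]
variable (J : Type) [AddCommGroup J] [DistribMulAction GQ J]
variable {ι : Type} (t : ι → J →+ J) (a : ι → O)

/-- **The Tate eigenmodule of `Hom_ℤ(𝒪, J)` satisfies GEO at `I`** if (K) holds for `(I, J)`. -/
theorem homEigen_geoAt [Fact p.Prime] (hpO : (p : O) ∈ maximalIdeal O)
    (hρ : ∀ (σ : GQ) (i : ι) (h : H529.PreHom O J),
      H529.preHomRep O J σ (H529.PreHom.post (t i) h)
        = H529.PreHom.post (t i) (H529.preHomRep O J σ h))
    (I : Subgroup GQ) (hKey : KeyAt I p J) :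
    GeoAt (H529.tateRep (ϖ := (p : O)) (t := fun i => H529.PreHom.post (t i)) (a := a)
      (H529.preHomRep O J) hρ) I := by
  intro a₀ ha₀ hall
  have hp0 : (p : O) ≠ 0 := by
    exact_mod_cast (Fact.out : p.Prime).ne_zero
  -- abbreviations
  set ρ := H529.tateRep (ϖ := (p : O)) (t := fun i => H529.PreHom.post (t i)) (a := a)
      (H529.preHomRep O J) hρ with hρdef
  -- `p ^ c M ≤ A`
  obtain ⟨c, d, hcd⟩ := H529.exists_dvd_pow_of_mem_maximalIdeal hpO ha₀
  have hpc : ∀ m : ↥(H529.tateEigen (p : O) (fun i => H529.PreHom.post (t i)) a),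
      (p : O) ^ c • m ∈ augSpan ρ I := by
    intro m
    rw [hcd, mul_comm, mul_smul]
    exact Submodule.smul_mem _ _ (hall m)
  obtain ⟨r, o, ho⟩ := exists_reps_mod_s33 (pow_ne_zero (c + 1) hp0)
  -- evaluation of the `c`-th component at the representatives
  let e : ↥(H529.tateEigen (p : O) (fun i => H529.PreHom.post (t i)) a) →+ (Fin r → J) :=
    { toFun := fun v i => H529.PreHom.toHom ((v : ℕ → H529.PreHom O J) c) (o i)
      map_zero' := by
        funext i
        rfl
      map_add' := by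
        intro v w
        funext i
        rfl }
  have he : ∀ v i, e v i = H529.PreHom.toHom ((v : ℕ → H529.PreHom O J) c) (o i) :=
    fun _ _ => rfl
  have heq : ∀ (σ : GQ) v, e (ρ σ v) = σ • e v := by
    intro σ v
    funext i
    rfl
  -- the kernel of `e`
  have hker : ∀ v, e v = 0 → ∃ w : ↥(H529.tateEigen (p : O)
      (fun i => H529.PreHom.post (t i)) a), v = (p : O) ^ (c + 1) • w := by
    intro v hv
    have hvi : ∀ i, H529.PreHom.toHom ((v : ℕ → H529.PreHom O J) c) (o i) = 0 := by
      intro i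
      rw [← he, hv]
      rfl
    have h0 : (v : ℕ → H529.PreHom O J) c = 0 := by
      apply H529.PreHom.ext
      intro x
      obtain ⟨i, d', hd'⟩ := ho x
      have h1 : H529.PreHom.toHom ((v : ℕ → H529.PreHom O J) c) ((p : O) ^ (c + 1) * d') = 0 := by
        rw [← H529.PreHom.smul_apply, H529.tate_pow_succ_smul v.2 c]
        rfl
      rw [hd', map_add, hvi i, h1, add_zero]
      rfl
    have hlt : ∀ m, m < c + 1 → (v : ℕ → H529.PreHom O J) m = 0 := by
      intro m hm
      obtain ⟨k, rfl⟩ : ∃ k, c = m + k := ⟨c - m, by omega⟩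
      rw [← H529.tate_pow_smul v.2 k m, h0, smul_zero]
    obtain ⟨w, hw, hvw⟩ := H529.tate_exists_eq_pow_smul v.2 (c + 1) hlt
    refine ⟨⟨w, hw⟩, ?_⟩
    apply Subtype.ext
    rw [hvw]
    rfl
  -- values of the `c`-th component are killed by `p ^ (c + 1)`
  have hval : ∀ (v : ↥(H529.tateEigen (p : O) (fun i => H529.PreHom.post (t i)) a)) (x : O),
      H529.PreHom.toHom ((v : ℕ → H529.PreHom O J) c) x ∈ torsSub J (p ^ (c + 1)) := by
    intro v x
    rw [mem_torsSub, ← H529.PreHom.natCast_pow_smul_apply, H529.tate_pow_succ_smul v.2 c]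
    rfl
  -- elements of `A` have `c`-th component with values in `I_aug J[p ^ (c + 1)]`
  have haug : ∀ v : ↥(H529.tateEigen (p : O) (fun i => H529.PreHom.post (t i)) a),
      v ∈ augSpan ρ I → ∀ x : O,
        H529.PreHom.toHom ((v : ℕ → H529.PreHom O J) c) x
          ∈ iAug I (torsSub J (p ^ (c + 1))) := by
    intro v hv
    unfold augSpan at hv
    induction hv using Submodule.span_induction with
    | mem z hz =>
      obtain ⟨σ, hσ, m, rfl⟩ := hz
      intro x
      exact smul_sub_mem_iAug hσ (hval m x)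
    | zero =>
      intro x
      exact AddSubgroup.zero_mem _
    | add z w _ _ hz hw =>
      intro x
      exact AddSubgroup.add_mem _ (hz x) (hw x)
    | smul b z _ hz =>
      intro x
      exact hz (b * x)
  -- the subgroup `Y = e (p ^ c M)`
  let φ : ↥(H529.tateEigen (p : O) (fun i => H529.PreHom.post (t i)) a) →+ (Fin r → J) :=
    e.comp (DistribSMul.toAddMonoidHom _ ((p : O) ^ c))
  have hφ : ∀ v, φ v = e ((p : O) ^ c • v) := fun _ => rfl
  have hφeq : ∀ (σ : GQ) v, φ (ρ σ v) = σ • φ v := by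
    intro σ v
    rw [hφ, hφ, ← map_smul, heq]
  have hYG : ∀ (σ : GQ), ∀ y ∈ φ.range, σ • y ∈ φ.range := by
    rintro σ _ ⟨v, rfl⟩
    exact ⟨ρ σ v, hφeq σ v⟩
  have hYS : ∀ y ∈ φ.range, ∀ i, InSPlus I p (y i) := by
    rintro _ ⟨v, rfl⟩ i
    refine ⟨?_, c + 1, ?_⟩
    · rw [hφ, he, ← H529.PreHom.natCast_smul_apply]
      have h1 : (p : O) • (((p : O) ^ c • v : ↥(H529.tateEigen (p : O)
          (fun i => H529.PreHom.post (t i)) a)) : ℕ → H529.PreHom O J) c
          = (p : O) ^ (c + 1) • (v : ℕ → H529.PreHom O J) c := by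
        rw [pow_succ', mul_smul]
        rfl
      rw [h1, H529.tate_pow_succ_smul v.2 c]
      rfl
    · rw [hφ, he]
      exact haug _ (hpc v) (o i)
  have hYkey : φ.range ≤ iAug I φ.range := keyAt_pi hKey r φ.range hYG hYS
  -- lifting the augmentation of `Y`
  have hlift : ∀ y ∈ iAug I φ.range, ∃ v ∈ augSpan ρ I, φ v = y := by
    intro y hy
    unfold iAug at hy
    induction hy using AddSubgroup.closure_induction with
    | mem z hz =>
      obtain ⟨σ, hσ, y', ⟨v', rfl⟩, rfl⟩ := hz
      refine ⟨ρ σ v' - v', Submodule.subset_span ⟨σ, hσ, v', rfl⟩, ?_⟩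
      rw [map_sub, hφeq]
    | zero => exact ⟨0, Submodule.zero_mem _, map_zero φ⟩
    | add z w _ _ hz hw =>
      obtain ⟨v, hv, rfl⟩ := hz
      obtain ⟨v', hv', rfl⟩ := hw
      exact ⟨v + v', Submodule.add_mem _ hv hv', map_add φ v v'⟩
    | neg z _ hz =>
      obtain ⟨v, hv, rfl⟩ := hz
      exact ⟨-v, Submodule.neg_mem _ hv, map_neg φ v⟩
  -- conclusion
  rw [eq_top_iff]
  intro m _
  obtain ⟨v, hv, hvm⟩ := hlift (φ m) (hYkey ⟨m, rfl⟩)
  have h0 : e ((p : O) ^ c • (m - v)) = 0 := by
    rw [← hφ, map_sub, hvm, sub_self]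
  obtain ⟨w, hw⟩ := hker _ h0
  have h1 : m - v = (p : O) • w := by
    have h2 : (p : O) ^ c • (m - v - (p : O) • w) = 0 := by
      rw [smul_sub, hw, pow_succ, mul_smul, sub_self]
    have h3 : (m - v - (p : O) • w : ↥(H529.tateEigen (p : O)
        (fun i => H529.PreHom.post (t i)) a)) = 0 := by
      apply Subtype.ext
      funext n
      have h4 := H529.tate_pow_smul (m - v - (p : O) • w).2 c n
      have h5 := congrFun (congrArg Subtype.val h2) (n + c)
      rw [← h4]
      exact h5
    exact sub_eq_zero.mp h3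
  have h6 : m = v + (p : O) • w := by
    rw [← h1]; abel
  rw [h6]
  exact Submodule.add_mem_sup hv (Submodule.smul_mem_smul hpO Submodule.mem_top)

end GeoHom

/-! ### The eigenmodule attached to an eigen-homomorphism `Frac 𝒪 / 𝒪 → J`, with GEO -/

section MainHom

/-- `S30.H529.adicModule_of_torsion` (piece 1 of the adic module layer of row S30) with the
additional conclusion GEO at every subgroup `I` for which (K) holds.
(Copy of `S32.exists_flat_homEigenmodule`, helper32, with the last conclusion replaced.) -/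
theorem exists_geo_homEigenmodule
    {p : ℕ} (hp : p.Prime)
    {O : Type} [CommRing O] [IsDomain O] [IsDiscreteValuationRing O]
    [IsAdicComplete (IsLocalRing.maximalIdeal O) O] [Finite (IsLocalRing.ResidueField O)]
    [CharZero O] (hpO : (p : O) ∈ IsLocalRing.maximalIdeal O)
    {J : Type} [AddCommGroup J] [DistribMulAction GQ J]
    (hsm : ∀ x : J, ∃ L : IntermediateField ℚ (AlgebraicClosure ℚ), FiniteDimensional ℚ L ∧
      ∀ σ : GQ, (∀ y ∈ L, σ y = y) → σ • x = x)
    (hfin : {x : J | p • x = 0}.Finite)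
    {ι : Type} (t : ι → J →+ J) (ht : ∀ i (σ : GQ) (x : J), σ • t i x = t i (σ • x))
    (a : ι → O)
    (f : FractionRing O →+ J) (hf0 : ∀ r : O, f (algebraMap O (FractionRing O) r) = 0)
    (hf : f ≠ 0)
    (hfe : ∀ i x, t i (f x) = f (algebraMap O (FractionRing O) (a i) * x)) :
    ∃ (M : Type) (_ : AddCommGroup M) (_ : Module O M) (_ : Module.Free O M)
      (_ : Module.Finite O M) (ρ : GQ →* Module.End O M),
      Nontrivial M ∧ GaloisActionIsAdicContinuous O ρ ∧
      (∀ σ : GQ, (∀ x : J, (∃ n : ℕ, p ^ n • x = 0) → σ • x = x) → ρ σ = 1) ∧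
      (∀ (i : ι) (n : ℕ) (σ : GQ),
        (∀ x : J, (∃ k : ℕ, p ^ k • x = 0) → σ • σ • x - t i (σ • x) + n • x = 0) →
        ρ σ * ρ σ - a i • ρ σ + (n : O) • (1 : Module.End O M) = 0) ∧
      ∀ I : Subgroup GQ, KeyAt I p J → GeoAt ρ I := by
  have : Fact p.Prime := ⟨hp⟩
  have hϖ0 : (p : O) ≠ 0 := by exact_mod_cast hp.ne_zero
  have hpL : algebraMap O (FractionRing O) (p : O) ≠ 0 := by
    intro h
    exact hϖ0 ((IsFractionRing.injective O (FractionRing O)) (by rw [h, map_zero]))
  -- operators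
  set t' : ι → H529.PreHom O J →ₗ[O] H529.PreHom O J := fun i => H529.PreHom.post (t i) with ht'
  have hρ : ∀ (σ : GQ) (i : ι) (h : H529.PreHom O J),
      H529.preHomRep O J σ (t' i h) = t' i (H529.preHomRep O J σ h) := by
    intro σ i h
    apply H529.PreHom.ext
    intro x
    simp only [ht', H529.preHomRep_apply, H529.PreHom.post_apply]
    exact ht i σ _
  -- finiteness
  have hX : ∃ Y : Submodule O (H529.PreHom O J), Y.FG ∧
      ∀ h : H529.PreHom O J, (p : O) • h = 0 → h ∈ Y := by
    have hfinX := H529.preHom_torsion_finite (O := O) (J := J) p hϖ0 hfin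
    exact ⟨Submodule.span O {h : H529.PreHom O J | (p : O) • h = 0},
      Submodule.fg_span hfinX, fun h hh => Submodule.subset_span hh⟩
  have hfree := H529.tateEigen_free (t := t') (a := a) hpO hϖ0 hX
  have hfinite := H529.tateEigen_finite (t := t') (a := a) hpO hϖ0 hX
  -- torsion values
  have hval : ∀ (k : ℕ) (h : H529.PreHom O J), (p : O) ^ k • h = 0 →
      ∀ x : O, p ^ k • H529.PreHom.toHom h x = 0 := by
    intro k h hh x
    rw [← H529.PreHom.natCast_pow_smul_apply, hh]
    rfl
  refine ⟨H529.tateEigen (p : O) t' a, inferInstance, inferInstance, hfree, hfinite,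
    H529.tateRep (H529.preHomRep O J) hρ, ?_, ?_, ?_, ?_,
    fun I hKey => homEigen_geoAt p O J t a hpO hρ I hKey⟩
  · -- nontrivial
    have hmem : H529.seqOfHom p f ∈ H529.tateEigen (p : O) t' a := by
      refine ⟨?_, ?_, ?_⟩
      · apply H529.PreHom.ext
        intro x
        rw [H529.PreHom.smul_apply, H529.seqOfHom_apply,
          (algebraMap O (FractionRing O)).map_mul]
        have : algebraMap O (FractionRing O) (p : O) * algebraMap O (FractionRing O) x
            * (algebraMap O (FractionRing O) (p : O) ^ (0 + 1))⁻¹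
            = algebraMap O (FractionRing O) x := by
          field_simp
          ring
        rw [this, hf0]
        rfl
      · intro n
        apply H529.PreHom.ext
        intro x
        rw [H529.PreHom.smul_apply, H529.seqOfHom_apply, H529.seqOfHom_apply,
          (algebraMap O (FractionRing O)).map_mul]
        congr 1
        field_simp
        ring
      · intro i n
        apply H529.PreHom.ext
        intro x
        rw [H529.PreHom.smul_apply, H529.seqOfHom_apply]
        simp only [ht', H529.PreHom.post_apply]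
        rw [H529.seqOfHom_apply, hfe, (algebraMap O (FractionRing O)).map_mul, mul_assoc]
    have hne : H529.seqOfHom p f ≠ 0 := by
      intro h0
      apply hf
      apply AddMonoidHom.ext
      intro y
      obtain ⟨x, s, hs, rfl⟩ := IsFractionRing.div_surjective (A := O) y
      have hs0 : s ≠ 0 := nonZeroDivisors.ne_zero hs
      obtain ⟨k, c, hc⟩ := H529.exists_dvd_pow_of_mem_maximalIdeal hpO hs0
      have h1 := congrArg (fun h => H529.PreHom.toHom h (x * c * (p : O))) (congrFun h0 k)
      simp only [H529.seqOfHom_apply] at h1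
      have hsL : algebraMap O (FractionRing O) s ≠ 0 := by
        intro h
        exact hs0 ((IsFractionRing.injective O (FractionRing O)) (by rw [h, map_zero]))
      have h2 : algebraMap O (FractionRing O) (x * c * (p : O))
          * (algebraMap O (FractionRing O) (p : O) ^ (k + 1))⁻¹
          = algebraMap O (FractionRing O) x / algebraMap O (FractionRing O) s := by
        have h3 : algebraMap O (FractionRing O) (p : O) ^ k
            = algebraMap O (FractionRing O) s * algebraMap O (FractionRing O) c := by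
          rw [← map_pow, hc, map_mul]
        rw [pow_succ, h3, (algebraMap O (FractionRing O)).map_mul,
          (algebraMap O (FractionRing O)).map_mul]
        have hcL : algebraMap O (FractionRing O) c ≠ 0 := by
          intro h
          rw [h, mul_zero] at h3
          exact hpL (pow_eq_zero_iff (by
            intro hk
            subst hk
            simp at h3) |>.mp h3)
        field_simp
      rw [h2] at h1
      rw [h1]
      rfl
    refine ⟨⟨⟨H529.seqOfHom p f, hmem⟩, 0, ?_⟩⟩
    intro h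
    exact hne (congrArg Subtype.val h)
  · -- continuity
    intro n
    obtain ⟨L, hL, hLfix⟩ := H529.exists_common_level {x : J | p ^ n • x = 0}
      (H529.finite_torsion_pow J p hfin n) (fun x _ => hsm x)
    refine ⟨L, hL, fun σ hσ m => ?_⟩
    apply H529.tateRep_sub_mem (H529.preHomRep O J) hρ hpO n σ
    intro h hh
    apply H529.PreHom.ext
    intro x
    rw [H529.preHomRep_apply]
    exact hLfix σ hσ _ (hval n h hh x)
  · -- trivial action
    intro σ hσ
    apply H529.tateRep_eq_one
    rintro h ⟨k, hh⟩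
    apply H529.PreHom.ext
    intro x
    rw [H529.preHomRep_apply]
    exact hσ _ ⟨k, hval k h hh x⟩
  · -- quadratic relations
    intro i n σ hσ
    apply H529.tateRep_quadratic
    rintro h ⟨k, hh⟩
    apply H529.PreHom.ext
    intro x
    have h1 := hσ (H529.PreHom.toHom h x) ⟨k, hval k h hh x⟩
    simp only [ht', H529.PreHom.toHom_add, H529.PreHom.toHom_sub, AddMonoidHom.add_apply,
      AddMonoidHom.sub_apply, H529.preHomRep_apply, H529.PreHom.post_apply,
      H529.PreHom.natCast_smul_apply, H529.PreHom.toHom_zero, AddMonoidHom.zero_apply]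
    exact h1

end MainHom

/-! ### GEO-EIG from (K) and the inputs of the adic module layer of row S30 -/

section Chain

open Fermat.Agent.S30.H990 (AdicEigenModule)
open Fermat.Agent.S30.H330

/-- **PIECE EIG-B** from (K) and the inputs (K'), (F), (T) of the adic module layer of row S30
(all three are theorems on main, see `EigBFinal.lean`). -/
theorem geoEigenStatement_of_chain (hKey : KeyStatement)
    (hK : ∀ (N : ℕ) [NeZero N] (p : ℕ) [Fact p.Prime], KummerInjStatement N p)
    (hF : ∀ (N : ℕ) [NeZero N] (p : ℕ) [Fact p.Prime], FinStatement N p)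
    (hT : ∀ (N : ℕ) [NeZero N] (p : ℕ) [Fact p.Prime], TorsionRelations N p) :
    GeoEigenStatement := by
  intro p _ hp2 N _ S hN hNS 𝒪' _ _ _ _ _ _ hp𝒪' χ
  classical
  have hp : p.Prime := Fact.out
  have hpS : p ∈ S := hNS p hp hN.1
  obtain ⟨f, hf0, hf, hfe⟩ :=
    exists_eigenHom_of_inj hpS hNS hp𝒪' χ (hK N p) (parEigenStatement hNS χ)
  have hSm := Fermat.Agent.S30.H990.smoothStatement N
  have hGH := Fermat.Agent.S30.H990.galoisHeckeStatement N
  obtain ⟨M, j1, j2, j3, j4, ρ, hnt, hcont, hunr, hquad, hgeo⟩ :=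
    exists_geo_homEigenmodule (O := 𝒪') hp hp𝒪' (J := ModularCurve.JZero N)
      (fun x => hSm x) (hF N p)
      (ι := {ℓ : Nat.Primes // (ℓ : ℕ) ∉ S})
      (fun i => (ModularCurve.heckeOperatorBar N i.1).toAddMonoidHom)
      (fun i σ x => hGH σ i.1 x)
      (fun i => eigenvalue χ (i.1 : ℕ)) f hf0 hf (fun i x => hfe i.1 i.2 x)
  have hdvd : ∀ q : ℕ, q.Prime → ¬ q ∣ N → q ≠ p → ¬ q ∣ N * p := by
    intro q hq hqN hqp hdiv
    rcases (Nat.Prime.dvd_mul hq).1 hdiv with h1 | h1
    · exact hqN h1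
    · exact hqp ((Nat.prime_dvd_prime_iff_eq hq hp).1 h1)
  exact ⟨{ M := M
           ρ := ρ
           cont := hcont
           unram := fun q hq hqN hqp P hP σ hσ =>
             hunr σ fun x hx => (hT N p q hq (hdvd q hq hqN hqp) P hP).1 σ hσ x hx
           frob := fun ℓ hℓ hℓN hℓS A hA σ hσ => by
             have hℓS' : ℓ ∉ S := fun hmem => hℓS (Finset.mem_coe.mpr hmem)
             have hℓp : ℓ ≠ p := fun h => hℓS' (h ▸ hpS)
             have h1 := hquad ⟨⟨ℓ, hℓ⟩, hℓS'⟩ ℓ σ
               fun x hx => (hT N p ℓ hℓ (hdvd ℓ hℓ hℓN hℓp) A hA).2 σ hσ x hx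
             have h2 : eigenvalue χ ℓ = χ (CuspForm.heckeAlgebra.T hℓ hℓN hℓS) := by
               unfold eigenvalue
               rw [dif_pos ⟨hℓ, hℓN, hℓS⟩]
             rw [← h2]
             exact h1 },
    fun P hP => hgeo _ (hKey p N hp hp2 hN.1 hN.2 P hP)⟩

end Chain

end Fermat.Agent.S33

end
end
-- ===== PACK-END S33/EigB.lean

-- ===== PACK-BEGIN A3/H615/GrRim.lean
section



/-!
# Cell A3 / GR-INST, leaf RIM of helper19's assembly (helper615)

`rimStatement_of_datum` : a linked reduction datum with good charts gives `A3.GR.RimStatement A M`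
(degrees, `r_* div u = div (ρ u)` for all fractions `u` of integral `q`-series, pointwise
invariance under the inertia group of `A`).
`rimStatement_of_datumStatement` : the same from the S37 node `Core.DatumStatement`.
-/

set_option autoImplicit false
set_option synthInstance.maxHeartbeats 400000

noncomputable section

namespace Fermat.Agent.A3.H615

open ModularCurve AlgebraicCurve HahnSeries IsLocalRing Fermat.Agent.S37.Red

namespace GrRed

/-- Elements of the inertia group of `A` move every element of `A` by a nonunit. -/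
theorem sub_mem_nonunits_of_mem_inertiaSubgroupIn {A : ValuationSubring _root_.Fermat.Agent.A3.H615.GrRed.Qb}
    {σ : _root_.Fermat.Agent.A3.H615.GrRed.Qb ≃ₐ[ℚ] _root_.Fermat.Agent.A3.H615.GrRed.Qb} (hσ : σ ∈ A.inertiaSubgroupIn ℚ) (a : _root_.Fermat.Agent.A3.H615.GrRed.Qb) (ha : a ∈ A) :
    σ a - a ∈ A.nonunits := by
  obtain ⟨d, hd, rfl⟩ := hσ
  have h : MulSemiringAction.toRingAut (A.decompositionSubgroup ℚ) (ResidueField A) d = 1 :=
    MonoidHom.mem_ker.mp hd
  have h1 : d • residue A (⟨a, ha⟩ : A) = residue A (⟨a, ha⟩ : A) := by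
    have h2 := congrArg (fun f : RingAut (ResidueField A) => f (residue A (⟨a, ha⟩ : A))) h
    exact h2
  have h3 : residue A (d • (⟨a, ha⟩ : A)) = d • residue A (⟨a, ha⟩ : A) :=
    IsLocalRing.ResidueField.residue_smul (A.decompositionSubgroup ℚ) d (⟨a, ha⟩ : A)
  have h4 : residue A (d • (⟨a, ha⟩ : A) - (⟨a, ha⟩ : A)) = 0 := by
    rw [_root_.map_sub, h3, h1, sub_self]
  rw [residue_eq_zero_iff] at h4
  exact ValuationSubring.coe_mem_nonunits_iff.mpr h4

/-- **Leaf RIM** of `A3/GR/Leaves.lean` from a linked reduction datum with good charts. -/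
theorem rimStatement_of_datum (M : ℕ) [NeZero M] {ℓ : ℕ} [Fact ℓ.Prime] (hℓM : ¬ ℓ ∣ M)
    (A : ValuationSubring _root_.Fermat.Agent.A3.H615.GrRed.Qb) (hA : A.LiesOverPrime ℓ)
    (G : Datum A (residue A) (modularFunctionFieldBar M)
      (modularFunctionFieldFullC (ResidueField A) M))
    (hgood : G.Good) (hlink : H759.Link G) :
    Fermat.Agent.A3.GR.RimStatement A M := by
  obtain ⟨r, -, hI, hmod, -⟩ := exists_red Fact.out hℓM hA G hgood hlink
  refine ⟨r, hmod.1, ?_, ?_⟩
  · intro u hu D hD Q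
    exact Fermat.Agent.A3.H739.gr_div_red (Fermat.Agent.A3.H739.gr_vg M hℓM A hA) r hmod
      ⟨(u : modularFunctionFieldBar M), u.2⟩ hu D hD Q
  · intro σ hσ P
    exact hI σ (sub_mem_nonunits_of_mem_inertiaSubgroupIn hσ) P

/-- **Leaf RIM at all good levels** from the S37 node `DatumStatement`. -/
theorem rimStatement_of_datumStatement (h : Fermat.Agent.S37.Core.DatumStatement)
    (M : ℕ) [NeZero M] (ℓ : ℕ) [Fact ℓ.Prime] (hℓM : ¬ ℓ ∣ M)
    (hg : Fermat.Agent.S37.Core.GoodLevel M ℓ)
    (A : ValuationSubring _root_.Fermat.Agent.A3.H615.GrRed.Qb) (hA : A.LiesOverPrime ℓ) :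
    Fermat.Agent.A3.GR.RimStatement A M := by
  obtain ⟨G, hgood, hlink⟩ := h M ℓ Fact.out hℓM hg A hA
  exact rimStatement_of_datum M hℓM A hA G hgood hlink

end GrRed

end Fermat.Agent.A3.H615

end
end
-- ===== PACK-END A3/H615/GrRim.lean

-- ===== PACK-BEGIN S37/Core/DatumLeaf.lean
section





/-!
# S37 row-lead (helper37): LEAF D1 `DatumLeaf` — the Gauss datum with an arbitrary coordinate

`datumLeaf : Core.DatumLeaf`: for `ℓ ∤ M`, `A` over `ℓ` and a coordinate `x ∈ F_M` with integral
model `X ∈ ℤ((q))`, `X = q⁻¹ + …`, helper40's modular datum `Red.modG` (valuation ring of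
fractions of integral `q`-series, coefficientwise reduction) with coordinate `x` is linked to the
Prelude, and its reduced coordinate is the reduction of `X`.
Inputs from main: `Red.modG`, `Red.modG_link` (helper40), `H568.valueGroupHyp_modular`
(helper568), `H98.coreData_residueField`, `H98.reduction_mem` (helper98/700).
-/

set_option autoImplicit false
set_option synthInstance.maxHeartbeats 400000

noncomputable section

namespace Fermat.Agent.S37.Core

open ModularCurve ValuationSubring AlgebraicCurve HahnSeries IsLocalRing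
open Fermat.Agent.S37.Red Fermat.Agent.S18

/-- the integral model over `A` -/
abbrev modelA (A : ValuationSubring (AlgebraicClosure ℚ)) (X : LaurentSeries ℤ) :
    LaurentSeries A :=
  coeffMap (Int.castRingHom A) X

theorem coeffMap_subtype_modelA (A : ValuationSubring (AlgebraicClosure ℚ))
    (X : LaurentSeries ℤ) :
    coeffMap A.subtype (modelA A X) = coeffMap (Int.castRingHom (AlgebraicClosure ℚ)) X := by
  rw [modelA, coeffMap_coeffMap]
  exact coeffMap_congr (RingHom.ext_int _ _) X

theorem coeffMap_residue_modelA (A : ValuationSubring (AlgebraicClosure ℚ))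
    (X : LaurentSeries ℤ) :
    coeffMap (residue A) (modelA A X) = redX A X := by
  rw [modelA, redX, coeffMap_coeffMap]
  exact coeffMap_congr (RingHom.ext_int _ _) X

/-- a series `q⁻¹ + …` in a function field over an algebraically closed field is
transcendental -/
theorem transcendental_of_coeff_neg_one {k : Type*} [Field k] [IsAlgClosed k]
    (F : IntermediateField k (LaurentSeries k)) (f : F)
    (h : ((f : LaurentSeries k)).coeff (-1) = 1) : Transcendental k f := by
  intro halg
  obtain ⟨c, hc⟩ := Fermat.Agent.S24.FF.mem_range_of_isAlgebraic halg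
  have h2 : ((f : F) : LaurentSeries k) = algebraMap k (LaurentSeries k) c := by
    rw [← hc]; rfl
  rw [h2, ModularCurve.algebraMap_laurentSeries_eq_single,
    HahnSeries.coeff_single_of_ne (by decide)] at h
  exact zero_ne_one h

/-- **LEAF D1.** -/
theorem datumLeaf : DatumLeaf := by
  intro M ℓ _ hℓ hℓM A hA x X hX
  haveI : IsAlgClosed (ResidueField A) := Fermat.Agent.S18.H9.resAlgClosed _ A
  have hcore := H98.coreData_residueField M ℓ hℓ hℓM A hA
  have hVG : ModVG M A := H568.valueGroupHyp_modular hcore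
  have hx : coeffMap A.subtype (modelA A X) ∈ modularFunctionFieldBar M := by
    rw [coeffMap_subtype_modelA, ← hX.coe_eq]
    exact x.2
  have hxk : coeffMap (residue A) (modelA A X) ∈
      modularFunctionFieldFullC (ResidueField A) M :=
    H98.reduction_mem M ℓ hℓ hℓM A hA (modelA A X) hx
  have htr : Transcendental (ResidueField A)
      (⟨coeffMap (residue A) (modelA A X), hxk⟩ :
        modularFunctionFieldFullC (ResidueField A) M) := by
    refine transcendental_of_coeff_neg_one _ _ ?_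
    show (coeffMap (residue A) (modelA A X)).coeff (-1) = 1
    rw [coeffMap_residue_modelA, redX, coeffMap_coeff, hX.coeff_neg_one, _root_.map_one]
  refine ⟨modG hVG (modelA A X) hx hxk htr, ?_, ?_, ?_⟩
  · apply Subtype.ext
    show coeffMap A.subtype (modelA A X) = _
    rw [coeffMap_subtype_modelA, hX.coe_eq]
  · have h := modρ_ofSeries hVG (modelA A X) hx hxk
    have h' : (modG hVG (modelA A X) hx hxk htr).xk =
        ⟨coeffMap (residue A) (modelA A X), hxk⟩ := h
    rw [h']
    exact coeffMap_residue_modelA A X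
  · intro y hy hyk _
    exact modG_link hVG y hy hyk

end Fermat.Agent.S37.Core

end
end
-- ===== PACK-END S37/Core/DatumLeaf.lean

-- ===== PACK-BEGIN S37/H28/DatumM.lean
section




/-!
# S37 / node_rim (helper28): `DatumStatement` and `RimStatement`, UNCONDITIONAL, via Theorem M

`good_of_isCoordinate` : every reduction datum on `(F_M, F_{M,k})` whose coordinate is an
admissible coordinate (`Mod.IsCoordinate M ℓ x S`: `j` for `ℓ ≥ 5`, `t₂` for `ℓ = 3`, `t₃` for
`ℓ = 2`) with integral model `X` has good charts (`Red.Datum.Good`).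

* (H1) = `H339.leaf_H1` (leaf D4, helper339);
* (H3) = Theorem M (`Red.H159.good_of_NC`, helper159: normality of the special fibre directly
  over the valuation ring `A`, no model over a DVR, no `S18` node_mod) with
  (NC) = `noRamOutside_of_unramified` + `unramified_of_isCoordinate` (this directory; branch data
  of `X₀(M) → X(1)`: `S18.H107`, `S18.H24`) and `hS` = `injOn_branchA`.

Consequences: `datumStatement : Core.DatumStatement` (with leaf D1 `Core.datumLeaf`),
`rimStatement : Core.RimStatement` (= node_rim of the S37 board at all good levels), and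
`result_of_s18 : Core.S18Statement → frozen S37`.
-/

set_option autoImplicit false
set_option synthInstance.maxHeartbeats 400000
set_option linter.style.haveILetI false

noncomputable section

namespace Fermat.Agent.S37.H28

open ModularCurve ValuationSubring AlgebraicCurve HahnSeries IsLocalRing Polynomial
open Fermat.Agent.S37.Red Fermat.Agent.S37.Core Fermat.Agent.S18

/-- **Good charts** for a reduction datum with an admissible coordinate. -/
theorem good_of_isCoordinate (M ℓ : ℕ) [NeZero M] (hℓ : ℓ.Prime) (hℓM : ¬ ℓ ∣ M)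
    (A : ValuationSubring (AlgebraicClosure ℚ)) (hA : A.LiesOverPrime ℓ)
    (x : Mod.Om M) (S : Finset (Mod.Om M)) (hx : Mod.IsCoordinate M ℓ x S)
    (X : LaurentSeries ℤ) (hX : IsModelOf M x X)
    (G : Datum A (residue A) (modularFunctionFieldBar M)
      (modularFunctionFieldFullC (ResidueField A) M))
    (hGx : G.x = x)
    (hGxk : ((G.xk : modularFunctionFieldFullC (ResidueField A) M) :
      LaurentSeries (ResidueField A)) = redX A X) : G.Good := by
  classical
  haveI : IsAlgClosed (ResidueField A) := Fermat.Agent.S18.H9.resAlgClosed _ A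
  obtain ⟨hf, hfk, hsep, hrk⟩ :=
    H339.leaf_H1 M ℓ hℓ hℓM A hA x S hx X hX.coeff_neg_one hX.coe_eq G hGx hGxk
  refine H159.good_of_NC G hf hfk hsep hrk (branchA (F := Mod.Om M) A S)
    (branchA (F := Mod.Om M) A (H278.invBranch S))
    (injOn_branchA A (residue A) hℓ hx hA) (injOn_branchA_inv A (residue A) hℓ hx hA) ?_ ?_
  · rw [hGx]
    exact noRamOutside_of_unramified G x S (unramified_of_isCoordinate hx)
  · rw [hGx]
    exact noRamOutside_of_unramified G x⁻¹ _ (unramified_of_isCoordinate hx).inv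

/-- **node_datum** (BOARD v3), unconditional. -/
theorem datumStatement : DatumStatement := by
  intro M ℓ _ hℓ hℓM hg A hA
  haveI : Fact ℓ.Prime := ⟨hℓ⟩
  have h3 : ℓ = 3 → 2 ∣ M := fun h => by
    rcases hg with h5 | ⟨-, h⟩ | ⟨h2, -⟩
    · omega
    · exact h
    · omega
  have h2 : ℓ = 2 → 3 ∣ M := fun h => by
    rcases hg with h5 | ⟨h3, -⟩ | ⟨-, h⟩
    · omega
    · omega
    · exact h
  obtain ⟨x, S, hx⟩ := H333.node_coord M hℓM h3 h2
  obtain ⟨X, hX⟩ := exists_isModelOf M ℓ x S hx
  obtain ⟨G, hGx, hGxk, hlink⟩ := datumLeaf M ℓ hℓ hℓM A hA x X hX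
  exact ⟨G, good_of_isCoordinate M ℓ hℓ hℓM A hA x S hx X hX G hGx hGxk, hlink⟩

/-- **node_rim** (BOARD v3) at all good levels, unconditional. -/
theorem rimStatement : RimStatement :=
  rimStatement_of_datum datumStatement

/-- **The frozen statement S37 from S18 alone.** -/
theorem result_of_s18 (hS18 : S18Statement) (N p : ℕ) [NeZero N]
    (hcomm : ModularCurve.HeckeOperatorsCommuteBar N) :
    letI := ModularCurve.heckeModuleBar N
    ∀ (_ : SMulCommClass (AlgebraicClosure ℚ ≃ₐ[ℚ] AlgebraicClosure ℚ) ModularCurve.HeckeAlg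
      (ModularCurve.JZero N)),
      ModularCurve.SpecializationExists (K := ℚ) (L := AlgebraicClosure ℚ) N p
        (ModularCurve.JZero N) :=
  result_of_rim_s18 rimStatement hS18 N p hcomm

end Fermat.Agent.S37.H28

end
end
-- ===== PACK-END S37/H28/DatumM.lean

-- ===== PACK-BEGIN A3/H615/GrRedInst.lean
section



/-!
# Cell A3 / GR-INST: leaves RED (helper739's form) and RIM (helper19's form), UNCONDITIONAL

From `S37.H28.datumStatement` (a linked reduction datum with good charts at all good levels):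

* `GrRed.redLeaf` : `A3.H739.RedLeaf N V` for every valuation ring `V` of `Q̄` above `ℓ ∤ N`,
  `(N, ℓ)` a good level — verbatim the hypothesis `hred` of
  `A3.H739.grStatement_of_leaves_forall`;
* `GrRed.rimStatement` : `A3.GR.RimStatement A M`, same hypotheses.
-/

set_option autoImplicit false
set_option synthInstance.maxHeartbeats 400000

noncomputable section

namespace Fermat.Agent.A3.H615

open ModularCurve AlgebraicCurve

namespace GrRed

/-- **Leaf GR-RED, unconditional** (hypothesis `hred` of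
`A3.H739.grStatement_of_leaves_forall`). -/
theorem redLeaf :
    ∀ (N : ℕ) [NeZero N] (ℓ : ℕ) [Fact ℓ.Prime], ¬ ℓ ∣ N → Fermat.Agent.S19.GoodLevel N ℓ →
      ∀ V : ValuationSubring Qb, V.LiesOverPrime ℓ → Fermat.Agent.A3.H739.RedLeaf N V :=
  redLeaf_of_datumStatement Fermat.Agent.S37.H28.datumStatement

/-- **Leaf RIM of `A3/GR/Leaves.lean`, unconditional.** -/
theorem rimStatement (M : ℕ) [NeZero M] (ℓ : ℕ) [Fact ℓ.Prime] (hℓM : ¬ ℓ ∣ M)
    (hg : Fermat.Agent.S19.GoodLevel M ℓ)
    (A : ValuationSubring Qb) (hA : A.LiesOverPrime ℓ) :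
    Fermat.Agent.A3.GR.RimStatement A M :=
  rimStatement_of_datumStatement Fermat.Agent.S37.H28.datumStatement M ℓ hℓM hg A hA

end GrRed

end Fermat.Agent.A3.H615

end
end
-- ===== PACK-END A3/H615/GrRedInst.lean

-- ===== PACK-BEGIN A3/H615/GrGenus.lean
section




/-!
# Cell A3 / GR-INST, leaf GENUS from leaf ORTH (helper615)

* `GrGenus.genus_le`  : `g(F_N) ≤ g(F_{N,k})` at good levels, UNCONDITIONAL
  (`S19.H195.GenusGood.genusFF_le_of_good` for the datum of `S37.H28.datumStatement`);
* `GrGenus.genus_ge_of_orth` : `g(F_{N,k}) ≤ g(F_N)` from `A3.H739.OrthLeaf`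
  (`S19.H195.RedDatum.genusFF_le` for the reduction datum `(modO, modρ, r)`);
* `GrGenus.genusLeaf_of_orthLeaf` : `OrthLeaf N V _ → GenusLeaf N V`;
* `GrGenus.grStatement_of_orth`  : `S19.H979.GrStatement` from the leaf ORTH alone.
-/

set_option autoImplicit false
set_option synthInstance.maxHeartbeats 400000

noncomputable section

namespace Fermat.Agent.A3.H615

open ModularCurve AlgebraicCurve HahnSeries IsLocalRing
open Fermat.Agent.S19 (GalQ IsInertiaAt GoodLevel)
open Fermat.Agent.S37.Red (Qb FN kA FNk ModVG modO modρ modFrac)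
open Fermat.Agent.A3.H739

namespace GrGenus

variable {N : ℕ} [NeZero N] {V : ValuationSubring _root_.Fermat.Agent.S37.Red.Qb}

theorem inv_mem_of_notMem_nonunits {a : _root_.Fermat.Agent.S37.Red.Qb} (ha : a ∈ V) (hn : a ∉ V.nonunits) : a⁻¹ ∈ V := by
  rw [ValuationSubring.mem_nonunits_iff, not_lt] at hn
  have h1 : V.valuation a ≤ 1 := (V.valuation_le_one_iff a).mpr ha
  have h2 : V.valuation a = 1 := le_antisymm h1 hn
  rw [← V.valuation_le_one_iff, map_inv₀, h2, inv_one]

/-- helper195's reduction datum on `(modO, modρ, r)`. -/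
def redDatumMod (hVG : ModVG N V) (r : Place _root_.Fermat.Agent.S37.Red.Qb (FN N) → Place (kA V) (FNk V N))
    (hr : IsPlaceReductionModL V N r) :
    Fermat.Agent.S19.H195.RedDatum _root_.Fermat.Agent.S37.Red.Qb (FN N) (kA V) (FNk V N) where
  V := (modO hVG).toSubring
  red := modρ hVG
  r := r
  const_total := fun a => by
    rcases V.mem_or_inv_mem a with h | h
    · exact Or.inl ((gr_algebraMap_mem hVG a).mpr h)
    · exact Or.inr ((gr_algebraMap_mem hVG _).mpr h)
  red_const := fun a h => ⟨residue V ⟨a, (gr_algebraMap_mem hVG a).mp h⟩,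
    gr_red_algebraMap hVG ⟨a, (gr_algebraMap_mem hVG a).mp h⟩ h⟩
  red_const_surj := fun b => by
    obtain ⟨a, ha⟩ := residue_surjective (R := V) b
    refine ⟨(a : _root_.Fermat.Agent.S37.Red.Qb), (gr_algebraMap_mem hVG _).mpr a.2, ?_⟩
    rw [← ha]
    exact gr_red_algebraMap hVG a _
  red_const_unit := fun a h hne => by
    have ha : a ∈ V := (gr_algebraMap_mem hVG a).mp h
    refine (gr_algebraMap_mem hVG _).mpr (inv_mem_of_notMem_nonunits ha fun hnu => hne ?_)
    have h1 := gr_red_algebraMap hVG ⟨a, ha⟩ h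
    have h2 : residue V ⟨a, ha⟩ = 0 := (gr_res_eq_zero ⟨a, ha⟩).mpr hnu
    rw [h2, _root_.map_zero] at h1
    exact h1
  ord_red := fun u hu hne D hD Q => gr_div_red hVG r hr ⟨u, hu⟩ hne D hD Q

/-- **GENUS, direction `g_k ≤ g_K`**, from the leaves RED and ORTH. -/
theorem genus_ge_of_orth {ℓ : ℕ} [Fact ℓ.Prime] (hℓN : ¬ ℓ ∣ N) (hV : V.LiesOverPrime ℓ)
    (hVG : ModVG N V) (hred : RedLeaf N V) (horth : OrthLeaf N V hVG) :
    genusFF (kA V) (FNk V N) ≤ genusFF _root_.Fermat.Agent.S37.Red.Qb (FN N) := by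
  obtain ⟨r, hr, -⟩ := hred
  haveI := Fermat.Agent.Lib.RR.H864.ff1_modularFunctionFieldBar N
  haveI := Fermat.Agent.S18.H383.ff1_residue N ℓ Fact.out hℓN V hV
  refine (redDatumMod hVG r hr).genusFF_le fun D => ?_
  obtain ⟨n, b, hli, hmem, hspan, -⟩ := horth D
  exact ⟨n, fun i => ((b i : modO hVG) : FN N), fun i => (b i).2, hmem, hspan.ge, hli⟩

/-- **GENUS, direction `g_K ≤ g_k`**, unconditional at good levels. -/
theorem genus_le (N : ℕ) [NeZero N] (ℓ : ℕ) [Fact ℓ.Prime] (hℓN : ¬ ℓ ∣ N)
    (hg : GoodLevel N ℓ) (V : ValuationSubring _root_.Fermat.Agent.S37.Red.Qb) (hV : V.LiesOverPrime ℓ) :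
    genusFF _root_.Fermat.Agent.S37.Red.Qb (FN N) ≤ genusFF (kA V) (FNk V N) := by
  obtain ⟨G, hgood, -⟩ := Fermat.Agent.S37.H28.datumStatement N ℓ Fact.out hℓN hg V hV
  haveI := Fermat.Agent.Lib.RR.H864.ff1_modularFunctionFieldBar N
  haveI := Fermat.Agent.S18.H383.ff1_residue N ℓ Fact.out hℓN V hV
  haveI : IsAlgClosed (kA V) := Fermat.Agent.S18.H9.resAlgClosed _root_.Fermat.Agent.S37.Red.Qb V
  exact Fermat.Agent.S19.H195.GenusGood.genusFF_le_of_good G hgood

/-- **Leaf GR-GENUS from leaf GR-ORTH.** -/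
theorem genusLeaf_of_orthLeaf (N : ℕ) [NeZero N] (ℓ : ℕ) [Fact ℓ.Prime] (hℓN : ¬ ℓ ∣ N)
    (hg : GoodLevel N ℓ) (V : ValuationSubring _root_.Fermat.Agent.S37.Red.Qb) (hV : V.LiesOverPrime ℓ)
    (horth : OrthLeaf N V (gr_vg N hℓN V hV)) : GenusLeaf N V :=
  le_antisymm (genus_le N ℓ hℓN hg V hV)
    (genus_ge_of_orth hℓN hV (gr_vg N hℓN V hV) (GrRed.redLeaf N ℓ hℓN hg V hV) horth)

/-- **GR from the leaf ORTH alone.** -/
theorem grStatement_of_orth
    (horth : ∀ (N : ℕ) [NeZero N] (ℓ : ℕ) [Fact ℓ.Prime] (hℓN : ¬ ℓ ∣ N), GoodLevel N ℓ →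
      ∀ (V : ValuationSubring _root_.Fermat.Agent.S37.Red.Qb) (hV : V.LiesOverPrime ℓ), OrthLeaf N V (gr_vg N hℓN V hV)) :
    Fermat.Agent.S19.H979.GrStatement :=
  grStatement_of_leaves_forall GrRed.redLeaf
    (fun N _ ℓ _ hℓN hg V hV => genusLeaf_of_orthLeaf N ℓ hℓN hg V hV (horth N ℓ hℓN hg V hV))
    horth

end GrGenus

end Fermat.Agent.A3.H615

end
end
-- ===== PACK-END A3/H615/GrGenus.lean

-- ===== PACK-BEGIN S19/Top4.lean
section





/-!
# Cell A3 (S19) — top assembly, v4: frozen S19 from the TWO open leaves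

Proved on main and discharged here: ORD, FIN, CONT (`Top2`), LEVEL (`A3.H319.levelStatement`),
UNR (`H679.unrStatementH679`, helper679; backup: UA/UB/UC of helper859), RANK ONE
(`H979.rankOneStatement`).

    S19_of_local  : LocalStatement → frozen S19
    S19_of_abs_gr : H979.AbsLocalStatement → H979.GrStatement → frozen S19

Open leaves: LOCAL-ABS (`H979.AbsLocalStatement` = the abstract local theorem of `A3/H799`) and
GR (`H979.GrStatement` = the `GoodRed` instance for `X₀(M)` at good levels).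
-/

set_option autoImplicit false

namespace Fermat.Agent.S19

/-- **Top assembly v4a**: frozen S19 from LOCAL. -/
theorem S19_of_local (hlocal : LocalStatement)
    (p : ℕ) [NeZero p] (ℓ : ℕ) [Fact ℓ.Prime] (hℓp : ¬ ℓ ∣ p) (k : ℕ) :
    FrozenConclusion p ℓ k :=
  S19_of_three H679.unrStatementH679 hlocal Fermat.Agent.A3.H319.levelStatement p ℓ hℓp k

/-- **Top assembly v4b**: frozen S19 from the two open leaves LOCAL-ABS and GR. -/
theorem S19_of_abs_gr (habs : H979.AbsLocalStatement) (hgr : H979.GrStatement)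
    (p : ℕ) [NeZero p] (ℓ : ℕ) [Fact ℓ.Prime] (hℓp : ¬ ℓ ∣ p) (k : ℕ) :
    FrozenConclusion p ℓ k :=
  S19_of_local (H979.localStatement_of_abs_gr' habs hgr) p ℓ hℓp k

end Fermat.Agent.S19

end
-- ===== PACK-END S19/Top4.lean

-- ===== PACK-BEGIN S19/Top5.lean
section




/-!
# Cell A3 (S19) — top assembly, v5: frozen S19 from GR alone

Proved on main and discharged here: everything of `Top4` and LOCAL-ABS
(`A3.H255.absLocalStatement`: the abstract local theorem of helper799's team, all leaves closed).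

    S19_of_gr        : H979.GrStatement → frozen S19
    S19_of_gr_leaves : (RedLeaf, GenusLeaf, OrthLeaf of `A3/H739/GrAsm.lean`) → frozen S19

The only open block of the cell is GR (good reduction of `X₀(M)` at good levels).
-/

set_option autoImplicit false

namespace Fermat.Agent.S19

/-- **Top assembly v5a**: frozen S19 from GR. -/
theorem S19_of_gr (hgr : H979.GrStatement)
    (p : ℕ) [NeZero p] (ℓ : ℕ) [Fact ℓ.Prime] (hℓp : ¬ ℓ ∣ p) (k : ℕ) :
    FrozenConclusion p ℓ k :=
  S19_of_abs_gr Fermat.Agent.A3.H255.absLocalStatement hgr p ℓ hℓp k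

open Fermat.Agent.A3.H739 in
/-- **Top assembly v5b**: frozen S19 from the three leaves of GR. -/
theorem S19_of_gr_leaves
    (hred : ∀ (N : ℕ) [NeZero N] (ℓ : ℕ) [Fact ℓ.Prime], ¬ ℓ ∣ N → GoodLevel N ℓ →
      ∀ V : ValuationSubring Qb, V.LiesOverPrime ℓ → RedLeaf N V)
    (hgen : ∀ (N : ℕ) [NeZero N] (ℓ : ℕ) [Fact ℓ.Prime], ¬ ℓ ∣ N → GoodLevel N ℓ →
      ∀ V : ValuationSubring Qb, V.LiesOverPrime ℓ → GenusLeaf N V)
    (horth : ∀ (N : ℕ) [NeZero N] (ℓ : ℕ) [Fact ℓ.Prime] (hℓN : ¬ ℓ ∣ N), GoodLevel N ℓ →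
      ∀ (V : ValuationSubring Qb) (hV : V.LiesOverPrime ℓ), OrthLeaf N V (gr_vg N hℓN V hV))
    (p : ℕ) [NeZero p] (ℓ : ℕ) [Fact ℓ.Prime] (hℓp : ¬ ℓ ∣ p) (k : ℕ) :
    FrozenConclusion p ℓ k :=
  S19_of_gr (grStatement_of_leaves_forall hred hgen horth) p ℓ hℓp k

end Fermat.Agent.S19

end
-- ===== PACK-END S19/Top5.lean

-- ===== PACK-BEGIN A3/H615/GrFinal.lean
section




/-!
# Cell A3 / GR: the block GR closed, and the frozen S19 conclusion (helper615)

All three leaves of helper739's assembly are on main: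
RED (`GrRed.redLeaf`), GENUS from ORTH (`GrGenus.genusLeaf_of_orthLeaf`),
ORTH (`A3.H499.orthLeaf`, helper499).  Hence `S19.H979.GrStatement` and, by `S19.S19_of_gr`
(row-lead helper15), the conclusion of the frozen statement S19.
-/

set_option autoImplicit false
set_option synthInstance.maxHeartbeats 400000

namespace Fermat.Agent.A3.H615

/-- **Block GR**: good reduction of `X₀(N)` at good levels. -/
theorem grStatement : Fermat.Agent.S19.H979.GrStatement :=
  GrGenus.grStatement_of_orth fun N _ _ _ hℓN _ V hV =>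
    Fermat.Agent.A3.H499.orthLeaf N hℓN V hV (Fermat.Agent.A3.H739.gr_vg N hℓN V hV)

/-- **The conclusion of the frozen statement S19.** -/
theorem frozenS19 (p : ℕ) [NeZero p] (ℓ : ℕ) [Fact ℓ.Prime] (hℓp : ¬ ℓ ∣ p) (k : ℕ) :
    Fermat.Agent.S19.FrozenConclusion p ℓ k :=
  Fermat.Agent.S19.S19_of_gr grStatement p ℓ hℓp k

end Fermat.Agent.A3.H615

end
-- ===== PACK-END A3/H615/GrFinal.lean

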