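import Fermat.Agent.Pack.S33.E22L3
import Fermat.Agent.Pack.S33.E22L2
import Fermat.Agent.Pack.S33.E21L3
import Fermat.Agent.Pack.S33.E19L2
import Fermat.Agent.Pack.S33.E21L1
import Fermat.Agent.Pack.S33.E13L3
import Fermat.Agent.Pack.S33.E20L1
import Fermat.Agent.Pack.S33.E15L2
import Fermat.Agent.Pack.S33.E22L0
import Fermat.Agent.Pack.S33.E17L3
import Fermat.Agent.Pack.S33.E22L1
import Fermat.Agent.Pack.S33.E20L0
import Fermat.Agent.Pack.S33.E9L0
import Fermat.Agent.Pack.S33.E21L0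
import Fermat.Agent.Pack.S33.E11L0
import Fermat.Agent.Pack.S33.E11L2
import Fermat.Agent.Pack.S33.E13L0

-- ===== PACK-BEGIN S33/EigBFinal.lean
section
/-
Row S33 — piece EIG-B, unconditional form (helper409):

  `geoEigenStatement_of_key : KeyStatement → GeoEigenStatement`.

The inputs (K'), (F), (T) of the adic module layer of row S30 are discharged from main exactly as
in `Fermat/Agent/S30.lean` / `S30/Chain/FromT.lean` (helper49).
-/






set_option autoImplicit false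
set_option linter.style.haveILetI false
set_option linter.overlappingInstances false

noncomputable section

namespace Fermat.Agent.S33

open Fermat.Agent.S30.H330 Fermat.Agent.S30.Chain

/-- **EIG-B**: GEO-EIG from (K). -/
theorem geoEigenStatement_of_key (hKey : KeyStatement) : GeoEigenStatement :=
  geoEigenStatement_of_chain hKey
    (fun N _ p hp =>
      haveI : NeZero p := ⟨hp.out.ne_zero⟩
      kummerInjStatement_of_packages (fun n =>
        haveI : NeZero (p ^ n) := ⟨pow_ne_zero n hp.out.ne_zero⟩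
        kumPackage N (p ^ n)))
    (fun N _ p hp =>
      haveI : NeZero p := ⟨hp.out.ne_zero⟩
      finStatement_of_onto
        (kumPackage_one (fun n =>
          haveI : NeZero (p ^ n) := ⟨pow_ne_zero n hp.out.ne_zero⟩
          kumPackage N (p ^ n))).uniq
        (fun _ hx => Fermat.Agent.S30.H810.exists_isKum_of_torsion N p hx))
    (Fermat.Agent.S30.H694.torsionRelations_of_nodes
      (fun M _ _ _ hℓM A hA => Fermat.Agent.S18.Mod.H216.node_mod M hℓM A hA)
      (fun M => Fermat.Agent.S18.H438.node_alg M))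

end Fermat.Agent.S33

end
end
-- ===== PACK-END S33/EigBFinal.lean

-- ===== PACK-BEGIN S33/Final.lean
section
/-
Row S33 (ordinary at `p`, `p ‖ N`) — FINAL ASSEMBLY, conditional on the wall at `p` (helper409).

    result_of_key   : KeyStatement → frozen S33
    result_of_ready : H92.OrdFilReadyStatement → OldAugStatement → frozen S33

wired from the landed leaves: TOP (`Chain.result_of_ordEigen`), ALG (`H692.ordEigen_of_geoEigen`,
helper692), EIG-B (`geoEigenStatement_of_key`), KEY + level bridge at `p = 3`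
(`H92.keyStatement_of_ready`, helper92/helper270).
-/





set_option autoImplicit false

namespace Fermat.Agent.S33

variable {p : ℕ} {N : ℕ} [NeZero N] {S : Finset ℕ}
  {𝒪 : Type} [CommRing 𝒪] [IsDomain 𝒪] [IsDiscreteValuationRing 𝒪]
  [IsAdicComplete (IsLocalRing.maximalIdeal 𝒪) 𝒪]
  {θ : CuspForm.heckeAlgebra N 2 (↑S : Set ℕ) →+* IsLocalRing.ResidueField 𝒪}
  {T : Type} [CommRing T] [IsLocalRing T] [IsNoetherianRing T]
  [IsAdicComplete (IsLocalRing.maximalIdeal T) T] [Algebra 𝒪 T] [IsLocalHom (algebraMap 𝒪 T)]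
  [Module.Finite 𝒪 T] [Module.Free 𝒪 T]

/-- ORD-EIG from (K). -/
theorem ordEigenStatement_of_key (hKey : KeyStatement) : OrdEigenStatement :=
  Fermat.Agent.S33.H692.ordEigen_of_geoEigen (geoEigenStatement_of_key hKey)

/-- The frozen statement S33 from (K). -/
theorem result_of_key (hKey : KeyStatement)
    [Finite (IsLocalRing.ResidueField 𝒪)] [CharZero 𝒪]
    (hp : p.Prime) (hp2 : p ≠ 2) (hp𝒪 : (p : 𝒪) ∈ IsLocalRing.maximalIdeal 𝒪)
    (hN : p ∣ N ∧ ¬ p ^ 2 ∣ N)
    (hNS : ∀ q : ℕ, q.Prime → q ∣ N → q ∈ S)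
    (H : CuspForm.HeckeGaloisRepDatum N (↑S : Set ℕ) 𝒪 θ T)
    (hres : (GaloisRepAdic.ofResidualGaloisRep H.ρ.residual).IsOrdinaryAt p) :
    H.ρ.IsOrdinaryAt p :=
  result_of_ordEigen (ordEigenStatement_of_key hKey) hp hp2 hp𝒪 hN hNS H hres

/-- The frozen statement S33 from the wall at `p` in READY form and (OLD). -/
theorem result_of_ready (hNEW : Fermat.Agent.S33.H92.OrdFilReadyStatement)
    (hOLD : OldAugStatement)
    [Finite (IsLocalRing.ResidueField 𝒪)] [CharZero 𝒪]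
    (hp : p.Prime) (hp2 : p ≠ 2) (hp𝒪 : (p : 𝒪) ∈ IsLocalRing.maximalIdeal 𝒪)
    (hN : p ∣ N ∧ ¬ p ^ 2 ∣ N)
    (hNS : ∀ q : ℕ, q.Prime → q ∣ N → q ∈ S)
    (H : CuspForm.HeckeGaloisRepDatum N (↑S : Set ℕ) 𝒪 θ T)
    (hres : (GaloisRepAdic.ofResidualGaloisRep H.ρ.residual).IsOrdinaryAt p) :
    H.ρ.IsOrdinaryAt p :=
  result_of_key (Fermat.Agent.S33.H92.keyStatement_of_ready hNEW hOLD) hp hp2 hp𝒪 hN hNS H hres

end Fermat.Agent.S33

end
-- ===== PACK-END S33/Final.lean

-- ===== PACK-BEGIN S33/H692/OldAug.lean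
section
/-
Row S33 (ordinary at `p ‖ N`), leaf OLD in the frozen shape of `S33/Spec2.lean` (helper692):

    oldAugStatement : S33.OldAugStatement                 (UNCONDITIONAL)

= `S33.H706.oldAug_of_s19` (relative connected–étale sequence on the Hopf models) applied to the
landed S19 (`A3.H615.frozenS19`, Hopf-model form `S19.H135.hopfModel_of_frozenShape`), plus the
dictionary between the vocabulary of `Spec2.lean` (`iAug`, `torsSub`, `InSPlus`, natural-number
multiples) and that of `H706/Old.lean` (`augSub`, `augTors`, integer multiples).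
-/





set_option autoImplicit false

noncomputable section

namespace Fermat.Agent.S33.H692

/-- The frozen S19 in Hopf-model form. -/
theorem s19HopfStatement : Fermat.Agent.S33.H706.S19HopfStatement := by
  intro N _ ℓ _ hℓN k
  exact Fermat.Agent.S19.H135.hopfModel_of_frozenShape N ℓ k
    (Fermat.Agent.A3.H615.frozenS19 N ℓ hℓN k)

/-- **Leaf OLD of row S33**, frozen Spec2 shape. -/
theorem oldAugStatement : Fermat.Agent.S33.OldAugStatement := by
  intro p M' _ hp hp2 hpM' P hP Y hYG hY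
  haveI : Fact p.Prime := ⟨hp⟩
  have hold := Fermat.Agent.S33.H706.oldAug_of_s19 s19HopfStatement p hp2 M' hpM' P hP Y hYG
    (fun y hy => (hY y hy).1) ?_
  · -- `Y = augSub P Y = iAug I Y`
    intro y hy
    have h1 : y ∈ Fermat.Agent.S33.H706.augSub P Y := by
      rw [hold]
      exact hy
    exact h1
  · intro y hy
    obtain ⟨n, hn⟩ := (hY y hy).2
    refine ⟨n, ?_⟩
    have hle : Fermat.Agent.S33.iAug (P.inertiaSubgroupIn ℚ)
        (Fermat.Agent.S33.torsSub (ModularCurve.JZero M') (p ^ n))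
        ≤ Fermat.Agent.S33.H706.augTors p (ModularCurve.JZero M') P n := by
      unfold Fermat.Agent.S33.iAug Fermat.Agent.S33.H706.augTors
      rw [AddSubgroup.closure_le]
      rintro z ⟨σ, hσ, w, hw, rfl⟩
      refine AddSubgroup.subset_closure ⟨σ, hσ, w, ?_, rfl⟩
      have hw' : (p ^ n) • w = 0 := hw
      rw [← Nat.cast_pow, natCast_zsmul]
      exact hw'
    exact hle hn

end Fermat.Agent.S33.H692

end
end
-- ===== PACK-END S33/H692/OldAug.lean

-- ===== PACK-BEGIN Ribet/H558/DKLevel.lean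
section










/-!
# Row 38 / S33, WALL-p, (S2), leaf **DK** at READY levels (helper558)

`deepKummerReady_h558` : the leaf DK of `Ribet/H220/S2Spec.lean` with `5 ≤ p` replaced by `p ≠ 2`
and `p = 3 → 2 ∣ M'` (the statement `S33.H849.DeepKummerReadyStatement`, spelled out), and
`deepKummer_h558 : H220.DeepKummerStatement`.

Proof = level glue + descent:

* `dkLevel_h558` (a good level `E ∋ ζ_p`): the standard semistable model with its cut data
  (`H862.stdModel`), ALG-p (`H552.algP`) and the abstract core `H883.DK.dkCore_sq`;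
* descent: the data `f, g₁, y₁, g₂, y₂` and `ζ_p` live over a good level (`IF.H429.ifStatement`,
  `T1.H669.exists_finset_descent`), Gauss descent `H216.gaussDescent` for `V∞`, and for
  `V₀ = V∞ ∘ w_N` through `H553.iota_wE`.
-/

set_option autoImplicit false
set_option linter.unusedSectionVars false
set_option linter.unusedVariables false
set_option linter.style.haveILetI false
set_option synthInstance.maxHeartbeats 400000
set_option maxHeartbeats 1600000

noncomputable section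

namespace Fermat.Agent.Ribet.H558

open AlgebraicCurve ModularCurve
open Fermat.Agent.A2 Fermat.Agent.A2.Alg

/-- **DK at a good level.**  `E` a good level for `A` (over `p` odd, `p ∤ M'`, `p = 3 → 2 ∣ M'`)
containing a primitive `p`-th root of unity `ζ`, `σ` in the inertia group of `A` with
`σ ζ = ζ ^ c`.  There are `V = V∞` and the Fricke involution `W` of `F_{p M', E}` such that every
`f` with `p ∣ div f` which is a `p`-th power times an element of `1 + p² V` at `V∞` and at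
`V₀ = V∞ ∘ W` satisfies `σ f = h ^ p · f ^ c`. -/
theorem dkLevel_h558 (A : ValuationSubring (AlgebraicClosure ℚ))
    (E : IntermediateField ℚ (AlgebraicClosure ℚ)) (p M' : ℕ) [NeZero M'] [NeZero p]
    [NeZero (p * M')] (hp : p.Prime) (hp2 : p ≠ 2) (h3 : p = 3 → 2 ∣ M') (hpM : ¬ p ∣ M')
    (hA : A.LiesOverPrime p) (hE : GoodField A E) (ζ : RE A E) (hζ : IsPrimitiveRoot ζ p)
    (σ : AlgebraicClosure ℚ ≃ₐ[ℚ] AlgebraicClosure ℚ) (hσ : σ ∈ A.inertiaSubgroupIn ℚ) (c : ℕ)
    (hk : T1.H669.resR hE σ hσ ζ = ζ ^ c) :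
    ∃ (V : ValuationSubring (FE E (p * M'))) (W : FE E (p * M') ≃ₐ[E] FE E (p * M')),
      Mod.IsVinf A E (p * M') V ∧ Mod.IsFricke E (p * M') W ∧
      ∀ f : FE E (p * M'), f ≠ 0 → DivisibleDiv E p f →
        (∃ g y : FE E (p * M'), g ≠ 0 ∧ y ∈ V ∧
          f = g ^ p * (1 + (p : FE E (p * M')) ^ 2 * y)) →
        (∃ g y : FE E (p * M'), g ≠ 0 ∧
          y ∈ V.comap (W : FE E (p * M') →+* FE E (p * M')) ∧
          f = g ^ p * (1 + (p : FE E (p * M')) ^ 2 * y)) →
        ∃ h : FE E (p * M'), h ≠ 0 ∧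
          arithmeticRingAut (modularFunctionFieldFull (p * M')) (hE.res σ hσ) f =
            h ^ p * f ^ c := by
  haveI : IsDiscreteValuationRing ↥(RE A E) := hE.dvr
  haveI : HenselianLocalRing ↥(RE A E) := hE.henselian
  haveI : IsAlgClosed (IsLocalRing.ResidueField ↥(RE A E)) := hE.algClosed
  have hq2 : ¬ p ^ 2 ∣ p * M' := by
    intro h
    rw [pow_two] at h
    exact hpM ((Nat.mul_dvd_mul_iff_left hp.pos).1 h)
  have h3N : p = 3 → 2 ∣ p * M' := fun h => Dvd.dvd.mul_left (h3 h) p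
  have h2N : p = 2 → 3 ∣ p * M' := fun h => absurd h hp2
  obtain ⟨D, V, W, hDx, hV, hW, hcut⟩ :=
    Fermat.Agent.Ribet.H862.stdModel A E (p * M') p hp (Dvd.intro M' rfl) hq2
      (NeZero.ne (p * M')) h3N h2N hA hE
  obtain ⟨w, hw⟩ := IsDiscreteValuationRing.exists_irreducible ↥(RE A E)
  obtain ⟨cf, ci, hcf, hci⟩ := hcut w hw
  refine ⟨V, W, hV, hW, fun f hf hdiv h₁ h₂ => ?_⟩
  set F₀ := modularFunctionFieldFull (p * M') with hF₀
  have hconcl : Fermat.Agent.Ribet.H495.AlgP.AlgPConclusion E D.Bf D.Bi cf ci p (ζ - 1) c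
      (arithmeticRingAut F₀ (hE.res σ hσ)) :=
    Fermat.Agent.Ribet.H552.algP (R := ↥(RE A E)) (E := E) (F := ↥(FE E (p * M'))) w hw p hp hp2
      (T1.H669.natCast_mem_maximalIdeal_RE E hA) ζ hζ D.x D.hx D.hfin D.hconst D.Bf D.Bi
      D.hBf D.hBi cf ci
      (arithmeticRingAut F₀ (hE.res σ hσ))
      (hE.res σ hσ).toRingEquiv (T1.H669.resR hE σ hσ)
      (fun e => arithmeticRingAut_algebraMap F₀ (hE.res σ hσ) e)
      (fun r => rfl)
      (D.hτf hE σ hσ w hw) (D.hτi hE σ hσ w hw)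
      c hk
  exact Fermat.Agent.Ribet.H883.DK.dkCore_sq (E := E) w hw p hp hp2
    (T1.H669.natCast_mem_maximalIdeal_RE E hA) ζ hζ D.x D.Bf D.Bi
    ⟨hw, D.hx, D.hfin, D.hconst, D.hBf⟩
    (Fermat.Agent.A2.Alg.H34.chartCtx_inv w hw D.x D.hx D.hfin D.hconst D.Bi D.hBi)
    cf ci V (V.comap (W : FE E (p * M') →+* FE E (p * M')))
    hcf.le₁ hcf.le₂ hcf.cut₁ hcf.cut₂ hci.le₁ hci.le₂ hci.cut₁ hci.cut₂
    c (arithmeticRingAut F₀ (hE.res σ hσ)) hconcl f hf hdiv h₁ h₂

end Fermat.Agent.Ribet.H558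

end

end
-- ===== PACK-END Ribet/H558/DKLevel.lean

-- ===== PACK-BEGIN Ribet/H558/DK.lean
section


/-!
# Row 38 / S33, WALL-p, (S2), leaf **DK** at READY levels: descent (helper558)

* `deepKummerReady_h558` : DK with `5 ≤ p` replaced by `p ≠ 2`, `p = 3 → 2 ∣ M'`
  (= `S33.H849.DeepKummerReadyStatement`, spelled out);
* `deepKummer_h558 : H220.DeepKummerStatement`.

The data `f, g₁, y₁, g₂, y₂` and a primitive `p`-th root of unity live over a good level `E`
(`IF.H429.ifStatement`, `T1.H669.exists_finset_descent`); Gauss descent `H216.gaussDescent`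
brings `y₁ ∈ V∞`, `y₂ ∈ V₀ = V∞ ∘ w_N` (through `H553.iota_wE`) down to `E`; then
`dkLevel_h558`.
-/

set_option autoImplicit false
set_option linter.unusedSectionVars false
set_option linter.unusedVariables false
set_option linter.style.haveILetI false
set_option synthInstance.maxHeartbeats 400000
set_option maxHeartbeats 1600000

noncomputable section

namespace Fermat.Agent.Ribet.H558

open AlgebraicCurve ModularCurve
open Fermat.Agent.S24 Fermat.Agent.A2.H708 Fermat.Agent.A2.H528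
open Fermat.Agent.Ribet.H944.Wall Fermat.Agent.Ribet.H220

/-- The two copies of the comparison map `F_E → F̄` agree. -/
theorem iota849_eq_h558 (E : IntermediateField ℚ (AlgebraicClosure ℚ))
    (F₀ : IntermediateField ℚ (LaurentSeries ℚ)) (x : ↥(laurentBaseChange E F₀)) :
    Fermat.Agent.A2.T1.H849.iota E F₀ x = Fermat.Agent.A2.T1.H669.iota E F₀ x :=
  Subtype.ext rfl

/-- A root of unity lies in every valuation subring. -/
theorem mem_of_pow_eq_one_h558 {K : Type*} [Field K] (A : ValuationSubring K) {ζ : K} {n : ℕ}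
    (hn : 0 < n) (h : ζ ^ n = 1) : ζ ∈ A := by
  rcases A.mem_or_inv_mem ζ with h1 | h1
  · exact h1
  · have h2 : ζ * ζ ^ (n - 1) = 1 := by
      rw [← pow_succ', Nat.sub_add_cancel hn]
      exact h
    have h3 : ζ = (ζ⁻¹) ^ (n - 1) := by
      rw [inv_pow]
      exact eq_inv_of_mul_eq_one_left h2
    rw [h3]
    exact pow_mem h1 _

/-- **DK at READY levels** (`S33.H849.DeepKummerReadyStatement`, spelled out). -/
theorem deepKummerReady_h558 :
    ∀ (p M' : ℕ) [NeZero M'] [NeZero p] [NeZero (p * M')] (hp : p.Prime), p ≠ 2 →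
      (p = 3 → 2 ∣ M') → ¬ p ∣ M' →
      ∀ (A : ValuationSubring Kbar) (hA : A.LiesOverPrime p),
      ∀ σ ∈ A.inertiaSubgroupIn ℚ, ∀ c : ℕ, CycloAt p σ c →
      ∀ f : FF (p * M'), f ≠ 0 → (∀ v : Place Kbar (FF (p * M')), (p : ℤ) ∣ v.ord f) →
        Deep (Vinf (p * M') A hp.ne_zero hA) p (cF (p * M') ((p : Kbar) ^ 2)) f →
        Deep (Vzero (p * M') A hp.ne_zero hA) p (cF (p * M') ((p : Kbar) ^ 2)) f →
        ∃ (y : FF (p * M')) (a : Kbar), a ≠ 0 ∧ y ≠ 0 ∧
          arithmeticRingAut (modularFunctionFieldFull (p * M')) σ f =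
            algebraMap Kbar (FF (p * M')) a * y ^ p * f ^ c := by
  intro p M' _ _ _ hp hp2 h3 hpM A hA σ hσ c hc f hf0 hord hI hZ
  classical
  obtain ⟨g₁, u₁, hg₁, hfu₁, y₁, hy₁, hu₁⟩ := hI
  obtain ⟨g₂, u₂, hg₂, hfu₂, y₂, hy₂, hu₂⟩ := hZ
  subst hu₁ hu₂
  set F₀ := modularFunctionFieldFull (p * M') with hF₀
  -- the finite sets of constants
  obtain ⟨Sf, hSf⟩ := Fermat.Agent.A2.T1.H669.exists_finset_descent F₀ f
  obtain ⟨Sg₁, hSg₁⟩ := Fermat.Agent.A2.T1.H669.exists_finset_descent F₀ g₁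
  obtain ⟨Sy₁, hSy₁⟩ := Fermat.Agent.A2.T1.H669.exists_finset_descent F₀ y₁
  obtain ⟨Sg₂, hSg₂⟩ := Fermat.Agent.A2.T1.H669.exists_finset_descent F₀ g₂
  obtain ⟨Sy₂, hSy₂⟩ := Fermat.Agent.A2.T1.H669.exists_finset_descent F₀ y₂
  haveI : NeZero ((p : ℕ) : AlgebraicClosure ℚ) := ⟨Nat.cast_ne_zero.2 hp.ne_zero⟩
  obtain ⟨ζ, hζ⟩ := HasEnoughRootsOfUnity.exists_primitiveRoot (AlgebraicClosure ℚ) p
  -- the good level
  obtain ⟨E, hSE, hE⟩ := Fermat.Agent.A2.IF.H429.ifStatement p hp A hA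
    (Sf ∪ Sg₁ ∪ Sy₁ ∪ Sg₂ ∪ Sy₂ ∪ {ζ})
  obtain ⟨f', hf'⟩ := hSf E (fun s hs => hSE s (by simp [hs]))
  obtain ⟨g₁', hg₁'⟩ := hSg₁ E (fun s hs => hSE s (by simp [hs]))
  obtain ⟨y₁', hy₁'⟩ := hSy₁ E (fun s hs => hSE s (by simp [hs]))
  obtain ⟨g₂', hg₂'⟩ := hSg₂ E (fun s hs => hSE s (by simp [hs]))
  obtain ⟨y₂', hy₂'⟩ := hSy₂ E (fun s hs => hSE s (by simp [hs]))
  have hζE : ζ ∈ E := hSE ζ (by simp)
  have hζA : ζ ∈ A := mem_of_pow_eq_one_h558 A hp.pos hζ.pow_eq_one
  -- the root of unity in `R_E`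
  set ζR : ↥(Fermat.Agent.A2.RE A E) := ⟨⟨ζ, hζE⟩, hζA⟩ with hζR
  have hinj : Function.Injective
      ((algebraMap E (AlgebraicClosure ℚ)).comp (Fermat.Agent.A2.RE A E).subtype) :=
    (algebraMap E (AlgebraicClosure ℚ)).injective.comp Subtype.val_injective
  have hζR' : IsPrimitiveRoot ζR p :=
    IsPrimitiveRoot.of_map_of_injective
      (f := (algebraMap E (AlgebraicClosure ℚ)).comp (Fermat.Agent.A2.RE A E).subtype)
      (by exact hζ) hinj
  have hk : Fermat.Agent.A2.T1.H669.resR hE σ hσ ζR = ζR ^ c := by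
    apply Subtype.ext
    apply Subtype.ext
    show σ ζ = (((ζR ^ c : ↥(Fermat.Agent.A2.RE A E)) : E) : AlgebraicClosure ℚ)
    rw [hc ζ hζ.pow_eq_one]
    simp [hζR]
  obtain ⟨V, W, hV, hW, hlevel⟩ := dkLevel_h558 A E p M' hp hp2 h3 hpM hA hE ζR hζR' σ hσ c hk
  -- descent of the hypotheses
  have hf'0 : f' ≠ 0 := by
    rintro rfl
    exact hf0 (by rw [← hf', map_zero])
  have hg₁'0 : g₁' ≠ 0 := by
    rintro rfl
    exact hg₁ (by rw [← hg₁', map_zero])
  have hg₂'0 : g₂' ≠ 0 := by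
    rintro rfl
    exact hg₂ (by rw [← hg₂', map_zero])
  have hdiv : Fermat.Agent.A2.DivisibleDiv E p f' :=
    Fermat.Agent.A2.T1.H669.divisibleDiv_of_ord E F₀ p f' hf'0
      (fun v => by rw [hf']; exact hord v)
  have hcast : cF (p * M') ((p : Kbar) ^ 2) = ((p : ℕ) : FF (p * M')) ^ 2 := by
    rw [cF, map_pow, map_natCast]
  have hrel : ∀ (g y : FF (p * M')) (g' y' : ↥(Fermat.Agent.A2.FE E (p * M'))),
      Fermat.Agent.A2.T1.H669.iota E F₀ g' = g → Fermat.Agent.A2.T1.H669.iota E F₀ y' = y →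
      f = g ^ p * (1 + cF (p * M') ((p : Kbar) ^ 2) * y) →
      f' = g' ^ p * (1 + ((p : ℕ) : ↥(Fermat.Agent.A2.FE E (p * M'))) ^ 2 * y') := by
    intro g y g' y' hg hy h
    apply Fermat.Agent.A2.T1.H669.iota_injective E F₀
    rw [hf', h, hcast, map_mul, map_pow, map_add, map_one, map_mul, map_pow, map_natCast, hg, hy]
  have hy₁V : y₁' ∈ V :=
    Fermat.Agent.Ribet.H216.gaussDescent A E (p * M') hp.ne_zero hA hE.dvr V hV y₁'
      (by rw [hy₁']; exact hy₁)
  have hWeq : W = Fermat.Agent.A2.Mod.H553.wE E (p * M') :=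
    Fermat.Agent.A2.Mod.H553.isFricke_unique E (NeZero.ne (p * M')) hW
      (Fermat.Agent.A2.Mod.H553.isFricke_wE E (p * M'))
  have hy₂V : y₂' ∈ V.comap (W : ↥(Fermat.Agent.A2.FE E (p * M')) →+*
      ↥(Fermat.Agent.A2.FE E (p * M'))) := by
    show W y₂' ∈ V
    refine Fermat.Agent.Ribet.H216.gaussDescent A E (p * M') hp.ne_zero hA hE.dvr V hV (W y₂') ?_
    rw [hWeq, ← iota849_eq_h558]
    have h1 := Fermat.Agent.A2.Mod.H553.iota_wE E (p * M') y₂'
    rw [h1]
    have h2 : Fermat.Agent.A2.Mod.H553.iotaN E (p * M') y₂' = y₂ := by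
      rw [← hy₂']
      exact iota849_eq_h558 E F₀ y₂'
    rw [h2]
    exact hy₂
  obtain ⟨h, hh0, hh⟩ := hlevel f' hf'0 hdiv
    ⟨g₁', y₁', hg₁'0, hy₁V, hrel g₁ y₁ g₁' y₁' hg₁' hy₁' hfu₁⟩
    ⟨g₂', y₂', hg₂'0, hy₂V, hrel g₂ y₂ g₂' y₂' hg₂' hy₂' hfu₂⟩
  -- push to `F̄`
  have h1 := congrArg (Fermat.Agent.A2.T1.H669.iota E F₀) hh
  rw [map_mul, map_pow, map_pow,
    Fermat.Agent.A2.T1.H669.iota_arithmeticRingAut E F₀ σ (hE.res σ hσ) (fun e => rfl), hf']
    at h1
  refine ⟨Fermat.Agent.A2.T1.H669.iota E F₀ h, 1, one_ne_zero,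
    Fermat.Agent.A2.T1.H669.iota_ne_zero E F₀ hh0, ?_⟩
  rw [map_one, one_mul]
  exact h1

/-- **DK** (`H220.DeepKummerStatement`), from the READY form. -/
theorem deepKummer_h558 : Fermat.Agent.Ribet.H220.DeepKummerStatement := by
  intro p M' _ _ _ hp hp5 hpM A hA σ hσ c hc f hf0 hord hI hZ
  exact deepKummerReady_h558 p M' hp (by omega) (by omega) hpM A hA σ hσ c hc f hf0 hord hI hZ

end Fermat.Agent.Ribet.H558

end

end
-- ===== PACK-END Ribet/H558/DK.lean

-- ===== PACK-BEGIN S33/H558/DKReady.lean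
section



/-!
# S33 / row 38 — the leaf DK of the (S2)-chain at READY levels, in the frozen form (helper558)

`deepKummerReady : S33.H849.DeepKummerReadyStatement` (VERBATIM, unconditional), from
`Ribet.H558.deepKummerReady_h558` (`Ribet/H558/{DKLevel,DK}.lean`).
-/

set_option autoImplicit false

namespace Fermat.Agent.S33.H558

/-- **DK at READY levels** — `S33.H849.DeepKummerReadyStatement`, verbatim. -/
theorem deepKummerReady : Fermat.Agent.S33.H849.DeepKummerReadyStatement :=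
  Fermat.Agent.Ribet.H558.deepKummerReady_h558

end Fermat.Agent.S33.H558

end
-- ===== PACK-END S33/H558/DKReady.lean

-- ===== PACK-BEGIN Ribet/H279/NormContr.lean
section










/-!
# Row 38, WALL-p, (S2), leaf **NC** (`H220.NormContrStatement`) — helper279

`normContr : H220.NormContrStatement` (VERBATIM): norm contraction at the level `ℚ̄`.
If both norms of `f ∈ ℚ̄(X₀(pM'))` to level `M'` are `p`-th powers and `f` has depth `ϖ`
(constants allowed) at `V∞` (and at `V₀`), then `f` has depth `ϖⁿ` WITHOUT constants at `V∞` and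
at `V₀`, for every `n`.

Proof: descent to a good level `E ⊆ ℚ̄` (`A2.IF.H429.ifStatement`) containing `ϖ`, the constant
and the coefficients of the data (`T1.H669.exists_finset_descent`); norms commute with `E ⊆ ℚ̄`
(`S35.H858.iota_normAlong_alpha/beta`); Gauss descent (`H216.gaussDescent`) turns the depth at
`H708.Vinf` into depth `1` at `V∞(E)`; the level-`E` norm contraction `H232.wnc_both_one_to`
gives ONE root `g` with `f / g^p ∈ (1 + w^s V∞(E)) ∩ (1 + w^s V₀(E))` for all `s`; finally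
`V∞(E) ⊆ V∞(ℚ̄)` (`iota_mem_Vinf`) and `ι ∘ w_{N,E} = w_N ∘ ι` (`H553.iota_wE`).

Only the depth at `V∞` is used; the hypotheses `p ≠ 2`, `ϖ ∣ p` and the depth at `V₀` are not
needed.
-/

set_option autoImplicit false
set_option linter.unusedSectionVars false
set_option linter.unusedVariables false
set_option linter.style.haveILetI false
set_option synthInstance.maxHeartbeats 400000
set_option maxHeartbeats 1600000

noncomputable section

namespace Fermat.Agent.Ribet.H279.NC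

open AlgebraicCurve ModularCurve HahnSeries
open Fermat.Agent.A2

/-! ### `V∞(E) ⊆ V∞(ℚ̄)` -/

/-- The Gauss ring of level `E` maps into the Gauss ring `H708.Vinf` over `P ⊆ ℚ̄`
(converse of `H216.gaussDescent`). -/
theorem iota_mem_Vinf {P : ValuationSubring Qb} {E : IntermediateField ℚ Qb} {N : ℕ} [NeZero N]
    {ℓ : ℕ} (hℓ : ℓ ≠ 0) (hP : (ℓ : Qb) ∈ P.nonunits)
    {V : ValuationSubring (FE E N)} (hV : Mod.IsVinf P E N V) {y : FE E N} (hy : y ∈ V) :
    T1.H669.iota E (modularFunctionFieldFull N) y ∈ H708.Vinf N P hℓ hP := by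
  obtain ⟨U₁, U₂, hred, hmem, heq⟩ := (hV y).mp hy
  show H708.IsGaussInt P (modularFunctionFieldFull N) _
  refine ⟨coeffMap (H216.reToP P E) U₁, coeffMap (H216.reToP P E) U₂,
    H216.red_coeffMap_reToP_ne_zero P E hred, ?_, ?_⟩
  · rw [H216.incl_coeffMap_reToP]
    exact Fermat.Agent.S18.H602.coeffMap_mem_laurentBaseChange _ _ hmem
  · rw [H216.incl_coeffMap_reToP, H216.incl_coeffMap_reToP, T1.H669.coe_iota, ← _root_.map_mul, heq]

/-- `ι ∘ w_{N,E} = w_N ∘ ι` for the comparison map `T1.H669.iota`. -/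
theorem iota_wE' (E : IntermediateField ℚ Qb) (N : ℕ) [NeZero N] (y : FE E N) :
    T1.H669.iota E (modularFunctionFieldFull N) (Mod.H553.wE E N y) =
      H528.wF N (T1.H669.iota E (modularFunctionFieldFull N) y) :=
  Mod.H553.iota_wE E N y

/-- `V₀(E) ⊆ V₀(ℚ̄)`. -/
theorem iota_mem_Vzero {P : ValuationSubring Qb} {E : IntermediateField ℚ Qb} {N : ℕ} [NeZero N]
    {ℓ : ℕ} (hℓ : ℓ ≠ 0) (hP : (ℓ : Qb) ∈ P.nonunits)
    {V : ValuationSubring (FE E N)} (hV : Mod.IsVinf P E N V) {y : FE E N}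
    (hy : y ∈ V.comap (Mod.H553.wE E N : FE E N →+* FE E N)) :
    T1.H669.iota E (modularFunctionFieldFull N) y ∈ H708.Vzero N P hℓ hP := by
  show H528.wF N (T1.H669.iota E (modularFunctionFieldFull N) y) ∈ H708.Vinf N P hℓ hP
  rw [← iota_wE']
  exact iota_mem_Vinf hℓ hP hV hy

/-! ### Norms and levels -/

/-- The norm along `α` (top level renamed) commutes with `E ⊆ ℚ̄`. -/
theorem iota_normAlong_alphaTo (E : IntermediateField ℚ Qb) {M p N : ℕ} [NeZero M] [NeZero p]
    [NeZero N] (h : M * p = N) (hp : p.Prime) (hpM : ¬ p ∣ M) (y : FE E N) :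
    T1.H669.iota E (modularFunctionFieldFull M)
        (S29.H395.normAlong (S29.H801.alphaTo E M p N h) y) =
      S29.H395.normAlong (S29.H801.alphaTo Qb M p N h)
        (T1.H669.iota E (modularFunctionFieldFull N) y) := by
  subst h
  exact S35.H858.iota_normAlong_alpha E M p (S37.H88.finiteAlong_heckeAlphaBar' hp hpM) y

/-- The norm along `β` (top level renamed) commutes with `E ⊆ ℚ̄`. -/
theorem iota_normAlong_betaTo (E : IntermediateField ℚ Qb) {M p N : ℕ} [NeZero M] [NeZero p]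
    [NeZero N] (h : M * p = N) (hp : p.Prime) (hpM : ¬ p ∣ M) (y : FE E N) :
    T1.H669.iota E (modularFunctionFieldFull M)
        (S29.H395.normAlong (S29.H801.betaTo E M p N h) y) =
      S29.H395.normAlong (S29.H801.betaTo Qb M p N h)
        (T1.H669.iota E (modularFunctionFieldFull N) y) := by
  subst h
  exact S35.H858.iota_normAlong_beta E M p (S37.H88.finiteAlong_heckeBetaBar hp hpM) y

/-! ### The level-`E` statement pushed to `ℚ̄` -/

/-- **Norm contraction at a level, pushed to `ℚ̄`.**  `E` a level with `R_E` a discrete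
valuation ring, `N = M p` (renamed).  Data of level `E`: `f`, norms `g₁ ^ p`, `g₂ ^ p`,
`f = c · g ^ p · (1 + ϖ y)` with `y ∈ V∞(E)`, `ϖ` a nonzero nonunit of `R_E`.  Then the image of
`f` in `ℚ̄(X₀(N))` has depth `ϖⁿ` without constants at `H708.Vinf` and at `H708.Vzero`. -/
theorem deep_of_level {P : ValuationSubring Qb} {E : IntermediateField ℚ Qb} {M p N : ℕ}
    [NeZero M] [NeZero p] [NeZero N] (h : M * p = N) {w : RE P E} (hS : Mod.Setting P E M p w)
    (f g y : FE E N) (g₁ g₂ : FE E M) (c ϖ : E) (hf : f ≠ 0) (hc : c ≠ 0) (hg : g ≠ 0)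
    (hϖ0 : ϖ ≠ 0) (hϖ : (ϖ : Qb) ∈ P.nonunits)
    (hNα : S29.H395.normAlong (S29.H801.alphaTo E M p N h) f = g₁ ^ p)
    (hNβ : S29.H395.normAlong (S29.H801.betaTo E M p N h) f = g₂ ^ p)
    (hfc : f = algebraMap E (FE E N) c * g ^ p * (1 + algebraMap E (FE E N) ϖ * y))
    (hy : T1.H669.iota E (modularFunctionFieldFull N) y ∈
      H708.Vinf N P hS.q_prime.ne_zero hS.lies_over) (n : ℕ) :
    H220.Deep (H708.Vinf N P hS.q_prime.ne_zero hS.lies_over) p
        (H220.cF N (ϖ : Qb) ^ n) (T1.H669.iota E (modularFunctionFieldFull N) f) ∧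
      H220.Deep (H708.Vzero N P hS.q_prime.ne_zero hS.lies_over) p
        (H220.cF N (ϖ : Qb) ^ n) (T1.H669.iota E (modularFunctionFieldFull N) f) := by
  haveI hdvr : IsDiscreteValuationRing (RE P E) := hS.dvr
  have hℓ := hS.q_prime.ne_zero
  have hP := hS.lies_over
  -- the Gauss rings and the Fricke involution of level `E`
  set V : ValuationSubring (FE E N) := Mod.H553.VinfE P E N with hVdef
  have hV : Mod.IsVinf P E N V := Mod.H553.isVinf_VinfE P E N
  have hVM : Mod.IsVinf P E M (Mod.H553.VinfE P E M) := Mod.H553.isVinf_VinfE P E M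
  have hW : Mod.IsFricke E N (Mod.H553.wE E N) := Mod.H553.isFricke_wE E N
  have hconst : ∀ r : RE P E, algebraMap E (FE E N) (r : E) ∈ V := fun r =>
    (Mod.H553.algebraMap_mem_iff P E hV (r : E)).mpr r.2
  have hconst₀ : ∀ r : RE P E, algebraMap E (FE E N) (r : E) ∈
      V.comap (Mod.H553.wE E N : FE E N →+* FE E N) := fun r => by
    show (Mod.H553.wE E N) (algebraMap E (FE E N) (r : E)) ∈ V
    rw [AlgEquiv.commutes]
    exact hconst r
  -- `ϖ` as an element of `R_E`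
  have hϖlt : P.valuation (ϖ : Qb) < 1 := by
    have h := hϖ
    rw [ValuationSubring.mem_nonunits_iff] at h
    exact h
  have hϖmem : ϖ ∈ RE P E := by
    show (algebraMap E Qb ϖ) ∈ P
    exact (P.valuation_le_one_iff _).mp (le_of_lt hϖlt)
  set ϖR : RE P E := ⟨ϖ, hϖmem⟩ with hϖR
  have hϖR0 : ϖR ≠ 0 := fun h0 => hϖ0 (congrArg Subtype.val h0)
  have hϖRnu : ¬ IsUnit ϖR := by
    intro hu
    obtain ⟨v, hv⟩ := hu.exists_right_inv
    have h1 : (ϖ : Qb) * ((v : E) : Qb) = 1 := by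
      have := congrArg (fun z : RE P E => ((z : E) : Qb)) hv
      simpa using this
    have h2 : P.valuation (ϖ : Qb) < 1 := hϖlt
    have h3 : P.valuation ((v : E) : Qb) ≤ 1 := (P.valuation_le_one_iff _).mpr v.2
    have h4 : P.valuation ((ϖ : Qb) * ((v : E) : Qb)) < 1 := by
      rw [_root_.map_mul]
      exact mul_lt_one_of_lt_of_le h2 h3
    rw [h1, _root_.map_one] at h4
    exact lt_irrefl _ h4
  -- `ϖ = w * r`
  obtain ⟨r, hr⟩ : ∃ r : RE P E, ϖR = w * r := by
    have hmem : ϖR ∈ IsLocalRing.maximalIdeal (RE P E) :=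
      (IsLocalRing.mem_maximalIdeal _).mpr hϖRnu
    rw [hS.unif.maximalIdeal_eq, Ideal.mem_span_singleton'] at hmem
    obtain ⟨r, hr⟩ := hmem
    exact ⟨r, by rw [← hr, mul_comm]⟩
  -- `ϖ * u = w ^ k`
  obtain ⟨k, u, hu⟩ : ∃ (k : ℕ) (u : (RE P E)ˣ), ϖR * (u : RE P E) = w ^ k := by
    obtain ⟨k, hk⟩ := IsDiscreteValuationRing.associated_pow_irreducible hϖR0 hS.unif
    obtain ⟨u, hu⟩ := hk
    exact ⟨k, u, hu⟩
  -- the constants in `F_E`
  have hcw0 : Mod.cE P E N w ≠ 0 :=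
    (map_ne_zero_iff _ (algebraMap E (FE E N)).injective).mpr
      (fun h0 => hS.unif.ne_zero (Subtype.ext h0))
  have hcϖ0 : algebraMap E (FE E N) ϖ ≠ 0 :=
    (map_ne_zero_iff _ (algebraMap E (FE E N)).injective).mpr hϖ0
  have hcc0 : algebraMap E (FE E N) c ≠ 0 :=
    (map_ne_zero_iff _ (algebraMap E (FE E N)).injective).mpr hc
  have hcϖ : algebraMap E (FE E N) ϖ = Mod.cE P E N w * algebraMap E (FE E N) (r : E) := by
    have := congrArg (fun z : RE P E => algebraMap E (FE E N) (z : E)) hr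
    simpa [Mod.cE, _root_.map_mul] using this
  have hcu : ∀ m : ℕ, algebraMap E (FE E N) ϖ ^ m *
      algebraMap E (FE E N) (((u ^ m : (RE P E)ˣ) : RE P E) : E) = Mod.cE P E N w ^ (k * m) := by
    intro m
    have h1 : (ϖR * (u : RE P E)) ^ m = w ^ (k * m) := by rw [hu, pow_mul]
    have := congrArg (fun z : RE P E => algebraMap E (FE E N) (z : E)) h1
    simpa [Mod.cE, _root_.map_mul, map_pow, mul_pow] using this
  -- depth one at `V∞(E)`
  have hyV : y ∈ V := H216.gaussDescent P E N hℓ hP hdvr V hV y hy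
  have h1 : H232.DepthE w p V 1 f := by
    refine ⟨c, hc, g, hg, ?_⟩
    have e1 : (f * (algebraMap E (FE E N) c * g ^ p)⁻¹ - 1) * (Mod.cE P E N w ^ 1)⁻¹ =
        algebraMap E (FE E N) (r : E) * y := by
      rw [hfc, hcϖ, pow_one]
      field_simp
      ring
    rw [e1]
    exact V.mul_mem _ _ (hconst r) hyV
  -- norm contraction at level `E`
  obtain ⟨g', hg', hzI, hzZ⟩ :=
    H232.wnc_both_one_to h hS hVM hV hW hf hNα hNβ (Or.inl h1) (k * n)
  -- the element `z = (f / g'^p - 1) / ϖ^n`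
  set z : FE E N := (f * (g' ^ p)⁻¹ - 1) * (algebraMap E (FE E N) ϖ ^ n)⁻¹ with hz
  have hzeq : z = (f * (g' ^ p)⁻¹ - 1) * (Mod.cE P E N w ^ (k * n))⁻¹ *
      algebraMap E (FE E N) (((u ^ n : (RE P E)ˣ) : RE P E) : E) := by
    rw [hz, ← hcu n]
    have hun0 : algebraMap E (FE E N) (((u ^ n : (RE P E)ˣ) : RE P E) : E) ≠ 0 := by
      refine (map_ne_zero_iff _ (algebraMap E (FE E N)).injective).mpr ?_
      intro h0
      exact (u ^ n).ne_zero (Subtype.ext h0)
    have hϖn0 : algebraMap E (FE E N) ϖ ^ n ≠ 0 := pow_ne_zero _ hcϖ0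
    field_simp
  have hzV : z ∈ V := by
    rw [hzeq]
    exact V.mul_mem _ _ hzI (hconst _)
  have hzV₀ : z ∈ V.comap (Mod.H553.wE E N : FE E N →+* FE E N) := by
    rw [hzeq]
    exact (V.comap (Mod.H553.wE E N : FE E N →+* FE E N)).mul_mem _ _ hzZ (hconst₀ _)
  -- `f = g'^p * (1 + ϖ^n z)`
  have hfz : f = g' ^ p * (1 + algebraMap E (FE E N) ϖ ^ n * z) := by
    have hgp : g' ^ p ≠ 0 := pow_ne_zero _ hg'
    have hϖn0 : algebraMap E (FE E N) ϖ ^ n ≠ 0 := pow_ne_zero _ hcϖ0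
    rw [hz]
    field_simp
    ring
  -- push to `ℚ̄`
  have hιϖ : T1.H669.iota E (modularFunctionFieldFull N) (algebraMap E (FE E N) ϖ) =
      H220.cF N (ϖ : Qb) := T1.H669.iota_algebraMap E (modularFunctionFieldFull N) ϖ
  have hιf : T1.H669.iota E (modularFunctionFieldFull N) f =
      (T1.H669.iota E (modularFunctionFieldFull N) g') ^ p *
        (1 + H220.cF N (ϖ : Qb) ^ n * T1.H669.iota E (modularFunctionFieldFull N) z) := by
    conv_lhs => rw [hfz]
    rw [_root_.map_mul, map_pow, _root_.map_add, _root_.map_one, _root_.map_mul, map_pow, hιϖ]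
  have hιg' : T1.H669.iota E (modularFunctionFieldFull N) g' ≠ 0 :=
    T1.H669.iota_ne_zero E _ hg'
  exact ⟨⟨_, _, hιg', hιf, _, iota_mem_Vinf hℓ hP hV hzV, rfl⟩,
    ⟨_, _, hιg', hιf, _, iota_mem_Vzero hℓ hP hV hzV₀, rfl⟩⟩

/-! ### The leaf -/

/-- **NC** — `H220.NormContrStatement`, verbatim. -/
theorem normContr : H220.NormContrStatement := by
  intro p M' _ _ _ hp hp2 hpM A hA f g₁ g₂ hf hNα hNβ ϖ hϖ0 hϖA hϖp hInf hZero n
  classical
  obtain ⟨c, g, u, hc, hg, hfc, y, hy, hu⟩ := hInf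
  -- finite sets of constants
  obtain ⟨S₁, hS₁⟩ := T1.H669.exists_finset_descent (modularFunctionFieldFull (p * M')) f
  obtain ⟨S₂, hS₂⟩ := T1.H669.exists_finset_descent (modularFunctionFieldFull (p * M')) g
  obtain ⟨S₃, hS₃⟩ := T1.H669.exists_finset_descent (modularFunctionFieldFull (p * M')) y
  obtain ⟨S₄, hS₄⟩ := T1.H669.exists_finset_descent (modularFunctionFieldFull M') g₁
  obtain ⟨S₅, hS₅⟩ := T1.H669.exists_finset_descent (modularFunctionFieldFull M') g₂
  obtain ⟨E, hSE, hE⟩ := A2.IF.H429.ifStatement p hp A hA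
    (S₁ ∪ S₂ ∪ S₃ ∪ S₄ ∪ S₅ ∪ {ϖ, c})
  have hsub : ∀ T : Finset Qb, T ⊆ S₁ ∪ S₂ ∪ S₃ ∪ S₄ ∪ S₅ ∪ {ϖ, c} → ∀ s ∈ T, s ∈ E :=
    fun T hT s hs => hSE s (hT hs)
  obtain ⟨fE, hfE⟩ := hS₁ E (hsub S₁ (by intro s hs; simp [hs]))
  obtain ⟨gE, hgE⟩ := hS₂ E (hsub S₂ (by intro s hs; simp [hs]))
  obtain ⟨yE, hyE⟩ := hS₃ E (hsub S₃ (by intro s hs; simp [hs]))
  obtain ⟨g₁E, hg₁E⟩ := hS₄ E (hsub S₄ (by intro s hs; simp [hs]))
  obtain ⟨g₂E, hg₂E⟩ := hS₅ E (hsub S₅ (by intro s hs; simp [hs]))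
  have hϖE : ϖ ∈ E := hSE ϖ (by simp)
  have hcE : c ∈ E := hSE c (by simp)
  haveI := hE.dvr
  obtain ⟨w, hw⟩ := IsDiscreteValuationRing.exists_irreducible (RE A E)
  have hS : Mod.Setting A E M' p w := ⟨hp, hpM, NeZero.ne M', hA, hE.dvr, hw⟩
  have hinj := T1.H669.iota_injective E (modularFunctionFieldFull (p * M'))
  have hinjM := T1.H669.iota_injective E (modularFunctionFieldFull M')
  have key := deep_of_level (Nat.mul_comm M' p) hS fE gE yE g₁E g₂E ⟨c, hcE⟩ ⟨ϖ, hϖE⟩
    (fun h0 => hf (by rw [← hfE, h0, _root_.map_zero]))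
    (fun h0 => hc (congrArg Subtype.val h0))
    (fun h0 => hg (by rw [← hgE, h0, _root_.map_zero]))
    (fun h0 => hϖ0 (congrArg Subtype.val h0))
    hϖA
    (hinjM (by
      rw [iota_normAlong_alphaTo E (Nat.mul_comm M' p) hp hpM, hfE, map_pow, hg₁E]
      exact hNα))
    (hinjM (by
      rw [iota_normAlong_betaTo E (Nat.mul_comm M' p) hp hpM, hfE, map_pow, hg₂E]
      exact hNβ))
    (hinj (by
      rw [_root_.map_mul, _root_.map_mul, map_pow, _root_.map_add, _root_.map_one, _root_.map_mul, hfE, hgE, hyE,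
        T1.H669.iota_algebraMap, T1.H669.iota_algebraMap, hfc, hu]
      rfl))
    (by rw [hyE]; exact hy) n
  rw [hfE] at key
  exact key

end Fermat.Agent.Ribet.H279.NC

end

end
-- ===== PACK-END Ribet/H279/NormContr.lean

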